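/-
Program MW (S17), strand H, block D - vocabulary of *values of functions at places*.

`IsEval ev` : `ev v f` is the value at the place `v` of every function `f` regular at `v`.
Every statement of the block is typed for an arbitrary `IsEval`, so that no leaf depends on a
particular choice of the value function; `evalAt` is the canonical one.
`RegOff v₀ f` : `f` is regular off the place `v₀`.
-/
import Mathlib
import Fermat.Agent.S24.FF.Principal

set_option autoImplicit false

namespace Fermat.Agent.S17.H.Glob

open AlgebraicCurve Polynomial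
open Fermat.Agent.S24.FF

variable {K F : Type*} [Field K] [Field F] [Algebra K F]

/-- `ev` is a value function: `ev v f` is the value at `v` of every `f` regular at `v`. -/
def IsEval (ev : Place K F → F → K) : Prop :=
  ∀ (v : Place K F) (f : F), f ∈ v.toValuationSubring →
    v.toValuationSubring.valuation (f - algebraMap K F (ev v f)) < 1

/-- The canonical value function (junk `0` where no value exists). -/
noncomputable def evalAt (v : Place K F) (f : F) : K :=
  open Classical in
  if h : ∃ c : K, v.toValuationSubring.valuation (f - algebraMap K F c) < 1 then h.choose else 0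

/-- `f` is regular off `v₀`. -/
def RegOff (v₀ : Place K F) (f : F) : Prop :=
  ∀ v : Place K F, v ≠ v₀ → f ∈ v.toValuationSubring

/-- The valuation of the valuation subring of a place is `< 1` exactly on `0` and on the
functions of positive order. -/
theorem valuation_lt_one_iff (v : Place K F) (f : F) :
    v.toValuationSubring.valuation f < 1 ↔ f = 0 ∨ 0 < v.ord f := by
  constructor
  · intro h
    by_cases hf : f = 0
    · exact Or.inl hf
    · right
      have hmem : f ∈ v.toValuationSubring :=
        (v.toValuationSubring.valuation_le_one_iff f).mp h.le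
      have hmax : (⟨f, hmem⟩ : v.toValuationSubring) ∈
          IsLocalRing.maximalIdeal v.toValuationSubring :=
        (v.toValuationSubring.valuation_lt_one_iff ⟨f, hmem⟩).mpr h
      exact (mem_maximalIdeal_iff_ord_pos v ⟨f, hmem⟩ hf).mp hmax
  · rintro (rfl | h)
    · rw [map_zero]; exact zero_lt_one
    · exact (v.toValuationSubring.valuation_lt_one_iff ⟨f, mem_of_ord_pos v h⟩).mp
        (mem_maximalIdeal_of_ord_pos v h)

/-- A nonzero constant has valuation `1`. -/
theorem valuation_algebraMap (v : Place K F) {c : K} (hc : c ≠ 0) :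
    v.toValuationSubring.valuation (algebraMap K F c) = 1 := by
  have h1 : v.toValuationSubring.valuation (algebraMap K F c) ≤ 1 :=
    (v.toValuationSubring.valuation_le_one_iff _).mpr (v.algebraMap_mem' c)
  have h2 : v.toValuationSubring.valuation (algebraMap K F c⁻¹) ≤ 1 :=
    (v.toValuationSubring.valuation_le_one_iff _).mpr (v.algebraMap_mem' c⁻¹)
  have h3 : v.toValuationSubring.valuation (algebraMap K F c) *
      v.toValuationSubring.valuation (algebraMap K F c⁻¹) = 1 := by
    rw [← map_mul, ← map_mul, mul_inv_cancel₀ hc, map_one, map_one]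
  rcases lt_or_eq_of_le h1 with h | h
  · exfalso
    have h4 : v.toValuationSubring.valuation (algebraMap K F c) *
        v.toValuationSubring.valuation (algebraMap K F c⁻¹) < 1 := by
      calc _ ≤ v.toValuationSubring.valuation (algebraMap K F c) * 1 := by gcongr
        _ = v.toValuationSubring.valuation (algebraMap K F c) := mul_one _
        _ < 1 := h
    rw [h3] at h4
    exact lt_irrefl _ h4
  · exact h

/-- Uniqueness of the value. -/
theorem value_unique (v : Place K F) {f : F} {c c' : K}
    (hc : v.toValuationSubring.valuation (f - algebraMap K F c) < 1)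
    (hc' : v.toValuationSubring.valuation (f - algebraMap K F c') < 1) : c = c' := by
  by_contra hne
  have h : v.toValuationSubring.valuation (algebraMap K F (c' - c)) < 1 := by
    have e : algebraMap K F (c' - c) = (f - algebraMap K F c) - (f - algebraMap K F c') := by
      rw [map_sub]; ring
    rw [e]
    exact Valuation.map_sub_lt _ hc hc'
  rw [valuation_algebraMap v (sub_ne_zero.mpr (Ne.symm hne))] at h
  exact lt_irrefl _ h

namespace IsEval

variable {ev : Place K F → F → K} (hev : IsEval ev)
include hev

theorem eq_of_valuation_lt {v : Place K F} {f : F} (hf : f ∈ v.toValuationSubring) {c : K}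
    (hc : v.toValuationSubring.valuation (f - algebraMap K F c) < 1) : ev v f = c :=
  value_unique v (hev v f hf) hc

theorem map_algebraMap (v : Place K F) (c : K) : ev v (algebraMap K F c) = c :=
  hev.eq_of_valuation_lt (v.algebraMap_mem' c) (by rw [sub_self, map_zero]; exact zero_lt_one)

theorem map_one (v : Place K F) : ev v 1 = 1 := by
  have := hev.map_algebraMap v 1
  rwa [_root_.map_one] at this

theorem map_zero (v : Place K F) : ev v 0 = 0 := by
  have := hev.map_algebraMap v 0
  rwa [_root_.map_zero] at this

theorem map_add {v : Place K F} {f g : F} (hf : f ∈ v.toValuationSubring)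
    (hg : g ∈ v.toValuationSubring) : ev v (f + g) = ev v f + ev v g := by
  refine hev.eq_of_valuation_lt (v.toValuationSubring.add_mem _ _ hf hg) ?_
  have e : f + g - algebraMap K F (ev v f + ev v g) =
      (f - algebraMap K F (ev v f)) + (g - algebraMap K F (ev v g)) := by
    rw [_root_.map_add]; ring
  rw [e]
  exact Valuation.map_add_lt _ (hev v f hf) (hev v g hg)

theorem map_mul {v : Place K F} {f g : F} (hf : f ∈ v.toValuationSubring)
    (hg : g ∈ v.toValuationSubring) : ev v (f * g) = ev v f * ev v g := by
  refine hev.eq_of_valuation_lt (v.toValuationSubring.mul_mem _ _ hf hg) ?_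
  have e : f * g - algebraMap K F (ev v f * ev v g) =
      (f - algebraMap K F (ev v f)) * g + algebraMap K F (ev v f) * (g - algebraMap K F (ev v g)) := by
    rw [_root_.map_mul]; ring
  rw [e]
  refine Valuation.map_add_lt _ ?_ ?_
  · rw [_root_.map_mul]
    calc _ ≤ v.toValuationSubring.valuation (f - algebraMap K F (ev v f)) * 1 := by
          gcongr
          exact (v.toValuationSubring.valuation_le_one_iff g).mpr hg
      _ = _ := mul_one _
      _ < 1 := hev v f hf
  · rw [_root_.map_mul]
    calc _ ≤ 1 * v.toValuationSubring.valuation (g - algebraMap K F (ev v g)) := by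
          gcongr
          exact (v.toValuationSubring.valuation_le_one_iff _).mpr (v.algebraMap_mem' _)
      _ = _ := one_mul _
      _ < 1 := hev v g hg

theorem map_smul {v : Place K F} (c : K) {f : F} (hf : f ∈ v.toValuationSubring) :
    ev v (c • f) = c * ev v f := by
  rw [Algebra.smul_def, hev.map_mul (v.algebraMap_mem' c) hf, hev.map_algebraMap]

theorem map_pow {v : Place K F} {f : F} (hf : f ∈ v.toValuationSubring) (n : ℕ) :
    ev v (f ^ n) = ev v f ^ n := by
  induction n with
  | zero => rw [pow_zero, pow_zero, hev.map_one]
  | succ n ih =>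
    rw [pow_succ, pow_succ, hev.map_mul (v.toValuationSubring.pow_mem hf n) hf, ih]

theorem map_sum {v : Place K F} {ι : Type*} (s : Finset ι) (f : ι → F)
    (hf : ∀ i ∈ s, f i ∈ v.toValuationSubring) : ev v (∑ i ∈ s, f i) = ∑ i ∈ s, ev v (f i) := by
  classical
  induction s using Finset.induction_on with
  | empty => rw [Finset.sum_empty, Finset.sum_empty, hev.map_zero]
  | insert a s ha ih =>
    rw [Finset.sum_insert ha, Finset.sum_insert ha,
      hev.map_add (hf a (Finset.mem_insert_self a s))
        (v.toValuationSubring.sum_mem fun i hi => hf i (Finset.mem_insert_of_mem hi)),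
      ih fun i hi => hf i (Finset.mem_insert_of_mem hi)]

theorem map_aeval {v : Place K F} {f : F} (hf : f ∈ v.toValuationSubring) (p : K[X]) :
    ev v (Polynomial.aeval f p) = p.eval (ev v f) := by
  have hmem : ∀ q : K[X], Polynomial.aeval f q ∈ v.toValuationSubring := by
    intro q
    rw [Polynomial.aeval_eq_sum_range]
    refine v.toValuationSubring.sum_mem fun i _ => ?_
    rw [Algebra.smul_def]
    exact v.toValuationSubring.mul_mem _ _ (v.algebraMap_mem' _) (v.toValuationSubring.pow_mem hf i)
  induction p using Polynomial.induction_on' with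
  | add p q hp hq =>
    rw [_root_.map_add, hev.map_add (hmem p) (hmem q), hp, hq, Polynomial.eval_add]
  | monomial n a =>
    rw [Polynomial.aeval_monomial, Polynomial.eval_monomial,
      hev.map_mul (v.algebraMap_mem' a) (v.toValuationSubring.pow_mem hf n),
      hev.map_algebraMap, hev.map_pow hf]

/-- The value vanishes exactly at the zeros. -/
theorem eq_zero_iff {v : Place K F} {f : F} (hf : f ∈ v.toValuationSubring) :
    ev v f = 0 ↔ f = 0 ∨ 0 < v.ord f := by
  rw [← valuation_lt_one_iff]
  constructor
  · intro h
    have := hev v f hf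
    rwa [h, _root_.map_zero, sub_zero] at this
  · intro h
    exact hev.eq_of_valuation_lt hf (by rwa [_root_.map_zero, sub_zero])

/-- `f - ev v f` vanishes at `v`. -/
theorem sub_eq_zero_or_ord_pos {v : Place K F} {f : F} (hf : f ∈ v.toValuationSubring) :
    f - algebraMap K F (ev v f) = 0 ∨ 0 < v.ord (f - algebraMap K F (ev v f)) :=
  (valuation_lt_one_iff v _).mp (hev v f hf)

/-- Characterisation of the value of a non-constant function. -/
theorem eq_iff_ord_pos {v : Place K F} {f : F} (hf : f ∈ v.toValuationSubring) {a : K}
    (hfa : f ≠ algebraMap K F a) : ev v f = a ↔ 0 < v.ord (f - algebraMap K F a) := by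
  constructor
  · intro h
    rcases hev.sub_eq_zero_or_ord_pos hf with h0 | h0
    · rw [h] at h0; exact absurd (sub_eq_zero.mp h0) hfa
    · rwa [h] at h0
  · intro h
    exact hev.eq_of_valuation_lt hf ((valuation_lt_one_iff v _).mpr (Or.inr h))

end IsEval

section RegOff

variable {v₀ : Place K F}

theorem RegOff.algebraMap (c : K) : RegOff v₀ (algebraMap K F c) := fun v _ => v.algebraMap_mem' c

theorem RegOff.one : RegOff v₀ (1 : F) := fun v _ => v.toValuationSubring.one_mem

theorem RegOff.zero : RegOff v₀ (0 : F) := fun v _ => v.toValuationSubring.zero_mem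

theorem RegOff.add {f g : F} (hf : RegOff v₀ f) (hg : RegOff v₀ g) : RegOff v₀ (f + g) :=
  fun v hv => v.toValuationSubring.add_mem _ _ (hf v hv) (hg v hv)

theorem RegOff.neg {f : F} (hf : RegOff v₀ f) : RegOff v₀ (-f) :=
  fun v hv => v.toValuationSubring.neg_mem _ (hf v hv)

theorem RegOff.sub {f g : F} (hf : RegOff v₀ f) (hg : RegOff v₀ g) : RegOff v₀ (f - g) :=
  fun v hv => v.toValuationSubring.sub_mem (hf v hv) (hg v hv)

theorem RegOff.mul {f g : F} (hf : RegOff v₀ f) (hg : RegOff v₀ g) : RegOff v₀ (f * g) :=
  fun v hv => v.toValuationSubring.mul_mem _ _ (hf v hv) (hg v hv)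

theorem RegOff.pow {f : F} (hf : RegOff v₀ f) (n : ℕ) : RegOff v₀ (f ^ n) :=
  fun v hv => v.toValuationSubring.pow_mem (hf v hv) n

theorem RegOff.smul (c : K) {f : F} (hf : RegOff v₀ f) : RegOff v₀ (c • f) := by
  rw [Algebra.smul_def]
  exact (RegOff.algebraMap c).mul hf

theorem RegOff.sum {ι : Type*} (s : Finset ι) {f : ι → F} (hf : ∀ i ∈ s, RegOff v₀ (f i)) :
    RegOff v₀ (∑ i ∈ s, f i) :=
  fun v hv => v.toValuationSubring.sum_mem fun i hi => hf i hi v hv

theorem RegOff.aeval {f : F} (hf : RegOff v₀ f) (p : K[X]) : RegOff v₀ (Polynomial.aeval f p) := by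
  rw [Polynomial.aeval_eq_sum_range]
  exact RegOff.sum _ fun i _ => (hf.pow i).smul _

/-- A nonzero function regular off `v₀` has nonnegative order off `v₀`. -/
theorem RegOff.ord_nonneg {f : F} (hf : RegOff v₀ f) {v : Place K F} (hv : v ≠ v₀) :
    0 ≤ v.ord f := ord_nonneg_of_mem v (hf v hv)

end RegOff

section AlgClosed

variable [IsAlgClosed K]

/-- Over an algebraically closed constant field `evalAt` is a value function. -/
theorem isEval_evalAt (htr : Algebra.trdeg K F = 1) : IsEval (evalAt (K := K) (F := F)) := by
  intro v f hf
  have hex : ∃ c : K, v.toValuationSubring.valuation (f - algebraMap K F c) < 1 := by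
    obtain ⟨c, hc⟩ := exists_residue_sub_mem htr v ⟨f, hf⟩
    exact ⟨c, (v.toValuationSubring.valuation_lt_one_iff _).mp hc⟩
  unfold evalAt
  rw [dif_pos hex]
  exact hex.choose_spec

end AlgClosed

end Fermat.Agent.S17.H.Glob
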