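import Fermat.Agent.S17.H.A.Abs
import Fermat.Agent.S17.H.Glob.Eval

/-!
# Program MW (S17), strand H: the heights on places — vocabulary of record

`F` a function field over `Qb = AlgebraicClosure ℚ`, `ev` a value function (`Glob.IsEval`),
`φ : Fin r → F` a finite family of functions (for strand H: a basis of `L(m₀ ∞)`).

* `valVec ev φ v`  : the value vector `(φ_i(v))_i` of the place `v`;
* `sigVec ev φ v w`: the secant (Plücker) vector `(φ_a(v) φ_b(w) - φ_b(v) φ_a(w))_{a,b}`;
* `plH ev φ m₀ v`  : the height of the place `v`, `hT (φ(v)) / m₀`;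
* `plD ev φ v w`   : the pair term `h_φ(v) + h_φ(w) - hT (sig(v,w))`.

These are the `H` and `D` that blocks D (Chow, global distance formula, Vandermonde, fibre
inequality), E (`Pairing.ChowLD`) and F (`F.theta`, `F.PP`) are instantiated with.
-/

set_option autoImplicit false

namespace Fermat.Agent.S17.H.Glob

open AlgebraicCurve

local notation "Qb" => AlgebraicClosure ℚ

variable {F : Type*} [Field F] [Algebra Qb F] {r : ℕ}

/-- The value vector of a place. -/
def valVec (ev : Place Qb F → F → Qb) (φ : Fin r → F) (v : Place Qb F) : Fin r → Qb :=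
  fun i => ev v (φ i)

/-- The secant vector of two places: the `2 × 2` minors of their value vectors. -/
noncomputable def sigVec (ev : Place Qb F → F → Qb) (φ : Fin r → F) (v w : Place Qb F) : Fin r × Fin r → Qb :=
  fun p => ev v (φ p.1) * ev w (φ p.2) - ev v (φ p.2) * ev w (φ p.1)

/-- The height of a place: `hT (φ(v)) / m₀`. -/
noncomputable def plH (ev : Place Qb F → F → Qb) (φ : Fin r → F) (m₀ : ℕ) (v : Place Qb F) : ℝ :=
  hT (valVec ev φ v) / (m₀ : ℝ)

/-- The pair term of two places: `h_φ(v) + h_φ(w) - hT (sig(v,w))`. -/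
noncomputable def plD (ev : Place Qb F → F → Qb) (φ : Fin r → F) (v w : Place Qb F) : ℝ :=
  hT (valVec ev φ v) + hT (valVec ev φ w) - hT (sigVec ev φ v w)

theorem valVec_apply (ev : Place Qb F → F → Qb) (φ : Fin r → F) (v : Place Qb F) (i : Fin r) :
    valVec ev φ v i = ev v (φ i) := rfl

theorem sigVec_apply (ev : Place Qb F → F → Qb) (φ : Fin r → F) (v w : Place Qb F)
    (p : Fin r × Fin r) :
    sigVec ev φ v w p = valVec ev φ v p.1 * valVec ev φ w p.2
      - valVec ev φ v p.2 * valVec ev φ w p.1 := rfl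

theorem plH_nonneg (ev : Place Qb F → F → Qb) (φ : Fin r → F) (m₀ : ℕ) (v : Place Qb F) :
    0 ≤ plH ev φ m₀ v :=
  div_nonneg (hT_nonneg _) (Nat.cast_nonneg _)

theorem plH_mul (ev : Place Qb F → F → Qb) (φ : Fin r → F) {m₀ : ℕ} (hm : m₀ ≠ 0)
    (v : Place Qb F) : (m₀ : ℝ) * plH ev φ m₀ v = hT (valVec ev φ v) := by
  unfold plH
  field_simp

theorem sigVec_swap (ev : Place Qb F → F → Qb) (φ : Fin r → F) (v w : Place Qb F) :
    sigVec ev φ v w = (-1 : Qb) • sigVec ev φ w v := by
  funext p
  simp only [sigVec, Pi.smul_apply, smul_eq_mul]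
  ring

theorem sigVec_self (ev : Place Qb F → F → Qb) (φ : Fin r → F) (v : Place Qb F) :
    sigVec ev φ v v = 0 := by
  funext p
  simp only [sigVec, Pi.zero_apply]
  ring

/-- The pair term is symmetric. -/
theorem plD_symm (ev : Place Qb F → F → Qb) (φ : Fin r → F) (v w : Place Qb F) :
    plD ev φ v w = plD ev φ w v := by
  unfold plD
  rw [sigVec_swap ev φ v w, hT_smul _ (by norm_num : (-1 : Qb) ≠ 0)]
  ring

/-- The pair term in terms of the place heights. -/
theorem plD_eq (ev : Place Qb F → F → Qb) (φ : Fin r → F) {m₀ : ℕ} (hm : m₀ ≠ 0)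
    (v w : Place Qb F) :
    plD ev φ v w = (m₀ : ℝ) * plH ev φ m₀ v + (m₀ : ℝ) * plH ev φ m₀ w
      - hT (sigVec ev φ v w) := by
  rw [plH_mul ev φ hm, plH_mul ev φ hm]
  rfl

end Fermat.Agent.S17.H.Glob
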