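/-
Program MW (S17), strand H, block D, leaf D1b (COMPARE) - the core.

Two families `α`, `β` of functions regular off a place `v₀`, both containing `1`, with maximal
pole orders `a` resp. `b` at `v₀`, define proportional heights on the places `≠ v₀`:
`|b * hT (α(v)) - a * hT (β(v))| ≤ C`.

The only curve input is the weighted integral relation (WB) (leaf D1c), taken here as a
hypothesis `hWB`; everything else is: evaluation of (WB) at a place by a value function
(`IsEval`), a Cauchy bound at every absolute value, and the local-global assembly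
`hT_le_of_locConst`.
-/
import Mathlib
import Fermat.Agent.S17.H.Glob.Eval
import Fermat.Agent.S17.H.A.LocConstGlobal

set_option autoImplicit false

namespace Fermat.Agent.S17.H.Glob.Compare

open AlgebraicCurve Polynomial
open Fermat.Agent.S17.H

/-! ### Local part: Mathlib only -/

section Local

variable {A : Type*} [Field A]

/-- `locConst c 0 v * gamProd Γ v = locConst c Γ v`. -/
theorem locConst_zero_mul_gamProd (c : ℝ) (Γ : Multiset A) (v : AbsoluteValue A ℝ) :
    Cert.locConst c (0 : Multiset A) v * Cert.gamProd Γ v = Cert.locConst c Γ v := by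
  by_cases hv : IsNonarchimedean v
  · rw [Cert.locConst_of_nonarch hv, Cert.locConst_of_nonarch hv, Cert.gamProd_zero, one_mul]
  · rw [Cert.locConst_of_not_nonarch hv, Cert.locConst_of_not_nonarch hv, Cert.gamProd_zero,
      mul_one]

/-- The geometric inequality behind the Cauchy bound. -/
theorem geom_sum_le {B t : ℝ} (hB : 0 ≤ B) (hBt : B ≤ t / 2) (d : ℕ) :
    ∑ i ∈ Finset.range d, B ^ (i + 1) * t ^ (d - 1 - i) ≤ t ^ d - (t / 2) ^ d := by
  have ht : 0 ≤ t := by linarith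
  induction d with
  | zero => simp
  | succ d ih =>
    rw [Finset.sum_range_succ]
    have h1 : ∑ i ∈ Finset.range d, B ^ (i + 1) * t ^ (d + 1 - 1 - i) =
        t * ∑ i ∈ Finset.range d, B ^ (i + 1) * t ^ (d - 1 - i) := by
      rw [Finset.mul_sum]
      refine Finset.sum_congr rfl fun i hi => ?_
      have hi' : i < d := Finset.mem_range.mp hi
      have e : d + 1 - 1 - i = (d - 1 - i) + 1 := by omega
      rw [e, pow_succ]
      ring
    have h2 : d + 1 - 1 - d = 0 := by omega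
    rw [h1, h2, pow_zero, mul_one]
    have h3 : B ^ (d + 1) ≤ (t / 2) ^ (d + 1) := pow_le_pow_left₀ hB hBt _
    have h4 : t * ∑ i ∈ Finset.range d, B ^ (i + 1) * t ^ (d - 1 - i) ≤
        t * (t ^ d - (t / 2) ^ d) := mul_le_mul_of_nonneg_left ih ht
    have h5 : t * (t ^ d - (t / 2) ^ d) + (t / 2) ^ (d + 1) = t ^ (d + 1) - (t / 2) ^ (d + 1) := by
      rw [pow_succ, pow_succ]
      ring
    linarith

/-- **Cauchy bound** at an arbitrary absolute value: a root `u` of a monic polynomial whose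
`i`-th coefficient has size at most `B ^ (i + 1)` has size at most `2 * B` (at most `B` if the
absolute value is nonarchimedean). -/
theorem abv_le_of_monic (v : AbsoluteValue A ℝ) {d : ℕ} (b : Fin d → A) (u : A) {B : ℝ}
    (hB : 0 ≤ B) (hb : ∀ i : Fin d, v (b i) ≤ B ^ (i.val + 1))
    (h : u ^ d + ∑ i : Fin d, b i * u ^ (d - 1 - i.val) = 0) :
    v u ≤ Cert.locConst 2 (0 : Multiset A) v * B := by
  have hd : d ≠ 0 := by
    rintro rfl
    simp at h
  have hud : u ^ d = -∑ i : Fin d, b i * u ^ (d - 1 - i.val) := eq_neg_of_add_eq_zero_left h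
  have hvu : v u ^ d = v (∑ i : Fin d, b i * u ^ (d - 1 - i.val)) := by
    rw [← map_pow, hud, map_neg_eq_map]
  by_cases hv : IsNonarchimedean v
  · rw [Cert.locConst_of_nonarch hv, Cert.gamProd_zero, one_mul]
    by_contra hlt
    rw [not_le] at hlt
    have ht : 0 < v u := lt_of_le_of_lt hB hlt
    have : Nonempty (Fin d) := ⟨⟨0, Nat.pos_of_ne_zero hd⟩⟩
    have hle : v u ^ d ≤ B * v u ^ (d - 1) := by
      rw [hvu]
      refine le_trans hv.apply_sum_univ_le (ciSup_le fun i => ?_)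
      rw [map_mul, map_pow]
      have hi : i.val < d := i.isLt
      calc v (b i) * v u ^ (d - 1 - i.val) ≤ B ^ (i.val + 1) * v u ^ (d - 1 - i.val) :=
            mul_le_mul_of_nonneg_right (hb i) (pow_nonneg ht.le _)
        _ = B * (B ^ i.val * v u ^ (d - 1 - i.val)) := by rw [pow_succ]; ring
        _ ≤ B * (v u ^ i.val * v u ^ (d - 1 - i.val)) :=
            mul_le_mul_of_nonneg_left (mul_le_mul_of_nonneg_right
              (pow_le_pow_left₀ hB hlt.le _) (pow_nonneg ht.le _)) hB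
        _ = B * v u ^ (d - 1) := by
            rw [← pow_add]
            congr 2
            omega
    have hsplit : v u ^ d = v u * v u ^ (d - 1) := by
      rw [← pow_succ']
      congr 1
      omega
    rw [hsplit] at hle
    have := le_of_mul_le_mul_right hle (pow_pos ht _)
    exact absurd this (not_le.mpr hlt)
  · rw [Cert.locConst_of_not_nonarch hv, Cert.gamProd_zero, mul_one]
    by_contra hlt
    rw [not_le] at hlt
    have ht : 0 < v u := by nlinarith
    have hBt : B ≤ v u / 2 := by linarith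
    have hle : v u ^ d ≤ v u ^ d - (v u / 2) ^ d := by
      calc v u ^ d = v (∑ i : Fin d, b i * u ^ (d - 1 - i.val)) := hvu
        _ ≤ ∑ i : Fin d, v (b i * u ^ (d - 1 - i.val)) := v.sum_le _ _
        _ ≤ ∑ i : Fin d, B ^ (i.val + 1) * v u ^ (d - 1 - i.val) := by
            refine Finset.sum_le_sum fun i _ => ?_
            rw [map_mul, map_pow]
            exact mul_le_mul_of_nonneg_right (hb i) (pow_nonneg ht.le _)
        _ = ∑ i ∈ Finset.range d, B ^ (i + 1) * v u ^ (d - 1 - i) :=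
            Fin.sum_univ_eq_sum_range (fun i => B ^ (i + 1) * v u ^ (d - 1 - i)) d
        _ ≤ v u ^ d - (v u / 2) ^ d := geom_sum_le hB hBt d
    have hpos : 0 < (v u / 2) ^ d := pow_pos (by linarith) _
    linarith

/-- A finite sum over a range, at an arbitrary absolute value. -/
theorem abv_sum_range_le (v : AbsoluteValue A ℝ) (n : ℕ) (f : ℕ → A) :
    v (∑ k ∈ Finset.range n, f k) ≤
      Cert.locConst (n : ℝ) (0 : Multiset A) v * ⨆ k : Fin n, v (f k) := by
  have h := Cert.abv_sum_le v (fun k : Fin n => f k)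
  rw [Fin.sum_univ_eq_sum_range f n, Fintype.card_fin] at h
  exact h

/-- The value of a polynomial of degree `≤ n` whose coefficients are `0` or members of `Γ`. -/
theorem abv_polyval_le (v : AbsoluteValue A ℝ) (Γ : Multiset A) (n : ℕ) (c : ℕ → A)
    (hc : ∀ k, c k = 0 ∨ c k ∈ Γ) (Y : A) :
    v (∑ k ∈ Finset.range (n + 1), c k * Y ^ k) ≤
      Cert.locConst ((n : ℝ) + 1) Γ v * max 1 (v Y) ^ n := by
  have hM : 1 ≤ max 1 (v Y) := le_max_left _ _
  have h0 : (0 : ℝ) ≤ (n : ℝ) + 1 := by positivity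
  have hterm : ∀ k : Fin (n + 1), v (c k * Y ^ (k : ℕ)) ≤ Cert.gamProd Γ v * max 1 (v Y) ^ n := by
    intro k
    rw [map_mul, map_pow]
    have h1 : v (c k) ≤ Cert.gamProd Γ v := by
      rcases hc k with h | h
      · rw [h, map_zero]; exact (Cert.gamProd_pos Γ v).le
      · exact Cert.le_gamProd_of_mem h v
    have h2 : v Y ^ (k : ℕ) ≤ max 1 (v Y) ^ n :=
      le_trans (pow_le_pow_left₀ (v.nonneg _) (le_max_right _ _) _)
        (pow_le_pow_right₀ hM (Nat.lt_succ_iff.mp k.isLt))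
    exact mul_le_mul h1 h2 (pow_nonneg (v.nonneg _) _) (Cert.gamProd_pos Γ v).le
  have h := abv_sum_range_le v (n + 1) (fun k => c k * Y ^ k)
  have hcast : ((n + 1 : ℕ) : ℝ) = (n : ℝ) + 1 := by push_cast; ring
  rw [hcast] at h
  refine le_trans h ?_
  have hsup : (⨆ k : Fin (n + 1), v (c k * Y ^ (k : ℕ))) ≤ Cert.gamProd Γ v * max 1 (v Y) ^ n :=
    ciSup_le hterm
  calc Cert.locConst ((n : ℝ) + 1) (0 : Multiset A) v * ⨆ k : Fin (n + 1), v (c k * Y ^ (k : ℕ))
      ≤ Cert.locConst ((n : ℝ) + 1) (0 : Multiset A) v * (Cert.gamProd Γ v * max 1 (v Y) ^ n) :=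
        mul_le_mul_of_nonneg_left hsup (Cert.locConst_nonneg h0 _ v)
    _ = Cert.locConst ((n : ℝ) + 1) Γ v * max 1 (v Y) ^ n := by
        rw [← mul_assoc, locConst_zero_mul_gamProd]

/-- **The local bound of COMPARE.** A weighted monic relation `W ^ d + ∑ e_i(Y) W ^ (d-1-i) = 0`
with `deg e_i ≤ i + 1` and all coefficients `0` or in `Γ` bounds `W` by `max 1 |Y|`. -/
theorem local_bound (v : AbsoluteValue A ℝ) {d : ℕ} (c : Fin d → ℕ → A) (Γ : Multiset A)
    (hc : ∀ i k, c i k = 0 ∨ c i k ∈ Γ) (W Y : A)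
    (h : W ^ d + ∑ i : Fin d, (∑ k ∈ Finset.range (i.val + 2), c i k * Y ^ k) *
      W ^ (d - 1 - i.val) = 0) :
    v W ≤ Cert.locConst (2 * ((d : ℝ) + 1)) Γ v * max 1 (v Y) := by
  have hd1 : (1 : ℝ) ≤ (d : ℝ) + 1 := by
    have : (0 : ℝ) ≤ (d : ℝ) := Nat.cast_nonneg _
    linarith
  have hL : 1 ≤ Cert.locConst ((d : ℝ) + 1) Γ v := Cert.one_le_locConst hd1 Γ v
  have hM : 1 ≤ max 1 (v Y) := le_max_left _ _
  have hB : 0 ≤ Cert.locConst ((d : ℝ) + 1) Γ v * max 1 (v Y) :=
    mul_nonneg (le_trans zero_le_one hL) (le_trans zero_le_one hM)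
  have hb : ∀ i : Fin d, v (∑ k ∈ Finset.range (i.val + 2), c i k * Y ^ k) ≤
      (Cert.locConst ((d : ℝ) + 1) Γ v * max 1 (v Y)) ^ (i.val + 1) := by
    intro i
    have h1 := abv_polyval_le v Γ (i.val + 1) (c i) (hc i) Y
    have hcast : (((i.val + 1 : ℕ) : ℝ)) + 1 ≤ (d : ℝ) + 1 := by
      have : ((i.val + 1 : ℕ) : ℝ) ≤ (d : ℝ) := Nat.cast_le.mpr i.isLt
      linarith
    have h0 : (0 : ℝ) ≤ ((i.val + 1 : ℕ) : ℝ) + 1 := by positivity
    have h2 : Cert.locConst (((i.val + 1 : ℕ) : ℝ) + 1) Γ v ≤ Cert.locConst ((d : ℝ) + 1) Γ v :=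
      Cert.locConst_mono h0 hcast le_rfl v
    have h3 : Cert.locConst ((d : ℝ) + 1) Γ v ≤ Cert.locConst ((d : ℝ) + 1) Γ v ^ (i.val + 1) :=
      le_self_pow₀ hL (Nat.succ_ne_zero _)
    calc v (∑ k ∈ Finset.range (i.val + 2), c i k * Y ^ k)
        ≤ Cert.locConst (((i.val + 1 : ℕ) : ℝ) + 1) Γ v * max 1 (v Y) ^ (i.val + 1) := h1
      _ ≤ Cert.locConst ((d : ℝ) + 1) Γ v ^ (i.val + 1) * max 1 (v Y) ^ (i.val + 1) :=
          mul_le_mul_of_nonneg_right (le_trans h2 h3) (pow_nonneg (le_trans zero_le_one hM) _)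
      _ = (Cert.locConst ((d : ℝ) + 1) Γ v * max 1 (v Y)) ^ (i.val + 1) := (mul_pow _ _ _).symm
  have key := abv_le_of_monic v (fun i : Fin d => ∑ k ∈ Finset.range (i.val + 2), c i k * Y ^ k)
    W hB hb h
  rw [← mul_assoc, Cert.locConst_mul, zero_add] at key
  exact key

end Local

/-! ### The absolute height of a componentwise power -/

/-- `hT` of a componentwise power. -/
theorem hT_pow_comp {ι : Type*} [Finite ι] (x : ι → AlgebraicClosure ℚ) (n : ℕ) :
    hT (fun j => x j ^ n) = n * hT x := by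
  obtain ⟨A, hA, x', hx⟩ := exists_lift_Qb x
  have h1 : x = fun i => (x' i : AlgebraicClosure ℚ) := funext fun i => (hx i).symm
  have h2 : (fun j => x j ^ n) = fun j => (((x' ^ n) j : A) : AlgebraicClosure ℚ) := by
    funext j
    rw [h1]
    rfl
  rw [h2, hT_coe, Height.logHeight_pow, h1, hT_coe, mul_div_assoc]

/-! ### One-sided comparison at the level of values -/

section Values

local notation "Qb" => AlgebraicClosure ℚ

/-- The multiset of the nonzero coefficients of a finite family of polynomials. -/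
noncomputable def polyCoeffs {d : ℕ} (e : Fin d → Qb[X]) : Multiset Qb :=
  ∑ i : Fin d, (e i).support.val.map fun k => (e i).coeff k

theorem coeff_mem_polyCoeffs {d : ℕ} (e : Fin d → Qb[X]) (i : Fin d) {k : ℕ}
    (hk : (e i).coeff k ≠ 0) : (e i).coeff k ∈ polyCoeffs e := by
  have h1 : (e i).coeff k ∈ (e i).support.val.map fun k => (e i).coeff k :=
    Multiset.mem_map_of_mem _ (Polynomial.mem_support_iff.mpr hk)
  have h2 : ((e i).support.val.map fun k => (e i).coeff k) ≤ polyCoeffs e :=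
    Finset.single_le_sum (f := fun i : Fin d => (e i).support.val.map fun k => (e i).coeff k)
      (fun _ _ => Multiset.zero_le _) (Finset.mem_univ i)
  exact Multiset.mem_of_le h2 h1

/-- **One-sided comparison of heights from weighted relations.** If every `G j` satisfies a
weighted monic relation over `Qb[Y]` with `Y = F i₀ ^ b`, and `F` contains `1`, then
`hT G ≤ b * hT F + C` with `C` depending only on the relations. -/
theorem hT_le_of_weighted {ι ι' : Type*} [Finite ι] [Fintype ι'] [Nonempty ι'] (b : ℕ)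
    (dd : ι' → ℕ) (e : ∀ j : ι', Fin (dd j) → Qb[X])
    (he : ∀ j i, (e j i).natDegree ≤ i.val + 1)
    (F : ι → Qb) (G : ι' → Qb) (i₀ i₁ : ι) (h1 : F i₁ = 1)
    (h : ∀ j, G j ^ dd j + ∑ i : Fin (dd j), (e j i).eval (F i₀ ^ b) * G j ^ (dd j - 1 - i.val)
      = 0) :
    hT G ≤ b * hT F + Real.log (2 * ((∑ j, (dd j : ℝ)) + 1)) +
      ((∑ j, polyCoeffs (e j)).map hQ).sum := by
  have hc : (1 : ℝ) ≤ 2 * ((∑ j, (dd j : ℝ)) + 1) := by
    have : (0 : ℝ) ≤ ∑ j, (dd j : ℝ) := Finset.sum_nonneg fun j _ => Nat.cast_nonneg _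
    linarith
  have hF : F ≠ 0 := by
    intro h0
    have := congrFun h0 i₁
    rw [h1] at this
    exact one_ne_zero this
  refine hT_le_of_locConst hc (∑ j, polyCoeffs (e j)) b F G hF ?_
  intro A _ f g Γ' hf hg hΓ v
  have hf1 : f i₁ = 1 := by
    apply (algebraMap A Qb).injective
    rw [map_one]
    exact (hf i₁).trans h1
  have hsup : ∀ a, v (f a) ≤ ⨆ a, v (f a) := fun a => Finite.le_ciSup (fun a => v (f a)) a
  have hone : (1 : ℝ) ≤ ⨆ a, v (f a) := by
    have := hsup i₁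
    rwa [hf1, map_one] at this
  have hmax : max 1 (v (f i₀ ^ b)) ≤ (⨆ a, v (f a)) ^ b := by
    refine max_le (one_le_pow₀ hone) ?_
    rw [map_pow]
    exact pow_le_pow_left₀ (v.nonneg _) (hsup i₀) _
  refine ciSup_le fun j => ?_
  -- the sub-multiset of `Γ'` lying over the coefficients of the `j`-th relation
  have hsub : polyCoeffs (e j) ≤ ∑ j, polyCoeffs (e j) :=
    Finset.single_le_sum (f := fun j => polyCoeffs (e j)) (fun _ _ => Multiset.zero_le _)
      (Finset.mem_univ j)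
  -- lift the coefficients directly from `Γ'`
  have hex : ∀ (i : Fin (dd j)) (k : ℕ), ∃ c : A, (c : Qb) = (e j i).coeff k ∧
      (c = 0 ∨ c ∈ Γ') := by
    intro i k
    by_cases hk : (e j i).coeff k = 0
    · exact ⟨0, by rw [hk]; rfl, Or.inl rfl⟩
    · have hmem : (e j i).coeff k ∈ Γ'.map (fun γ : A => (γ : Qb)) := by
        rw [hΓ]; exact Multiset.mem_of_le hsub (coeff_mem_polyCoeffs (e j) i hk)
      obtain ⟨c, hc, hcv⟩ := Multiset.mem_map.mp hmem
      exact ⟨c, hcv, Or.inr hc⟩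
  choose c hcv hcΓ using hex
  have hrel : g j ^ dd j + ∑ i : Fin (dd j), (∑ k ∈ Finset.range (i.val + 2),
      c i k * (f i₀ ^ b) ^ k) * g j ^ (dd j - 1 - i.val) = 0 := by
    apply (algebraMap A Qb).injective
    rw [map_zero, ← h j, map_add, map_pow, map_sum]
    congr 1
    · exact congrArg (· ^ dd j) (hg j)
    · refine Finset.sum_congr rfl fun i _ => ?_
      rw [map_mul, map_pow, map_sum]
      congr 1
      · rw [Polynomial.eval_eq_sum_range' (Nat.lt_succ_of_le (he j i))]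
        refine Finset.sum_congr rfl fun k _ => ?_
        rw [map_mul, map_pow, map_pow]
        congr 1
        · exact hcv i k
        · exact congrArg (fun z => (z ^ b) ^ k) (hf i₀)
      · exact congrArg (· ^ (dd j - 1 - i.val)) (hg j)
  have hloc := local_bound v c Γ' hcΓ (g j) (f i₀ ^ b) hrel
  have hdj : (dd j : ℝ) ≤ ∑ j, (dd j : ℝ) :=
    Finset.single_le_sum (f := fun j => (dd j : ℝ)) (fun _ _ => Nat.cast_nonneg _)
      (Finset.mem_univ j)
  have h0 : (0 : ℝ) ≤ 2 * ((dd j : ℝ) + 1) := by positivity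
  have hmono : Cert.locConst (2 * ((dd j : ℝ) + 1)) Γ' v ≤
      Cert.locConst (2 * ((∑ j, (dd j : ℝ)) + 1)) Γ' v :=
    Cert.locConst_mono h0 (by linarith) le_rfl v
  calc v (g j) ≤ Cert.locConst (2 * ((dd j : ℝ) + 1)) Γ' v * max 1 (v (f i₀ ^ b)) := hloc
    _ ≤ Cert.locConst (2 * ((∑ j, (dd j : ℝ)) + 1)) Γ' v * (⨆ a, v (f a)) ^ b :=
        mul_le_mul hmono hmax (le_trans zero_le_one (le_max_left _ _))
          (Cert.locConst_nonneg (le_trans zero_le_one hc) Γ' v)

end Values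

/-! ### The comparison on a curve -/

section Curve

local notation "Qb" => AlgebraicClosure ℚ

variable {F : Type*} [Field F] [Algebra Qb F]

/-- The weighted integral relation (WB) of leaf D1c, as a hypothesis. -/
def WeightedRel (v₀ : Place Qb F) : Prop :=
  ∀ {y w : F}, RegOff v₀ y → RegOff v₀ w → v₀.ord y < 0 → v₀.ord y ≤ v₀.ord w →
    ∃ (d : ℕ) (e : Fin d → Qb[X]), 0 < d ∧ (∀ i, (e i).natDegree ≤ i.val + 1) ∧
      w ^ d + ∑ i : Fin d, Polynomial.aeval y (e i) * w ^ (d - 1 - i.val) = 0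

/-- One half of COMPARE: `a * hT (β(v)) ≤ b * hT (α(v)) + C`. -/
theorem exists_le_of_weightedRel (v₀ : Place Qb F) (hWB : WeightedRel v₀)
    {ev : Place Qb F → F → Qb} (hev : IsEval ev) {p q a b : ℕ} (α : Fin p → F) (β : Fin q → F)
    (hα : ∀ i, RegOff v₀ (α i)) (hα1 : ∃ i, α i = 1)
    (hαtop : ∃ i, v₀.ord (α i) = -(a : ℤ)) (ha : 0 < a)
    (hβ : ∀ j, RegOff v₀ (β j)) (hβb : ∀ j, -(b : ℤ) ≤ v₀.ord (β j)) (hβ1 : ∃ j, β j = 1)
    (hb : 0 < b) :
    ∃ C : ℝ, ∀ v : Place Qb F, v ≠ v₀ →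
      (a : ℝ) * hT (fun j => ev v (β j)) ≤ (b : ℝ) * hT (fun i => ev v (α i)) + C := by
  obtain ⟨i₁, hi₁⟩ := hα1
  obtain ⟨i₀, hi₀⟩ := hαtop
  obtain ⟨j₁, -⟩ := hβ1
  have : Nonempty (Fin q) := ⟨j₁⟩
  -- the relations
  have hy : RegOff v₀ (α i₀ ^ b) := (hα i₀).pow b
  have hy0 : v₀.ord (α i₀ ^ b) < 0 := by
    have : v₀.ord (α i₀ ^ b) = (b : ℤ) * v₀.ord (α i₀) := by
      rw [← zpow_natCast, Place.ord_zpow]
    rw [this, hi₀]
    have ha' : (0 : ℤ) < a := by exact_mod_cast ha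
    have hb' : (0 : ℤ) < b := by exact_mod_cast hb
    nlinarith
  have hyw : ∀ j, v₀.ord (α i₀ ^ b) ≤ v₀.ord (β j ^ a) := by
    intro j
    have h1 : v₀.ord (α i₀ ^ b) = (b : ℤ) * v₀.ord (α i₀) := by
      rw [← zpow_natCast, Place.ord_zpow]
    have h2 : v₀.ord (β j ^ a) = (a : ℤ) * v₀.ord (β j) := by
      rw [← zpow_natCast, Place.ord_zpow]
    rw [h1, h2, hi₀]
    have ha' : (0 : ℤ) ≤ a := by exact_mod_cast ha.le
    have := mul_le_mul_of_nonneg_left (hβb j) ha'
    linarith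
  have hrel := fun j => hWB hy ((hβ j).pow a) hy0 (hyw j)
  choose dd e hdd he hrel using hrel
  refine ⟨Real.log (2 * ((∑ j, (dd j : ℝ)) + 1)) + ((∑ j, polyCoeffs (e j)).map hQ).sum,
    fun v hv => ?_⟩
  have hmemα : ∀ i, α i ∈ v.toValuationSubring := fun i => hα i v hv
  have hmemβ : ∀ j, β j ∈ v.toValuationSubring := fun j => hβ j v hv
  have hmemy : α i₀ ^ b ∈ v.toValuationSubring := v.toValuationSubring.pow_mem (hmemα i₀) b
  have hmemw : ∀ j, β j ^ a ∈ v.toValuationSubring :=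
    fun j => v.toValuationSubring.pow_mem (hmemβ j) a
  -- evaluate the relations at `v`
  have hval : ∀ j, (ev v (β j) ^ a) ^ dd j + ∑ i : Fin (dd j),
      (e j i).eval (ev v (α i₀) ^ b) * (ev v (β j) ^ a) ^ (dd j - 1 - i.val) = 0 := by
    intro j
    have hterm : ∀ i : Fin (dd j), Polynomial.aeval (α i₀ ^ b) (e j i) *
        (β j ^ a) ^ (dd j - 1 - i.val) ∈ v.toValuationSubring := fun i =>
      v.toValuationSubring.mul_mem _ _ ((hy.aeval (e j i)) v hv)
        (v.toValuationSubring.pow_mem (hmemw j) _)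
    have h0 := congrArg (ev v) (hrel j)
    rw [hev.map_zero, hev.map_add (v.toValuationSubring.pow_mem (hmemw j) _)
      (v.toValuationSubring.sum_mem fun i _ => hterm i),
      hev.map_pow (hmemw j), hev.map_pow (hmemβ j),
      hev.map_sum _ _ (fun i _ => hterm i)] at h0
    rw [← h0]
    congr 1
    refine Finset.sum_congr rfl fun i _ => ?_
    rw [hev.map_mul ((hy.aeval (e j i)) v hv) (v.toValuationSubring.pow_mem (hmemw j) _),
      hev.map_aeval hmemy, hev.map_pow (hmemα i₀), hev.map_pow (hmemw j), hev.map_pow (hmemβ j)]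
  have hF1 : (fun i => ev v (α i)) i₁ = 1 := by
    show ev v (α i₁) = 1
    rw [hi₁, hev.map_one]
  have key := hT_le_of_weighted b dd e he (fun i => ev v (α i)) (fun j => ev v (β j) ^ a)
    i₀ i₁ hF1 hval
  rw [hT_pow_comp] at key
  linarith

/-- **D1b (COMPARE)**, from the weighted integral relation (WB). -/
theorem exists_compare_of_weightedRel (v₀ : Place Qb F) (hWB : WeightedRel v₀)
    {ev : Place Qb F → F → Qb} (hev : IsEval ev) {p q a b : ℕ} (α : Fin p → F) (β : Fin q → F)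
    (hα : ∀ i, RegOff v₀ (α i)) (hαa : ∀ i, -(a : ℤ) ≤ v₀.ord (α i)) (hα1 : ∃ i, α i = 1)
    (hαtop : ∃ i, v₀.ord (α i) = -(a : ℤ)) (ha : 0 < a)
    (hβ : ∀ j, RegOff v₀ (β j)) (hβb : ∀ j, -(b : ℤ) ≤ v₀.ord (β j)) (hβ1 : ∃ j, β j = 1)
    (hβtop : ∃ j, v₀.ord (β j) = -(b : ℤ)) (hb : 0 < b) :
    ∃ C : ℝ, ∀ v : Place Qb F, v ≠ v₀ →
      |(b : ℝ) * hT (fun i => ev v (α i)) - (a : ℝ) * hT (fun j => ev v (β j))| ≤ C := by
  obtain ⟨C₁, h₁⟩ := exists_le_of_weightedRel v₀ hWB hev α β hα hα1 hαtop ha hβ hβb hβ1 hb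
  obtain ⟨C₂, h₂⟩ := exists_le_of_weightedRel v₀ hWB hev β α hβ hβ1 hβtop hb hα hαa hα1 ha
  refine ⟨max C₁ C₂, fun v hv => ?_⟩
  have e₁ := h₁ v hv
  have e₂ := h₂ v hv
  rw [abs_le]
  constructor
  · have := le_max_left C₁ C₂
    linarith
  · have := le_max_right C₁ C₂
    linarith

end Curve

end Fermat.Agent.S17.H.Glob.Compare
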