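import Mathlib

/-!
# S17, strand H, block D4c (core): weighted-degree bounds for determinants and characteristic
polynomials

Level-free commutative algebra (Mathlib only).

A *multiplicative filtration* on a commutative ring `A` is a family `W : ℤ → AddSubgroup A` with
`1 ∈ W 0` and `W d * W e ⊆ W (d + e)` (`IsMulFilt W`).  If the entries of a square matrix `M`
satisfy `M i j ∈ W (d + ν j - ν i)` for some weights `ν` of the index set, then

* `det_mem` : `det M ∈ W (card n * d)`;
* `charpoly_coeff_mem` : the coefficient of `X ^ j` of the characteristic polynomial of `M` lies in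
  `W ((card n - j) * d)`.

Instances of filtrations:

* `degFilt B c e` : the polynomials over `B` all of whose nonzero coefficients sit in degrees `m`
  with `c * m ≤ e` (so for `c = n0` this is "`n0 * degree ≤ e`");
* `polyFilt W d e` : polynomials over a filtered ring in which the variable has weight `d`;
* `mvFilt W μ e` : multivariate polynomials over a filtered ring with variable weights `μ`.

`kron_charpoly_coeff_mem` is the shape in which block D4c consumes all this: for a finite family of
matrices `M a` with `M a i j ∈ W (μ a + ν j - ν i)` and a combination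
`L = ∑_{(a, b) ∈ s} c (a, b) • (M a ⊗ₖ M b - M b ⊗ₖ M a)` with `c (a, b) ∈ W 0` and
`μ a + μ b ≤ d` on `s`, the coefficient of `X ^ j` in the characteristic polynomial of `L` lies in
`W ((card n ^ 2 - j) * d)`.
-/

set_option autoImplicit false

namespace Fermat.Agent.S17.H.Glob.WeightedDet

open Matrix Polynomial
open scoped Kronecker

/-- A multiplicative `ℤ`-indexed filtration of a commutative ring by additive subgroups. -/
structure IsMulFilt {A : Type*} [CommRing A] (W : ℤ → AddSubgroup A) : Prop where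
  one_mem : (1 : A) ∈ W 0
  mul_mem : ∀ {d e : ℤ} {a b : A}, a ∈ W d → b ∈ W e → a * b ∈ W (d + e)

section Core

variable {A : Type*} [CommRing A] {W : ℤ → AddSubgroup A}

theorem IsMulFilt.prod_mem (hW : IsMulFilt W) {ι : Type*} (s : Finset ι) (f : ι → A) (d : ι → ℤ)
    (h : ∀ i ∈ s, f i ∈ W (d i)) : ∏ i ∈ s, f i ∈ W (∑ i ∈ s, d i) := by
  classical
  induction s using Finset.induction_on with
  | empty => simpa using hW.one_mem
  | insert a s ha ih =>
    rw [Finset.prod_insert ha, Finset.sum_insert ha]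
    exact hW.mul_mem (h a (Finset.mem_insert_self a s))
      (ih fun i hi => h i (Finset.mem_insert_of_mem hi))

/-- Weighted-degree bound for a determinant. -/
theorem det_mem (hW : IsMulFilt W) {n : Type*} [Fintype n] [DecidableEq n] (ν : n → ℤ) (d : ℤ)
    (M : Matrix n n A) (hM : ∀ i j, M i j ∈ W (d + ν j - ν i)) :
    M.det ∈ W ((Fintype.card n : ℤ) * d) := by
  rw [Matrix.det_apply']
  refine AddSubgroup.sum_mem _ fun σ _ => ?_
  have hprod : ∏ i, M (σ i) i ∈ W ((Fintype.card n : ℤ) * d) := by
    have h1 := hW.prod_mem Finset.univ (fun i => M (σ i) i) (fun i => d + ν i - ν (σ i))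
      (fun i _ => hM (σ i) i)
    have h2 : ∑ i, (d + ν i - ν (σ i)) = (Fintype.card n : ℤ) * d := by
      rw [Finset.sum_sub_distrib, Finset.sum_add_distrib, Equiv.sum_comp σ ν]
      simp [Finset.card_univ]
    rwa [h2] at h1
  rcases Int.units_eq_one_or (Equiv.Perm.sign σ) with h | h
  · simpa [h] using hprod
  · simpa [h] using (W _).neg_mem hprod

/-- The filtration on `A[X]` induced by a filtration `W` of `A`, the variable having weight `d`:
`p ∈ polyFilt W d e` iff the coefficient of `X ^ j` lies in `W (e - j * d)` for all `j`. -/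
def polyFilt (W : ℤ → AddSubgroup A) (d : ℤ) (e : ℤ) : AddSubgroup A[X] where
  carrier := {p | ∀ j : ℕ, p.coeff j ∈ W (e - (j : ℤ) * d)}
  zero_mem' := by intro j; simp
  add_mem' := by
    intro p q hp hq j
    rw [Polynomial.coeff_add]
    exact (W _).add_mem (hp j) (hq j)
  neg_mem' := by
    intro p hp j
    rw [Polynomial.coeff_neg]
    exact (W _).neg_mem (hp j)

theorem mem_polyFilt {d e : ℤ} {p : A[X]} :
    p ∈ polyFilt W d e ↔ ∀ j : ℕ, p.coeff j ∈ W (e - (j : ℤ) * d) := Iff.rfl

theorem isMulFilt_polyFilt (hW : IsMulFilt W) (d : ℤ) : IsMulFilt (polyFilt W d) where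
  one_mem := by
    intro j
    rw [Polynomial.coeff_one]
    split_ifs with h
    · subst h; simpa using hW.one_mem
    · exact (W _).zero_mem
  mul_mem := by
    intro e e' p q hp hq j
    rw [Polynomial.coeff_mul]
    refine AddSubgroup.sum_mem _ fun x hx => ?_
    have hx' : x.1 + x.2 = j := Finset.HasAntidiagonal.mem_antidiagonal.mp hx
    have h := hW.mul_mem (hp x.1) (hq x.2)
    have he : e - (x.1 : ℤ) * d + (e' - (x.2 : ℤ) * d) = e + e' - (j : ℤ) * d := by
      rw [← hx']; push_cast; ring
    rwa [he] at h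

/-- Weighted-degree bound for the coefficients of a characteristic polynomial. -/
theorem charpoly_coeff_mem (hW : IsMulFilt W) {n : Type*} [Fintype n] [DecidableEq n] (ν : n → ℤ)
    (d : ℤ) (M : Matrix n n A) (hM : ∀ i j, M i j ∈ W (d + ν j - ν i)) (j : ℕ) :
    M.charpoly.coeff j ∈ W (((Fintype.card n : ℤ) - j) * d) := by
  have hent : ∀ i k, M.charmatrix i k ∈ polyFilt W d (d + ν k - ν i) := by
    intro i k m
    by_cases hik : i = k
    · subst hik
      rw [Matrix.charmatrix_apply_eq, Polynomial.coeff_sub, Polynomial.coeff_X, Polynomial.coeff_C]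
      rcases Nat.lt_trichotomy m 1 with hm | hm | hm
      · have hm0 : m = 0 := by omega
        subst hm0
        have h := (W _).neg_mem (hM i i)
        simpa using h
      · subst hm
        have h := hW.one_mem
        simpa using h
      · have h1 : ¬ (1 = m) := by omega
        have h0 : ¬ (m = 0) := by omega
        simp [h1, h0]
    · rw [Matrix.charmatrix_apply_ne _ _ _ hik, Polynomial.coeff_neg, Polynomial.coeff_C]
      split_ifs with hm
      · subst hm
        have h := (W _).neg_mem (hM i k)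
        simpa using h
      · simp
  have hdet := det_mem (isMulFilt_polyFilt hW d) ν d M.charmatrix hent
  have h := hdet j
  have he : (Fintype.card n : ℤ) * d - (j : ℤ) * d = ((Fintype.card n : ℤ) - j) * d := by ring
  rw [he] at h
  exact h

end Core

section DegFilt

variable (B : Type*) [CommRing B]

/-- The degree filtration of `B[X]` with scale `c`: `p ∈ degFilt B c e` iff every nonzero
coefficient of `p` sits in a degree `m` with `c * m ≤ e`. -/
def degFilt (c : ℤ) (e : ℤ) : AddSubgroup B[X] where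
  carrier := {p | ∀ m : ℕ, p.coeff m ≠ 0 → c * (m : ℤ) ≤ e}
  zero_mem' := by intro m hm; simp at hm
  add_mem' := by
    intro p q hp hq m hm
    rw [Polynomial.coeff_add] at hm
    by_cases hpm : p.coeff m = 0
    · exact hq m (by rwa [hpm, zero_add] at hm)
    · exact hp m hpm
  neg_mem' := by
    intro p hp m hm
    rw [Polynomial.coeff_neg, neg_ne_zero] at hm
    exact hp m hm

variable {B}

theorem mem_degFilt {c e : ℤ} {p : B[X]} :
    p ∈ degFilt B c e ↔ ∀ m : ℕ, p.coeff m ≠ 0 → c * (m : ℤ) ≤ e := Iff.rfl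

theorem isMulFilt_degFilt (c : ℤ) : IsMulFilt (degFilt B c) where
  one_mem := by
    intro m hm
    rw [Polynomial.coeff_one] at hm
    have hm0 : m = 0 := by
      by_contra h
      exact hm (if_neg h)
    subst hm0
    simp
  mul_mem := by
    intro e e' p q hp hq m hm
    rw [Polynomial.coeff_mul] at hm
    obtain ⟨x, hx, hx0⟩ := Finset.exists_ne_zero_of_sum_ne_zero hm
    have hx' : x.1 + x.2 = m := Finset.HasAntidiagonal.mem_antidiagonal.mp hx
    have h1 : p.coeff x.1 ≠ 0 := fun h => hx0 (by rw [h, zero_mul])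
    have h2 : q.coeff x.2 ≠ 0 := fun h => hx0 (by rw [h, mul_zero])
    have h1' := hp x.1 h1
    have h2' := hq x.2 h2
    rw [← hx']
    push_cast
    linarith

theorem degFilt_mono (c : ℤ) {e e' : ℤ} (h : e ≤ e') : degFilt B c e ≤ degFilt B c e' :=
  fun _ hp m hm => (hp m hm).trans h

theorem monotone_degFilt (c : ℤ) : Monotone (degFilt B c) := fun _ _ h => degFilt_mono c h

/-- A polynomial in `degFilt B c e` (with `0 ≤ e`) satisfies `c * natDegree ≤ e`. -/
theorem natDegree_le_of_mem_degFilt {c e : ℤ} {p : B[X]} (hp : p ∈ degFilt B c e) (he : 0 ≤ e) :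
    c * (p.natDegree : ℤ) ≤ e := by
  by_cases h0 : p = 0
  · subst h0; simpa using he
  · exact hp p.natDegree (by simpa using h0)

/-- A polynomial with `c * natDegree ≤ e` (`0 ≤ c`) lies in `degFilt B c e`. -/
theorem mem_degFilt_of_natDegree_le {c e : ℤ} {p : B[X]} (hc : 0 ≤ c)
    (hp : c * (p.natDegree : ℤ) ≤ e) : p ∈ degFilt B c e := by
  intro m hm
  have hle : m ≤ p.natDegree := Polynomial.le_natDegree_of_ne_zero hm
  have : c * (m : ℤ) ≤ c * (p.natDegree : ℤ) :=
    mul_le_mul_of_nonneg_left (by exact_mod_cast hle) hc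
  exact this.trans hp

end DegFilt

section MvFilt

variable {A : Type*} [CommRing A] {τ : Type*}

/-- The weight of a monomial for variable weights `μ`. -/
noncomputable def monWeight (μ : τ → ℤ) (m : τ →₀ ℕ) : ℤ := m.sum fun b k => (k : ℤ) * μ b

theorem monWeight_zero (μ : τ → ℤ) : monWeight μ (0 : τ →₀ ℕ) = 0 := by
  simp [monWeight]

theorem monWeight_add (μ : τ → ℤ) (m m' : τ →₀ ℕ) :
    monWeight μ (m + m') = monWeight μ m + monWeight μ m' := by
  classical
  unfold monWeight
  rw [Finsupp.sum_add_index']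
  · intro b; simp
  · intro b k k'; push_cast; ring

/-- The filtration on `MvPolynomial τ A` induced by a filtration `W` of `A` and variable weights
`μ`: `p ∈ mvFilt W μ e` iff the coefficient of the monomial `m` lies in `W (e - monWeight μ m)`. -/
def mvFilt (W : ℤ → AddSubgroup A) (μ : τ → ℤ) (e : ℤ) : AddSubgroup (MvPolynomial τ A) where
  carrier := {p | ∀ m : τ →₀ ℕ, p.coeff m ∈ W (e - monWeight μ m)}
  zero_mem' := by intro m; simp
  add_mem' := by
    intro p q hp hq m
    rw [MvPolynomial.coeff_add]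
    exact (W _).add_mem (hp m) (hq m)
  neg_mem' := by
    intro p hp m
    rw [MvPolynomial.coeff_neg]
    exact (W _).neg_mem (hp m)

variable {W : ℤ → AddSubgroup A}

theorem mem_mvFilt {μ : τ → ℤ} {e : ℤ} {p : MvPolynomial τ A} :
    p ∈ mvFilt W μ e ↔ ∀ m : τ →₀ ℕ, p.coeff m ∈ W (e - monWeight μ m) := Iff.rfl

theorem isMulFilt_mvFilt (hW : IsMulFilt W) (μ : τ → ℤ) : IsMulFilt (mvFilt W μ) where
  one_mem := by
    classical
    intro m
    rw [MvPolynomial.coeff_one]
    split_ifs with h
    · subst h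
      rw [monWeight_zero, sub_zero]
      exact hW.one_mem
    · exact (W _).zero_mem
  mul_mem := by
    classical
    intro e e' p q hp hq m
    rw [MvPolynomial.coeff_mul]
    refine AddSubgroup.sum_mem _ fun x hx => ?_
    have hx' : x.1 + x.2 = m := Finset.HasAntidiagonal.mem_antidiagonal.mp hx
    have h := hW.mul_mem (hp x.1) (hq x.2)
    have he : e - monWeight μ x.1 + (e' - monWeight μ x.2) = e + e' - monWeight μ m := by
      rw [← hx', monWeight_add]; ring
    rwa [he] at h

theorem monotone_mvFilt (hmono : Monotone W) (μ : τ → ℤ) : Monotone (mvFilt W μ) :=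
  fun _ _ h _ hp m => hmono (sub_le_sub_right h _) (hp m)

/-- Constants of `W e` lie in `mvFilt W μ e`. -/
theorem C_mem_mvFilt (μ : τ → ℤ) {e : ℤ} {a : A} (ha : a ∈ W e) :
    (MvPolynomial.C a : MvPolynomial τ A) ∈ mvFilt W μ e := by
  classical
  intro m
  rw [MvPolynomial.coeff_C]
  split_ifs with h
  · subst h
    rw [monWeight_zero, sub_zero]
    exact ha
  · exact (W _).zero_mem

/-- A variable of weight `μ b` lies in `mvFilt W μ (μ b)`. -/
theorem X_mem_mvFilt (hW : IsMulFilt W) (μ : τ → ℤ) (b : τ) :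
    (MvPolynomial.X b : MvPolynomial τ A) ∈ mvFilt W μ (μ b) := by
  classical
  intro m
  rw [MvPolynomial.coeff_X]
  split_ifs with h
  · subst h
    have : monWeight μ (Finsupp.single b 1) = μ b := by
      simp [monWeight]
    rw [this, sub_self]
    exact hW.one_mem
  · exact (W _).zero_mem

end MvFilt

section Kronecker

variable {A : Type*} [CommRing A] {W : ℤ → AddSubgroup A}

/-- **D4c, abstract form.**  Let `M a` (`a : ι`) be square matrices with
`M a i j ∈ W (μ a + ν j - ν i)`, and let
`L = ∑_{(a, b) ∈ s} c (a, b) • (M a ⊗ₖ M b - M b ⊗ₖ M a)` with `c (a, b) ∈ W 0` and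
`μ a + μ b ≤ d` on `s`.  Then the coefficient of `X ^ j` of the characteristic polynomial of `L`
lies in `W ((card n ^ 2 - j) * d)`. -/
theorem kron_charpoly_coeff_mem (hW : IsMulFilt W) (hmono : Monotone W)
    {n : Type*} [Fintype n] [DecidableEq n] {ι : Type*} (s : Finset (ι × ι))
    (ν : n → ℤ) (μ : ι → ℤ) (d : ℤ) (c : ι × ι → A) (hc : ∀ p ∈ s, c p ∈ W 0)
    (M : ι → Matrix n n A) (hM : ∀ a i j, M a i j ∈ W (μ a + ν j - ν i))
    (hμ : ∀ p ∈ s, μ p.1 + μ p.2 ≤ d) (j : ℕ) :
    (∑ p ∈ s, c p • (M p.1 ⊗ₖ M p.2 - M p.2 ⊗ₖ M p.1)).charpoly.coeff j ∈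
      W ((((Fintype.card n : ℤ)) ^ 2 - j) * d) := by
  have hent : ∀ x y : n × n,
      (∑ p ∈ s, c p • (M p.1 ⊗ₖ M p.2 - M p.2 ⊗ₖ M p.1)) x y ∈
        W (d + (ν y.1 + ν y.2) - (ν x.1 + ν x.2)) := by
    intro x y
    rw [Matrix.sum_apply]
    refine AddSubgroup.sum_mem _ fun p hp => ?_
    rw [Matrix.smul_apply, Matrix.sub_apply, Matrix.kroneckerMap_apply, Matrix.kroneckerMap_apply,
      smul_eq_mul]
    have h1 : M p.1 x.1 y.1 * M p.2 x.2 y.2 ∈
        W (μ p.1 + μ p.2 + (ν y.1 + ν y.2) - (ν x.1 + ν x.2)) := by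
      have h := hW.mul_mem (hM p.1 x.1 y.1) (hM p.2 x.2 y.2)
      have he : μ p.1 + ν y.1 - ν x.1 + (μ p.2 + ν y.2 - ν x.2)
          = μ p.1 + μ p.2 + (ν y.1 + ν y.2) - (ν x.1 + ν x.2) := by ring
      rwa [he] at h
    have h2 : M p.2 x.1 y.1 * M p.1 x.2 y.2 ∈
        W (μ p.1 + μ p.2 + (ν y.1 + ν y.2) - (ν x.1 + ν x.2)) := by
      have h := hW.mul_mem (hM p.2 x.1 y.1) (hM p.1 x.2 y.2)
      have he : μ p.2 + ν y.1 - ν x.1 + (μ p.1 + ν y.2 - ν x.2)
          = μ p.1 + μ p.2 + (ν y.1 + ν y.2) - (ν x.1 + ν x.2) := by ring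
      rwa [he] at h
    have h3 := hW.mul_mem (hc p hp) ((W _).sub_mem h1 h2)
    rw [zero_add] at h3
    refine hmono ?_ h3
    have := hμ p hp
    linarith
  have h := charpoly_coeff_mem hW (fun x : n × n => ν x.1 + ν x.2) d _ hent j
  have hcard : (Fintype.card (n × n) : ℤ) = (Fintype.card n : ℤ) ^ 2 := by
    rw [Fintype.card_prod]; push_cast; ring
  rwa [hcard] at h

end Kronecker

end Fermat.Agent.S17.H.Glob.WeightedDet
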