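/-
Program MW (S17), strand H, block D, leaf D1c (WB) (helper178, racing twin of the row): the
**weighted integral relation**.

If `y`, `w` are regular off `v₀`, `y` has a pole at `v₀` and the pole order of `w` is at most
that of `y`, then `w` satisfies a monic relation over `K[y]` whose `i`-th coefficient has degree
`≤ i`:  `w ^ d + ∑ e_i(y) w ^ (d - 1 - i) = 0`, `deg e_i ≤ i + 1`.

Proof (no norm, no Galois closure).  Let `n₀` be the pole order of `y`.  The Apéry basis
`w₀ = 1, …, w_{n₀-1}` of the functions regular off `v₀` over `K[y]` (`R/Gaps.exists_apery`) comes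
with degree control, so multiplication by `w` has a structure matrix `M ∈ Mat_{n₀}(K[X])`,
`w · w_c = ∑_r M_{rc}(y) w_r` with `n₀ · deg M_{rc} + ν_r ≤ n₀ + ν_c`.  By the weighted-degree
bound for characteristic polynomials (`WeightedDet.charpoly_coeff_mem`) the coefficient of `T ^ j`
of `χ_M` has degree `≤ n₀ - j`, and by Cayley–Hamilton `χ_M(w) · w₀ = 0`.
-/
import Mathlib
import Fermat.Agent.S17.R.Gaps
import Fermat.Agent.S17.H.Glob.Eval
import Fermat.Agent.S17.H.Glob.WeightedDet

set_option autoImplicit false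
set_option linter.unusedSectionVars false

namespace Fermat.Agent.S17.H.Glob

open AlgebraicCurve Polynomial
open Fermat.Agent.S17.R
open Fermat.Agent.S24.FF

variable {K F : Type*} [Field K] [Field F] [Algebra K F]

namespace Weighted

/-- Powers of `w` act on a family `b` through the powers of a structure matrix of `w`. -/
theorem pow_mul_eq {n : ℕ} (y w : F) (b : Fin n → F) (M : Matrix (Fin n) (Fin n) K[X])
    (hM : ∀ c, w * b c = ∑ r, aeval y (M r c) * b r) (k : ℕ) :
    ∀ c, w ^ k * b c = ∑ r, aeval y ((M ^ k) r c) * b r := by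
  induction k with
  | zero =>
    intro c
    rw [pow_zero, one_mul, pow_zero, Finset.sum_eq_single c]
    · rw [Matrix.one_apply_eq, map_one, one_mul]
    · intro r _ hr
      rw [Matrix.one_apply_ne hr, map_zero, zero_mul]
    · intro h
      exact absurd (Finset.mem_univ _) h
  | succ k ih =>
    intro c
    rw [pow_succ, mul_assoc, hM c, Finset.mul_sum]
    have h1 : ∀ s, w ^ k * (aeval y (M s c) * b s) =
        ∑ r, aeval y ((M ^ k) r s * M s c) * b r := by
      intro s
      rw [mul_left_comm, ih s, Finset.mul_sum]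
      refine Finset.sum_congr rfl fun r _ => ?_
      rw [map_mul]
      ring
    rw [Finset.sum_congr rfl (fun s _ => h1 s), Finset.sum_comm]
    refine Finset.sum_congr rfl fun r _ => ?_
    rw [← Finset.sum_mul, pow_succ, Matrix.mul_apply, map_sum]

/-- A polynomial `Q ∈ K[X][T]` evaluated at `(y, w)` acts on the family `b` through `Q(M)`. -/
theorem eval_mul_eq {n : ℕ} (y w : F) (b : Fin n → F) (M : Matrix (Fin n) (Fin n) K[X])
    (hM : ∀ c, w * b c = ∑ r, aeval y (M r c) * b r) (Q : Polynomial K[X]) (c : Fin n) :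
    (∑ j ∈ Finset.range (Q.natDegree + 1), aeval y (Q.coeff j) * w ^ j) * b c =
      ∑ r, aeval y ((aeval M Q) r c) * b r := by
  have hQ : ∀ r, (aeval M Q) r c =
      ∑ j ∈ Finset.range (Q.natDegree + 1), Q.coeff j * (M ^ j) r c := by
    intro r
    rw [Polynomial.aeval_eq_sum_range, Matrix.sum_apply]
    refine Finset.sum_congr rfl fun j _ => ?_
    rw [Matrix.smul_apply, smul_eq_mul]
  rw [Finset.sum_mul]
  have h1 : ∀ j ∈ Finset.range (Q.natDegree + 1), aeval y (Q.coeff j) * w ^ j * b c =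
      ∑ r, aeval y (Q.coeff j * (M ^ j) r c) * b r := by
    intro j _
    rw [mul_assoc, pow_mul_eq y w b M hM j c, Finset.mul_sum]
    refine Finset.sum_congr rfl fun r _ => ?_
    rw [map_mul]
    ring
  rw [Finset.sum_congr rfl h1, Finset.sum_comm]
  refine Finset.sum_congr rfl fun r _ => ?_
  rw [hQ r, map_sum, Finset.sum_mul]

/-- **Cayley–Hamilton for a structure matrix**: if `w · b_c = ∑_r M_{rc}(y) b_r` and some `b_c`
is `1`, then the characteristic polynomial of `M`, read at `(y, w)`, vanishes, in the shape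
`w ^ n + ∑_{i < n} e_i(y) w ^ (n - 1 - i) = 0` with `e_i = coeff (n - 1 - i)`. -/
theorem charpoly_rel {n : ℕ} (y w : F) (b : Fin n → F) (M : Matrix (Fin n) (Fin n) K[X])
    (hM : ∀ c, w * b c = ∑ r, aeval y (M r c) * b r) (c₀ : Fin n) (hb : b c₀ = 1) :
    w ^ n + ∑ i : Fin n, aeval y (M.charpoly.coeff (n - 1 - i.val)) * w ^ (n - 1 - i.val) = 0 := by
  have h := eval_mul_eq y w b M hM M.charpoly c₀
  rw [Matrix.aeval_self_charpoly, hb, mul_one] at h
  have hz : ∑ r, aeval y ((0 : Matrix (Fin n) (Fin n) K[X]) r c₀) * b r = 0 := by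
    refine Finset.sum_eq_zero fun r _ => ?_
    rw [Matrix.zero_apply, map_zero, zero_mul]
  rw [hz] at h
  have hdeg : M.charpoly.natDegree = n := by
    rw [Matrix.charpoly_natDegree_eq_dim, Fintype.card_fin]
  have hlead : M.charpoly.coeff n = 1 := by
    have h1 := (Matrix.charpoly_monic M).coeff_natDegree
    rwa [hdeg] at h1
  rw [hdeg, Finset.sum_range_succ, hlead, map_one, one_mul] at h
  have hre : ∑ i : Fin n, aeval y (M.charpoly.coeff (n - 1 - i.val)) * w ^ (n - 1 - i.val) =
      ∑ j ∈ Finset.range n, aeval y (M.charpoly.coeff j) * w ^ j := by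
    rw [← Finset.sum_range (fun i => aeval y (M.charpoly.coeff (n - 1 - i)) * w ^ (n - 1 - i))]
    exact Finset.sum_range_reflect (fun j => aeval y (M.charpoly.coeff j) * w ^ j) n
  rw [hre, add_comm]
  exact h

end Weighted

variable [IsAlgClosed K] [CharZero K] [Algebra.EssFiniteType K F]

/-- **D1c (WB)**: weighted integral relation. If `y`, `w` are regular off `v₀`, `y` has a pole
at `v₀` and the pole order of `w` is at most that of `y`, then `w` satisfies a monic relation
over `K[y]` whose `i`-th coefficient has degree `≤ i`. -/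
theorem exists_weighted_rel (htr : Algebra.trdeg K F = 1) (v₀ : Place K F) {y w : F}
    (hy : RegOff v₀ y) (hw : RegOff v₀ w) (hy0 : v₀.ord y < 0) (hwy : v₀.ord y ≤ v₀.ord w) :
    ∃ (d : ℕ) (e : Fin d → K[X]), 0 < d ∧ (∀ i, (e i).natDegree ≤ i.val + 1) ∧
      w ^ d + ∑ i : Fin d, Polynomial.aeval y (e i) * w ^ (d - 1 - i.val) = 0 := by
  classical
  -- the pole order of `y`
  obtain ⟨n₀, hn₀⟩ : ∃ n₀ : ℕ, (n₀ : ℤ) = -v₀.ord y :=
    ⟨(-v₀.ord y).toNat, Int.toNat_of_nonneg (by omega)⟩
  have hn₀pos : 0 < n₀ := by omega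
  have hord : v₀.ord y = -(n₀ : ℤ) := by omega
  have hy0' : y ≠ 0 := by
    rintro rfl
    rw [Place.ord_zero] at hy0
    omega
  have hyL : y ∈ riemannRochSpace ((n₀ : ℤ) • Finsupp.single v₀ (1 : ℤ)) := by
    rw [Gaps.mem_Ln_iff v₀ _ hy0']
    exact ⟨le_of_eq hord.symm, fun v hv => ord_nonneg_of_mem v (hy v hv)⟩
  have hwL : w ∈ riemannRochSpace ((n₀ : ℤ) • Finsupp.single v₀ (1 : ℤ)) := by
    by_cases hw0 : w = 0
    · rw [hw0]
      exact Submodule.zero_mem _
    · rw [Gaps.mem_Ln_iff v₀ _ hw0]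
      exact ⟨by omega, fun v hv => ord_nonneg_of_mem v (hw v hv)⟩
  -- the Apéry basis
  obtain ⟨b, ν, hbL, -, -, hone, -, hspan, -⟩ := exists_apery htr v₀ y n₀ hn₀pos hyL hord
  -- the structure matrix of `w`
  have hex : ∀ c : Fin n₀, ∃ p : Fin n₀ → K[X], w * b c = ∑ r, aeval y (p r) * b r ∧
      ∀ r, p r ≠ 0 → (p r).natDegree * n₀ + ν r ≤ n₀ + ν c := by
    intro c
    have hmem : w * b c ∈
        riemannRochSpace (((n₀ + ν c : ℕ) : ℤ) • Finsupp.single v₀ (1 : ℤ)) := by
      have h := mul_mem_L hwL (hbL c)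
      rwa [← add_smul, ← Nat.cast_add] at h
    exact hspan (n₀ + ν c) (w * b c) hmem
  choose p hp hpd using hex
  have hM : ∀ c, w * b c = ∑ r, aeval y ((Matrix.of fun r c => p c r) r c) * b r := by
    intro c
    rw [hp c]
    rfl
  -- weighted degrees of the entries
  have hent : ∀ r c, (Matrix.of fun r c => p c r : Matrix (Fin n₀) (Fin n₀) K[X]) r c ∈
      WeightedDet.degFilt K (n₀ : ℤ) ((n₀ : ℤ) + (ν c : ℤ) - (ν r : ℤ)) := by
    intro r c
    have hrc : (Matrix.of fun r c => p c r : Matrix (Fin n₀) (Fin n₀) K[X]) r c = p c r := rfl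
    rw [hrc]
    by_cases h0 : p c r = 0
    · rw [h0]
      exact AddSubgroup.zero_mem _
    · refine WeightedDet.mem_degFilt_of_natDegree_le (Int.natCast_nonneg n₀) ?_
      have h1 := hpd c r h0
      have h2 : (((p c r).natDegree * n₀ + ν r : ℕ) : ℤ) ≤ ((n₀ + ν c : ℕ) : ℤ) := by
        exact_mod_cast h1
      push_cast at h2
      linarith
  have hcoeff := WeightedDet.charpoly_coeff_mem (WeightedDet.isMulFilt_degFilt (B := K) (n₀ : ℤ))
    (fun i : Fin n₀ => (ν i : ℤ)) (n₀ : ℤ) (Matrix.of fun r c => p c r) hent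
  refine ⟨n₀, fun i => (Matrix.of fun r c => p c r : Matrix (Fin n₀) (Fin n₀) K[X]).charpoly.coeff
    (n₀ - 1 - i.val), hn₀pos, fun i => ?_, ?_⟩
  · have h1 := hcoeff (n₀ - 1 - i.val)
    rw [Fintype.card_fin] at h1
    have hi : i.val < n₀ := i.2
    have hcast : ((n₀ - 1 - i.val : ℕ) : ℤ) = (n₀ : ℤ) - 1 - (i.val : ℤ) := by omega
    have he : ((n₀ : ℤ) - ((n₀ - 1 - i.val : ℕ) : ℤ)) * (n₀ : ℤ) =
        ((i.val : ℤ) + 1) * (n₀ : ℤ) := by
      rw [hcast]
      ring
    rw [he] at h1
    have h2 := WeightedDet.natDegree_le_of_mem_degFilt h1 (by positivity)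
    have hn₀' : (0 : ℤ) < (n₀ : ℤ) := by exact_mod_cast hn₀pos
    have h3 : (((Matrix.of fun r c => p c r : Matrix (Fin n₀) (Fin n₀) K[X]).charpoly.coeff
        (n₀ - 1 - i.val)).natDegree : ℤ) ≤ (i.val : ℤ) + 1 := by
      by_contra hlt
      rw [not_le] at hlt
      have h4 := mul_lt_mul_of_pos_left hlt hn₀'
      linarith
    exact_mod_cast h3
  · exact Weighted.charpoly_rel y w b (Matrix.of fun r c => p c r) hM ⟨0, hn₀pos⟩ hone

end Fermat.Agent.S17.H.Glob
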