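/-
Program MW (S17), strand H, block D, leaf D1b (COMPARE).

Two families `α`, `β` of functions regular off a place `v₀`, both containing `1`, with maximal
pole orders `a` resp. `b` at `v₀`, define proportional heights on the places `≠ v₀`:
`|b * hT (α(v)) - a * hT (β(v))| ≤ C`.

The proof is `Compare.exists_compare_of_weightedRel` (file `CompareCore`: evaluation of the
weighted integral relation at a place, a Cauchy bound at every absolute value, the local-global
assembly `hT_le_of_locConst`) fed with the weighted integral relation `exists_weighted_rel`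
(leaf D1c, file `Weighted`).
-/
import Mathlib
import Fermat.Agent.S17.H.Glob.Weighted
import Fermat.Agent.S17.H.Glob.CompareCore

set_option autoImplicit false

namespace Fermat.Agent.S17.H.Glob

open AlgebraicCurve Polynomial
open Fermat.Agent.S17.H

section Heights

local notation "Qb" => AlgebraicClosure ℚ

variable {F : Type*} [Field F] [Algebra Qb F] [Algebra.EssFiniteType Qb F]

/-- **D1b (COMPARE)**: two families of functions regular off `v₀`, containing `1`, with maximal
pole orders `a` resp. `b` at `v₀`, define proportional heights on the places `≠ v₀`. -/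
theorem exists_compare (htr : Algebra.trdeg Qb F = 1) (v₀ : Place Qb F)
    {ev : Place Qb F → F → Qb} (hev : IsEval ev) {p q a b : ℕ} (α : Fin p → F) (β : Fin q → F)
    (hα : ∀ i, RegOff v₀ (α i)) (hαa : ∀ i, -(a : ℤ) ≤ v₀.ord (α i)) (hα1 : ∃ i, α i = 1)
    (hαtop : ∃ i, v₀.ord (α i) = -(a : ℤ)) (ha : 0 < a)
    (hβ : ∀ j, RegOff v₀ (β j)) (hβb : ∀ j, -(b : ℤ) ≤ v₀.ord (β j)) (hβ1 : ∃ j, β j = 1)
    (hβtop : ∃ j, v₀.ord (β j) = -(b : ℤ)) (hb : 0 < b) :
    ∃ C : ℝ, ∀ v : Place Qb F, v ≠ v₀ →
      |(b : ℝ) * hT (fun i => ev v (α i)) - (a : ℝ) * hT (fun j => ev v (β j))| ≤ C :=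
  Compare.exists_compare_of_weightedRel v₀
    (fun hy hw hy0 hwy => exists_weighted_rel htr v₀ hy hw hy0 hwy)
    hev α β hα hαa hα1 hαtop ha hβ hβb hβ1 hβtop hb

end Heights

end Fermat.Agent.S17.H.Glob
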