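import Mathlib
import Fermat.Prelude.Def_AlgebraicCurve_Repartitions
import Fermat.Agent.S24.FF.Principal
import Fermat.Agent.S17.R.LSpace
import Fermat.Agent.S17.H.Glob.Eval

/-!
# Program MW (S17), strand H, block D, leaf D1a (FORMS): the norm of a section is a form

Level-free (`K` algebraically closed of characteristic zero, `F / K` a function field of one
variable).  `y` is a function regular off the place `v₀` with a pole at `v₀`, so that
`[F : K(y)] = -ord_{v₀} y`.

`NormFormsCore.exists_norm_forms_of` is the literal `exists_norm_forms` of the leaf D1a with the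
literal `exists_normPoly` (ROOTS) of the same leaf as a HYPOTHESIS `hroots`: for functions
`ψ i` regular off `v₀` with pole order `≤ M` at `v₀`, the norm polynomial of the section
`∑ i, c i • ψ i` is `∑ j ≤ M, G j (c) X ^ j` for forms `G j` of degree `[F : K(y)]` in `c`.

Proof.  `N(∑ c i ψ i) = det (∑ c i A i)`, `A i` the matrix of the multiplication by `ψ i` in a
`K(y)`-basis of `F`; the determinant of the pencil `∑ X i A i` is a form `P` of degree
`[F : K(y)]` over `K(y)` (`exists_pencil_det`); a `K`-linear retraction `ρ` of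
`K[X] → K(y), p ↦ p(y)` turns the coefficients of `P` into polynomials, and `G j` is the form of
the `j`-th coefficients (`exists_coeff_apply`).
-/

set_option autoImplicit false
set_option linter.unusedSectionVars false

namespace Fermat.Agent.S17.H.Glob.NormFormsCore

open AlgebraicCurve Polynomial IntermediateField
open Fermat.Agent.S24.FF Fermat.Agent.S17.R

section Algebra

/-- The determinant of a pencil of matrices `∑ i, c i • A i` is a form of degree `d` in `c`. -/
theorem exists_pencil_det {L : Type*} [CommRing L] {n d : ℕ}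
    (A : Fin n → Matrix (Fin d) (Fin d) L) :
    ∃ P : MvPolynomial (Fin n) L, P.IsHomogeneous d ∧
      ∀ c : Fin n → L, MvPolynomial.eval c P = Matrix.det (∑ i, c i • A i) := by
  classical
  have hentry : ∀ r s : Fin d,
      (∑ i, (MvPolynomial.X i : MvPolynomial (Fin n) L) * MvPolynomial.C (A i r s)).IsHomogeneous
        1 := by
    intro r s
    refine MvPolynomial.IsHomogeneous.sum _ _ _ fun i _ => ?_
    have h := (MvPolynomial.isHomogeneous_X L i).mul
      (MvPolynomial.isHomogeneous_C (Fin n) (A i r s))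
    exact h
  refine ⟨Matrix.det (Matrix.of fun r s : Fin d =>
    ∑ i, (MvPolynomial.X i : MvPolynomial (Fin n) L) * MvPolynomial.C (A i r s)), ?_, fun c => ?_⟩
  · rw [Matrix.det_apply]
    refine MvPolynomial.IsHomogeneous.sum _ _ _ fun τ _ => ?_
    have h1 := MvPolynomial.IsHomogeneous.prod Finset.univ
      (fun r : Fin d => (Matrix.of fun r s : Fin d =>
        ∑ i, (MvPolynomial.X i : MvPolynomial (Fin n) L) * MvPolynomial.C (A i r s)) (τ r) r)
      (fun _ => 1) (fun r _ => hentry (τ r) r)
    have h2 : (∑ _r : Fin d, 1) = d := by simp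
    rw [h2] at h1
    have h3 : (∏ r : Fin d, (Matrix.of fun r s : Fin d =>
        ∑ i, (MvPolynomial.X i : MvPolynomial (Fin n) L) * MvPolynomial.C (A i r s)) (τ r) r) ∈
        MvPolynomial.homogeneousSubmodule (Fin n) L d := h1
    rw [Units.smul_def]
    exact zsmul_mem h3 _
  · rw [RingHom.map_det]
    congr 1
    ext r s
    simp [Matrix.sum_apply, Matrix.smul_apply]

/-- Apply a `K`-linear functional to the coefficients of a form over an extension `L` of `K`. -/
theorem exists_coeff_apply {K L : Type*} [Field K] [Field L] [Algebra K L] {σ : Type*}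
    (lam : L →ₗ[K] K) (P : MvPolynomial σ L) {d : ℕ} (hP : P.IsHomogeneous d) :
    ∃ G : MvPolynomial σ K, G.IsHomogeneous d ∧
      ∀ c : σ → K, MvPolynomial.eval c G =
        lam (MvPolynomial.eval (fun i => algebraMap K L (c i)) P) := by
  classical
  refine ⟨∑ m ∈ P.support, MvPolynomial.monomial m (lam (P.coeff m)), ?_, fun c => ?_⟩
  · refine MvPolynomial.IsHomogeneous.sum _ _ _ fun m hm => ?_
    apply MvPolynomial.isHomogeneous_monomial
    by_contra hne
    exact (MvPolynomial.mem_support_iff.mp hm) (hP.coeff_eq_zero hne)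
  · have hR : MvPolynomial.eval (fun i => algebraMap K L (c i)) P =
        ∑ m ∈ P.support, (∏ i ∈ m.support, c i ^ m i) • P.coeff m := by
      rw [MvPolynomial.eval_eq]
      refine Finset.sum_congr rfl fun m _ => ?_
      rw [Algebra.smul_def, map_prod, mul_comm]
      simp only [map_pow]
    rw [hR, map_sum, map_sum]
    refine Finset.sum_congr rfl fun m _ => ?_
    rw [MvPolynomial.eval_monomial, map_smul, smul_eq_mul, mul_comm]
    rfl

end Algebra

variable {K F : Type*} [Field K] [Field F] [Algebra K F]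
variable [IsAlgClosed K] [CharZero K] [Algebra.EssFiniteType K F]

/-- A function with a pole is not constant. -/
theorem transcendental_of_ord_neg {v : Place K F} {y : F} (hy0 : v.ord y < 0) :
    Transcendental K y := by
  by_contra hnot
  have hmem : y ∈ Set.range (algebraMap K F) := by
    by_contra h
    exact hnot (transcendental_of_not_mem_range h)
  obtain ⟨c, rfl⟩ := hmem
  rw [ord_algebraMap] at hy0
  exact lt_irrefl _ hy0

/-- `[F : K(y)] = -ord_{v₀} y` when `v₀` is the only pole of `y`. -/
theorem finrank_eq_neg_ord (htr : Algebra.trdeg K F = 1) (v₀ : Place K F) {y : F}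
    (hy : RegOff v₀ y) (hy0 : v₀.ord y < 0) :
    (Module.finrank K⟮y⟯ F : ℤ) = -v₀.ord y := by
  have h := sum_ord_poles htr (transcendental_of_ord_neg hy0)
  have hset : {v : Place K F | v.ord y < 0} = {v₀} := by
    ext v
    constructor
    · intro hv
      by_contra hne
      have h1 : 0 ≤ v.ord y := hy.ord_nonneg hne
      have h2 : v.ord y < 0 := hv
      omega
    · intro hv
      rw [Set.mem_singleton_iff.mp hv]
      exact hy0
  rw [hset, finsum_mem_singleton] at h
  exact h.symm

/-- Sections `∑ c i • ψ i` of functions regular off `v₀` with pole order `≤ M` at `v₀` have pole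
order `≤ M` at `v₀`. -/
theorem neg_le_ord_sum (v₀ : Place K F) {n : ℕ} (ψ : Fin n → F) (hψ : ∀ i, RegOff v₀ (ψ i))
    {M : ℕ} (hM : ∀ i, -(M : ℤ) ≤ v₀.ord (ψ i)) (c : Fin n → K) (hc : (∑ i, c i • ψ i) ≠ 0) :
    -(M : ℤ) ≤ v₀.ord (∑ i, c i • ψ i) := by
  classical
  have hsL : (∑ i, c i • ψ i) ∈ riemannRochSpace ((M : ℤ) • Finsupp.single v₀ (1 : ℤ)) := by
    refine Submodule.sum_mem _ fun i _ => Submodule.smul_mem _ _ ?_
    rw [mem_L_iff]
    by_cases h0 : ψ i = 0
    · exact Or.inl h0
    · refine Or.inr fun v => ?_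
      by_cases hv : v = v₀
      · rw [hv, Finsupp.smul_apply, Finsupp.single_eq_same, smul_eq_mul, mul_one]
        exact hM i
      · rw [Finsupp.smul_apply, Finsupp.single_apply, if_neg (fun h => hv h.symm), smul_zero,
          neg_zero]
        exact (hψ i).ord_nonneg hv
  have h := (mem_L_of_ne_zero hc).mp hsL v₀
  rwa [Finsupp.smul_apply, Finsupp.single_eq_same, smul_eq_mul, mul_one] at h

/-- **D1a (FORMS + ROOTS)** with the literal (ROOTS) `exists_normPoly` as a hypothesis: the norm
to `K[y]` of a linear combination of functions regular off `v₀` is a polynomial in `y` whose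
coefficients are forms of degree `[F : K(y)]` in the coefficients, and whose roots are the
`y`-values of the zeros, with multiplicities. -/
theorem exists_norm_forms_of (htr : Algebra.trdeg K F = 1) (v₀ : Place K F) {y : F}
    (hy : RegOff v₀ y) (hy0 : v₀.ord y < 0)
    (hroots : ∀ f : F, RegOff v₀ f → f ≠ 0 →
      ∃ p : K[X], Polynomial.aeval y p = ((Algebra.norm (IntermediateField.adjoin K {y}) f :
          IntermediateField.adjoin K {y}) : F) ∧ p ≠ 0 ∧ (p.natDegree : ℤ) = -v₀.ord f ∧
        ∀ a : K, ((p.rootMultiplicity a : ℕ) : ℤ) =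
          ∑ᶠ w ∈ {w : Place K F | 0 < w.ord (y - algebraMap K F a)}, w.ord f)
    {n : ℕ} (ψ : Fin n → F) (hψ : ∀ i, RegOff v₀ (ψ i))
    {M : ℕ} (hM : ∀ i, -(M : ℤ) ≤ v₀.ord (ψ i)) :
    ∃ G : Fin (M + 1) → MvPolynomial (Fin n) K,
      (∀ j, (G j).IsHomogeneous (-(v₀.ord y)).toNat) ∧
      ∀ c : Fin n → K, (∑ i, c i • ψ i) ≠ 0 →
        (∃ j, MvPolynomial.eval c (G j) ≠ 0) ∧
        ∀ a : K,
          (((∑ j : Fin (M + 1), Polynomial.monomial (j : ℕ)
              (MvPolynomial.eval c (G j))).rootMultiplicity a : ℕ) : ℤ)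
            = ∑ᶠ w ∈ {w : Place K F | 0 < w.ord (y - algebraMap K F a)},
                w.ord (∑ i, c i • ψ i) := by
  classical
  have hyT : Transcendental K y := transcendental_of_ord_neg hy0
  have hfin : Module.Finite K⟮y⟯ F := finite_adjoin_simple htr hyT
  have hdeg := finrank_eq_neg_ord htr v₀ hy hy0
  -- the matrices of the multiplications by the `ψ i`
  let b : Module.Basis (Fin (Module.finrank K⟮y⟯ F)) K⟮y⟯ F := Module.finBasis K⟮y⟯ F
  obtain ⟨P, hPhom, hPeval⟩ := exists_pencil_det (fun i => Algebra.leftMulMatrix b (ψ i))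
  -- a `K`-linear retraction of `p ↦ p(y)`
  have hgenT : Transcendental K (AdjoinSimple.gen K y) := by
    intro halg
    apply hyT
    have h := halg.algebraMap (A := F)
    rwa [AdjoinSimple.algebraMap_gen] at h
  have hker : LinearMap.ker (Polynomial.aeval (R := K) (AdjoinSimple.gen K y)).toLinearMap = ⊥ :=
    LinearMap.ker_eq_bot.mpr (transcendental_iff_injective.mp hgenT)
  obtain ⟨ρ, hρ⟩ := LinearMap.exists_leftInverse_of_injective _ hker
  have hρ' : ∀ p : K[X], ρ (Polynomial.aeval (AdjoinSimple.gen K y) p) = p := fun p =>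
    LinearMap.congr_fun hρ p
  -- the forms
  choose G hGhom hGeval using fun j : Fin (M + 1) =>
    exists_coeff_apply ((Polynomial.lcoeff K (j : ℕ)).comp ρ) P hPhom
  refine ⟨G, fun j => ?_, fun c hc => ?_⟩
  · have h1 : (-(v₀.ord y)).toNat = Module.finrank K⟮y⟯ F := by omega
    rw [h1]
    exact hGhom j
  · have hsReg : RegOff v₀ (∑ i, c i • ψ i) := RegOff.sum _ fun i _ => (hψ i).smul (c i)
    obtain ⟨p, hp, hp0, hpdeg, hproots⟩ := hroots _ hsReg hc
    -- the norm of the section as the value of the pencil determinant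
    have hnorm : Algebra.norm K⟮y⟯ (∑ i, c i • ψ i) =
        MvPolynomial.eval (fun i => algebraMap K K⟮y⟯ (c i)) P := by
      rw [hPeval, Algebra.norm_eq_matrix_det b, map_sum]
      congr 1
      refine Finset.sum_congr rfl fun i _ => ?_
      rw [← IsScalarTower.algebraMap_smul K⟮y⟯ (c i) (ψ i), map_smul]
    have hpL : Polynomial.aeval (AdjoinSimple.gen K y) p = Algebra.norm K⟮y⟯ (∑ i, c i • ψ i) := by
      apply (algebraMap K⟮y⟯ F).injective
      rw [← Polynomial.aeval_algebraMap_apply, AdjoinSimple.algebraMap_gen]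
      exact hp
    have hcoeff : ∀ j : Fin (M + 1), MvPolynomial.eval c (G j) = p.coeff (j : ℕ) := by
      intro j
      rw [hGeval j c, ← hnorm, ← hpL, LinearMap.comp_apply, hρ' p, Polynomial.lcoeff_apply]
    have hsord := neg_le_ord_sum v₀ ψ hψ hM c hc
    have hpM : p.natDegree < M + 1 := by omega
    have hpoly : (∑ j : Fin (M + 1), Polynomial.monomial (j : ℕ) (MvPolynomial.eval c (G j))) =
        p := by
      conv_rhs => rw [p.as_sum_range' (M + 1) hpM]
      rw [Finset.sum_range]
      exact Finset.sum_congr rfl fun j _ => by rw [hcoeff j]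
    rw [hpoly]
    refine ⟨⟨⟨p.natDegree, hpM⟩, ?_⟩, hproots⟩
    rw [hcoeff]
    exact Polynomial.leadingCoeff_ne_zero.mpr hp0

end Fermat.Agent.S17.H.Glob.NormFormsCore
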