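/-
Program MW (S17), strand H, block D, leaf D1a - the norm polynomial.

`v₀` a place of a function field `F / K` (`K` algebraically closed of characteristic zero), `y` a
function regular off `v₀` with a pole at `v₀` (the *pencil*).  For `f` regular off `v₀` the norm
`N_{F / K(y)} f` is a polynomial in `y`; its roots are the `y`-values of the zeros of `f`, with
multiplicities, and its degree is the pole order of `f` at `v₀` (`exists_normPoly`).
-/
import Mathlib
import Fermat.Agent.Lib.FFNorm.Places
import Fermat.Agent.Lib.FFNorm.Along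
import Fermat.Agent.S17.H.Glob.Eval

set_option autoImplicit false

namespace Fermat.Agent.S17.H.Glob

open AlgebraicCurve Polynomial IntermediateField
open Fermat.Agent.S24.FF

namespace NormPoly

section Rational

variable {K L : Type*} [Field K] [Field L] [Algebra K L]

/-- Order at a pole of `t` of a polynomial in `t`. -/
theorem ord_aeval_of_pole (v : Place K L) {t : L} (ht : v.ord t < 0) :
    ∀ (n : ℕ) (p : K[X]), p ≠ 0 → p.natDegree = n →
      Polynomial.aeval t p ≠ 0 ∧ v.ord (Polynomial.aeval t p) = n * v.ord t := by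
  have ht0 : t ≠ 0 := by
    rintro rfl
    simp at ht
  intro n
  induction n using Nat.strong_induction_on with
  | _ n ih =>
    intro p hp hn
    have hlc : p.leadingCoeff ≠ 0 := Polynomial.leadingCoeff_ne_zero.mpr hp
    have hmain0 : algebraMap K L p.leadingCoeff * t ^ n ≠ 0 :=
      mul_ne_zero (by simpa using hlc) (pow_ne_zero n ht0)
    have hmain : v.ord (algebraMap K L p.leadingCoeff * t ^ n) = n * v.ord t := by
      rw [v.ord_mul (by simpa using hlc) (pow_ne_zero n ht0), ord_algebraMap, zero_add,
        ← zpow_natCast, v.ord_zpow]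
    have hsplit : Polynomial.aeval t p =
        algebraMap K L p.leadingCoeff * t ^ n + Polynomial.aeval t p.eraseLead := by
      conv_lhs => rw [← Polynomial.eraseLead_add_C_mul_X_pow p]
      rw [map_add, map_mul, Polynomial.aeval_C, map_pow, Polynomial.aeval_X, hn, add_comm]
    rcases eq_or_ne p.eraseLead 0 with he | he
    · rw [hsplit, he, map_zero, add_zero]
      exact ⟨hmain0, hmain⟩
    · have hlt : p.eraseLead.natDegree < n := by
        rcases Polynomial.eraseLead_natDegree_lt_or_eraseLead_eq_zero p with h | h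
        · rwa [hn] at h
        · exact absurd h he
      obtain ⟨hr0, hr⟩ := ih _ hlt p.eraseLead he rfl
      have hords : v.ord (algebraMap K L p.leadingCoeff * t ^ n) <
          v.ord (Polynomial.aeval t p.eraseLead) := by
        rw [hmain, hr]
        have : (p.eraseLead.natDegree : ℤ) < n := by exact_mod_cast hlt
        nlinarith
      have hord := ord_add_eq_of_lt v hords hmain0 hr0
      refine ⟨?_, ?_⟩
      · rw [hsplit]
        intro h0
        have h1 : Polynomial.aeval t p.eraseLead = -(algebraMap K L p.leadingCoeff * t ^ n) := by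
          rw [eq_neg_iff_add_eq_zero, add_comm]; exact h0
        rw [h1, ord_neg] at hords
        exact lt_irrefl _ hords
      · rw [hsplit, hord, hmain]

variable [IsAlgClosed K]

/-- Order at a simple zero of `t - a` of a polynomial in `t`: the root multiplicity. -/
theorem ord_aeval_of_zero (htr : Algebra.trdeg K L = 1) (v : Place K L) {t : L} {a : K}
    (ht : v.ord (t - algebraMap K L a) = 1) {p : K[X]} (hp : p ≠ 0) :
    Polynomial.aeval t p ≠ 0 ∧
      v.ord (Polynomial.aeval t p) = (p.rootMultiplicity a : ℤ) := by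
  have hev : IsEval (evalAt (K := K) (F := L)) := isEval_evalAt htr
  have hta0 : t - algebraMap K L a ≠ 0 := by
    intro h
    rw [h] at ht
    simp at ht
  have htmem : t ∈ v.toValuationSubring := by
    have h1 : t - algebraMap K L a ∈ v.toValuationSubring := mem_of_ord_pos v (by omega)
    have h2 := v.toValuationSubring.add_mem _ _ h1 (v.algebraMap_mem' a)
    rwa [sub_add_cancel] at h2
  have hevt : evalAt v t = a :=
    (hev.eq_iff_ord_pos htmem (sub_ne_zero.mp hta0)).mpr (by omega)
  obtain ⟨q, hq, hndvd⟩ := Polynomial.exists_eq_pow_rootMultiplicity_mul_and_not_dvd p hp a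
  have hqa : q.eval a ≠ 0 := by
    intro h
    exact hndvd (Polynomial.dvd_iff_isRoot.mpr h)
  have hqmem : Polynomial.aeval t q ∈ v.toValuationSubring := by
    rw [Polynomial.aeval_eq_sum_range]
    refine v.toValuationSubring.sum_mem fun i _ => ?_
    rw [Algebra.smul_def]
    exact v.toValuationSubring.mul_mem _ _ (v.algebraMap_mem' _)
      (v.toValuationSubring.pow_mem htmem i)
  have hevq : evalAt v (Polynomial.aeval t q) = q.eval a := by
    rw [hev.map_aeval htmem, hevt]
  have hq0 : Polynomial.aeval t q ≠ 0 ∧ v.ord (Polynomial.aeval t q) = 0 := by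
    have h1 := (hev.eq_zero_iff hqmem).not.mp (by rw [hevq]; exact hqa)
    rw [not_or] at h1
    refine ⟨h1.1, ?_⟩
    have h2 := ord_nonneg_of_mem v hqmem
    have h3 := h1.2
    omega
  have hsplit : Polynomial.aeval t p =
      (t - algebraMap K L a) ^ p.rootMultiplicity a * Polynomial.aeval t q := by
    conv_lhs => rw [hq]
    rw [map_mul, map_pow, map_sub, Polynomial.aeval_X, Polynomial.aeval_C]
  refine ⟨?_, ?_⟩
  · rw [hsplit]
    exact mul_ne_zero (pow_ne_zero _ hta0) hq0.1
  · rw [hsplit, v.ord_mul (pow_ne_zero _ hta0) hq0.1, hq0.2, add_zero, ← zpow_natCast,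
      v.ord_zpow, ht, mul_one]

end Rational

section Unique

/-- A finite sum of integers `≥ 1` which equals `1` has exactly one term. -/
theorem exists_unique_of_sum_eq_one {α : Type*} (S : Finset α) (g : α → ℤ)
    (hg : ∀ x ∈ S, 1 ≤ g x) (hsum : ∑ x ∈ S, g x = 1) :
    ∃ v ∈ S, g v = 1 ∧ ∀ w ∈ S, w = v := by
  classical
  have hne : S.Nonempty := by
    rw [Finset.nonempty_iff_ne_empty]
    rintro rfl
    simp at hsum
  obtain ⟨v, hv⟩ := hne
  have h1 : g v + ∑ x ∈ S.erase v, g x = 1 := by rw [Finset.add_sum_erase S g hv]; exact hsum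
  have h2 : ((S.erase v).card : ℤ) ≤ ∑ x ∈ S.erase v, g x := by
    have := Finset.card_nsmul_le_sum (S.erase v) g 1
      (fun x hx => hg x (Finset.mem_of_mem_erase hx))
    simpa using this
  have h3 := hg v hv
  have h4 : (S.erase v).card = 0 := by omega
  refine ⟨v, hv, by omega, fun w hw => ?_⟩
  by_contra hne'
  have : w ∈ S.erase v := Finset.mem_erase.mpr ⟨hne', hw⟩
  rw [Finset.card_eq_zero] at h4
  rw [h4] at this
  simp at this

variable {K L : Type*} [Field K] [Field L] [Algebra K L] [IsAlgClosed K] [CharZero K]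
  [Algebra.EssFiniteType K L]

/-- In a rational function field `K(t)` the function `t - a` has exactly one zero, a simple
one. -/
theorem exists_unique_zero (htr : Algebra.trdeg K L = 1) {t : L} (ht : Transcendental K t)
    (hgen : K⟮t⟯ = ⊤) (a : K) :
    ∃ v : Place K L, v.ord (t - algebraMap K L a) = 1 ∧
      ∀ w : Place K L, 0 < w.ord (t - algebraMap K L a) → w = v := by
  have hfin := zeros_finite htr ht a
  have hsum := sum_ord_zeros htr ht a
  have hrank : Module.finrank K⟮t⟯ L = 1 := by
    rw [hgen]; exact IntermediateField.finrank_top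
  rw [hrank, finsum_mem_eq_finite_toFinset_sum _ hfin] at hsum
  obtain ⟨v, hv, hv1, huniq⟩ := exists_unique_of_sum_eq_one hfin.toFinset
    (fun x => x.ord (t - algebraMap K L a))
    (fun x hx => by
      have : 0 < x.ord (t - algebraMap K L a) := by simpa using hx
      show 1 ≤ x.ord (t - algebraMap K L a)
      omega)
    (by exact_mod_cast hsum)
  exact ⟨v, hv1, fun w hw => huniq w (by simpa using hw)⟩

/-- In a rational function field `K(t)` the function `t` has exactly one pole, a simple one. -/
theorem exists_unique_pole (htr : Algebra.trdeg K L = 1) {t : L} (ht : Transcendental K t)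
    (hgen : K⟮t⟯ = ⊤) :
    ∃ v : Place K L, v.ord t = -1 ∧ ∀ w : Place K L, w.ord t < 0 → w = v := by
  have hfin := poles_finite htr ht
  have hsum := sum_ord_poles htr ht
  have hrank : Module.finrank K⟮t⟯ L = 1 := by
    rw [hgen]; exact IntermediateField.finrank_top
  rw [hrank, finsum_mem_eq_finite_toFinset_sum _ hfin] at hsum
  obtain ⟨v, hv, hv1, huniq⟩ := exists_unique_of_sum_eq_one hfin.toFinset
    (fun x => -x.ord t)
    (fun x hx => by
      have : x.ord t < 0 := by simpa using hx
      show 1 ≤ -x.ord t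
      omega)
    (by exact_mod_cast hsum)
  have hv1' : -v.ord t = 1 := hv1
  exact ⟨v, by omega, fun w hw => huniq w (by simpa using hw)⟩

end Unique

section Fiber

variable {K L F : Type*} [Field K] [Field L] [Field F] [Algebra K L] [Algebra K F]
  [Algebra L F] [IsScalarTower K L F] [Algebra.IsIntegral L F] [HasPrincipalDivisors K F]

/-- The fibre over the unique zero of a function `g` of the small field: the zeros of `g`. -/
theorem mem_fiber_iff_ord_pos (v : Place K L) {g : L} (hg : 0 < v.ord g)
    (huniq : ∀ w : Place K L, 0 < w.ord g → w = v) (w : Place K F) :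
    w ∈ v.fiber F ↔ 0 < w.ord (algebraMap L F g) := by
  rw [Place.mem_fiber, w.ord_restrict g]
  have he : 0 < Place.ramificationIndex (F := L) w := w.ramificationIndex_pos (F := L)
  have he' : (0 : ℤ) < (Place.ramificationIndex (F := L) w : ℤ) := by exact_mod_cast he
  constructor
  · intro h
    rw [h]
    exact mul_pos he' hg
  · intro h
    apply huniq
    by_contra hle
    have h1 : (w.restrict L).ord g ≤ 0 := not_lt.mp hle
    have h2 : (Place.ramificationIndex (F := L) w : ℤ) * (w.restrict L).ord g ≤ 0 :=
      mul_nonpos_of_nonneg_of_nonpos he'.le h1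
    omega

end Fiber

section Main

variable {K F : Type*} [Field K] [Field F] [Algebra K F] [IsAlgClosed K] [CharZero K]
  [Algebra.EssFiniteType K F]

omit [CharZero K] [Algebra.EssFiniteType K F] in
theorem transcendental_of_pole (v₀ : Place K F) {y : F} (hy0 : v₀.ord y < 0) :
    Transcendental K y := by
  apply transcendental_of_not_mem_range
  rintro ⟨c, rfl⟩
  rw [ord_algebraMap] at hy0
  exact lt_irrefl _ hy0

omit [IsAlgClosed K] [CharZero K] [Algebra.EssFiniteType K F] in
theorem ord_sub_const_of_pole (v : Place K F) {y : F} (hy0 : v.ord y < 0) (a : K) :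
    v.ord (y - algebraMap K F a) = v.ord y := by
  rcases eq_or_ne a 0 with rfl | ha
  · rw [map_zero, sub_zero]
  · have hy : y ≠ 0 := by
      rintro rfl
      simp at hy0
    have ha' : -algebraMap K F a ≠ 0 := by simpa using ha
    have h := ord_add_eq_of_lt v (f := y) (g := -algebraMap K F a)
      (by rw [ord_neg, ord_algebraMap]; exact hy0) hy ha'
    rwa [← sub_eq_add_neg] at h

omit [IsAlgClosed K] [CharZero K] [Algebra.EssFiniteType K F] in
theorem essFiniteType_adjoin_simple (y : F) : Algebra.EssFiniteType K K⟮y⟯ :=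
  IntermediateField.essFiniteType_iff.mpr
    (IntermediateField.fg_adjoin_of_finite (Set.finite_singleton y))

omit [IsAlgClosed K] [CharZero K] [Algebra.EssFiniteType K F] in
theorem trdeg_adjoin_simple (htr : Algebra.trdeg K F = 1) {y : F} (hy : Transcendental K y) :
    Algebra.trdeg K K⟮y⟯ = 1 := by
  haveI := isAlgebraic_adjoin_simple htr hy
  have h := trdeg_add_eq K K⟮y⟯ (A := F)
  have h0 : Algebra.trdeg K⟮y⟯ F = 0 := trdeg_eq_zero
  rw [h0, add_zero, htr] at h
  exact h

omit [IsAlgClosed K] [CharZero K] [Algebra.EssFiniteType K F] in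
theorem transcendental_gen {y : F} (hy : Transcendental K y) :
    Transcendental K (AdjoinSimple.gen K y) := by
  intro h
  apply hy
  have := h.algebraMap (A := F)
  rwa [AdjoinSimple.algebraMap_gen] at this

omit [IsAlgClosed K] [CharZero K] [Algebra.EssFiniteType K F] in
theorem adjoin_gen_eq_top (y : F) :
    K⟮AdjoinSimple.gen K y⟯ = (⊤ : IntermediateField K K⟮y⟯) := by
  apply IntermediateField.map_injective (K⟮y⟯).val
  rw [IntermediateField.adjoin_map, Set.image_singleton, ← AlgHom.fieldRange_eq_map,
    IntermediateField.fieldRange_val]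
  rfl

/-- **(ROOTS)** for a given polynomial representing the norm. -/
theorem exists_normPoly_core (htr : Algebra.trdeg K F = 1) (v₀ : Place K F) {y : F}
    (hy : RegOff v₀ y) (hy0 : v₀.ord y < 0) {f : F} (hf : RegOff v₀ f) (hf0 : f ≠ 0) :
    ∃ p : K[X], Polynomial.aeval (AdjoinSimple.gen K y) p = Algebra.norm K⟮y⟯ f ∧ p ≠ 0 ∧
      (p.natDegree : ℤ) = -v₀.ord f ∧
      ∀ a : K, ((p.rootMultiplicity a : ℕ) : ℤ) =
        ∑ᶠ w ∈ {w : Place K F | 0 < w.ord (y - algebraMap K F a)}, w.ord f := by
  classical
  have hyT := transcendental_of_pole v₀ hy0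
  haveI : Module.Finite K⟮y⟯ F := finite_adjoin_simple htr hyT
  haveI : Algebra.EssFiniteType K K⟮y⟯ := essFiniteType_adjoin_simple y
  haveI : HasPrincipalDivisors K F := Fermat.Agent.Lib.FFNorm.hasPrincipalDivisors htr
  haveI : CharZero K⟮y⟯ := charZero_of_injective_algebraMap (algebraMap K K⟮y⟯).injective
  have htrL := trdeg_adjoin_simple htr hyT
  set t : K⟮y⟯ := AdjoinSimple.gen K y with ht
  have htT : Transcendental K t := transcendental_gen hyT
  have hgen : K⟮t⟯ = ⊤ := adjoin_gen_eq_top (K := K) y
  set N : K⟮y⟯ := Algebra.norm K⟮y⟯ f with hN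
  have hN0 : N ≠ 0 := Algebra.norm_ne_zero_iff.mpr hf0
  have hnorm : ∀ v : Place K K⟮y⟯, v.ord N = ∑ w ∈ v.fiber F, w.ord f := fun v =>
    Fermat.Agent.Lib.FFNorm.ord_norm_eq_sum_fiber v
      (fun a => exists_residue_sub_mem htrL v a) f hf0
  have hmap : ∀ a : K, algebraMap K⟮y⟯ F (t - algebraMap K K⟮y⟯ a) = y - algebraMap K F a := by
    intro a
    rw [map_sub, AdjoinSimple.algebraMap_gen, ← IsScalarTower.algebraMap_apply]
  -- the fibre over the zero of `t - a`
  have hfib : ∀ (a : K) (va : Place K K⟮y⟯), va.ord (t - algebraMap K K⟮y⟯ a) = 1 →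
      (∀ w : Place K K⟮y⟯, 0 < w.ord (t - algebraMap K K⟮y⟯ a) → w = va) →
      ∀ w : Place K F, w ∈ va.fiber F ↔ 0 < w.ord (y - algebraMap K F a) := by
    intro a va h1 huniq w
    rw [mem_fiber_iff_ord_pos va (g := t - algebraMap K K⟮y⟯ a) (by omega) huniq w, hmap]
  -- `N` as a fraction of polynomials in `t`
  obtain ⟨r, s, hrs⟩ := (IntermediateField.mem_adjoin_simple_iff K (N : F)).mp N.2
  have hrs' : N = Polynomial.aeval t r / Polynomial.aeval t s := by
    apply Subtype.ext
    rw [hrs, IntermediateField.coe_div, AdjoinSimple.coe_aeval_gen_apply,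
      AdjoinSimple.coe_aeval_gen_apply]
  have hs0 : Polynomial.aeval t s ≠ 0 := by
    intro h
    rw [h, div_zero] at hrs'
    exact hN0 hrs'
  have hr0 : Polynomial.aeval t r ≠ 0 := by
    intro h
    rw [h, zero_div] at hrs'
    exact hN0 hrs'
  have hs : s ≠ 0 := by
    rintro rfl
    simp at hs0
  have hr : r ≠ 0 := by
    rintro rfl
    simp at hr0
  -- `s` divides `r`
  have hle : s.roots ≤ r.roots := by
    rw [Multiset.le_iff_count]
    intro a
    rw [Polynomial.count_roots, Polynomial.count_roots]
    obtain ⟨va, hva1, hvauniq⟩ := exists_unique_zero htrL htT hgen a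
    have h1 := (ord_aeval_of_zero htrL va hva1 hr).2
    have h2 := (ord_aeval_of_zero htrL va hva1 hs).2
    have h3 : va.ord N = (r.rootMultiplicity a : ℤ) - (s.rootMultiplicity a : ℤ) := by
      rw [hrs', div_eq_mul_inv, va.ord_mul hr0 (inv_ne_zero hs0), va.ord_inv, h1, h2]
      ring
    have h4 : 0 ≤ va.ord N := by
      rw [hnorm va]
      refine Finset.sum_nonneg fun w hw => ?_
      rw [hfib a va hva1 hvauniq w] at hw
      have hw0 : w ≠ v₀ := by
        rintro rfl
        rw [ord_sub_const_of_pole w hy0 a] at hw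
        omega
      exact ord_nonneg_of_mem w (hf w hw0)
    omega
  obtain ⟨p, hp⟩ := (IsAlgClosed.dvd_iff_roots_le_roots hs hr).mpr hle
  have hp0 : p ≠ 0 := by
    rintro rfl
    rw [mul_zero] at hp
    exact hr hp
  have hNp : Polynomial.aeval t p = N := by
    rw [hrs', hp, map_mul, mul_div_cancel_left₀ _ hs0]
  refine ⟨p, hNp, hp0, ?_, ?_⟩
  · -- the degree, at the pole of `t`
    obtain ⟨vi, hvi, hviuniq⟩ := exists_unique_pole htrL htT hgen
    have h1 := (ord_aeval_of_pole vi (t := t) (by omega) p.natDegree p hp0 rfl).2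
    rw [hNp, hvi, hnorm vi] at h1
    have hfibi : vi.fiber F = {v₀} := by
      rw [Finset.eq_singleton_iff_unique_mem]
      have key : ∀ w : Place K F, w ∈ vi.fiber F ↔ w.ord y < 0 := by
        intro w
        rw [mem_fiber_iff_ord_pos vi (g := t⁻¹) (by rw [vi.ord_inv]; omega)
          (fun w' hw' => hviuniq w' (by rw [w'.ord_inv] at hw'; omega)) w, map_inv₀,
          AdjoinSimple.algebraMap_gen, w.ord_inv]
        omega
      refine ⟨(key v₀).mpr hy0, fun w hw => ?_⟩
      by_contra hne
      have h2 := (key w).mp hw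
      have h3 := ord_nonneg_of_mem w (hy w hne)
      omega
    rw [hfibi, Finset.sum_singleton] at h1
    omega
  · intro a
    obtain ⟨va, hva1, hvauniq⟩ := exists_unique_zero htrL htT hgen a
    have h1 := (ord_aeval_of_zero htrL va hva1 hp0).2
    rw [hNp, hnorm va] at h1
    rw [← h1, ← finsum_mem_coe_finset]
    apply finsum_mem_congr _ (fun _ _ => rfl)
    ext w
    simp only [Finset.mem_coe, Set.mem_setOf_eq]
    exact hfib a va hva1 hvauniq w

end Main

end NormPoly

section Public

variable {K F : Type*} [Field K] [Field F] [Algebra K F] [IsAlgClosed K] [CharZero K]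
  [Algebra.EssFiniteType K F]

/-- **D1a (ROOTS)**: the norm polynomial of a function `f` regular off `v₀` with respect to the
pencil `y`: `N_{F / K(y)} f = p(y)`, the roots of `p` are the `y`-values of the zeros of `f` with
multiplicities, and `deg p` is the pole order of `f` at `v₀`. -/
theorem exists_normPoly (htr : Algebra.trdeg K F = 1) (v₀ : Place K F) {y : F}
    (hy : RegOff v₀ y) (hy0 : v₀.ord y < 0) {f : F} (hf : RegOff v₀ f) (hf0 : f ≠ 0) :
    ∃ p : K[X], Polynomial.aeval y p = ((Algebra.norm (IntermediateField.adjoin K {y}) f :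
        IntermediateField.adjoin K {y}) : F) ∧ p ≠ 0 ∧ (p.natDegree : ℤ) = -v₀.ord f ∧
      ∀ a : K, ((p.rootMultiplicity a : ℕ) : ℤ) =
        ∑ᶠ w ∈ {w : Place K F | 0 < w.ord (y - algebraMap K F a)}, w.ord f := by
  obtain ⟨p, h1, h2, h3, h4⟩ := NormPoly.exists_normPoly_core htr v₀ hy hy0 hf hf0
  refine ⟨p, ?_, h2, h3, h4⟩
  rw [← h1, AdjoinSimple.coe_aeval_gen_apply]

end Public

end Fermat.Agent.S17.H.Glob
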