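import Mathlib
import Fermat.Agent.S17.H.Glob.Eval
import Fermat.Agent.S17.H.Glob.NormPoly
import Fermat.Agent.S17.H.Glob.NormFormsCore

/-!
# Program MW (S17), strand H, block D, leaf D1a (FORMS): the norm of a section is a form

`exists_norm_forms` (literal of record of the leaf D1a, second half): for functions `ψ i` regular
off the place `v₀` with pole order `≤ M` at `v₀`, and a function `y` regular off `v₀` with a pole
at `v₀`, the norm to `K[y]` of the section `∑ i, c i • ψ i` is the polynomial
`∑ j ≤ M, G j (c) X ^ j` for forms `G j` of degree `[F : K(y)] = -ord_{v₀} y` in the coefficients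
`c`; its roots are the `y`-values of the zeros of the section, with multiplicities.

It is `NormFormsCore.exists_norm_forms_of` (`NormFormsCore.lean`) fed with the landed literal
(ROOTS) `exists_normPoly` (`NormPoly.lean`).
-/

set_option autoImplicit false

namespace Fermat.Agent.S17.H.Glob

open AlgebraicCurve Polynomial

variable {K F : Type*} [Field K] [Field F] [Algebra K F]
variable [IsAlgClosed K] [CharZero K] [Algebra.EssFiniteType K F]

/-- **D1a (FORMS + ROOTS)**: the norm to `K[y]` of a linear combination of functions regular off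
`v₀` is a polynomial in `y` whose coefficients are forms of degree `[F : K(y)]` in the
coefficients, and whose roots are the `y`-values of the zeros, with multiplicities. -/
theorem exists_norm_forms (htr : Algebra.trdeg K F = 1) (v₀ : Place K F) {y : F}
    (hy : RegOff v₀ y) (hy0 : v₀.ord y < 0) {n : ℕ} (ψ : Fin n → F) (hψ : ∀ i, RegOff v₀ (ψ i))
    {M : ℕ} (hM : ∀ i, -(M : ℤ) ≤ v₀.ord (ψ i)) :
    ∃ G : Fin (M + 1) → MvPolynomial (Fin n) K,
      (∀ j, (G j).IsHomogeneous (-(v₀.ord y)).toNat) ∧
      ∀ c : Fin n → K, (∑ i, c i • ψ i) ≠ 0 →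
        (∃ j, MvPolynomial.eval c (G j) ≠ 0) ∧
        ∀ a : K,
          (((∑ j : Fin (M + 1), Polynomial.monomial (j : ℕ)
              (MvPolynomial.eval c (G j))).rootMultiplicity a : ℕ) : ℤ)
            = ∑ᶠ w ∈ {w : Place K F | 0 < w.ord (y - algebraMap K F a)},
                w.ord (∑ i, c i • ψ i) :=
  NormFormsCore.exists_norm_forms_of htr v₀ hy hy0
    (fun _ hf hf0 => exists_normPoly htr v₀ hy hy0 hf hf0) ψ hψ hM

end Fermat.Agent.S17.H.Glob
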