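import Mathlib
import Fermat.Agent.S17.R.LSpace
import Fermat.Agent.S17.H.Glob.Eval
import Fermat.Agent.S17.H.Glob.NormPoly

/-!
# Program MW (S17), strand H, block D, leaf D1 (CHOW): sums over the roots of the norm polynomial

`v₀` a place of a function field `F / K`, `y` a function regular off `v₀` with a pole at `v₀`
(the pencil), `s ≠ 0` a function regular off `v₀`, `p` a polynomial whose roots are the
`y`-values of the zeros of `s` with multiplicities (the literal (ROOTS) of `exists_normPoly` /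
`exists_norm_forms`).  Then every sum over the roots of `p` is a sum over the zeros of `s`:

* `RootsSum.exists_zero_finset` : a finite set `Z` of places `≠ v₀` (the zeros of `s` off `v₀`)
  with `∑ᶠ v ≠ v₀, ord_v s * h v = ∑ v ∈ Z, ord_v s * h v` for every `h` and
  `∑ a ∈ roots p, h a = ∑ v ∈ Z, ord_v s * h (y(v))` for every `h`;
* `RootsSum.sum_roots_eq_finsum` : `∑ a ∈ roots p, h a = ∑ᶠ v ≠ v₀, ord_v s * h (y(v))`;
* `RootsSum.regOff_of_mem_L`, `RootsSum.neg_le_ord_of_mem_L` : sections of `L(M v₀)` are regular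
  off `v₀` with pole order `≤ M` at `v₀`.
-/

set_option autoImplicit false

namespace Fermat.Agent.S17.H.Glob

open AlgebraicCurve Polynomial
open Fermat.Agent.S24.FF Fermat.Agent.S17.R

namespace RootsSum

section Basic

variable {K F : Type*} [Field K] [Field F] [Algebra K F]

/-- A section of `M · v₀` is regular off `v₀`. -/
theorem regOff_of_mem_L {v₀ : Place K F} {f : F} {M : ℕ}
    (hf : f ∈ riemannRochSpace ((M : ℤ) • Finsupp.single v₀ (1 : ℤ))) : RegOff v₀ f := by
  classical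
  intro v hv
  by_cases hf0 : f = 0
  · rw [hf0]
    exact zero_mem _
  · have h := (mem_L_of_ne_zero hf0).mp hf v
    rw [Finsupp.smul_apply, Finsupp.single_apply, if_neg (fun h => hv h.symm), smul_zero,
      neg_zero] at h
    exact (ord_nonneg_iff v hf0).mp h

/-- A section of `M · v₀` has pole order `≤ M` at `v₀`. -/
theorem neg_le_ord_of_mem_L {v₀ : Place K F} {f : F} {M : ℕ}
    (hf : f ∈ riemannRochSpace ((M : ℤ) • Finsupp.single v₀ (1 : ℤ))) :
    -(M : ℤ) ≤ v₀.ord f := by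
  classical
  by_cases hf0 : f = 0
  · rw [hf0]
    simp
  · have h := (mem_L_of_ne_zero hf0).mp hf v₀
    rwa [Finsupp.smul_apply, Finsupp.single_eq_same, smul_eq_mul, mul_one] at h

end Basic

section Main

variable {K F : Type*} [Field K] [Field F] [Algebra K F] [IsAlgClosed K] [CharZero K]
  [Algebra.EssFiniteType K F]

/-- **The zeros of a section as a finite set**, with the two summation formulas: sums over the
places `≠ v₀` weighted by the order of `s`, and sums over the roots of a polynomial `p` whose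
roots are the `y`-values of the zeros of `s` with multiplicities. -/
theorem exists_zero_finset (htr : Algebra.trdeg K F = 1) (v₀ : Place K F)
    {ev : Place K F → F → K} (hev : IsEval ev) {y : F} (hy : RegOff v₀ y) (hy0 : v₀.ord y < 0)
    {s : F} (hs : RegOff v₀ s) (hs0 : s ≠ 0) {p : K[X]} (hp0 : p ≠ 0)
    (hroots : ∀ a : K, ((p.rootMultiplicity a : ℕ) : ℤ) =
      ∑ᶠ w ∈ {w : Place K F | 0 < w.ord (y - algebraMap K F a)}, w.ord s) :
    ∃ Z : Finset (Place K F), (∀ v ∈ Z, v ≠ v₀ ∧ 0 < v.ord s) ∧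
      (∀ h : Place K F → ℝ, ∑ᶠ v ∈ {v : Place K F | v ≠ v₀}, ((v.ord s : ℤ) : ℝ) * h v =
        ∑ v ∈ Z, ((v.ord s : ℤ) : ℝ) * h v) ∧
      ∀ h : K → ℝ, (p.roots.map h).sum = ∑ v ∈ Z, ((v.ord s : ℤ) : ℝ) * h (ev v y) := by
  classical
  have hfin : {v : Place K F | v.ord s ≠ 0}.Finite := support_ord_finite htr hs0
  set Z : Finset (Place K F) := hfin.toFinset.filter (fun v => v ≠ v₀) with hZ
  have hZmem : ∀ v, v ∈ Z ↔ v ≠ v₀ ∧ v.ord s ≠ 0 := by
    intro v
    rw [hZ, Finset.mem_filter, Set.Finite.mem_toFinset, Set.mem_setOf_eq, and_comm]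
  have hZpos : ∀ v ∈ Z, v ≠ v₀ ∧ 0 < v.ord s := by
    intro v hv
    have hv' := (hZmem v).mp hv
    exact ⟨hv'.1, lt_of_le_of_ne (hs.ord_nonneg hv'.1) (Ne.symm hv'.2)⟩
  have hyne : ∀ a : K, y ≠ algebraMap K F a := by
    intro a ha
    rw [ha, ord_algebraMap] at hy0
    exact lt_irrefl _ hy0
  have hfib : ∀ (a : K) (w : Place K F),
      0 < w.ord (y - algebraMap K F a) ↔ (w ≠ v₀ ∧ ev w y = a) := by
    intro a w
    constructor
    · intro hw
      have hw0 : w ≠ v₀ := by
        intro hww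
        rw [hww, NormPoly.ord_sub_const_of_pole v₀ hy0 a] at hw
        exact lt_irrefl _ (hw.trans hy0)
      exact ⟨hw0, (hev.eq_iff_ord_pos (hy w hw0) (hyne a)).mpr hw⟩
    · rintro ⟨hw0, hw⟩
      exact (hev.eq_iff_ord_pos (hy w hw0) (hyne a)).mp hw
  have hR : ∀ h : Place K F → ℝ, ∑ᶠ v ∈ {v : Place K F | v ≠ v₀}, ((v.ord s : ℤ) : ℝ) * h v =
      ∑ v ∈ Z, ((v.ord s : ℤ) : ℝ) * h v := by
    intro h
    apply finsum_mem_eq_sum_of_inter_support_eq
    ext v
    simp only [Set.mem_inter_iff, Set.mem_setOf_eq, Function.mem_support, Finset.mem_coe, hZmem]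
    constructor
    · rintro ⟨h1, h2⟩
      refine ⟨⟨h1, fun h3 => h2 ?_⟩, h2⟩
      rw [h3, Int.cast_zero, zero_mul]
    · rintro ⟨⟨h1, _⟩, h2⟩
      exact ⟨h1, h2⟩
  have hmult : ∀ a : K, ((p.rootMultiplicity a : ℕ) : ℤ) =
      ∑ w ∈ Z.filter (fun w => ev w y = a), w.ord s := by
    intro a
    rw [hroots a]
    apply finsum_mem_eq_sum_of_inter_support_eq
    ext w
    simp only [Set.mem_inter_iff, Set.mem_setOf_eq, Function.mem_support, Finset.coe_filter,
      hZmem, hfib]
    tauto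
  have hmaps : ∀ v ∈ Z, ev v y ∈ p.roots.toFinset := by
    intro v hv
    rw [Multiset.mem_toFinset, Polynomial.mem_roots hp0, ← Polynomial.rootMultiplicity_pos hp0]
    have h1 : 0 < v.ord s := (hZpos v hv).2
    have h2 : v.ord s ≤ ∑ w ∈ Z.filter (fun w => ev w y = ev v y), w.ord s :=
      Finset.single_le_sum (f := fun w : Place K F => w.ord s)
        (fun w hw => (hZpos w (Finset.mem_filter.mp hw).1).2.le)
        (Finset.mem_filter.mpr ⟨hv, rfl⟩)
    have h3 := hmult (ev v y)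
    omega
  refine ⟨Z, hZpos, hR, fun h => ?_⟩
  have hfiber := Finset.sum_fiberwise_of_maps_to hmaps
    (fun v : Place K F => ((v.ord s : ℤ) : ℝ) * h (ev v y))
  rw [← hfiber, Finset.sum_multiset_map_count]
  apply Finset.sum_congr rfl
  intro a _
  rw [Polynomial.count_roots, nsmul_eq_mul]
  have h5 : ((p.rootMultiplicity a : ℕ) : ℝ) =
      ∑ w ∈ Z.filter (fun w => ev w y = a), ((w.ord s : ℤ) : ℝ) := by
    have h4 := congrArg (Int.cast : ℤ → ℝ) (hmult a)
    rw [Int.cast_natCast, Int.cast_sum] at h4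
    exact h4
  rw [h5, Finset.sum_mul]
  apply Finset.sum_congr rfl
  intro w hw
  rw [(Finset.mem_filter.mp hw).2]

/-- **Sums over the roots of the norm polynomial are sums over the zeros of the section.** -/
theorem sum_roots_eq_finsum (htr : Algebra.trdeg K F = 1) (v₀ : Place K F)
    {ev : Place K F → F → K} (hev : IsEval ev) {y : F} (hy : RegOff v₀ y) (hy0 : v₀.ord y < 0)
    {s : F} (hs : RegOff v₀ s) (hs0 : s ≠ 0) {p : K[X]} (hp0 : p ≠ 0)
    (hroots : ∀ a : K, ((p.rootMultiplicity a : ℕ) : ℤ) =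
      ∑ᶠ w ∈ {w : Place K F | 0 < w.ord (y - algebraMap K F a)}, w.ord s) (h : K → ℝ) :
    (p.roots.map h).sum =
      ∑ᶠ v ∈ {v : Place K F | v ≠ v₀}, ((v.ord s : ℤ) : ℝ) * h (ev v y) := by
  obtain ⟨Z, -, hZ1, hZ2⟩ := exists_zero_finset htr v₀ hev hy hy0 hs hs0 hp0 hroots
  rw [hZ2 h, hZ1 (fun v => h (ev v y))]

end Main

end RootsSum

end Fermat.Agent.S17.H.Glob
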