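import Mathlib
import Fermat.Agent.S17.R.LSpace
import Fermat.Agent.S17.H.A.EvalGe
import Fermat.Agent.S17.H.AbsHeight.GaussMahler
import Fermat.Agent.S17.H.Glob.NormForms
import Fermat.Agent.S17.H.Glob.Compare
import Fermat.Agent.S17.H.Glob.RootsSum

/-!
# Program MW (S17), strand H, block D, leaf D1 (CHOW)

`chow` (literal of record of the leaf D1): on a curve over `Qb = AlgebraicClosure ℚ`, for a
family `φ` in `L(m0 v₀)` containing `1` and attaining the pole order `m0`, and an independent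
family `ψ` in `L(M v₀)`, the height of the coefficient vector `c` of a section
`s = ∑ c i • ψ i` is, up to a bounded error, the sum over the zeros `v ≠ v₀` of `s` (with
multiplicities) of the normalised `φ`-heights `hT (φ(v)) / m0`.

Proof: `y := φ_top` is the pencil; the norm of `s` to `Qb[y]` is `∑ j ≤ M, G j (c) X ^ j` with
forms `G j` of degree `m0` without common zero (`exists_norm_forms`), so
`hT (G(c)) = m0 * hT c + O(1)` (`hT_eval_le`, `hT_eval_ge`); by Gauss–Mahler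
(`abs_hT_sub_sum_hQ_roots_monomial_le`) `hT (G(c))` is the sum of `hQ` over the roots up to
`O(M)`; the roots are the `y`-values of the zeros of `s` (`RootsSum.exists_zero_finset`); and
`hQ (y(v)) = hT (φ(v)) + O(1)` off `v₀` (`exists_compare` with `α = (y, 1)`, `β = φ`).
-/

set_option autoImplicit false

namespace Fermat.Agent.S17.H.Glob

open AlgebraicCurve Polynomial
open Fermat.Agent.S17.R Fermat.Agent.S17.H

section Heights

local notation "Qb" => AlgebraicClosure ℚ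

variable {F : Type*} [Field F] [Algebra Qb F] [Algebra.EssFiniteType Qb F]

/-- **D1 (CHOW)**: the height of the coefficient vector of a section `s = ∑ c i • ψ i` of
`L(M v₀)` is, up to a bounded error, the sum of the normalised `φ`-heights of its zeros. -/
theorem chow (htr : Algebra.trdeg Qb F = 1) (v₀ : Place Qb F)
    {ev : Place Qb F → F → Qb} (hev : IsEval ev) {m0 r : ℕ} (φ : Fin r → F)
    (hφ : ∀ i, φ i ∈ riemannRochSpace ((m0 : ℤ) • Finsupp.single v₀ (1 : ℤ)))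
    (hφ1 : ∃ i, φ i = 1) (hφtop : ∃ i, v₀.ord (φ i) = -(m0 : ℤ)) (hm0 : 0 < m0)
    {M n : ℕ} (ψ : Fin n → F) (hψ : LinearIndependent Qb ψ)
    (hψM : ∀ i, ψ i ∈ riemannRochSpace ((M : ℤ) • Finsupp.single v₀ (1 : ℤ))) :
    ∃ C : ℝ, ∀ c : Fin n → Qb, c ≠ 0 →
      |(∑ᶠ v ∈ {v : Place Qb F | v ≠ v₀},
            ((v.ord (∑ i, c i • ψ i) : ℤ) : ℝ) * hT (fun i => ev v (φ i))) / (m0 : ℝ)
          - hT c| ≤ C := by
  classical
  have hφreg : ∀ i, RegOff v₀ (φ i) := fun i => RootsSum.regOff_of_mem_L (hφ i)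
  have hφord : ∀ i, -(m0 : ℤ) ≤ v₀.ord (φ i) := fun i => RootsSum.neg_le_ord_of_mem_L (hφ i)
  have hψreg : ∀ i, RegOff v₀ (ψ i) := fun i => RootsSum.regOff_of_mem_L (hψM i)
  have hψord : ∀ i, -(M : ℤ) ≤ v₀.ord (ψ i) := fun i => RootsSum.neg_le_ord_of_mem_L (hψM i)
  obtain ⟨it, hit⟩ := hφtop
  have hm0Z : (0 : ℤ) < (m0 : ℤ) := by exact_mod_cast hm0
  have hm0R : (0 : ℝ) < (m0 : ℝ) := by exact_mod_cast hm0
  have hy : RegOff v₀ (φ it) := hφreg it
  have hy0 : v₀.ord (φ it) < 0 := by rw [hit]; omega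
  have hdeg : (-(v₀.ord (φ it))).toNat = m0 := by rw [hit, neg_neg, Int.toNat_natCast]
  -- the norm forms
  obtain ⟨G, hG, hGc⟩ := exists_norm_forms htr v₀ hy hy0 ψ hψreg hψord
  rw [hdeg] at hG
  have hs0 : ∀ c : Fin n → Qb, c ≠ 0 → (∑ i, c i • ψ i) ≠ 0 := by
    intro c hc h
    apply hc
    funext i
    exact Fintype.linearIndependent_iff.mp hψ c h i
  have hG0 : ∀ x : Fin n → Qb, (∀ j, MvPolynomial.eval x (G j) = 0) → x = 0 := by
    intro x hx
    by_contra hx0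
    obtain ⟨j, hj⟩ := (hGc x (hs0 x hx0)).1
    exact hj (hx j)
  obtain ⟨C1, hC1⟩ := hT_eval_ge G hG hG0
  obtain ⟨C2, hC2⟩ := hT_eval_le G hG
  -- the comparison of `hQ (y(v))` with `hT (φ(v))`
  have hα : ∀ i : Fin 2, RegOff v₀ ((![φ it, 1] : Fin 2 → F) i) := by
    intro i
    fin_cases i
    · exact hy
    · exact RegOff.one
  have hαa : ∀ i : Fin 2, -(m0 : ℤ) ≤ v₀.ord ((![φ it, 1] : Fin 2 → F) i) := by
    intro i
    fin_cases i
    · exact hφord it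
    · have h1 : v₀.ord (1 : F) = 0 := by
        have := Fermat.Agent.S24.FF.ord_algebraMap v₀ (1 : Qb)
        rwa [map_one] at this
      show -(m0 : ℤ) ≤ v₀.ord (1 : F)
      rw [h1]
      omega
  obtain ⟨C3, hC3⟩ := exists_compare htr v₀ hev (a := m0) (b := m0) (![φ it, 1] : Fin 2 → F) φ
    hα hαa ⟨1, rfl⟩ ⟨0, hit⟩ hm0 hφreg hφord hφ1 ⟨it, hit⟩ hm0
  have hcmp : ∀ v : Place Qb F, v ≠ v₀ →
      |hT (fun i => ev v (φ i)) - hQ (ev v (φ it))| ≤ |C3| / (m0 : ℝ) := by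
    intro v hv
    have h := hC3 v hv
    have e : (fun i : Fin 2 => ev v ((![φ it, 1] : Fin 2 → F) i)) = ![ev v (φ it), 1] := by
      funext i
      fin_cases i
      · rfl
      · exact hev.map_one v
    rw [e] at h
    have h' : |(m0 : ℝ) * (hT (fun i => ev v (φ i)) - hQ (ev v (φ it)))| ≤ |C3| := by
      have e2 : (m0 : ℝ) * (hT (fun i => ev v (φ i)) - hQ (ev v (φ it))) =
          -((m0 : ℝ) * hT ![ev v (φ it), 1] - (m0 : ℝ) * hT (fun j => ev v (φ j))) := by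
        unfold hQ
        ring
      rw [e2, abs_neg]
      exact h.trans (le_abs_self C3)
    rw [abs_mul, abs_of_pos hm0R] at h'
    rw [le_div_iff₀ hm0R]
    linarith
  refine ⟨((M : ℝ) * (|C3| / (m0 : ℝ)) + ((M : ℝ) * Real.log 2 + Real.log ((M : ℝ) + 1))
    + (|C1| + |C2|)) / (m0 : ℝ), fun c hc => ?_⟩
  have hs := hs0 c hc
  have hsreg : RegOff v₀ (∑ i, c i • ψ i) :=
    RegOff.sum _ fun i _ => (hψreg i).smul (c i)
  obtain ⟨hg0, hroots⟩ := hGc c hs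
  have hg : (fun j => MvPolynomial.eval c (G j)) ≠ 0 := by
    obtain ⟨j, hj⟩ := hg0
    intro h
    exact hj (congrFun h j)
  have hP0 := sum_monomial_fin_ne_zero hg
  obtain ⟨Z, hZpos, hZ1, hZ2⟩ :=
    RootsSum.exists_zero_finset htr v₀ hev hy hy0 hsreg hs hP0 hroots
  have hGM := abs_hT_sub_sum_hQ_roots_monomial_le hg
  rw [hZ2 hQ] at hGM
  rw [hZ1 (fun v => hT (fun i => ev v (φ i)))]
  -- the number of zeros is at most `M`
  have hW : ∑ v ∈ Z, ((v.ord (∑ i, c i • ψ i) : ℤ) : ℝ) ≤ (M : ℝ) := by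
    have h1 := hZ2 (fun _ => (1 : ℝ))
    rw [Multiset.map_const', Multiset.sum_replicate, nsmul_eq_mul, mul_one] at h1
    have h2 : ∑ v ∈ Z, ((v.ord (∑ i, c i • ψ i) : ℤ) : ℝ) =
        ∑ v ∈ Z, ((v.ord (∑ i, c i • ψ i) : ℤ) : ℝ) * 1 :=
      Finset.sum_congr rfl fun v _ => (mul_one _).symm
    rw [h2, ← h1]
    have h3 := (Polynomial.card_roots' (∑ j : Fin (M + 1), Polynomial.monomial (j : ℕ)
      (MvPolynomial.eval c (G j)))).trans (natDegree_sum_monomial_fin_le _)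
    exact_mod_cast h3
  -- the two sums over the zeros differ by at most `M * |C3| / m0`
  have hAB : |∑ v ∈ Z, ((v.ord (∑ i, c i • ψ i) : ℤ) : ℝ) * hT (fun i => ev v (φ i)) -
      ∑ v ∈ Z, ((v.ord (∑ i, c i • ψ i) : ℤ) : ℝ) * hQ (ev v (φ it))| ≤
      (M : ℝ) * (|C3| / (m0 : ℝ)) := by
    rw [← Finset.sum_sub_distrib]
    calc |∑ v ∈ Z, (((v.ord (∑ i, c i • ψ i) : ℤ) : ℝ) * hT (fun i => ev v (φ i)) -
          ((v.ord (∑ i, c i • ψ i) : ℤ) : ℝ) * hQ (ev v (φ it)))|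
        ≤ ∑ v ∈ Z, |((v.ord (∑ i, c i • ψ i) : ℤ) : ℝ) * hT (fun i => ev v (φ i)) -
          ((v.ord (∑ i, c i • ψ i) : ℤ) : ℝ) * hQ (ev v (φ it))| := Finset.abs_sum_le_sum_abs _ _
      _ ≤ ∑ v ∈ Z, ((v.ord (∑ i, c i • ψ i) : ℤ) : ℝ) * (|C3| / (m0 : ℝ)) := by
        apply Finset.sum_le_sum
        intro v hv
        have hpos : (0 : ℝ) ≤ ((v.ord (∑ i, c i • ψ i) : ℤ) : ℝ) := by
          exact_mod_cast (hZpos v hv).2.le
        rw [← mul_sub, abs_mul, abs_of_nonneg hpos]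
        exact mul_le_mul_of_nonneg_left (hcmp v (hZpos v hv).1) hpos
      _ = (∑ v ∈ Z, ((v.ord (∑ i, c i • ψ i) : ℤ) : ℝ)) * (|C3| / (m0 : ℝ)) :=
        (Finset.sum_mul _ _ _).symm
      _ ≤ (M : ℝ) * (|C3| / (m0 : ℝ)) :=
        mul_le_mul_of_nonneg_right hW (div_nonneg (abs_nonneg _) hm0R.le)
  have h1 := hC1 c hc
  have h2 := hC2 c
  have hc1 := le_abs_self C1
  have hc2 := le_abs_self C2
  have hc1' := abs_nonneg C1
  have hc2' := abs_nonneg C2
  have hkey : |∑ v ∈ Z, ((v.ord (∑ i, c i • ψ i) : ℤ) : ℝ) * hT (fun i => ev v (φ i)) -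
      (m0 : ℝ) * hT c| ≤ (M : ℝ) * (|C3| / (m0 : ℝ)) +
        ((M : ℝ) * Real.log 2 + Real.log ((M : ℝ) + 1)) + (|C1| + |C2|) := by
    rw [abs_le] at hAB hGM ⊢
    constructor <;> linarith [hAB.1, hAB.2, hGM.1, hGM.2]
  have e3 : (∑ v ∈ Z, ((v.ord (∑ i, c i • ψ i) : ℤ) : ℝ) * hT (fun i => ev v (φ i))) / (m0 : ℝ)
      - hT c = (∑ v ∈ Z, ((v.ord (∑ i, c i • ψ i) : ℤ) : ℝ) * hT (fun i => ev v (φ i)) -
        (m0 : ℝ) * hT c) / (m0 : ℝ) := by
    field_simp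
  rw [e3, abs_div, abs_of_pos hm0R]
  exact div_le_div_of_nonneg_right hkey hm0R.le

end Heights

end Fermat.Agent.S17.H.Glob
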