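/-
Program MW (S17), strand H, block D, leaf D1b (COMPARE) - the consumer forms.

`exists_compare` (file `Compare`) in the shapes the consumers of blocks D / F read:

* `exists_compare_le`        : the one-sided comparison `a * hT (β(v)) ≤ b * hT (α(v)) + C`
                               (`β` any family regular off `v₀` with pole orders `≤ b`);
* `exists_hT_valVec_le_plH`  : `hT (ψ(v)) ≤ M * plH ev φ m₀ v + C` for `ψ` in `L(M v₀)`;
* `exists_hQ_le_hT_valVec`   : `m₀ * hQ (x(v)) ≤ n * hT (φ(v)) + C` for `x` of pole order `≤ n`;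
* `exists_hT_valVec_le_hQ`   : `n * hT (φ(v)) ≤ m₀ * hQ (x(v)) + C` for `x` of pole order `n`;
* `exists_abs_plH_sub_hQ_le` : `|n * plH ev φ m₀ v - hQ (x(v))| ≤ C`.
-/
import Mathlib
import Fermat.Agent.S17.H.Glob.Compare
import Fermat.Agent.S17.H.Glob.PlaceHeight
import Fermat.Agent.S17.H.AbsHeight.Tuple

set_option autoImplicit false

namespace Fermat.Agent.S17.H.Glob

open AlgebraicCurve Polynomial
open Fermat.Agent.S17.H

section Heights

local notation "Qb" => AlgebraicClosure ℚ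

variable {F : Type*} [Field F] [Algebra Qb F] [Algebra.EssFiniteType Qb F]

/-- **One-sided COMPARE.** `α` regular off `v₀`, containing `1`, with top pole order `a`; `β`
regular off `v₀` with pole orders `≤ b`. Then `a * hT (β(v)) ≤ b * hT (α(v)) + C` off `v₀`. -/
theorem exists_compare_le (htr : Algebra.trdeg Qb F = 1) (v₀ : Place Qb F)
    {ev : Place Qb F → F → Qb} (hev : IsEval ev) {p q a b : ℕ} (α : Fin p → F) (β : Fin q → F)
    (hα : ∀ i, RegOff v₀ (α i)) (hα1 : ∃ i, α i = 1)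
    (hαtop : ∃ i, v₀.ord (α i) = -(a : ℤ)) (ha : 0 < a)
    (hβ : ∀ j, RegOff v₀ (β j)) (hβb : ∀ j, -(b : ℤ) ≤ v₀.ord (β j)) (hb : 0 < b) :
    ∃ C : ℝ, ∀ v : Place Qb F, v ≠ v₀ →
      (a : ℝ) * hT (fun j => ev v (β j)) ≤ (b : ℝ) * hT (fun i => ev v (α i)) + C := by
  -- adjoin `1` to `β`
  have hβ' : ∀ j : Fin (q + 1), RegOff v₀ ((Fin.cons 1 β : Fin (q + 1) → F) j) := by
    intro j
    refine Fin.cases ?_ (fun j => ?_) j
    · rw [Fin.cons_zero]; exact RegOff.one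
    · rw [Fin.cons_succ]; exact hβ j
  have hβ'b : ∀ j : Fin (q + 1), -(b : ℤ) ≤ v₀.ord ((Fin.cons 1 β : Fin (q + 1) → F) j) := by
    intro j
    refine Fin.cases ?_ (fun j => ?_) j
    · rw [Fin.cons_zero, Place.ord_one]
      have : (0 : ℤ) ≤ (b : ℤ) := Int.natCast_nonneg b
      omega
    · rw [Fin.cons_succ]; exact hβb j
  obtain ⟨C, hC⟩ := Compare.exists_le_of_weightedRel v₀
    (fun hy hw hy0 hwy => exists_weighted_rel htr v₀ hy hw hy0 hwy) hev α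
    (Fin.cons 1 β : Fin (q + 1) → F) hα hα1 hαtop ha hβ' hβ'b ⟨0, Fin.cons_zero _ _⟩ hb
  refine ⟨C, fun v hv => ?_⟩
  have h := hC v hv
  have hle : hT (fun j => ev v (β j)) ≤
      hT (fun j => ev v ((Fin.cons 1 β : Fin (q + 1) → F) j)) := by
    have h2 := Tuple.hT_comp_le (Fin.succ : Fin q → Fin (q + 1))
      (fun j => ev v ((Fin.cons 1 β : Fin (q + 1) → F) j))
    have e : (fun j => ev v ((Fin.cons 1 β : Fin (q + 1) → F) j)) ∘ (Fin.succ : Fin q → Fin (q + 1))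
        = fun j => ev v (β j) := by
      funext j
      simp only [Function.comp_apply, Fin.cons_succ]
    rwa [e] at h2
  have ha' : (0 : ℝ) ≤ (a : ℝ) := Nat.cast_nonneg a
  have := mul_le_mul_of_nonneg_left hle ha'
  linarith

/-- The comparison of the height of the value vector of a family `ψ` in `L(M v₀)` with the place
height `plH ev φ m₀`. -/
theorem exists_hT_valVec_le_plH (htr : Algebra.trdeg Qb F = 1) (v₀ : Place Qb F)
    {ev : Place Qb F → F → Qb} (hev : IsEval ev) {r n m₀ M : ℕ} (φ : Fin r → F) (ψ : Fin n → F)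
    (hφ : ∀ i, RegOff v₀ (φ i)) (hφ1 : ∃ i, φ i = 1)
    (hφtop : ∃ i, v₀.ord (φ i) = -(m₀ : ℤ)) (hm₀ : 0 < m₀)
    (hψ : ∀ j, RegOff v₀ (ψ j)) (hψM : ∀ j, -(M : ℤ) ≤ v₀.ord (ψ j)) (hM : 0 < M) :
    ∃ C : ℝ, ∀ v : Place Qb F, v ≠ v₀ →
      hT (valVec ev ψ v) ≤ (M : ℝ) * plH ev φ m₀ v + C := by
  obtain ⟨C, hC⟩ := exists_compare_le htr v₀ hev φ ψ hφ hφ1 hφtop hm₀ hψ hψM hM
  refine ⟨C / (m₀ : ℝ), fun v hv => ?_⟩
  have hm : (0 : ℝ) < (m₀ : ℝ) := Nat.cast_pos.mpr hm₀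
  have h : (m₀ : ℝ) * hT (valVec ev ψ v) ≤ (M : ℝ) * hT (valVec ev φ v) + C := hC v hv
  have e : (M : ℝ) * plH ev φ m₀ v + C / (m₀ : ℝ) =
      ((M : ℝ) * hT (valVec ev φ v) + C) / (m₀ : ℝ) := by
    unfold plH
    ring
  rw [e, le_div_iff₀ hm]
  linarith

omit [Algebra.EssFiniteType Qb F] in
/-- The value vector of the pair `(x, 1)`. -/
theorem valVec_pair_one {ev : Place Qb F → F → Qb} (hev : IsEval ev) (x : F) (v : Place Qb F) :
    (fun j => ev v ((![x, 1] : Fin 2 → F) j)) = ![ev v x, 1] := by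
  funext j
  refine Fin.cases ?_ (fun j => ?_) j
  · rfl
  · refine Fin.cases ?_ (fun j => j.elim0) j
    show ev v 1 = 1
    exact hev.map_one v

/-- `m₀ * hQ (x(v)) ≤ n * hT (φ(v)) + C` for `x` regular off `v₀` of pole order `≤ n`, `φ`
containing `1` with top pole order `m₀`. -/
theorem exists_hQ_le_hT_valVec (htr : Algebra.trdeg Qb F = 1) (v₀ : Place Qb F)
    {ev : Place Qb F → F → Qb} (hev : IsEval ev) {r m₀ n : ℕ} (φ : Fin r → F)
    (hφ : ∀ i, RegOff v₀ (φ i)) (hφ1 : ∃ i, φ i = 1)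
    (hφtop : ∃ i, v₀.ord (φ i) = -(m₀ : ℤ)) (hm₀ : 0 < m₀)
    {x : F} (hx : RegOff v₀ x) (hxn : -(n : ℤ) ≤ v₀.ord x) (hn : 0 < n) :
    ∃ C : ℝ, ∀ v : Place Qb F, v ≠ v₀ →
      (m₀ : ℝ) * hQ (ev v x) ≤ (n : ℝ) * hT (valVec ev φ v) + C := by
  have hβ : ∀ j : Fin 2, RegOff v₀ ((![x, 1] : Fin 2 → F) j) := by
    intro j
    refine Fin.cases ?_ (fun j => ?_) j
    · exact hx
    · refine Fin.cases ?_ (fun j => j.elim0) j
      exact RegOff.one
  have hβn : ∀ j : Fin 2, -(n : ℤ) ≤ v₀.ord ((![x, 1] : Fin 2 → F) j) := by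
    intro j
    refine Fin.cases ?_ (fun j => ?_) j
    · exact hxn
    · refine Fin.cases ?_ (fun j => j.elim0) j
      show -(n : ℤ) ≤ v₀.ord (1 : F)
      rw [Place.ord_one]
      have : (0 : ℤ) ≤ (n : ℤ) := Int.natCast_nonneg n
      omega
  obtain ⟨C, hC⟩ := exists_compare_le htr v₀ hev φ (![x, 1] : Fin 2 → F) hφ hφ1 hφtop hm₀
    hβ hβn hn
  refine ⟨C, fun v hv => ?_⟩
  have h := hC v hv
  rw [valVec_pair_one hev x v] at h
  exact h

/-- `n * hT (φ(v)) ≤ m₀ * hQ (x(v)) + C` for `x` regular off `v₀` of pole order exactly `n`, `φ`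
regular off `v₀` with pole orders `≤ m₀`. -/
theorem exists_hT_valVec_le_hQ (htr : Algebra.trdeg Qb F = 1) (v₀ : Place Qb F)
    {ev : Place Qb F → F → Qb} (hev : IsEval ev) {r m₀ n : ℕ} (φ : Fin r → F)
    (hφ : ∀ i, RegOff v₀ (φ i)) (hφm : ∀ i, -(m₀ : ℤ) ≤ v₀.ord (φ i)) (hm₀ : 0 < m₀)
    {x : F} (hx : RegOff v₀ x) (hxn : v₀.ord x = -(n : ℤ)) (hn : 0 < n) :
    ∃ C : ℝ, ∀ v : Place Qb F, v ≠ v₀ →
      (n : ℝ) * hT (valVec ev φ v) ≤ (m₀ : ℝ) * hQ (ev v x) + C := by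
  have hα : ∀ j : Fin 2, RegOff v₀ ((![x, 1] : Fin 2 → F) j) := by
    intro j
    refine Fin.cases ?_ (fun j => ?_) j
    · exact hx
    · refine Fin.cases ?_ (fun j => j.elim0) j
      exact RegOff.one
  obtain ⟨C, hC⟩ := exists_compare_le htr v₀ hev (![x, 1] : Fin 2 → F) φ hα ⟨1, rfl⟩ ⟨0, hxn⟩ hn
    hφ hφm hm₀
  refine ⟨C, fun v hv => ?_⟩
  have h := hC v hv
  rw [valVec_pair_one hev x v] at h
  exact h

/-- **The place height is the height of the `x`-coordinate**, up to a bounded error: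
`|n * plH ev φ m₀ v - hQ (x(v))| ≤ C` off `v₀`, for `x` of pole order exactly `n` at `v₀` and
`φ` regular off `v₀`, containing `1`, with top pole order `m₀`. -/
theorem exists_abs_plH_sub_hQ_le (htr : Algebra.trdeg Qb F = 1) (v₀ : Place Qb F)
    {ev : Place Qb F → F → Qb} (hev : IsEval ev) {r m₀ n : ℕ} (φ : Fin r → F)
    (hφ : ∀ i, RegOff v₀ (φ i)) (hφm : ∀ i, -(m₀ : ℤ) ≤ v₀.ord (φ i)) (hφ1 : ∃ i, φ i = 1)
    (hφtop : ∃ i, v₀.ord (φ i) = -(m₀ : ℤ)) (hm₀ : 0 < m₀)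
    {x : F} (hx : RegOff v₀ x) (hxn : v₀.ord x = -(n : ℤ)) (hn : 0 < n) :
    ∃ C : ℝ, ∀ v : Place Qb F, v ≠ v₀ →
      |(n : ℝ) * plH ev φ m₀ v - hQ (ev v x)| ≤ C := by
  obtain ⟨C₁, h₁⟩ := exists_hQ_le_hT_valVec htr v₀ hev φ hφ hφ1 hφtop hm₀ hx (le_of_eq hxn.symm) hn
  obtain ⟨C₂, h₂⟩ := exists_hT_valVec_le_hQ htr v₀ hev φ hφ hφm hm₀ hx hxn hn
  refine ⟨max C₁ C₂ / (m₀ : ℝ), fun v hv => ?_⟩
  have hm : (0 : ℝ) < (m₀ : ℝ) := Nat.cast_pos.mpr hm₀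
  have e₁ := h₁ v hv
  have e₂ := h₂ v hv
  have e : (n : ℝ) * plH ev φ m₀ v - hQ (ev v x) =
      ((n : ℝ) * hT (valVec ev φ v) - (m₀ : ℝ) * hQ (ev v x)) / (m₀ : ℝ) := by
    unfold plH
    field_simp
  rw [e, abs_div, abs_of_pos hm, div_le_div_iff_of_pos_right hm, abs_le]
  constructor
  · have := le_max_left C₁ C₂
    linarith
  · have := le_max_right C₁ C₂
    linarith

end Heights

end Fermat.Agent.S17.H.Glob
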