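/-
MW strand H, block D4 (fibre of `x`), leaf D4-CORE: the fibrewise matrix identity.

Pure algebra, Mathlib only.  `S` is a commutative `K`-algebra (on the curve: the functions regular
off `v₀`), `x ∈ S`, `w : Fin (n+1) → S` with `w 0 = 1` plays the role of a `K[x]`-basis, the matrices
`M a` are the structure matrices of the elements `φ a` (`φ a * w c = ∑ i, (M a i c)(x) * w i`),
`ev i : S →ₐ[K] K` are the `n + 1` points of the fibre `x = α`, and `V = (ev i (w k))`.

For a coefficient family `τ` put `N := ∑ a b, τ a b • (φ a • M b (x) - φ b • M a (x))` (a matrix over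
`S`) and let `C` (a matrix over `K[X]`) hold the `w`-coordinates of column `0` of `adjugate N`.  Then

  `∏ i, ∏ j ≠ i, β τ (φ (P i)) (φ (P j)) = det V ^ 2 * (det C)(α)`,

where `β τ u v = ∑ a b, τ a b * (u a * v b - u b * v a)` is the value of the alternating form `τ`
on the two points.  No discriminant, no divisibility statement, no local analysis is used.
-/
import Mathlib
import Fermat.Agent.S17.H.Fib.PairCore

set_option autoImplicit false

namespace Fermat.Agent.S17.H.FibreCore

open Matrix Polynomial

variable {K S : Type*} [Field K] [CommRing S] [Algebra K S]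

/-- The value of the alternating form with coefficients `τ` on two coordinate vectors. -/
def beta {r : ℕ} (τ : Fin r → Fin r → K) (u v : Fin r → K) : K :=
  ∑ a, ∑ b, τ a b * (u a * v b - u b * v a)

theorem beta_self {r : ℕ} (τ : Fin r → Fin r → K) (u : Fin r → K) : beta τ u u = 0 := by
  unfold beta
  refine Finset.sum_eq_zero fun a _ => Finset.sum_eq_zero fun b _ => ?_
  ring

/-- The matrix `N` of the alternating element, over `S`. -/
noncomputable def altMatrix {n r : ℕ} (x : S) (φ : Fin r → S)
    (M : Fin r → Matrix (Fin (n + 1)) (Fin (n + 1)) K[X]) (τ : Fin r → Fin r → K) :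
    Matrix (Fin (n + 1)) (Fin (n + 1)) S :=
  ∑ a, ∑ b, τ a b • (φ a • (M b).map (aeval x) - φ b • (M a).map (aeval x))

section Identity

variable {n r : ℕ} (x : S) (w : Fin (n + 1) → S) (φ : Fin r → S)
  (M : Fin r → Matrix (Fin (n + 1)) (Fin (n + 1)) K[X])

/-- The matrix of values of the basis at the points. -/
def valMatrix (ev : Fin (n + 1) → S →ₐ[K] K) : Matrix (Fin (n + 1)) (Fin (n + 1)) K :=
  Matrix.of fun i k => ev i (w k)

theorem ev_aeval (e : S →ₐ[K] K) {α : K} (he : e x = α) (p : K[X]) :
    e (aeval x p) = p.eval α := by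
  rw [← Polynomial.aeval_algHom_apply, he, Polynomial.coe_aeval_eq_eval]

/-- Evaluating the structure equations at the points: `V * M a (α) = diag (φ a (P j)) * V`. -/
theorem valMatrix_mul_structure
    (hM : ∀ a c, φ a * w c = ∑ i, aeval x (M a i c) * w i)
    {α : K} (ev : Fin (n + 1) → S →ₐ[K] K) (hev : ∀ i, ev i x = α) (a : Fin r) :
    valMatrix w ev * (M a).map (Polynomial.eval α)
      = Matrix.diagonal (fun j => ev j (φ a)) * valMatrix w ev := by
  ext j c
  rw [Matrix.mul_apply, Matrix.diagonal_mul]
  simp only [valMatrix, Matrix.of_apply, Matrix.map_apply]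
  have h := congrArg (ev j) (hM a c)
  rw [map_mul, map_sum] at h
  rw [h]
  refine Finset.sum_congr rfl fun i _ => ?_
  rw [map_mul, ev_aeval x (ev j) (hev j)]
  ring

/-- The image of `altMatrix` under the point `ev i`. -/
theorem map_altMatrix (τ : Fin r → Fin r → K) {α : K} (e : S →ₐ[K] K) (he : e x = α) :
    (altMatrix x φ M τ).map e
      = ∑ a, ∑ b, τ a b • (e (φ a) • (M b).map (Polynomial.eval α)
          - e (φ b) • (M a).map (Polynomial.eval α)) := by
  ext i j
  simp only [altMatrix, Matrix.map_apply, Matrix.sum_apply, Matrix.smul_apply, Matrix.sub_apply,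
    map_sum, map_smul, map_sub, map_mul, smul_eq_mul, ev_aeval x e he]

/-- `V * ev i (N) = diag_j (β (P i) (P j)) * V`. -/
theorem valMatrix_mul_map_altMatrix
    (hM : ∀ a c, φ a * w c = ∑ i, aeval x (M a i c) * w i)
    (τ : Fin r → Fin r → K) {α : K} (ev : Fin (n + 1) → S →ₐ[K] K) (hev : ∀ i, ev i x = α)
    (i : Fin (n + 1)) :
    valMatrix w ev * (altMatrix x φ M τ).map (ev i)
      = Matrix.diagonal (fun j => beta τ (fun a => ev i (φ a)) (fun a => ev j (φ a)))
          * valMatrix w ev := by
  rw [map_altMatrix x φ M τ (ev i) (hev i), Matrix.mul_sum]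
  have hdiag : Matrix.diagonal (fun j => beta τ (fun a => ev i (φ a)) (fun a => ev j (φ a)))
      = ∑ a, ∑ b, τ a b • (ev i (φ a) • Matrix.diagonal (fun j => ev j (φ b))
          - ev i (φ b) • Matrix.diagonal (fun j => ev j (φ a))) := by
    ext j l
    by_cases hjl : j = l
    · subst hjl
      simp only [Matrix.diagonal_apply_eq, beta, Matrix.sum_apply, Matrix.smul_apply,
        Matrix.sub_apply, smul_eq_mul]
    · simp only [Matrix.diagonal_apply_ne _ hjl, Matrix.sum_apply, Matrix.smul_apply,
        Matrix.sub_apply, smul_eq_mul, mul_zero, sub_zero, Finset.sum_const_zero]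
  rw [hdiag, Finset.sum_mul]
  refine Finset.sum_congr rfl fun a _ => ?_
  rw [Matrix.mul_sum, Finset.sum_mul]
  refine Finset.sum_congr rfl fun b _ => ?_
  rw [Matrix.mul_smul, Matrix.smul_mul, Matrix.mul_sub, Matrix.sub_mul, Matrix.mul_smul,
    Matrix.mul_smul, Matrix.smul_mul, Matrix.smul_mul,
    valMatrix_mul_structure x w φ M hM ev hev a, valMatrix_mul_structure x w φ M hM ev hev b]

/-- The adjugate of a diagonal matrix with a zero entry at `i`. -/
theorem adjugate_diagonal_of_zero {m : Type*} [Fintype m] [DecidableEq m] (d : m → K) (i : m)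
    (hi : d i = 0) :
    Matrix.adjugate (Matrix.diagonal d)
      = Matrix.diagonal (fun j => if j = i then ∏ l ∈ Finset.univ.erase i, d l else 0) := by
  rw [Matrix.adjugate_diagonal]
  congr 1
  funext j
  by_cases hj : j = i
  · subst hj; simp
  · rw [if_neg hj]
    exact Finset.prod_eq_zero (Finset.mem_erase.mpr ⟨Ne.symm hj, Finset.mem_univ i⟩) hi

/-- **D4-CORE**: the fibrewise identity. -/
theorem fibre_identity (hw0 : w 0 = 1)
    (hM : ∀ a c, φ a * w c = ∑ i, aeval x (M a i c) * w i)
    (τ : Fin r → Fin r → K)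
    (C : Matrix (Fin (n + 1)) (Fin (n + 1)) K[X])
    (hC : ∀ k, Matrix.adjugate (altMatrix x φ M τ) k 0 = ∑ m, aeval x (C k m) * w m)
    (α : K) (ev : Fin (n + 1) → S →ₐ[K] K) (hev : ∀ i, ev i x = α)
    (hV : (valMatrix w ev).det ≠ 0) :
    ∏ i, ∏ j ∈ Finset.univ.erase i,
        beta τ (fun a => ev i (φ a)) (fun a => ev j (φ a))
      = (valMatrix w ev).det ^ 2 * (C.det).eval α := by
  classical
  set V := valMatrix w ev with hVdef
  set γ : Fin (n + 1) → K := fun i => ∏ j ∈ Finset.univ.erase i,
    beta τ (fun a => ev i (φ a)) (fun a => ev j (φ a)) with hγ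
  -- the key entrywise relation
  have key : ∀ k i : Fin (n + 1),
      V.det * (C.map (Polynomial.eval α) * V.transpose) k i = Matrix.adjugate V k i * γ i := by
    intro k i
    set E := (altMatrix x φ M τ).map (ev i) with hE
    set Δ : Matrix (Fin (n + 1)) (Fin (n + 1)) K :=
      Matrix.diagonal (fun j => beta τ (fun a => ev i (φ a)) (fun a => ev j (φ a))) with hΔ
    have h1 : V * E = Δ * V := valMatrix_mul_map_altMatrix x w φ M hM τ ev hev i
    have h2 : Matrix.adjugate E * Matrix.adjugate V = Matrix.adjugate V * Matrix.adjugate Δ := by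
      rw [← Matrix.adjugate_mul_distrib, ← Matrix.adjugate_mul_distrib, h1]
    have h3 : V.det • Matrix.adjugate E = Matrix.adjugate V * Matrix.adjugate Δ * V := by
      rw [← h2, Matrix.mul_assoc, Matrix.adjugate_mul, Matrix.mul_smul, Matrix.mul_one]
    have hΔadj : Matrix.adjugate Δ = Matrix.diagonal (fun j => if j = i then γ i else 0) := by
      rw [hΔ]
      exact adjugate_diagonal_of_zero _ i (beta_self τ _)
    have hEk : Matrix.adjugate E k 0 = (C.map (Polynomial.eval α) * V.transpose) k i := by
      have : Matrix.adjugate E = (Matrix.adjugate (altMatrix x φ M τ)).map (ev i) := by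
        rw [hE]
        exact (RingHom.map_adjugate (ev i).toRingHom (altMatrix x φ M τ)).symm
      rw [this, Matrix.map_apply, hC k, map_sum, Matrix.mul_apply]
      refine Finset.sum_congr rfl fun m _ => ?_
      rw [map_mul, ev_aeval x (ev i) (hev i)]
      simp [hVdef, valMatrix]
    have hVi0 : V i 0 = 1 := by simp [hVdef, valMatrix, hw0]
    have h4 : V.det * Matrix.adjugate E k 0
        = (Matrix.adjugate V * Matrix.adjugate Δ * V) k 0 := by
      have h := congrFun (congrFun h3 k) 0
      rw [Matrix.smul_apply, smul_eq_mul] at h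
      exact h
    have h5 : (Matrix.adjugate V * Matrix.adjugate Δ * V) k 0 = Matrix.adjugate V k i * γ i := by
      rw [hΔadj, Matrix.mul_assoc, Matrix.mul_apply, Finset.sum_eq_single i]
      · rw [Matrix.diagonal_mul, if_pos rfl, hVi0, mul_one]
      · intro j _ hji
        rw [Matrix.diagonal_mul, if_neg hji, zero_mul, mul_zero]
      · intro h; exact absurd (Finset.mem_univ i) h
    rw [← hEk, h4, h5]
  have hmat : V.det • (C.map (Polynomial.eval α) * V.transpose)
      = Matrix.adjugate V * Matrix.diagonal γ := by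
    ext k i
    rw [Matrix.smul_apply, smul_eq_mul, key k i, Matrix.mul_diagonal]
  have hdet := congrArg Matrix.det hmat
  rw [Matrix.det_smul, Matrix.det_mul, Matrix.det_transpose, Matrix.det_mul, Matrix.det_adjugate,
    Matrix.det_diagonal, Fintype.card_fin] at hdet
  have hCα : (C.map (Polynomial.eval α)).det = (C.det).eval α := by
    have := (RingHom.map_det (Polynomial.evalRingHom α) C).symm
    simpa using this
  rw [hCα] at hdet
  have hne : V.det ^ n ≠ 0 := pow_ne_zero n hV
  have hfin : V.det ^ n * (∏ i, γ i) = V.det ^ n * (V.det ^ 2 * (C.det).eval α) := by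
    have e1 : V.det ^ (n + 1 - 1) = V.det ^ n := by rw [Nat.add_sub_cancel]
    rw [e1] at hdet
    rw [← hdet]; ring
  exact mul_left_cancel₀ hne hfin

end Identity

section Poly

/-- Evaluation in the formal variables commutes with evaluation in `X`. -/
theorem eval_map_evalRingHom {σ : Type*} (t : σ → K) (α : K) (q : MvPolynomial σ K[X]) :
    MvPolynomial.eval t (MvPolynomial.map (Polynomial.evalRingHom α) q)
      = (MvPolynomial.eval (fun s => Polynomial.C (t s)) q).eval α := by
  induction q using MvPolynomial.induction_on with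
  | C a => simp
  | add p q hp hq => rw [map_add, map_add, hp, hq, map_add, Polynomial.eval_add]
  | mul_X p s hp =>
    rw [map_mul, map_mul, hp, map_mul, Polynomial.eval_mul]
    simp

/-- A product over the ordered pairs of distinct indices as an iterated product. -/
theorem prod_offDiag_eq {ι M : Type*} [Fintype ι] [DecidableEq ι] [CommMonoid M]
    (f : ι × ι → M) :
    ∏ q ∈ (Finset.univ : Finset ι).offDiag, f q
      = ∏ i, ∏ j ∈ Finset.univ.erase i, f (i, j) := by
  rw [Finset.prod_sigma']
  refine Finset.prod_nbij' (fun q => ⟨q.1, q.2⟩) (fun x => (x.1, x.2)) ?_ ?_ ?_ ?_ ?_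
  · intro q hq
    rw [Finset.mem_offDiag] at hq
    simp only [Finset.mem_sigma, Finset.mem_univ, Finset.mem_erase, true_and, and_true]
    exact fun h => hq.2.2 h.symm
  · intro x hx
    simp only [Finset.mem_sigma, Finset.mem_univ, Finset.mem_erase, true_and, and_true] at hx
    rw [Finset.mem_offDiag]
    exact ⟨Finset.mem_univ _, Finset.mem_univ _, fun h => hx h.symm⟩
  · intro q _; rfl
  · intro x _; rfl
  · intro q _; rfl

/-- The value of a pair form at a point `t` of the formal variables. -/
theorem eval_pairForm {r m : ℕ} (t : Fin r × Fin r → K) (a : Fin r → Fin m → K)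
    (q : Fin m × Fin m) :
    MvPolynomial.eval t
        (Fib.pairForm (fun (s : Fin r × Fin r) i => a s.1 i) (fun s i => a s.2 i) q)
      = beta (fun c d => t (c, d)) (fun c => a c q.1) (fun c => a c q.2) := by
  unfold Fib.pairForm beta
  rw [map_sum, Fintype.sum_prod_type]
  refine Finset.sum_congr rfl fun c _ => Finset.sum_congr rfl fun d _ => ?_
  simp only [map_mul, MvPolynomial.eval_X, MvPolynomial.eval_C]

/-- **D4-CORE, formal form.**  `S` the ring on which the points are defined (on the curve: the
functions regular off `v₀`), `j : S → F` an injective `K`-algebra map into the ring in which the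
structure equations and the adjugate are read (the function field).  `Ct` holds, for every
scalar family `τ`, the `w`-coordinates of column `0` of the adjugate
(`Glob.FibreWeight.exists_fibre_weight`).  Then, as polynomials in the formal variables
`t_{ab}`,

  `∏_{i ≠ j} ∑_{a,b} t_{ab} (φ_a(P_i) φ_b(P_j) - φ_b(P_i) φ_a(P_j)) = det V ^ 2 * (det Ct)(α)`. -/
theorem fibre_identity_poly {K S F : Type*} [Field K] [Infinite K] [CommRing S] [Algebra K S]
    [CommRing F] [Algebra K F] (j : S →ₐ[K] F) (hj : Function.Injective j) {n r : ℕ}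
    (x : S) (w : Fin (n + 1) → S) (hw0 : w 0 = 1) (φ : Fin r → S)
    (M : Fin r → Matrix (Fin (n + 1)) (Fin (n + 1)) K[X])
    (hM : ∀ a c, j (φ a) * j (w c) = ∑ i, aeval (j x) (M a i c) * j (w i))
    (Ct : Matrix (Fin (n + 1)) (Fin (n + 1)) (MvPolynomial (Fin r × Fin r) K[X]))
    (hC : ∀ (τ : Fin r → Fin r → K) (k : Fin (n + 1)),
      Matrix.adjugate (∑ a, ∑ b, τ a b •
          (j (φ a) • (M b).map (aeval (j x)) - j (φ b) • (M a).map (aeval (j x)))) k 0
        = ∑ m, aeval (j x) (MvPolynomial.eval
            (fun ab : Fin r × Fin r => Polynomial.C (τ ab.1 ab.2)) (Ct k m)) * j (w m))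
    (α : K) (ev : Fin (n + 1) → S →ₐ[K] K) (hev : ∀ i, ev i x = α)
    (hV : (Matrix.of fun i k => ev i (w k)).det ≠ 0) :
    ∏ q ∈ (Finset.univ : Finset (Fin (n + 1))).offDiag,
        Fib.pairForm (fun (s : Fin r × Fin r) i => ev i (φ s.1)) (fun s i => ev i (φ s.2)) q
      = MvPolynomial.C ((Matrix.of fun i k => ev i (w k)).det ^ 2)
          * MvPolynomial.map (Polynomial.evalRingHom α) Ct.det := by
  classical
  -- the structure equations in `S`
  have hM' : ∀ a c, φ a * w c = ∑ i, aeval x (M a i c) * w i := by
    intro a c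
    apply hj
    rw [map_mul, map_sum, hM a c]
    refine Finset.sum_congr rfl fun i _ => ?_
    rw [map_mul, Polynomial.aeval_algHom_apply]
  apply MvPolynomial.funext
  intro t
  set τ : Fin r → Fin r → K := fun a b => t (a, b) with hτ
  have ht : (fun s : Fin r × Fin r => Polynomial.C (t s))
      = fun ab : Fin r × Fin r => Polynomial.C (τ ab.1 ab.2) := rfl
  set C : Matrix (Fin (n + 1)) (Fin (n + 1)) K[X] :=
    Ct.map (MvPolynomial.eval (fun ab : Fin r × Fin r => Polynomial.C (τ ab.1 ab.2))) with hCdef
  have hC' : ∀ k, Matrix.adjugate (altMatrix x φ M τ) k 0 = ∑ m, aeval x (C k m) * w m := by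
    intro k
    apply hj
    have hmap : (altMatrix x φ M τ).map j = ∑ a, ∑ b, τ a b •
        (j (φ a) • (M b).map (aeval (j x)) - j (φ b) • (M a).map (aeval (j x))) := by
      ext i l
      simp only [altMatrix, Matrix.map_apply, Matrix.sum_apply, Matrix.smul_apply,
        Matrix.sub_apply, map_sum, map_sub, map_smul, smul_eq_mul, map_mul,
        Polynomial.aeval_algHom_apply]
    have hadj : (Matrix.adjugate (altMatrix x φ M τ)).map j
        = Matrix.adjugate ((altMatrix x φ M τ).map j) :=
      RingHom.map_adjugate j.toRingHom (altMatrix x φ M τ)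
    have h1 : j (Matrix.adjugate (altMatrix x φ M τ) k 0)
        = Matrix.adjugate ((altMatrix x φ M τ).map j) k 0 := by
      rw [← hadj]; rfl
    rw [h1, hmap, hC τ k, map_sum]
    refine Finset.sum_congr rfl fun m _ => ?_
    rw [map_mul, Polynomial.aeval_algHom_apply]
    rfl
  have key := fibre_identity x w φ M hw0 hM' τ C hC' α ev hev hV
  have hdet : C.det
      = MvPolynomial.eval (fun ab : Fin r × Fin r => Polynomial.C (τ ab.1 ab.2)) Ct.det := by
    rw [hCdef]
    exact (RingHom.map_det _ _).symm
  rw [map_prod, prod_offDiag_eq, map_mul, MvPolynomial.eval_C, eval_map_evalRingHom, ht, ← hdet]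
  have hfac : ∀ i j : Fin (n + 1),
      MvPolynomial.eval t (Fib.pairForm (fun (s : Fin r × Fin r) i => ev i (φ s.1))
          (fun s i => ev i (φ s.2)) (i, j))
        = beta τ (fun a => ev i (φ a)) (fun a => ev j (φ a)) :=
    fun i j => eval_pairForm t (fun c i => ev i (φ c)) (i, j)
  simp only [hfac]
  exact key

end Poly

end Fermat.Agent.S17.H.FibreCore
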