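import Mathlib
import Fermat.Agent.S17.H.Glob.WeightedDet

/-!
# S17, strand H, block D4 (WT): weighted-degree bounds with row and column weights

Complements `Glob/WeightedDet.lean` (same namespace).  For a multiplicative filtration `W` of a
commutative ring and a square matrix `M` with `M i j ∈ W (a i + b j)` (row weights `a`, column
weights `b`):

* `det_mem_rowcol` : `det M ∈ W (∑ a + ∑ b)`;
* `adjugate_apply_mem` : `adjugate M k l ∈ W (∑ a + ∑ b - a l - b k)`;
* `IsMulFilt.pow_mem` : `x ∈ W d → x ^ k ∈ W (k * d)`.
-/

set_option autoImplicit false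

namespace Fermat.Agent.S17.H.Glob.WeightedDet

open Matrix

variable {A : Type*} [CommRing A] {W : ℤ → AddSubgroup A}

theorem IsMulFilt.pow_mem (hW : IsMulFilt W) {d : ℤ} {x : A} (hx : x ∈ W d) (k : ℕ) :
    x ^ k ∈ W ((k : ℤ) * d) := by
  induction k with
  | zero => simpa using hW.one_mem
  | succ k ih =>
    rw [pow_succ]
    have h := hW.mul_mem ih hx
    have he : (k : ℤ) * d + d = ((k + 1 : ℕ) : ℤ) * d := by push_cast; ring
    rwa [he] at h

/-- Weighted-degree bound for a determinant, with row weights `a` and column weights `b`. -/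
theorem det_mem_rowcol (hW : IsMulFilt W) {n : Type*} [Fintype n] [DecidableEq n] (a b : n → ℤ)
    (M : Matrix n n A) (hM : ∀ i j, M i j ∈ W (a i + b j)) :
    M.det ∈ W (∑ i, a i + ∑ j, b j) := by
  rw [Matrix.det_apply']
  refine AddSubgroup.sum_mem _ fun σ _ => ?_
  have hprod : ∏ i, M (σ i) i ∈ W (∑ i, a i + ∑ j, b j) := by
    have h1 := hW.prod_mem Finset.univ (fun i => M (σ i) i) (fun i => a (σ i) + b i)
      (fun i _ => hM (σ i) i)
    have h2 : ∑ i, (a (σ i) + b i) = ∑ i, a i + ∑ j, b j := by
      rw [Finset.sum_add_distrib, Equiv.sum_comp σ a]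
    rwa [h2] at h1
  rcases Int.units_eq_one_or (Equiv.Perm.sign σ) with h | h
  · simpa [h] using hprod
  · simpa [h] using (W _).neg_mem hprod

/-- Weighted-degree bound for the entries of an adjugate. -/
theorem adjugate_apply_mem (hW : IsMulFilt W) {n : Type*} [Fintype n] [DecidableEq n]
    (a b : n → ℤ) (M : Matrix n n A) (hM : ∀ i j, M i j ∈ W (a i + b j)) (k l : n) :
    M.adjugate k l ∈ W (∑ i, a i + ∑ j, b j - a l - b k) := by
  rw [Matrix.adjugate_apply]
  have hent : ∀ i j, (M.updateRow l (Pi.single k 1)) i j ∈
      W (Function.update a l (-b k) i + b j) := by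
    intro i j
    by_cases hi : i = l
    · subst hi
      rw [Matrix.updateRow_self, Function.update_self]
      by_cases hj : j = k
      · subst hj
        rw [Pi.single_eq_same, neg_add_cancel]
        exact hW.one_mem
      · rw [Pi.single_eq_of_ne hj]
        exact (W _).zero_mem
    · rw [Matrix.updateRow_ne hi, Function.update_of_ne hi]
      exact hM i j
  have h := det_mem_rowcol hW (Function.update a l (-b k)) b _ hent
  have hsum : ∑ i, Function.update a l (-b k) i = ∑ i, a i - a l - b k := by
    rw [← Finset.add_sum_erase Finset.univ _ (Finset.mem_univ l),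
      ← Finset.add_sum_erase Finset.univ a (Finset.mem_univ l), Function.update_self]
    have hrest : ∑ x ∈ Finset.univ.erase l, Function.update a l (-b k) x =
        ∑ x ∈ Finset.univ.erase l, a x :=
      Finset.sum_congr rfl fun x hx => Function.update_of_ne (Finset.ne_of_mem_erase hx) _ _
    rw [hrest]; ring
  have he : ∑ i, Function.update a l (-b k) i + ∑ j, b j = ∑ i, a i + ∑ j, b j - a l - b k := by
    rw [hsum]; ring
  rwa [he] at h

end Fermat.Agent.S17.H.Glob.WeightedDet
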