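import Mathlib
import Fermat.Agent.S17.H.Glob.WeightedDet
import Fermat.Agent.S17.H.Glob.WeightedAdj

/-!
# PROGRAM MW (S17), strand H, block D4 (adjugate form), leaf D4-WT: weights

Abstract form (no place, no curve in the statements).  `S` is a commutative `K`-algebra with a
monotone multiplicative filtration `P : ℤ → AddSubgroup S` (on the curve: `P e` = the functions
regular off `v₀` with pole order `≤ e` at `v₀`), `x ∈ P n0`, and `w : Fin (n + 1) → S` with weights
`ν` (`w c ∈ P (ν c)`, `ν 0 = 0`) has the *Apéry representation property*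

  `f ∈ P e → ∃ p, f = ∑ i, aeval x (p i) * w i ∧ ∀ i, p i ∈ degFilt K n0 (e - ν i)`

(`IsAperyFilt`; `degFilt K n0 e` = polynomials with `n0 * degree ≤ e`, zero allowed).

For `φ : Fin r → S` with `φ a ∈ P (e a)` and `e a + e b ≤ W0` for `a ≠ b`, `exists_fibre_weight`
produces

* structure matrices `M a` over `K[X]` : `φ a * w c = ∑ i, aeval x (M a i c) * w i`, with
  `M a i c ∈ degFilt K n0 (e a + ν c - ν i)`;
* a matrix `Ct` over `K[X][t]`, `t = (t_ab)` formal, holding the `w`-coordinates of column `0` of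
  the adjugate of `N^t = ∑ a b, t_ab (φ a M b (x) - φ b M a (x))` : for EVERY scalar family `τ`,
  `adjugate (∑ a, ∑ b, τ a b • (φ a • (M b).map (aeval x) - φ b • (M a).map (aeval x))) k 0`
  `  = ∑ m, aeval x (eval τ (Ct k m)) * w m`
  (this is hypothesis `hC` of helper38's `FibreCore.fibre_identity` for `C = Ct` specialised at `τ`);
* the weights: every `t`-coefficient of `Ct k m` lies in `degFilt K n0 (n * W0 - ν k - ν m)` and
  every `t`-coefficient of `det Ct` lies in `degFilt K n0 ((n + 1) * n * W0 - 2 * ∑ ν)`.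

With `∑ ν = n0 * g + n0 * (n0 - 1) / 2` (`n0 = n + 1`) the last bound reads
`deg_x (det Ct) ≤ (n0 - 1) * (W0 - 1) - 2 * g`.
-/

set_option autoImplicit false

namespace Fermat.Agent.S17.H.Glob.FibreWeight

open Matrix Polynomial
open Fermat.Agent.S17.H.Glob.WeightedDet

/-- Apéry data in a filtered `K`-algebra: a monotone multiplicative filtration `P`, an element
`x ∈ P n0`, and a family `w` with weights `ν` (`ν 0 = 0`) such that every `f ∈ P e` is
`∑ i, aeval x (p i) * w i` with `p i ∈ degFilt K n0 (e - ν i)`. -/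
structure IsAperyFilt (K : Type*) {S : Type*} [Field K] [CommRing S] [Algebra K S]
    (P : ℤ → AddSubgroup S) (x : S) (n0 : ℤ) {n : ℕ} (w : Fin (n + 1) → S)
    (ν : Fin (n + 1) → ℤ) : Prop where
  filt : IsMulFilt P
  mono : Monotone P
  const : ∀ k : K, algebraMap K S k ∈ P 0
  x_mem : x ∈ P n0
  w_mem : ∀ c, w c ∈ P (ν c)
  ν_zero : ν 0 = 0
  rep : ∀ (e : ℤ) (f : S), f ∈ P e →
    ∃ p : Fin (n + 1) → K[X], f = ∑ i, aeval x (p i) * w i ∧ ∀ i, p i ∈ degFilt K n0 (e - ν i)

variable {K S : Type*} [Field K] [CommRing S] [Algebra K S]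

/-- `aeval x p ∈ P e` for `p ∈ degFilt K n0 e`. -/
theorem aeval_mem {P : ℤ → AddSubgroup S} (hP : IsMulFilt P) (hmono : Monotone P)
    (hK : ∀ k : K, algebraMap K S k ∈ P 0) {x : S} {n0 : ℤ} (hx : x ∈ P n0) {e : ℤ} {p : K[X]}
    (hp : p ∈ degFilt K n0 e) : aeval x p ∈ P e := by
  rw [Polynomial.aeval_eq_sum_range]
  refine AddSubgroup.sum_mem _ fun i _ => ?_
  by_cases hi : p.coeff i = 0
  · rw [hi, zero_smul]; exact (P e).zero_mem
  · rw [Algebra.smul_def]
    have h2 := hP.mul_mem (hK (p.coeff i)) (hP.pow_mem hx i)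
    refine hmono ?_ h2
    have h3 : n0 * (i : ℤ) ≤ e := hp i hi
    rw [zero_add, mul_comm]
    exact h3

section Defs

variable {n r : ℕ}

/-- The matrix `φ a • M b (x) - φ b • M a (x)` over `S`. -/
noncomputable def baseMat (x : S) (φ : Fin r → S)
    (M : Fin r → Matrix (Fin (n + 1)) (Fin (n + 1)) K[X]) (a b : Fin r) :
    Matrix (Fin (n + 1)) (Fin (n + 1)) S :=
  φ a • (M b).map (aeval x) - φ b • (M a).map (aeval x)

theorem baseMat_self (x : S) (φ : Fin r → S)
    (M : Fin r → Matrix (Fin (n + 1)) (Fin (n + 1)) K[X]) (a : Fin r) :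
    baseMat x φ M a a = 0 := by
  unfold baseMat; exact sub_self _

/-- The formal matrix `N^t = ∑ a b, t_ab • (φ a • M b (x) - φ b • M a (x))` over `S[t]`. -/
noncomputable def formalMat (x : S) (φ : Fin r → S)
    (M : Fin r → Matrix (Fin (n + 1)) (Fin (n + 1)) K[X]) :
    Matrix (Fin (n + 1)) (Fin (n + 1)) (MvPolynomial (Fin r × Fin r) S) :=
  ∑ a, ∑ b, (MvPolynomial.X (a, b) : MvPolynomial (Fin r × Fin r) S) •
    (baseMat x φ M a b).map MvPolynomial.C

/-- Specialisation `t_ab ↦ τ a b` on `S[t]`. -/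
noncomputable def spec (τ : Fin r → Fin r → K) : MvPolynomial (Fin r × Fin r) S →+* S :=
  MvPolynomial.eval fun ab : Fin r × Fin r => algebraMap K S (τ ab.1 ab.2)

theorem formalMat_map_spec (x : S) (φ : Fin r → S)
    (M : Fin r → Matrix (Fin (n + 1)) (Fin (n + 1)) K[X]) (τ : Fin r → Fin r → K) :
    (formalMat x φ M).map (spec (S := S) τ) = ∑ a, ∑ b, τ a b • baseMat x φ M a b := by
  ext i j
  rw [Matrix.map_apply]
  unfold formalMat spec
  simp only [Matrix.sum_apply, Matrix.smul_apply, Matrix.map_apply, smul_eq_mul, map_sum, map_mul,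
    MvPolynomial.eval_X, MvPolynomial.eval_C]
  refine Finset.sum_congr rfl fun a _ => Finset.sum_congr rfl fun b _ => ?_
  rw [Algebra.smul_def]

end Defs

section Main

variable {P : ℤ → AddSubgroup S} {x : S} {n0 : ℤ} {n r : ℕ} {w : Fin (n + 1) → S}
  {ν : Fin (n + 1) → ℤ}

/-- Structure matrix of an element of `P e`, with degree control. -/
theorem exists_structure (h : IsAperyFilt K P x n0 w ν) {e : ℤ} {f : S} (hf : f ∈ P e) :
    ∃ M : Matrix (Fin (n + 1)) (Fin (n + 1)) K[X],
      (∀ c, f * w c = ∑ i, aeval x (M i c) * w i) ∧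
      ∀ i c, M i c ∈ degFilt K n0 (e + ν c - ν i) := by
  have hc : ∀ c, ∃ p : Fin (n + 1) → K[X], f * w c = ∑ i, aeval x (p i) * w i ∧
      ∀ i, p i ∈ degFilt K n0 (e + ν c - ν i) :=
    fun c => h.rep _ _ (h.filt.mul_mem hf (h.w_mem c))
  choose p hp1 hp2 using hc
  exact ⟨Matrix.of fun i c => p c i, fun c => hp1 c, fun i c => hp2 c i⟩

/-- The entries of `baseMat`: weight `W0 - ν r + ν c`. -/
theorem baseMat_apply_mem (h : IsAperyFilt K P x n0 w ν) (φ : Fin r → S) (e : Fin r → ℤ)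
    (hφ : ∀ a, φ a ∈ P (e a)) (W0 : ℤ) (hW : ∀ a b, a ≠ b → e a + e b ≤ W0)
    (M : Fin r → Matrix (Fin (n + 1)) (Fin (n + 1)) K[X])
    (hM : ∀ a i c, M a i c ∈ degFilt K n0 (e a + ν c - ν i)) (a b : Fin r)
    (i c : Fin (n + 1)) : baseMat x φ M a b i c ∈ P (W0 - ν i + ν c) := by
  by_cases hab : a = b
  · subst hab
    rw [baseMat_self]
    exact (P _).zero_mem
  · have h1 : φ a * aeval x (M b i c) ∈ P (W0 - ν i + ν c) := by
      have h0 := h.filt.mul_mem (hφ a) (aeval_mem h.filt h.mono h.const h.x_mem (hM b i c))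
      refine h.mono ?_ h0
      have := hW a b hab
      linarith
    have h2 : φ b * aeval x (M a i c) ∈ P (W0 - ν i + ν c) := by
      have h0 := h.filt.mul_mem (hφ b) (aeval_mem h.filt h.mono h.const h.x_mem (hM a i c))
      refine h.mono ?_ h0
      have := hW a b hab
      linarith
    have h3 := (P _).sub_mem h1 h2
    simpa [baseMat, Matrix.sub_apply, Matrix.smul_apply, Matrix.map_apply] using h3

/-- The entries of the formal matrix, in the coefficientwise filtration of `S[t]`. -/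
theorem formalMat_apply_mem (h : IsAperyFilt K P x n0 w ν) (φ : Fin r → S) (e : Fin r → ℤ)
    (hφ : ∀ a, φ a ∈ P (e a)) (W0 : ℤ) (hW : ∀ a b, a ≠ b → e a + e b ≤ W0)
    (M : Fin r → Matrix (Fin (n + 1)) (Fin (n + 1)) K[X])
    (hM : ∀ a i c, M a i c ∈ degFilt K n0 (e a + ν c - ν i)) (i c : Fin (n + 1)) :
    formalMat x φ M i c ∈ mvFilt P (fun _ : Fin r × Fin r => (0 : ℤ)) (W0 - ν i + ν c) := by
  unfold formalMat
  rw [Matrix.sum_apply]
  refine AddSubgroup.sum_mem _ fun a _ => ?_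
  rw [Matrix.sum_apply]
  refine AddSubgroup.sum_mem _ fun b _ => ?_
  rw [Matrix.smul_apply, Matrix.map_apply, smul_eq_mul]
  have hX := X_mem_mvFilt h.filt (fun _ : Fin r × Fin r => (0 : ℤ)) (a, b)
  have hC := C_mem_mvFilt (W := P) (fun _ : Fin r × Fin r => (0 : ℤ))
    (baseMat_apply_mem h φ e hφ W0 hW M hM a b i c)
  have hmul := (isMulFilt_mvFilt h.filt (fun _ : Fin r × Fin r => (0 : ℤ))).mul_mem hX hC
  rwa [zero_add] at hmul

/-- Column `0` of the adjugate of the formal matrix: weight `n * W0 - ν k`. -/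
theorem adjugate_formalMat_mem (h : IsAperyFilt K P x n0 w ν) (φ : Fin r → S) (e : Fin r → ℤ)
    (hφ : ∀ a, φ a ∈ P (e a)) (W0 : ℤ) (hW : ∀ a b, a ≠ b → e a + e b ≤ W0)
    (M : Fin r → Matrix (Fin (n + 1)) (Fin (n + 1)) K[X])
    (hM : ∀ a i c, M a i c ∈ degFilt K n0 (e a + ν c - ν i)) (k : Fin (n + 1)) :
    (formalMat x φ M).adjugate k 0 ∈
      mvFilt P (fun _ : Fin r × Fin r => (0 : ℤ)) ((n : ℤ) * W0 - ν k) := by
  have hadj := adjugate_apply_mem (isMulFilt_mvFilt h.filt (fun _ : Fin r × Fin r => (0 : ℤ)))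
    (fun i : Fin (n + 1) => W0 - ν i) ν (formalMat x φ M)
    (fun i c => formalMat_apply_mem h φ e hφ W0 hW M hM i c) k 0
  have he : ∑ i : Fin (n + 1), (W0 - ν i) + ∑ j, ν j - (W0 - ν 0) - ν k = (n : ℤ) * W0 - ν k := by
    rw [Finset.sum_sub_distrib, Finset.sum_const, Finset.card_univ, Fintype.card_fin, h.ν_zero]
    simp only [nsmul_eq_mul]
    push_cast
    ring
  rwa [he] at hadj

/-- **D4-WT.**  Existence of the structure matrices `M a` and of the formal matrix `Ct` of
`w`-coordinates of column `0` of the adjugate, with the weights. -/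
theorem exists_fibre_weight (h : IsAperyFilt K P x n0 w ν) (φ : Fin r → S) (e : Fin r → ℤ)
    (hφ : ∀ a, φ a ∈ P (e a)) (W0 : ℤ) (hW : ∀ a b, a ≠ b → e a + e b ≤ W0) :
    ∃ (M : Fin r → Matrix (Fin (n + 1)) (Fin (n + 1)) K[X])
      (Ct : Matrix (Fin (n + 1)) (Fin (n + 1)) (MvPolynomial (Fin r × Fin r) K[X])),
      (∀ a c, φ a * w c = ∑ i, aeval x (M a i c) * w i) ∧
      (∀ a i c, M a i c ∈ degFilt K n0 (e a + ν c - ν i)) ∧
      (∀ (τ : Fin r → Fin r → K) (k : Fin (n + 1)),
        Matrix.adjugate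
            (∑ a, ∑ b, τ a b • (φ a • (M b).map (aeval x) - φ b • (M a).map (aeval x))) k 0
          = ∑ m, aeval x (MvPolynomial.eval
              (fun ab : Fin r × Fin r => Polynomial.C (τ ab.1 ab.2)) (Ct k m)) * w m) ∧
      (∀ (k m : Fin (n + 1)) (mon : Fin r × Fin r →₀ ℕ),
        (Ct k m).coeff mon ∈ degFilt K n0 ((n : ℤ) * W0 - ν k - ν m)) ∧
      (∀ mon : Fin r × Fin r →₀ ℕ,
        (Ct.det).coeff mon ∈ degFilt K n0 (((n : ℤ) + 1) * n * W0 - 2 * ∑ k, ν k)) := by
  classical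
  -- structure matrices
  have hex : ∀ a, ∃ M : Matrix (Fin (n + 1)) (Fin (n + 1)) K[X],
      (∀ c, φ a * w c = ∑ i, aeval x (M i c) * w i) ∧
      ∀ i c, M i c ∈ degFilt K n0 (e a + ν c - ν i) := fun a => exists_structure h (hφ a)
  choose M hM1 hM2 using hex
  -- coefficients of column 0 of the adjugate of the formal matrix
  have h0w : ∀ mon : Fin r × Fin r →₀ ℕ, monWeight (fun _ : Fin r × Fin r => (0 : ℤ)) mon = 0 := by
    intro mon; simp [monWeight]
  have hcoeff : ∀ (k : Fin (n + 1)) (mon : Fin r × Fin r →₀ ℕ),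
      ((formalMat x φ M).adjugate k 0).coeff mon ∈ P ((n : ℤ) * W0 - ν k) := by
    intro k mon
    have hk := adjugate_formalMat_mem h φ e hφ W0 hW M hM2 k mon
    rwa [h0w, sub_zero] at hk
  have hrep : ∀ (k : Fin (n + 1)) (mon : Fin r × Fin r →₀ ℕ), ∃ p : Fin (n + 1) → K[X],
      ((formalMat x φ M).adjugate k 0).coeff mon = ∑ m, aeval x (p m) * w m ∧
      ∀ m, p m ∈ degFilt K n0 ((n : ℤ) * W0 - ν k - ν m) :=
    fun k mon => h.rep _ _ (hcoeff k mon)
  choose q hq1 hq2 using hrep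
  let Ct : Matrix (Fin (n + 1)) (Fin (n + 1)) (MvPolynomial (Fin r × Fin r) K[X]) :=
    Matrix.of fun k m => ∑ mon ∈ ((formalMat x φ M).adjugate k 0).support,
      MvPolynomial.monomial mon (q k mon m)
  have hCt : ∀ k m, Ct k m = ∑ mon ∈ ((formalMat x φ M).adjugate k 0).support,
      MvPolynomial.monomial mon (q k mon m) := fun k m => rfl
  have hCtcoeff : ∀ (k m : Fin (n + 1)) (mon : Fin r × Fin r →₀ ℕ),
      (Ct k m).coeff mon ∈ degFilt K n0 ((n : ℤ) * W0 - ν k - ν m) := by
    intro k m mon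
    rw [hCt, MvPolynomial.coeff_sum]
    refine AddSubgroup.sum_mem _ fun mon' _ => ?_
    rw [MvPolynomial.coeff_monomial]
    split_ifs
    · exact hq2 k mon' m
    · exact (degFilt K n0 _).zero_mem
  refine ⟨M, Ct, hM1, hM2, ?_, hCtcoeff, ?_⟩
  · -- specialisation
    intro τ k
    have hspec := formalMat_map_spec (K := K) x φ M τ
    have hL : (∑ a, ∑ b, τ a b • (φ a • (M b).map (aeval x) - φ b • (M a).map (aeval x)))
        = (spec (S := S) τ).mapMatrix (formalMat x φ M) := by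
      rw [RingHom.mapMatrix_apply, hspec]
      rfl
    rw [hL, ← RingHom.map_adjugate, RingHom.mapMatrix_apply, Matrix.map_apply]
    set g := (formalMat x φ M).adjugate k 0 with hg
    set T : (Fin r × Fin r →₀ ℕ) → S := fun mon =>
      mon.prod fun ab d => algebraMap K S (τ ab.1 ab.2) ^ d with hT
    have hlhs : spec (S := S) τ g = ∑ mon ∈ g.support, g.coeff mon * T mon := by
      calc spec (S := S) τ g
          = spec (S := S) τ (∑ mon ∈ g.support, MvPolynomial.monomial mon (g.coeff mon)) := by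
            rw [MvPolynomial.support_sum_monomial_coeff]
        _ = ∑ mon ∈ g.support, g.coeff mon * T mon := by
            rw [map_sum]
            refine Finset.sum_congr rfl fun mon _ => ?_
            exact MvPolynomial.eval_monomial
    have hrhs : ∀ m, aeval x (MvPolynomial.eval
        (fun ab : Fin r × Fin r => Polynomial.C (τ ab.1 ab.2)) (Ct k m))
        = ∑ mon ∈ g.support, aeval x (q k mon m) * T mon := by
      intro m
      rw [hCt, map_sum, map_sum]
      refine Finset.sum_congr rfl fun mon _ => ?_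
      rw [MvPolynomial.eval_monomial, map_mul, map_finsuppProd]
      congr 1
      refine Finsupp.prod_congr fun ab _ => ?_
      rw [map_pow, Polynomial.aeval_C]
    rw [hlhs]
    simp only [hrhs]
    simp only [Finset.sum_mul]
    rw [Finset.sum_comm]
    refine Finset.sum_congr rfl fun mon _ => ?_
    rw [hq1 k mon, Finset.sum_mul]
    refine Finset.sum_congr rfl fun m _ => ?_
    ring
  · -- the determinant
    intro mon
    have hent : ∀ k m, Ct k m ∈ mvFilt (degFilt K n0) (fun _ : Fin r × Fin r => (0 : ℤ))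
        (((n : ℤ) * W0 - ν k) + (-ν m)) := by
      intro k m mon'
      rw [h0w, sub_zero]
      have := hCtcoeff k m mon'
      have he : (n : ℤ) * W0 - ν k + -ν m = (n : ℤ) * W0 - ν k - ν m := by ring
      rwa [he]
    have hdet := det_mem_rowcol
      (isMulFilt_mvFilt (isMulFilt_degFilt (B := K) n0) (fun _ : Fin r × Fin r => (0 : ℤ)))
      (fun k : Fin (n + 1) => (n : ℤ) * W0 - ν k) (fun m => -ν m) Ct hent mon
    rw [h0w, sub_zero] at hdet
    have he : ∑ i : Fin (n + 1), ((n : ℤ) * W0 - ν i) + ∑ j : Fin (n + 1), -ν j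
        = ((n : ℤ) + 1) * n * W0 - 2 * ∑ k, ν k := by
      rw [Finset.sum_sub_distrib, Finset.sum_const, Finset.card_univ, Fintype.card_fin,
        Finset.sum_neg_distrib]
      simp only [nsmul_eq_mul]
      push_cast
      ring
    rwa [he] at hdet

/-- Determinants commute with the specialisation `t ↦ τ` (so the scalar matrices
`C^τ = Ct.map (eval τ)` of `FibreCore.fibre_identity` have `det C^τ = eval τ (det Ct)`). -/
theorem det_map_eval (Ct : Matrix (Fin (n + 1)) (Fin (n + 1)) (MvPolynomial (Fin r × Fin r) K[X]))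
    (τ : Fin r → Fin r → K) :
    (Ct.map (MvPolynomial.eval fun ab : Fin r × Fin r => Polynomial.C (τ ab.1 ab.2))).det
      = MvPolynomial.eval (fun ab : Fin r × Fin r => Polynomial.C (τ ab.1 ab.2)) Ct.det := by
  have := RingHom.map_det
    (MvPolynomial.eval fun ab : Fin r × Fin r => (Polynomial.C (τ ab.1 ab.2) : K[X])) Ct
  rw [this, RingHom.mapMatrix_apply]

/-- The degree of the `t`-coefficients of `det Ct` (nonnegative bound). -/
theorem natDegree_coeff_det_le {Ct : Matrix (Fin (n + 1)) (Fin (n + 1))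
      (MvPolynomial (Fin r × Fin r) K[X])} {B : ℤ} (hB : 0 ≤ B)
    (hdet : ∀ mon : Fin r × Fin r →₀ ℕ, (Ct.det).coeff mon ∈ degFilt K n0 B)
    (mon : Fin r × Fin r →₀ ℕ) : n0 * (((Ct.det).coeff mon).natDegree : ℤ) ≤ B :=
  natDegree_le_of_mem_degFilt (hdet mon) hB

end Main

end Fermat.Agent.S17.H.Glob.FibreWeight
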