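import Mathlib
import Fermat.Agent.S17.R.Gaps
import Fermat.Agent.S17.H.Glob.FibreWeight

/-!
# PROGRAM MW (S17), strand H, block D4 (adjugate form), leaf D4-WT: the curve instance

`poleFilt v₀ e = L(e · v₀)` is a monotone multiplicative filtration of the function field, and the
Apéry data of `R.Gaps.exists_apery` (taken as HYPOTHESES, so that the same `w`, `ν` serve FIB and
WT) make it an `IsAperyFilt` (`isAperyFilt_of_apery`).

`exists_fibre_weight_of_apery` is the exit of WT in the `R` vocabulary: for `φ a ∈ L(e a · v₀)` with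
`e a + e b ≤ W0` (`a ≠ b`) there are structure matrices `M a` over `K[X]` and a matrix `Ct` over
`K[X][t]` such that

* `φ a * w c = ∑ i, aeval x (M a i c) * w i`;
* for every scalar family `τ`, column `0` of the adjugate of
  `∑ a, ∑ b, τ a b • (φ a • (M b).map (aeval x) - φ b • (M a).map (aeval x))` has the
  `w`-coordinates `eval τ (Ct k m)`  (hypothesis `hC` of `FibreCore.fibre_identity`);
* every `t`-coefficient of `p^t = det Ct` is `0` or has `x`-degree `≤ n * (W0 - 1) - 2 * gR`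
  (`n + 1` = the pole order of `x`; for `W0 = 2 * m0 - 1` this is `2 (n0 - 1)(m0 - 1) - 2 gR`).
-/

set_option autoImplicit false

namespace Fermat.Agent.S17.H.Glob.FibreWeight

open AlgebraicCurve Matrix Polynomial
open Fermat.Agent.S17.R Fermat.Agent.S17.H.Glob.WeightedDet

variable {K F : Type*} [Field K] [Field F] [Algebra K F]

/-- The pole filtration at `v₀`: `poleFilt v₀ e = L(e · v₀)`. -/
noncomputable def poleFilt (v₀ : Place K F) (e : ℤ) : AddSubgroup F :=
  (riemannRochSpace (e • Finsupp.single v₀ (1 : ℤ))).toAddSubgroup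

theorem mem_poleFilt {v₀ : Place K F} {e : ℤ} {f : F} :
    f ∈ poleFilt v₀ e ↔ f ∈ riemannRochSpace (e • Finsupp.single v₀ (1 : ℤ)) := Iff.rfl

theorem isMulFilt_poleFilt (v₀ : Place K F) : IsMulFilt (poleFilt v₀) where
  one_mem := by
    rw [mem_poleFilt]
    have h := Gaps.one_mem_Ln v₀ 0
    rwa [Nat.cast_zero] at h
  mul_mem := by
    intro d e a b ha hb
    rw [mem_poleFilt] at ha hb ⊢
    have h := mul_mem_L ha hb
    rwa [← add_smul] at h

theorem monotone_poleFilt (v₀ : Place K F) : Monotone (poleFilt v₀) :=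
  fun _ _ h _ hf => Gaps.Ln_mono v₀ h hf

variable [IsAlgClosed K] [CharZero K] [Algebra.EssFiniteType K F]

/-- The Apéry data of `R.Gaps.exists_apery` make `poleFilt v₀` an `IsAperyFilt`. -/
theorem isAperyFilt_of_apery (htr : Algebra.trdeg K F = 1) (v₀ : Place K F) {x : F} {n : ℕ}
    (hx : x ∈ riemannRochSpace (((n + 1 : ℕ) : ℤ) • Finsupp.single v₀ (1 : ℤ)))
    (w : Fin (n + 1) → F) (ν : Fin (n + 1) → ℕ)
    (hwL : ∀ i, w i ∈ riemannRochSpace ((ν i : ℤ) • Finsupp.single v₀ (1 : ℤ)))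
    (hwo : ∀ i, v₀.ord (w i) = -(ν i : ℤ)) (hw0 : w 0 = 1)
    (hrep : ∀ (m : ℕ) (f : F), f ∈ riemannRochSpace ((m : ℤ) • Finsupp.single v₀ (1 : ℤ)) →
      ∃ p : Fin (n + 1) → Polynomial K, f = ∑ i, Polynomial.aeval x (p i) * w i ∧
        ∀ i, p i ≠ 0 → (p i).natDegree * (n + 1) + ν i ≤ m) :
    IsAperyFilt K (poleFilt v₀) x ((n + 1 : ℕ) : ℤ) w (fun i => (ν i : ℤ)) where
  filt := isMulFilt_poleFilt v₀
  mono := monotone_poleFilt v₀
  const := fun k => by
    rw [mem_poleFilt, zero_smul]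
    exact (mem_L_zero_iff htr).mpr ⟨k, rfl⟩
  x_mem := hx
  w_mem := hwL
  ν_zero := by
    have h := hwo 0
    rw [hw0, Place.ord_one] at h
    show ((ν 0 : ℕ) : ℤ) = 0
    omega
  rep := by
    intro e f hf
    rw [mem_poleFilt] at hf
    by_cases he : e < 0
    · have hbot := L_eq_bot_of_degree_neg htr (D := e • Finsupp.single v₀ (1 : ℤ))
        (by rw [Gaps.degree_zsmul_single htr]; exact he)
      rw [hbot, Submodule.mem_bot] at hf
      refine ⟨fun _ => 0, ?_, fun i => (degFilt K _ _).zero_mem⟩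
      rw [hf]
      simp
    · have he' : 0 ≤ e := not_lt.mp he
      have hcast : ((e.toNat : ℕ) : ℤ) = e := Int.toNat_of_nonneg he'
      rw [← hcast] at hf
      obtain ⟨p, hp1, hp2⟩ := hrep e.toNat f hf
      refine ⟨p, hp1, fun i => ?_⟩
      by_cases hpi : p i = 0
      · rw [hpi]; exact (degFilt K _ _).zero_mem
      · refine mem_degFilt_of_natDegree_le (Int.natCast_nonneg _) ?_
        have h1 := hp2 i hpi
        have h2 : (((p i).natDegree * (n + 1) + ν i : ℕ) : ℤ) ≤ e := by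
          rw [← hcast]; exact_mod_cast h1
        push_cast at h2 ⊢
        calc ((n : ℤ) + 1) * ((p i).natDegree : ℤ)
            = ((p i).natDegree : ℤ) * ((n : ℤ) + 1) := mul_comm _ _
          _ ≤ e - (ν i : ℤ) := by linarith

/-- `2 * ∑ ν = 2 * (n + 1) * g + n * (n + 1)` for Apéry weights with `ν i ≡ i mod (n + 1)` and
`∑ ⌊ν i / (n + 1)⌋ = g`. -/
theorem two_mul_sum_apery {n : ℕ} (ν : Fin (n + 1) → ℕ) (hwm : ∀ i, ν i % (n + 1) = (i : ℕ))
    {g : ℕ} (hsum : ∑ i, ν i / (n + 1) = g) :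
    2 * ∑ i, ν i = 2 * (n + 1) * g + n * (n + 1) := by
  have h1 : ∀ i, ν i = (n + 1) * (ν i / (n + 1)) + (i : ℕ) := by
    intro i
    have := Nat.div_add_mod (ν i) (n + 1)
    rw [hwm i] at this
    exact this.symm
  have h2 : ∑ i, ν i = (n + 1) * g + ∑ i : Fin (n + 1), (i : ℕ) := by
    rw [← hsum, Finset.mul_sum, ← Finset.sum_add_distrib]
    exact Finset.sum_congr rfl fun i _ => h1 i
  have h3 : ∑ i : Fin (n + 1), (i : ℕ) = ∑ i ∈ Finset.range (n + 1), i :=
    Fin.sum_univ_eq_sum_range (fun i => i) (n + 1)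
  have h4 : (∑ i ∈ Finset.range (n + 1), i) * 2 = (n + 1) * n := by
    have := Finset.sum_range_id_mul_two (n + 1)
    simpa using this
  rw [h2, h3]
  have : 2 * ((n + 1) * g + ∑ i ∈ Finset.range (n + 1), i)
      = 2 * (n + 1) * g + (∑ i ∈ Finset.range (n + 1), i) * 2 := by ring
  rw [this, h4]
  ring

/-- **D4-WT, curve form.**  For Apéry data `(w, ν)` of `x` at `v₀` (the clauses of
`R.Gaps.exists_apery`, pole order of `x` equal to `n + 1`) and functions `φ a ∈ L(e a · v₀)` with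
`e a + e b ≤ W0` for `a ≠ b`: structure matrices `M a`, the formal matrix `Ct` of `w`-coordinates of
column `0` of the adjugate, and the degree bound `n * (W0 - 1) - 2 * gR` for every `t`-coefficient
of `det Ct`. -/
theorem exists_fibre_weight_of_apery (htr : Algebra.trdeg K F = 1) (v₀ : Place K F) {x : F}
    {n : ℕ} (hx : x ∈ riemannRochSpace (((n + 1 : ℕ) : ℤ) • Finsupp.single v₀ (1 : ℤ)))
    (w : Fin (n + 1) → F) (ν : Fin (n + 1) → ℕ)
    (hwL : ∀ i, w i ∈ riemannRochSpace ((ν i : ℤ) • Finsupp.single v₀ (1 : ℤ)))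
    (hwo : ∀ i, v₀.ord (w i) = -(ν i : ℤ)) (hwm : ∀ i, ν i % (n + 1) = (i : ℕ))
    (hw0 : w 0 = 1) (hsum : ∑ i, ν i / (n + 1) = gR K F)
    (hrep : ∀ (m : ℕ) (f : F), f ∈ riemannRochSpace ((m : ℤ) • Finsupp.single v₀ (1 : ℤ)) →
      ∃ p : Fin (n + 1) → Polynomial K, f = ∑ i, Polynomial.aeval x (p i) * w i ∧
        ∀ i, p i ≠ 0 → (p i).natDegree * (n + 1) + ν i ≤ m)
    {r : ℕ} (φ : Fin r → F) (e : Fin r → ℤ)
    (hφ : ∀ a, φ a ∈ riemannRochSpace (e a • Finsupp.single v₀ (1 : ℤ))) (W0 : ℤ)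
    (hW : ∀ a b, a ≠ b → e a + e b ≤ W0) :
    ∃ (M : Fin r → Matrix (Fin (n + 1)) (Fin (n + 1)) K[X])
      (Ct : Matrix (Fin (n + 1)) (Fin (n + 1)) (MvPolynomial (Fin r × Fin r) K[X])),
      (∀ a c, φ a * w c = ∑ i, aeval x (M a i c) * w i) ∧
      (∀ (τ : Fin r → Fin r → K) (k : Fin (n + 1)),
        Matrix.adjugate
            (∑ a, ∑ b, τ a b • (φ a • (M b).map (aeval x) - φ b • (M a).map (aeval x))) k 0
          = ∑ m, aeval x (MvPolynomial.eval
              (fun ab : Fin r × Fin r => Polynomial.C (τ ab.1 ab.2)) (Ct k m)) * w m) ∧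
      (∀ mon : Fin r × Fin r →₀ ℕ, (Ct.det).coeff mon = 0 ∨
        ((((Ct.det).coeff mon).natDegree : ℕ) : ℤ) ≤ (n : ℤ) * (W0 - 1) - 2 * (gR K F : ℤ)) := by
  have hA := isAperyFilt_of_apery htr v₀ hx w ν hwL hwo hw0 hrep
  obtain ⟨M, Ct, h1, -, h3, -, h5⟩ := exists_fibre_weight hA φ e (fun a => hφ a) W0 hW
  refine ⟨M, Ct, h1, h3, fun mon => ?_⟩
  by_cases h0 : (Ct.det).coeff mon = 0
  · exact Or.inl h0
  · right
    have hmem := h5 mon
    have hdeg := hmem ((Ct.det).coeff mon).natDegree (by simpa using h0)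
    have hS2 := two_mul_sum_apery ν hwm hsum
    have hS2' : 2 * ∑ k, ((ν k : ℕ) : ℤ) = 2 * ((n : ℤ) + 1) * (gR K F : ℤ) + (n : ℤ) * ((n : ℤ) + 1) := by
      have := congrArg (fun t : ℕ => (t : ℤ)) hS2
      push_cast at this
      linarith
    rw [hS2'] at hdeg
    push_cast at hdeg
    have hpos : (0 : ℤ) < (n : ℤ) + 1 := by positivity
    have hfin : ((n : ℤ) + 1) * (((Ct.det).coeff mon).natDegree : ℤ)
        ≤ ((n : ℤ) + 1) * ((n : ℤ) * (W0 - 1) - 2 * (gR K F : ℤ)) := by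
      calc ((n : ℤ) + 1) * (((Ct.det).coeff mon).natDegree : ℤ)
          ≤ ((n : ℤ) + 1) * n * W0
              - (2 * ((n : ℤ) + 1) * (gR K F : ℤ) + (n : ℤ) * ((n : ℤ) + 1)) := hdeg
        _ = ((n : ℤ) + 1) * ((n : ℤ) * (W0 - 1) - 2 * (gR K F : ℤ)) := by ring
    exact le_of_mul_le_mul_left hfin hpos

end Fermat.Agent.S17.H.Glob.FibreWeight
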