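import Mathlib
import Fermat.Agent.S17.R.Gaps
import Fermat.Agent.S17.R.Apery
import Fermat.Agent.S17.H.Glob.FibreWeightInst

/-!
# PROGRAM MW (S17), strand H, block D4 (adjugate form), leaf D4-WT: the exit for FIB

`exists_fibre_weight_exit` packages, for ONE Apéry family `w` of a function `x` regular off `v₀`
with a pole of order `n + 1` at `v₀`:

* `w 0 = 1`, `w c ∈ regOff v₀`, and the basis property
  `∀ f ∈ regOff v₀, ∃! c : Fin (n + 1) → K[X], f = ∑ i, aeval x (c i) * w i`;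
* for every family `φ : Fin r → F` of functions regular off `v₀` with
  `-(d : ℤ) ≤ v₀.ord (φ a) + v₀.ord (φ b)` for `a ≠ b` : structure matrices `M a` and the formal
  matrix `Ct` with
  - `φ a * w c = ∑ i, aeval x (M a i c) * w i`,
  - the adjugate clause (= `hC` of `FibreCore.fibre_identity` for every scalar `τ`),
  - `(Ct.det).coeff mon ≠ 0 → natDegree + 2 * gR K F ≤ n * (d - 1)`  (in `ℕ`, implication form).
-/

set_option autoImplicit false

namespace Fermat.Agent.S17.H.Glob.FibreWeight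

open AlgebraicCurve Matrix Polynomial
open Fermat.Agent.S17.R Fermat.Agent.S17.H.Glob.WeightedDet

variable {K F : Type*} [Field K] [Field F] [Algebra K F]
variable [IsAlgClosed K] [CharZero K] [Algebra.EssFiniteType K F]

/-- **D4-WT, exit of record for FIB.** -/
theorem exists_fibre_weight_exit (htr : Algebra.trdeg K F = 1) (v₀ : Place K F) {x : F}
    (hx : x ∈ regOff v₀) {n : ℕ} (hord : v₀.ord x = -((n + 1 : ℕ) : ℤ)) :
    ∃ w : Fin (n + 1) → F, w 0 = 1 ∧ (∀ c, w c ∈ regOff v₀) ∧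
      (∀ f ∈ regOff v₀, ∃! c : Fin (n + 1) → K[X], f = ∑ i, aeval x (c i) * w i) ∧
      ∀ {r : ℕ} (φ : Fin r → F), (∀ a, φ a ∈ regOff v₀) → ∀ {d : ℕ},
        (∀ a b, a ≠ b → -(d : ℤ) ≤ v₀.ord (φ a) + v₀.ord (φ b)) →
        ∃ (M : Fin r → Matrix (Fin (n + 1)) (Fin (n + 1)) K[X])
          (Ct : Matrix (Fin (n + 1)) (Fin (n + 1)) (MvPolynomial (Fin r × Fin r) K[X])),
          (∀ a c, φ a * w c = ∑ i, aeval x (M a i c) * w i) ∧
          (∀ (τ : Fin r → Fin r → K) (k : Fin (n + 1)),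
            Matrix.adjugate
                (∑ a, ∑ b, τ a b • (φ a • (M b).map (aeval x) - φ b • (M a).map (aeval x))) k 0
              = ∑ m, aeval x (MvPolynomial.eval
                  (fun ab : Fin r × Fin r => Polynomial.C (τ ab.1 ab.2)) (Ct k m)) * w m) ∧
          (∀ mon : Fin r × Fin r →₀ ℕ, (Ct.det).coeff mon ≠ 0 →
            ((Ct.det).coeff mon).natDegree + 2 * gR K F ≤ n * (d - 1)) := by
  classical
  have hxL : x ∈ riemannRochSpace (((n + 1 : ℕ) : ℤ) • Finsupp.single v₀ (1 : ℤ)) :=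
    Apery.mem_L_of_mem_regOff hx _ (Or.inr (by rw [hord]))
  obtain ⟨w, ν, hwL, hwo, hwm, hw0, hsum, hrep, hfree⟩ :=
    exists_apery htr v₀ x (n + 1) (Nat.succ_pos n) hxL hord
  have hw0' : w 0 = 1 := hw0
  refine ⟨w, hw0', fun c => Apery.mem_regOff_of_mem_L (hwL c), ?_, ?_⟩
  · -- the basis property
    intro f hf
    obtain ⟨m, hm⟩ := (Gaps.regular_iff v₀).mp (mem_regOff_iff.mp hf)
    obtain ⟨p, hp, -⟩ := hrep m f hm
    refine ⟨p, hp, fun c' hc' => ?_⟩
    have hzero : ∑ i, aeval x ((c' - p) i) * w i = 0 := by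
      rw [Apery.sum_sub, ← hp, ← hc', sub_self]
    have := hfree (c' - p) hzero
    exact sub_eq_zero.mp this
  · -- the weights
    intro r φ hφ d hd
    have hφL : ∀ a, φ a ∈ riemannRochSpace ((-v₀.ord (φ a)) • Finsupp.single v₀ (1 : ℤ)) :=
      fun a => Apery.mem_L_of_mem_regOff (hφ a) _ (Or.inr (by rw [neg_neg]))
    have hW : ∀ a b, a ≠ b → -v₀.ord (φ a) + -v₀.ord (φ b) ≤ (d : ℤ) := by
      intro a b hab
      have := hd a b hab
      linarith
    obtain ⟨M, Ct, h1, h3, h5⟩ := exists_fibre_weight_of_apery htr v₀ hxL w ν hwL hwo hwm hw0'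
      hsum hrep φ (fun a => -v₀.ord (φ a)) hφL (d : ℤ) hW
    refine ⟨M, Ct, h1, h3, fun mon hmon => ?_⟩
    have hdeg := (h5 mon).resolve_left hmon
    rcases Nat.eq_zero_or_pos d with hd0 | hd1
    · subst hd0
      have h2 : ((((Ct.det).coeff mon).natDegree : ℕ) : ℤ) + 2 * (gR K F : ℤ) + (n : ℤ) ≤ 0 := by
        have : (n : ℤ) * (((0 : ℕ) : ℤ) - 1) = -(n : ℤ) := by push_cast; ring
        rw [this] at hdeg
        linarith
      have h3' : ((Ct.det).coeff mon).natDegree + 2 * gR K F + n ≤ 0 := by exact_mod_cast h2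
      omega
    · have hcast : ((n * (d - 1) : ℕ) : ℤ) = (n : ℤ) * ((d : ℤ) - 1) := by
        rw [Nat.cast_mul, Nat.cast_sub hd1]; simp
      have h2 : ((((Ct.det).coeff mon).natDegree + 2 * gR K F : ℕ) : ℤ) ≤ ((n * (d - 1) : ℕ) : ℤ) := by
        rw [hcast]; push_cast; linarith
      exact_mod_cast h2

end Fermat.Agent.S17.H.Glob.FibreWeight
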