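/-
MW strand H, leaf D4s.HT (assembly core): the fibre inequality from the reduced fibre polynomial.

`F / Qb` a function field, `x` regular off `v₀` with a pole of order `n0` at `v₀`, `φ` a family
of functions regular off `v₀`.  From

* the conclusion of the fibre identity (`Fib.exists_fibrePoly_adj`, row S17.H.D4s.FIB, taken as
  the hypotheses `hpdeg`, `hpfib` at `d = 2 m0 - 1`): a polynomial `p` in the formal variables
  `t_(a,b)` over `Qb[X]` with `deg_X + 2 gR ≤ (n0 - 1)(2 m0 - 2)` on its nonzero coefficients,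
  whose value at `α` is, up to a nonzero scalar, the product of the `n0 (n0 - 1)` secant forms of
  the unramified fibre `x = α`;
* the nonvanishing of the secant vectors of distinct places (`hsig`, `SigNe.sigVec_ne_zero`);
* the height bound for products of linear forms (`Fib.sum_hT_pairForm_le`, on main);
* the lower comparison `m0 · hQ (x(v)) ≤ n0 · hT (φ(v)) + C₁` (`hcmp`, leaf D1b),

the sum of the pair terms `plD` over the ordered pairs of distinct points of an unramified fibre
is at least `(2 n0 + 2 gR - 2) · hQ α - C`.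
-/
import Mathlib
import Fermat.Agent.S17.R.PoleDegree
import Fermat.Agent.S17.H.Fib.FibreHeightSig
import Fermat.Agent.S17.H.Glob.PlaceHeight
import Fermat.Agent.S17.H.F.Theta

set_option autoImplicit false
set_option linter.unusedSectionVars false

namespace Fermat.Agent.S17.H.Glob

open AlgebraicCurve
open Fermat.Agent.S17.R

namespace FibreLower

section General

variable {K F : Type*} [Field K] [Field F] [Algebra K F]

/-- Reindexing a sum over a finset along an enumeration. -/
theorem sum_eq_sum_enum {X M : Type*} [AddCommMonoid M] (A : Finset X) {n : ℕ} (e : Fin n ≃ A)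
    (g : X → M) : ∑ u ∈ A, g u = ∑ i, g (e i) := by
  rw [← Finset.sum_coe_sort A g]
  exact (Equiv.sum_comp e (fun u : A => g u)).symm

/-- The double sum over distinct indices as a sum over the off-diagonal. -/
theorem sum_sum_ite_eq_offDiag {n : ℕ} (G : Fin n → Fin n → ℝ) :
    ∑ i, ∑ j, (if i = j then 0 else G i j) =
      ∑ q ∈ (Finset.univ : Finset (Fin n)).offDiag, G q.1 q.2 := by
  classical
  have h1 : (Finset.univ : Finset (Fin n)).offDiag =
      ((Finset.univ : Finset (Fin n)) ×ˢ (Finset.univ : Finset (Fin n))).filter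
        (fun a : Fin n × Fin n => a.1 ≠ a.2) := by
    ext a
    simp [Finset.mem_offDiag]
  rw [h1, Finset.sum_filter, Finset.sum_product]
  refine Finset.sum_congr rfl fun i _ => Finset.sum_congr rfl fun j _ => ?_
  by_cases h : i = j <;> simp [h]

open Classical in
/-- `Fermat.Agent.S17.H.F.offDiag` along an enumeration of the finset. -/
theorem offDiag_eq_sum_enum {X : Type*} (D : X → X → ℝ) (A : Finset X) {n : ℕ} (e : Fin n ≃ A) :
    Fermat.Agent.S17.H.F.offDiag D A = ∑ q ∈ (Finset.univ : Finset (Fin n)).offDiag, D (e q.1) (e q.2) := by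
  unfold Fermat.Agent.S17.H.F.offDiag
  refine Eq.trans ?_ (sum_sum_ite_eq_offDiag (fun i j => D (e i) (e j)))
  rw [sum_eq_sum_enum A e]
  refine Finset.sum_congr rfl fun i _ => ?_
  rw [sum_eq_sum_enum A e]
  refine Finset.sum_congr rfl fun j _ => ?_
  by_cases h : i = j
  · rw [if_pos h, if_pos (by rw [h])]
  · rw [if_neg h, if_neg (fun h' => h (e.injective (Subtype.ext h')))]

/-- The value of `x` on the fibre `x = α`. -/
theorem ev_eq_of_ord_pos {ev : Place K F → F → K} (hev : IsEval ev) {u : Place K F} {x : F}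
    (hxu : x ∈ u.toValuationSubring) {α : K} (hu : 0 < u.ord (x - algebraMap K F α)) :
    ev u x = α :=
  hev.eq_of_valuation_lt hxu ((valuation_lt_one_iff u _).mpr (Or.inr hu))

/-- The value of a regular function in the shape consumed by the fibre identity. -/
theorem eq_or_ord_pos {ev : Place K F → F → K} (hev : IsEval ev) {u : Place K F} {f : F}
    (hfu : f ∈ u.toValuationSubring) :
    f = algebraMap K F (ev u f) ∨ 0 < u.ord (f - algebraMap K F (ev u f)) := by
  rcases hev.sub_eq_zero_or_ord_pos hfu with h | h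
  · exact Or.inl (sub_eq_zero.mp h)
  · exact Or.inr h

end General

section Curve

variable {K F : Type*} [Field K] [Field F] [Algebra K F]
variable [IsAlgClosed K] [CharZero K] [Algebra.EssFiniteType K F]

/-- An unramified fibre of `x` has exactly `n0` points. -/
theorem card_fibre (htr : Algebra.trdeg K F = 1) (v₀ : Place K F) {x : F}
    (hx : x ∈ regOff v₀) {n0 : ℕ} (hn0 : 0 < n0) (hord : v₀.ord x = -(n0 : ℤ)) (α : K)
    (Fib : Finset (Place K F))
    (hFib : ∀ u : Place K F, u ∈ Fib ↔ 0 < u.ord (x - algebraMap K F α))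
    (hsimple : ∀ u ∈ Fib, u.ord (x - algebraMap K F α) = 1) : Fib.card = n0 := by
  have h := PoleDegree.sum_ord_fibre htr v₀ (fun v hv => hx v hv) hn0 hord α
  have hset : {v : Place K F | 0 < v.ord (x - algebraMap K F α)} = (Fib : Set (Place K F)) := by
    ext u
    exact (hFib u).symm
  rw [hset, finsum_mem_coe_finset, Finset.sum_congr rfl hsimple, Finset.sum_const,
    nsmul_eq_mul, mul_one] at h
  exact_mod_cast h

end Curve

end FibreLower

local notation "Qb" => AlgebraicClosure ℚ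

variable {F : Type*} [Field F] [Algebra Qb F] [Algebra.EssFiniteType Qb F]

open Classical in
/-- **D4s.HT, core**: the fibre inequality from the conclusion of the fibre identity (`hpdeg`,
`hpfib`), the nonvanishing of the secant vectors (`hsig`) and the lower comparison (`hcmp`). -/
theorem fibre_lower_of_fibrePoly (htr : Algebra.trdeg Qb F = 1) (v₀ : Place Qb F) {x : F}
    (hx : x ∈ regOff v₀) {n0 : ℕ} (hn0 : 0 < n0) (hord : v₀.ord x = -(n0 : ℤ))
    {ev : Place Qb F → F → Qb} (hev : IsEval ev) {m0 : ℕ} (hm0 : 0 < m0) {r : ℕ}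
    (φ : Fin r → F) (hφreg : ∀ a, φ a ∈ regOff v₀)
    (hsig : ∀ u u' : Place Qb F, u ≠ v₀ → u' ≠ v₀ → u ≠ u' → sigVec ev φ u u' ≠ 0)
    (p : MvPolynomial (Fin r × Fin r) (Polynomial Qb))
    (hpdeg : ∀ m, p.coeff m ≠ 0 →
      (p.coeff m).natDegree + 2 * gR Qb F ≤ (n0 - 1) * (2 * m0 - 1 - 1))
    (hpfib : ∀ (α : Qb) (P : Fin n0 → Place Qb F), Function.Injective P →
      (∀ i, 0 < (P i).ord (x - algebraMap Qb F α)) →
      ∀ a : Fin r → Fin n0 → Qb,
        (∀ s i, φ s = algebraMap Qb F (a s i) ∨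
          0 < (P i).ord (φ s - algebraMap Qb F (a s i))) →
        ∃ c : Qb, c ≠ 0 ∧
          ∏ q ∈ (Finset.univ : Finset (Fin n0)).offDiag,
              Fib.pairForm (fun (s : Fin r × Fin r) i => a s.1 i) (fun s i => a s.2 i) q =
            MvPolynomial.C c * MvPolynomial.map (Polynomial.evalRingHom α) p)
    (C₁ : ℝ)
    (hcmp : ∀ v : Place Qb F, v ≠ v₀ →
      (m0 : ℝ) * hQ (ev v x) ≤ (n0 : ℝ) * hT (valVec ev φ v) + C₁) :
    ∃ C : ℝ, ∀ (α : Qb) (A : Finset (Place Qb F)),
      (∀ u : Place Qb F, u ∈ A ↔ 0 < u.ord (x - algebraMap Qb F α)) →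
      (∀ u ∈ A, u.ord (x - algebraMap Qb F α) = 1) →
      (2 * (n0 : ℝ) + 2 * (gR Qb F : ℝ) - 2) * hQ α - C ≤
        Fermat.Agent.S17.H.F.offDiag (plD ev φ) A := by
  -- the degree bound as a natural number, and the constant
  obtain ⟨E, hE⟩ : ∃ E : ℕ, E = (n0 - 1) * (2 * m0 - 1 - 1) - 2 * gR Qb F := ⟨_, rfl⟩
  have hpE : ∀ m, (p.coeff m).natDegree ≤ E := by
    intro m
    by_cases h0 : p.coeff m = 0
    · rw [h0, Polynomial.natDegree_zero]
      exact Nat.zero_le _
    · have := hpdeg m h0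
      omega
  obtain ⟨C, hC⟩ := Fib.sum_hT_pairForm_le (n := n0) p E hpE
  refine ⟨2 * ((n0 : ℝ) - 1) * C₁ + C, ?_⟩
  intro α A hFib hsimple
  have hv₀x : v₀.ord x < 0 := by
    rw [hord]
    have : (0 : ℤ) < (n0 : ℤ) := by exact_mod_cast hn0
    omega
  -- the fibre has `n0` points; enumerate it
  have hcard : A.card = n0 := FibreLower.card_fibre htr v₀ hx hn0 hord α A hFib hsimple
  obtain ⟨e⟩ : Nonempty (Fin n0 ≃ A) := ⟨(A.equivFinOfCardEq hcard).symm⟩
  obtain ⟨P, hP⟩ : ∃ P : Fin n0 → Place Qb F, ∀ i, P i = (e i : Place Qb F) := ⟨_, fun _ => rfl⟩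
  have hPinj : Function.Injective P := by
    intro i j hij
    rw [hP, hP] at hij
    exact e.injective (Subtype.ext hij)
  have hPord : ∀ i, 0 < (P i).ord (x - algebraMap Qb F α) := by
    intro i
    rw [hP]
    exact (hFib _).mp (e i).2
  have hPne : ∀ i, P i ≠ v₀ := fun i => PoleDegree.ne_of_mem_fibre hv₀x (hPord i)
  -- the values
  obtain ⟨a, ha⟩ : ∃ a : Fin r → Fin n0 → Qb, ∀ s i, a s i = ev (P i) (φ s) :=
    ⟨_, fun _ _ => rfl⟩
  obtain ⟨c, hc, hprod⟩ := hpfib α P hPinj hPord a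
    (fun s i => by rw [ha]; exact FibreLower.eq_or_ord_pos hev (hφreg s (P i) (hPne i)))
  -- the secant vectors
  have hsec : ∀ q : Fin n0 × Fin n0,
      (fun s : Fin r × Fin r => a s.1 q.1 * a s.2 q.2 - a s.2 q.1 * a s.1 q.2) =
        sigVec ev φ (P q.1) (P q.2) := by
    intro q
    funext s
    simp only [sigVec, ha]
  have hsecne : ∀ q ∈ (Finset.univ : Finset (Fin n0)).offDiag,
      (fun s : Fin r × Fin r => a s.1 q.1 * a s.2 q.2 - a s.2 q.1 * a s.1 q.2) ≠ 0 := by
    intro q hq
    have hq' : q.1 ≠ q.2 := (Finset.mem_offDiag.mp hq).2.2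
    rw [hsec q]
    exact hsig (P q.1) (P q.2) (hPne q.1) (hPne q.2) (fun h => hq' (hPinj h))
  have hsum := hC α c (fun (s : Fin r × Fin r) i => a s.1 i) (fun s i => a s.2 i) hc hsecne hprod
  -- the value of `x` on the fibre and the lower comparison
  have hh : ∀ i, (m0 : ℝ) * hQ α - C₁ ≤ (n0 : ℝ) * hT (valVec ev φ (P i)) := by
    intro i
    have h2 := hcmp (P i) (hPne i)
    rw [FibreLower.ev_eq_of_ord_pos hev (hx (P i) (hPne i)) (hPord i)] at h2
    linarith
  -- assemble
  rw [FibreLower.offDiag_eq_sum_enum (plD ev φ) A e]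
  have hn0' : (0 : ℝ) < (n0 : ℝ) := by exact_mod_cast hn0
  have hterm : ∀ q ∈ (Finset.univ : Finset (Fin n0)).offDiag,
      (2 * ((m0 : ℝ) * hQ α - C₁)) / (n0 : ℝ) -
        hT (fun s : Fin r × Fin r => a s.1 q.1 * a s.2 q.2 - a s.2 q.1 * a s.1 q.2) ≤
      plD ev φ (e q.1) (e q.2) := by
    intro q _
    have e1 : (e q.1 : Place Qb F) = P q.1 := (hP q.1).symm
    have e2 : (e q.2 : Place Qb F) = P q.2 := (hP q.2).symm
    rw [e1, e2, hsec q]
    unfold plD
    have h3 := hh q.1
    have h4 := hh q.2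
    have h5 : (2 * ((m0 : ℝ) * hQ α - C₁)) / (n0 : ℝ) ≤
        hT (valVec ev φ (P q.1)) + hT (valVec ev φ (P q.2)) := by
      rw [div_le_iff₀ hn0']
      linarith
    linarith
  have hsumle := Finset.sum_le_sum hterm
  rw [Finset.sum_sub_distrib, Finset.sum_const, Finset.offDiag_card, Finset.card_univ,
    Fintype.card_fin, nsmul_eq_mul] at hsumle
  have hcardR : ((n0 * n0 - n0 : ℕ) : ℝ) = (n0 : ℝ) * ((n0 : ℝ) - 1) := by
    rw [Nat.cast_sub (Nat.le_mul_self n0), Nat.cast_mul]
    ring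
  have hmain : ((n0 * n0 - n0 : ℕ) : ℝ) * ((2 * ((m0 : ℝ) * hQ α - C₁)) / (n0 : ℝ)) =
      2 * ((n0 : ℝ) - 1) * ((m0 : ℝ) * hQ α - C₁) := by
    rw [hcardR]
    field_simp
  rw [hmain] at hsumle
  -- the arithmetic of the exponents: `p ≠ 0` because the product of the secant forms is `≠ 0`
  have hprodne : (MvPolynomial.map (Polynomial.evalRingHom α) p) ≠ 0 := by
    intro h0
    rw [h0, mul_zero] at hprod
    have hne : ∀ q ∈ (Finset.univ : Finset (Fin n0)).offDiag,
        Fib.pairForm (fun (s : Fin r × Fin r) i => a s.1 i) (fun s i => a s.2 i) q ≠ 0 := by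
      intro q hq h00
      apply hsecne q hq
      funext s
      have h6 := congrArg (MvPolynomial.coeff (Finsupp.single s 1)) h00
      unfold Fib.pairForm at h6
      simpa [MvPolynomial.coeff_sum, MvPolynomial.coeff_X_mul', Finsupp.single_eq_single_iff]
        using h6
    exact Finset.prod_ne_zero_iff.mpr hne hprod
  have hpne : ∃ m, p.coeff m ≠ 0 := by
    by_contra hcon
    push Not at hcon
    apply hprodne
    have : p = 0 := MvPolynomial.ext _ _ fun m => by rw [hcon m, MvPolynomial.coeff_zero]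
    rw [this, map_zero]
  obtain ⟨m, hm⟩ := hpne
  have hEle := hpdeg m hm
  have hEeq : (E : ℝ) = ((n0 : ℝ) - 1) * (2 * (m0 : ℝ) - 2) - 2 * (gR Qb F : ℝ) := by
    have h7 : 2 * gR Qb F ≤ (n0 - 1) * (2 * m0 - 1 - 1) := by omega
    have h8 : 1 ≤ n0 := hn0
    have h9 : 2 ≤ 2 * m0 := by omega
    rw [hE, Nat.cast_sub h7]
    have h10 : ((n0 - 1 : ℕ) : ℝ) = (n0 : ℝ) - 1 := by rw [Nat.cast_sub h8, Nat.cast_one]
    have h11 : ((2 * m0 - 1 - 1 : ℕ) : ℝ) = 2 * (m0 : ℝ) - 2 := by
      have : 2 * m0 - 1 - 1 = 2 * m0 - 2 := by omega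
      rw [this, Nat.cast_sub h9]
      push_cast
      ring
    rw [Nat.cast_mul, h10, h11]
    push_cast
    ring
  rw [hEeq] at hsum
  nlinarith [hsum, hsumle]

end Fermat.Agent.S17.H.Glob
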