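import Fermat.Agent.S17.H.Glob.PlaceHeight
import Fermat.Agent.S17.R.PoleOrder
import Fermat.Agent.S17.R.Eval

/-!
# Program MW (S17), strand H: the secant vector of two distinct places does not vanish

`F / K` a function field of one variable over an algebraically closed field of characteristic
zero, `v₀` a place, `φ` a finite family spanning `L(m v₀)` with `m` large, `ev` a value function
(`Glob.IsEval`).

* `SigNe.exists_sep` : for `m` large and places `P ≠ Q`, both `≠ v₀`, there is a section of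
  `m v₀` vanishing at `P` and not at `Q` (Riemann's theorem in large degree, strand R).
* `SigNe.exists_minor_ne_zero` : some `2 × 2` minor of the value vectors of `P ≠ Q` is non-zero.
* `SigNe.valVec_ne_zero`, `SigNe.sigVec_ne_zero` : the same in the vocabulary of record
  (`PlaceHeight.lean`):
  the value vector of a place `≠ v₀` and the secant vector of two distinct places `≠ v₀` are
  non-zero, so that the projective heights `hT (valVec ..)`, `hT (sigVec ..)` of `Glob.plH`,
  `Glob.plD` are heights of honest projective points (blocks D2, D3, D4 consume this).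
-/

set_option autoImplicit false

namespace Fermat.Agent.S17.H.Glob

open AlgebraicCurve Fermat.Agent.S17.R

section General

variable {K F : Type*} [Field K] [Field F] [Algebra K F]

namespace SigNe

/-- The value at `P` of `D - P`. -/
theorem sub_single_apply_self (D : Divisor K F) (P : Place K F) :
    (D - Finsupp.single P (1 : ℤ)) P = D P - 1 := by
  rw [Finsupp.sub_apply, Finsupp.single_eq_same]

/-- The value at `v ≠ P` of `D - P`. -/
theorem sub_single_apply_of_ne (D : Divisor K F) {P v : Place K F} (h : v ≠ P) :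
    (D - Finsupp.single P (1 : ℤ)) v = D v := by
  rw [Finsupp.sub_apply, Finsupp.single_eq_of_ne h, sub_zero]

theorem sub_single_le (D : Divisor K F) (P : Place K F) : D - Finsupp.single P (1 : ℤ) ≤ D := by
  rw [Finsupp.le_def]
  intro v
  by_cases h : v = P
  · subst h
    rw [sub_single_apply_self]
    omega
  · rw [sub_single_apply_of_ne D h]

variable [IsAlgClosed K] [CharZero K] [Algebra.EssFiniteType K F]

/-- **Separation.** For `m` large and places `P ≠ Q`, both `≠ v₀`, there is a section of `m v₀`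
vanishing at `P` and not at `Q`. -/
theorem exists_sep (htr : Algebra.trdeg K F = 1) (v₀ : Place K F) :
    ∃ m₁ : ℕ, ∀ m : ℕ, m₁ ≤ m → ∀ P Q : Place K F, P ≠ v₀ → Q ≠ v₀ → P ≠ Q →
      ∃ f : F, f ∈ riemannRochSpace ((m : ℤ) • Finsupp.single v₀ (1 : ℤ)) ∧ f ≠ 0 ∧
        0 < P.ord f ∧ Q.ord f = 0 := by
  obtain ⟨m₂, h2⟩ := finrank_L_sub_two_points (K := K) (F := F) htr v₀
  obtain ⟨m₃, h3⟩ := finrank_L_sub_point (K := K) (F := F) htr v₀
  refine ⟨max m₂ m₃, fun m hm P Q hP hQ hPQ => ?_⟩
  have e2 := h2 m (le_trans (le_max_left _ _) hm) P Q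
  have e3 := h3 m (le_trans (le_max_right _ _) hm) P
  have hle : riemannRochSpace
      ((m : ℤ) • Finsupp.single v₀ (1 : ℤ) - Finsupp.single P 1 - Finsupp.single Q 1)
      ≤ riemannRochSpace ((m : ℤ) • Finsupp.single v₀ (1 : ℤ) - Finsupp.single P 1) :=
    L_mono (sub_single_le _ Q)
  have hne : riemannRochSpace
      ((m : ℤ) • Finsupp.single v₀ (1 : ℤ) - Finsupp.single P 1 - Finsupp.single Q 1)
      ≠ riemannRochSpace ((m : ℤ) • Finsupp.single v₀ (1 : ℤ) - Finsupp.single P 1) := by
    intro h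
    rw [h] at e2
    omega
  obtain ⟨f, hf1, hf2⟩ := SetLike.exists_of_lt (lt_of_le_of_ne hle hne)
  have hf0 : f ≠ 0 := by
    rintro rfl
    exact hf2 (zero_mem _)
  have hord := (mem_L_of_ne_zero hf0).mp hf1
  refine ⟨f, L_mono (sub_single_le _ P) hf1, hf0, ?_, ?_⟩
  · have h := hord P
    rw [sub_single_apply_self, Eval.nsmul_single_apply_of_ne hP] at h
    omega
  · have hQ0 := hord Q
    rw [sub_single_apply_of_ne _ (Ne.symm hPQ), Eval.nsmul_single_apply_of_ne hQ] at hQ0
    have hnot : ¬ ∀ v : Place K F,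
        -(((m : ℤ) • Finsupp.single v₀ (1 : ℤ) - Finsupp.single P 1 - Finsupp.single Q 1 :
          Divisor K F) v) ≤ v.ord f := fun h => hf2 ((mem_L_of_ne_zero hf0).mpr h)
    obtain ⟨v, hv⟩ := not_forall.mp hnot
    have hv' := hord v
    by_cases hvQ : v = Q
    · subst hvQ
      rw [sub_single_apply_self, sub_single_apply_of_ne _ (Ne.symm hPQ),
        Eval.nsmul_single_apply_of_ne hQ] at hv
      omega
    · rw [sub_single_apply_of_ne _ hvQ] at hv
      exact absurd hv' hv

/-- **Some `2 × 2` minor of the value vectors of two distinct places is non-zero**: `φ` a finite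
family spanning `L(m v₀)`, `m` large, `P ≠ Q` places `≠ v₀`. -/
theorem exists_minor_ne_zero (htr : Algebra.trdeg K F = 1) (v₀ : Place K F) :
    ∃ m₁ : ℕ, ∀ m : ℕ, m₁ ≤ m → ∀ {r : ℕ} (φ : Fin r → F),
      Submodule.span K (Set.range φ) = riemannRochSpace ((m : ℤ) • Finsupp.single v₀ (1 : ℤ)) →
      ∀ {ev : Place K F → F → K}, IsEval ev → ∀ P Q : Place K F, P ≠ v₀ → Q ≠ v₀ → P ≠ Q →
        ∃ a b : Fin r, ev P (φ a) * ev Q (φ b) - ev P (φ b) * ev Q (φ a) ≠ 0 := by
  obtain ⟨m₁, hm₁⟩ := exists_sep (K := K) (F := F) htr v₀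
  refine ⟨m₁, fun m hm r φ hφ ev hev P Q hP hQ hPQ => ?_⟩
  obtain ⟨f, hfL, hf0, hfP, hfQ⟩ := hm₁ m hm P Q hP hQ hPQ
  -- regularity of the members of `L(m v₀)` at `P` and `Q`
  have hφL : ∀ i, φ i ∈ riemannRochSpace ((m : ℤ) • Finsupp.single v₀ (1 : ℤ)) := fun i => by
    rw [← hφ]; exact Submodule.subset_span ⟨i, rfl⟩
  have hregP : ∀ i, φ i ∈ P.toValuationSubring := fun i =>
    Eval.mem_regOff_of_mem_L (hφL i) P hP
  have hregQ : ∀ i, φ i ∈ Q.toValuationSubring := fun i =>
    Eval.mem_regOff_of_mem_L (hφL i) Q hQ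
  -- coordinates of `f` and of `1`
  have hf' : f ∈ Submodule.span K (Set.range φ) := by rw [hφ]; exact hfL
  obtain ⟨c, hc⟩ := (Submodule.mem_span_range_iff_exists_fun K).mp hf'
  have h1L : (1 : F) ∈ riemannRochSpace ((m : ℤ) • Finsupp.single v₀ (1 : ℤ)) := by
    refine (mem_L_of_ne_zero one_ne_zero).mpr fun v => ?_
    have h1 : v.ord (1 : F) = 0 := by
      have := Fermat.Agent.S24.FF.ord_nonneg_iff v (one_ne_zero (α := F))
      have h2 : 0 ≤ v.ord (1 : F) := this.mpr v.toValuationSubring.one_mem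
      have h3 := Fermat.Agent.S24.FF.ord_nonneg_iff v (one_ne_zero (α := F))
      by_contra hne
      have hpos : 0 < v.ord (1 : F) := lt_of_le_of_ne h2 (Ne.symm hne)
      have hval := (valuation_lt_one_iff v (1 : F)).mpr (Or.inr hpos)
      rw [map_one] at hval
      exact lt_irrefl _ hval
    rw [h1]
    by_cases hv : v = v₀
    · subst hv
      rw [Eval.nsmul_single_apply_self]
      omega
    · rw [Eval.nsmul_single_apply_of_ne hv]
      omega
  have h1' : (1 : F) ∈ Submodule.span K (Set.range φ) := by rw [hφ]; exact h1L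
  obtain ⟨d, hd⟩ := (Submodule.mem_span_range_iff_exists_fun K).mp h1'
  -- values
  have evP_sum : ∀ e : Fin r → K, ev P (∑ i, e i • φ i) = ∑ i, e i * ev P (φ i) := fun e => by
    rw [hev.map_sum _ _ fun i _ => by
      rw [Algebra.smul_def]
      exact P.toValuationSubring.mul_mem _ _ (P.algebraMap_mem' _) (hregP i)]
    exact Finset.sum_congr rfl fun i _ => hev.map_smul (e i) (hregP i)
  have evQ_sum : ∀ e : Fin r → K, ev Q (∑ i, e i • φ i) = ∑ i, e i * ev Q (φ i) := fun e => by
    rw [hev.map_sum _ _ fun i _ => by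
      rw [Algebra.smul_def]
      exact Q.toValuationSubring.mul_mem _ _ (Q.algebraMap_mem' _) (hregQ i)]
    exact Finset.sum_congr rfl fun i _ => hev.map_smul (e i) (hregQ i)
  have hfPreg : f ∈ P.toValuationSubring := Eval.mem_regOff_of_mem_L hfL P hP
  have hfQreg : f ∈ Q.toValuationSubring := Eval.mem_regOff_of_mem_L hfL Q hQ
  have hPf : ev P f = 0 := (hev.eq_zero_iff hfPreg).mpr (Or.inr hfP)
  have hQf : ev Q f ≠ 0 := by
    intro h
    rcases (hev.eq_zero_iff hfQreg).mp h with h | h
    · exact hf0 h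
    · omega
  -- an index where `P` does not vanish
  have hP1 : ∑ i, d i * ev P (φ i) = 1 := by
    rw [← evP_sum, hd, hev.map_one]
  obtain ⟨a₀, ha₀⟩ : ∃ a₀, ev P (φ a₀) ≠ 0 := by
    by_contra hno
    have hall : ∀ i, ev P (φ i) = 0 := fun i => by_contra fun h => hno ⟨i, h⟩
    rw [Finset.sum_eq_zero fun i _ => by rw [hall i, mul_zero]] at hP1
    exact zero_ne_one hP1
  by_contra hno
  have hall : ∀ a b : Fin r, ev P (φ a) * ev Q (φ b) - ev P (φ b) * ev Q (φ a) = 0 :=
    fun a b => by_contra fun h => hno ⟨a, b, h⟩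
  have key : ev P (φ a₀) * ev Q f - ev P f * ev Q (φ a₀) = 0 := by
    rw [← hc, evP_sum, evQ_sum, Finset.mul_sum, Finset.sum_mul, ← Finset.sum_sub_distrib]
    refine Finset.sum_eq_zero fun b _ => ?_
    have := hall a₀ b
    linear_combination c b * this
  rw [hPf, zero_mul, sub_zero] at key
  exact (mul_ne_zero ha₀ hQf) key

end SigNe

end General

section Heights

namespace SigNe

local notation "Qb" => AlgebraicClosure ℚ

variable {F : Type*} [Field F] [Algebra Qb F]

/-- The value vector of a place `≠ v₀` is non-zero as soon as `1` lies in the span of `φ` and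
the `φ i` are regular off `v₀`. -/
theorem valVec_ne_zero {v₀ : Place Qb F} {ev : Place Qb F → F → Qb} (hev : IsEval ev) {r : ℕ}
    (φ : Fin r → F) (hreg : ∀ i, RegOff v₀ (φ i))
    (h1 : (1 : F) ∈ Submodule.span Qb (Set.range φ)) {P : Place Qb F} (hP : P ≠ v₀) :
    valVec ev φ P ≠ 0 := by
  obtain ⟨d, hd⟩ := (Submodule.mem_span_range_iff_exists_fun Qb).mp h1
  intro h0
  have h2 : ev P (∑ i, d i • φ i) = ∑ i, d i * ev P (φ i) := by
    rw [hev.map_sum _ _ fun i _ => by
      rw [Algebra.smul_def]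
      exact P.toValuationSubring.mul_mem _ _ (P.algebraMap_mem' _) (hreg i P hP)]
    exact Finset.sum_congr rfl fun i _ => hev.map_smul (d i) (hreg i P hP)
  rw [hd, hev.map_one] at h2
  have h3 : ∑ i, d i * ev P (φ i) = 0 :=
    Finset.sum_eq_zero fun i _ => by
      have : ev P (φ i) = 0 := congrFun h0 i
      rw [this, mul_zero]
  rw [h3] at h2
  exact one_ne_zero h2

/-- **The secant vector of two distinct places `≠ v₀` is non-zero** (`φ` spans `L(m v₀)`,
`m` large): the term `hT (sigVec ev φ P Q)` of `Glob.plD` is the height of a projective point. -/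
theorem sigVec_ne_zero [Algebra.EssFiniteType Qb F] (htr : Algebra.trdeg Qb F = 1)
    (v₀ : Place Qb F) :
    ∃ m₁ : ℕ, ∀ m : ℕ, m₁ ≤ m → ∀ {r : ℕ} (φ : Fin r → F),
      Submodule.span Qb (Set.range φ) = riemannRochSpace ((m : ℤ) • Finsupp.single v₀ (1 : ℤ)) →
      ∀ {ev : Place Qb F → F → Qb}, IsEval ev → ∀ P Q : Place Qb F, P ≠ v₀ → Q ≠ v₀ → P ≠ Q →
        sigVec ev φ P Q ≠ 0 := by
  obtain ⟨m₁, hm₁⟩ := exists_minor_ne_zero (K := Qb) (F := F) htr v₀
  refine ⟨m₁, fun m hm r φ hφ ev hev P Q hP hQ hPQ h0 => ?_⟩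
  obtain ⟨a, b, hab⟩ := hm₁ m hm φ hφ hev P Q hP hQ hPQ
  exact hab (congrFun h0 (a, b))

end SigNe

end Heights

end Fermat.Agent.S17.H.Glob
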