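/-
MW strand H, leaf D4s.HT (exit, row S17.H.D4s.HT): **the fibre inequality (D4)**.

`F / Qb` a function field of one variable, `x` regular off `v₀` with a pole of order `n0` at
`v₀`, `ev` a value function.  There is a threshold `N₀` such that for every `m0 ≥ N₀` and every
spanning family `φ` of `L(m0 v₀)` with nonzero members, at most one of which has exact pole order
`m0`: if `m0 · hQ (x(v)) ≤ n0 · hT (φ(v)) + C₁` off `v₀` (the lower comparison, leaf D1b), then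

  `(2 n0 + 2 gR - 2) · hQ α - C ≤ ∑_{v ≠ w in the fibre x = α} plD ev φ v w`

for every unramified fibre of `x`.  This is the hypothesis `hfib` of `F.theta_fibre_le` with
`D := plD ev φ`, `g := gR Qb F`.

Assembly of: the reduced fibre polynomial (`Fib.exists_fibrePoly_adj`, adjugate route, at
`d = 2 m0 - 1`), the nonvanishing of secant vectors (`SigNe.sigVec_ne_zero`), and the core
`fibre_lower_of_fibrePoly` (Gelfond + height of polynomial values + the arithmetic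
`2 (n0 - 1) m0 - ((n0 - 1)(2 m0 - 2) - 2 gR) = 2 n0 + 2 gR - 2`).
-/
import Mathlib
import Fermat.Agent.S17.R.Gaps
import Fermat.Agent.S17.H.Fib.FibreAdj
import Fermat.Agent.S17.H.Glob.SigNe
import Fermat.Agent.S17.H.Glob.FibreLowerCore

set_option autoImplicit false

namespace Fermat.Agent.S17.H.Glob

open AlgebraicCurve
open Fermat.Agent.S17.R

local notation "Qb" => AlgebraicClosure ℚ

variable {F : Type*} [Field F] [Algebra Qb F] [Algebra.EssFiniteType Qb F]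

open Classical in
/-- **D4 (the fibre inequality), exit of block D4.** -/
theorem exists_fibre_lower (htr : Algebra.trdeg Qb F = 1) (v₀ : Place Qb F) {x : F}
    (hx : x ∈ regOff v₀) {n0 : ℕ} (hn0 : 0 < n0) (hord : v₀.ord x = -(n0 : ℤ))
    {ev : Place Qb F → F → Qb} (hev : IsEval ev) :
    ∃ N₀ : ℕ, ∀ (m0 : ℕ), N₀ ≤ m0 → ∀ {r : ℕ} (φ : Fin r → F),
      Submodule.span Qb (Set.range φ) = riemannRochSpace ((m0 : ℤ) • Finsupp.single v₀ (1 : ℤ)) →
      (∀ a, φ a ≠ 0) →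
      (∀ a b, a ≠ b → -(m0 : ℤ) < v₀.ord (φ a) ∨ -(m0 : ℤ) < v₀.ord (φ b)) →
      ∀ C₁ : ℝ, (∀ v : Place Qb F, v ≠ v₀ →
          (m0 : ℝ) * hQ (ev v x) ≤ (n0 : ℝ) * hT (valVec ev φ v) + C₁) →
      ∃ C : ℝ, ∀ (α : Qb) (Fib : Finset (Place Qb F)),
        (∀ u : Place Qb F, u ∈ Fib ↔ 0 < u.ord (x - algebraMap Qb F α)) →
        (∀ u ∈ Fib, u.ord (x - algebraMap Qb F α) = 1) →
        (2 * (n0 : ℝ) + 2 * (gR Qb F : ℝ) - 2) * hQ α - C ≤
          Fermat.Agent.S17.H.F.offDiag (plD ev φ) Fib := by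
  obtain ⟨m₁, hm₁⟩ := SigNe.sigVec_ne_zero (F := F) htr v₀
  refine ⟨max m₁ 1, ?_⟩
  intro m0 hm0 r φ hspan hφ0 hne C₁ hcmp
  have hm0pos : 0 < m0 := lt_of_lt_of_le zero_lt_one (le_trans (le_max_right m₁ 1) hm0)
  have hm1 : m₁ ≤ m0 := le_trans (le_max_left m₁ 1) hm0
  have hφL : ∀ a, φ a ∈ riemannRochSpace ((m0 : ℤ) • Finsupp.single v₀ (1 : ℤ)) := by
    intro a
    rw [← hspan]
    exact Submodule.subset_span (Set.mem_range_self a)
  have hφreg : ∀ a, φ a ∈ regOff v₀ := fun a => Eval.mem_regOff_of_mem_L (hφL a)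
  have hφord : ∀ a, -(m0 : ℤ) ≤ v₀.ord (φ a) := fun a =>
    ((Gaps.mem_Ln_iff v₀ (m0 : ℤ) (hφ0 a)).mp (hφL a)).1
  have hd : ∀ a b, a ≠ b →
      -((2 * m0 - 1 : ℕ) : ℤ) ≤ v₀.ord (φ a) + v₀.ord (φ b) := by
    intro a b hab
    have h1 := hφord a
    have h2 := hφord b
    have h3 := hne a b hab
    have h4 : ((2 * m0 - 1 : ℕ) : ℤ) = 2 * (m0 : ℤ) - 1 := by omega
    rw [h4]
    rcases h3 with h3 | h3 <;> omega
  obtain ⟨p, hpdeg, hpfib⟩ :=
    Fib.exists_fibrePoly_adj htr v₀ hx hn0 hord φ hφreg hφ0 (d := 2 * m0 - 1) hd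
  exact fibre_lower_of_fibrePoly htr v₀ hx hn0 hord hev hm0pos φ hφreg
    (fun u u' hu hu' huu' => hm₁ m0 hm1 φ hspan hev u u' hu hu' huu') p hpdeg hpfib C₁ hcmp

end Fermat.Agent.S17.H.Glob
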