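import Fermat.Agent.S17.H.Glob.LDGlobalAsm
import Fermat.Agent.S17.H.LD.UpSolVia

/-!
# Program MW (S17), strand H, block D, leaf D2: the global distance formula (LD) - exit

`F` a function field of a curve over `Qb = AlgebraicClosure ℚ`, `v₀` a place, `ev` a value
function.  There is a threshold `n₀` such that for `m0 ≥ n₀`, a basis `τ` of `L(m0 v₀)`,
`k > 0` and a basis `ψ` of `L(k m0 v₀)` there is a constant `C` with: for every section
`s = ∑ c i • ψ i ≠ 0` and every place `Q ≠ v₀` which is not a zero of `s`,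

`|∑_{v ≠ v₀} ord_v(s) * D(v, Q) - hT c + ord_{v₀}(s) * H(Q)| ≤ C`,

`D = Glob.plD ev τ`, `H(Q) = hT (τ(Q)) / m0 = Glob.plH ev τ m0 Q`.  This is the second clause of
`Pairing.ChowLD` (the first is `Glob.chow`).  No hypothesis is left: the assembly
`Glob.ld_global_of_sol` applied to the solution statement of block C
(`LD.UpSolVia.up_sol`).
-/

set_option autoImplicit false

namespace Fermat.Agent.S17.H.Glob.LDGlobal

open AlgebraicCurve Fermat.Agent.S17.R Fermat.Agent.S17.H.LD

local notation "Qb" => AlgebraicClosure ℚ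

variable {F : Type*} [Field F] [Algebra Qb F] [Algebra.EssFiniteType Qb F]

/-- **D2, the global distance formula (LD).** -/
theorem ld_global (htr : Algebra.trdeg Qb F = 1) (v₀ : Place Qb F)
    {ev : Place Qb F → F → Qb} (hev : IsEval ev) :
    ∃ n₀ : ℕ, ∀ m0 : ℕ, n₀ ≤ m0 → ∀ k : ℕ, 0 < k → ∀ {r n : ℕ} (τ : Fin r → F) (ψ : Fin n → F),
      LinearIndependent Qb τ →
      Submodule.span Qb (Set.range τ) =
        riemannRochSpace ((m0 : ℤ) • Finsupp.single v₀ (1 : ℤ)) →
      LinearIndependent Qb ψ →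
      Submodule.span Qb (Set.range ψ) =
        riemannRochSpace (((k * m0 : ℕ) : ℤ) • Finsupp.single v₀ (1 : ℤ)) →
      ∃ C : ℝ, ∀ c : Fin n → Qb, c ≠ 0 → ∀ Q : Place Qb F, Q ≠ v₀ →
        Q.ord (∑ i, c i • ψ i) = 0 →
        |(∑ᶠ v ∈ {v : Place Qb F | v ≠ v₀},
              ((v.ord (∑ i, c i • ψ i) : ℤ) : ℝ) * plD ev τ v Q)
            - hT c + ((v₀.ord (∑ i, c i • ψ i) : ℤ) : ℝ) * (hT (fun i => ev Q (τ i)) / (m0 : ℝ))|
          ≤ C := by
  obtain ⟨n₁, hsol⟩ := UpSolVia.up_sol (K := Qb) (F := F) htr v₀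
  exact ld_global_of_sol htr v₀ hsol hev

/-- The upper half of the local distance estimate of block C on the curve, hypothesis-free. -/
theorem ldUp (htr : Algebra.trdeg Qb F = 1) (v₀ : Place Qb F) : LdUp v₀ := by
  obtain ⟨n₁, hsol⟩ := UpSolVia.up_sol (K := Qb) (F := F) htr v₀
  exact UpCurve.ld_up_of_sol htr v₀ hsol

end Fermat.Agent.S17.H.Glob.LDGlobal
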