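/-
Program MW (S17), strand H, leaf D3 (abstract core; Mathlib only).

LOCAL VANDERMONDE BOUND, ONE VARIABLE AT A TIME.

Data: a field `k` with an absolute value `v`, a finite index type `ι` (a basis of a linear
system), a type `J` of points, the table of values `A i x` (`= ψ_i(x)`), a local size
`S x` (`= |ψ(x)|_v`) and a local distance `d x y`.

Hypothesis `hU` = the UPPER half of the one-variable uniform decomposition: a member
`s = ∑ i, c i • ψ_i` of the system that vanishes at the points of a finite set `T`
satisfies `|s(q)|_v ≤ C * |c|_v * S q * ∏ t ∈ T, d q t` at every point `q ∉ T`.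

Conclusion: every minor of the table at `n` distinct points is bounded by
`C ^ n * ∏ S * ∏_{a < b} d`.  Proof: induction on `n`, Laplace expansion along the column
of the first point; the expansion is a member of the system vanishing at the other points
and its coefficient vector is the vector of the `n`-minors.
-/
import Mathlib

set_option autoImplicit false

namespace Fermat.Agent.S17.H.Vandermonde

open Finset

/-- Laplace expansion along the column of the first point, with that point replaced by an
arbitrary point `x`: the cofactor combination of the first column is the determinant of the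
matrix whose first column is the column of `x`. -/
theorem cofactor_sum_eq_det {k : Type*} [CommRing k] {ι J : Type*} (A : ι → J → k) {n : ℕ}
    (f : Fin (n + 1) → ι) (p : Fin (n + 1) → J) (x : J) :
    ∑ a : Fin (n + 1), (-1 : k) ^ (a : ℕ) * A (f a) x *
        (Matrix.det (Matrix.of fun (a' : Fin n) (b : Fin n) => A (f (a.succAbove a')) (p b.succ))) =
      Matrix.det (Matrix.of fun (a : Fin (n + 1)) (b : Fin (n + 1)) =>
        A (f a) (Fin.cases x (fun b' => p b'.succ) b)) := by
  rw [Matrix.det_succ_column_zero]
  refine Finset.sum_congr rfl fun a _ => ?_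
  congr 1

/-- The cofactor combination vanishes at each of the other points (two equal columns). -/
theorem cofactor_sum_eq_zero {k : Type*} [CommRing k] {ι J : Type*} (A : ι → J → k) {n : ℕ}
    (f : Fin (n + 1) → ι) (p : Fin (n + 1) → J) (b₀ : Fin n) :
    ∑ a : Fin (n + 1), (-1 : k) ^ (a : ℕ) * A (f a) (p b₀.succ) *
        (Matrix.det (Matrix.of fun (a' : Fin n) (b : Fin n) => A (f (a.succAbove a')) (p b.succ))) =
      0 := by
  rw [cofactor_sum_eq_det]
  refine Matrix.det_zero_of_column_eq (i := 0) (j := b₀.succ) (Fin.succ_ne_zero b₀).symm ?_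
  intro a
  simp [Matrix.of_apply]

/-- The cofactor combination at the first point is the determinant itself. -/
theorem cofactor_sum_eq_det_self {k : Type*} [CommRing k] {ι J : Type*} (A : ι → J → k) {n : ℕ}
    (f : Fin (n + 1) → ι) (p : Fin (n + 1) → J) :
    ∑ a : Fin (n + 1), (-1 : k) ^ (a : ℕ) * A (f a) (p 0) *
        (Matrix.det (Matrix.of fun (a' : Fin n) (b : Fin n) => A (f (a.succAbove a')) (p b.succ))) =
      Matrix.det (Matrix.of fun (a : Fin (n + 1)) (b : Fin (n + 1)) => A (f a) (p b)) := by
  rw [cofactor_sum_eq_det]
  congr 1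
  ext a b
  refine Fin.cases ?_ (fun b' => ?_) b <;> simp [Matrix.of_apply]

/-- **Local Vandermonde bound (abstract form of leaf D3).**  From the upper half of the
one-variable uniform decomposition (`hU`), every `n`-minor of the table of values at `n`
distinct points is at most `C ^ n * ∏_b S (p b) * ∏_{a < b} d (p a) (p b)`. -/
theorem abs_det_le {k : Type*} [Field k] (v : AbsoluteValue k ℝ) {ι J : Type*} [Fintype ι]
    (A : ι → J → k) (S : J → ℝ) (d : J → J → ℝ) (C : ℝ)
    (hS : ∀ x, 0 ≤ S x) (hd : ∀ x y, 0 ≤ d x y) (hC : 0 ≤ C)
    (hU : ∀ (c : ι → k) (B : ℝ), 0 ≤ B → (∀ i, v (c i) ≤ B) →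
      ∀ (T : Finset J) (q : J), q ∉ T → (∀ t ∈ T, ∑ i, c i * A i t = 0) →
        v (∑ i, c i * A i q) ≤ C * B * S q * ∏ t ∈ T, d q t)
    (n : ℕ) (f : Fin n → ι) (hf : Function.Injective f) (p : Fin n → J)
    (hp : Function.Injective p) :
    v (Matrix.det (Matrix.of fun (a : Fin n) (b : Fin n) => A (f a) (p b))) ≤
      C ^ n * (∏ b, S (p b)) * ∏ a, ∏ b ∈ Finset.Ioi a, d (p a) (p b) := by
  classical
  induction n with
  | zero => simp
  | succ n ih =>
    -- the minors and their bound
    set m : Fin (n + 1) → k := fun a =>
      Matrix.det (Matrix.of fun (a' : Fin n) (b : Fin n) => A (f (a.succAbove a')) (p b.succ))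
      with hm_def
    set B : ℝ := C ^ n * (∏ b : Fin n, S (p b.succ)) *
      ∏ a : Fin n, ∏ b ∈ Finset.Ioi a, d (p a.succ) (p b.succ) with hB_def
    have hB0 : 0 ≤ B := by
      refine mul_nonneg (mul_nonneg (pow_nonneg hC n) (Finset.prod_nonneg fun b _ => hS _)) ?_
      exact Finset.prod_nonneg fun a _ => Finset.prod_nonneg fun b _ => hd _ _
    have hm : ∀ a, v (m a) ≤ B := fun a =>
      ih (fun a' => f (a.succAbove a')) (hf.comp Fin.succAbove_right_injective)
        (fun b => p b.succ) (hp.comp (Fin.succ_injective n))
    -- the coefficient vector of the Laplace expansion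
    set c : ι → k := fun i => ∑ a : Fin (n + 1), if f a = i then (-1 : k) ^ (a : ℕ) * m a else 0
      with hc_def
    have hcv : ∀ i, v (c i) ≤ B := by
      intro i
      by_cases hi : ∃ a, f a = i
      · obtain ⟨a₀, rfl⟩ := hi
        have : c (f a₀) = (-1 : k) ^ (a₀ : ℕ) * m a₀ := by
          simp only [hc_def]
          rw [Finset.sum_eq_single a₀]
          · simp
          · intro a _ ha
            rw [if_neg (fun h => ha (hf h))]
          · intro h; exact absurd (Finset.mem_univ a₀) h
        rw [this, map_mul, map_pow, map_neg_eq_map, map_one, one_pow, one_mul]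
        exact hm a₀
      · have : c i = 0 := by
          simp only [hc_def]
          refine Finset.sum_eq_zero fun a _ => ?_
          rw [if_neg (fun h => hi ⟨a, h⟩)]
        rw [this, map_zero]; exact hB0
    have hc : ∀ x, ∑ i, c i * A i x = ∑ a : Fin (n + 1), (-1 : k) ^ (a : ℕ) * A (f a) x * m a := by
      intro x
      simp only [hc_def, Finset.sum_mul]
      rw [Finset.sum_comm]
      refine Finset.sum_congr rfl fun a _ => ?_
      simp only [ite_mul, zero_mul, Finset.sum_ite_eq, Finset.mem_univ, if_true]
      ring
    -- apply the one-variable bound at the first point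
    have hT : p 0 ∉ Finset.univ.image (fun b : Fin n => p b.succ) := by
      simp only [Finset.mem_image, Finset.mem_univ, true_and, not_exists]
      intro b hb
      exact Fin.succ_ne_zero b (hp hb)
    have hz : ∀ t ∈ Finset.univ.image (fun b : Fin n => p b.succ), ∑ i, c i * A i t = 0 := by
      intro t ht
      obtain ⟨b, -, rfl⟩ := Finset.mem_image.mp ht
      rw [hc]
      exact cofactor_sum_eq_zero A f p b
    have key := hU c B hB0 hcv _ (p 0) hT hz
    rw [hc, cofactor_sum_eq_det_self A f p] at key
    have hprod : ∏ t ∈ Finset.univ.image (fun b : Fin n => p b.succ), d (p 0) t =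
        ∏ b : Fin n, d (p 0) (p b.succ) :=
      Finset.prod_image fun x _ y _ h => Fin.succ_injective n (hp h)
    rw [hprod] at key
    refine key.trans (le_of_eq ?_)
    rw [Fin.prod_univ_succ (fun b => S (p b)),
      Fin.prod_univ_succ (fun a => ∏ b ∈ Finset.Ioi a, d (p a) (p b)),
      Fin.prod_Ioi_zero (fun b => d (p 0) (p b))]
    simp only [Fin.prod_Ioi_succ, hB_def]
    ring

end Fermat.Agent.S17.H.Vandermonde
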