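/-
Program MW (S17), strand H, leaf D3 (relation form of the local Vandermonde bound; Mathlib only).

The abstract core `Vandermonde.abs_det_le` is applied with the local size and distance of the
secant (Pluecker) coordinates:

* `N v x = ⨆ j, v (x j)` the sup norm of a value vector,
* `Sg v x y = ⨆ p, v (x p.1 * y p.2 - x p.2 * y p.1)` the sup norm of the secant coordinates,
* distance of two points `= Sg / (N * N)`, size of a point `= N ^ k * dist(∞, ·) ^ e∞`,

where `e∞` is the number of zeros at the base place that every section of the subsystem has.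
With the comparison `Sg(x∞, y) ^ m0 ≤ L' * N(x∞) ^ m0 * N(y) ^ (m0 - 1)` (the secant coordinates
of the base place) the conclusion is free of divisions and of real powers:

  `(v(det) * ∏_{a<b} N_a N_b) ^ m0 ≤ (L ^ m0 * L' ^ e∞) ^ n * ∏_b N_b ^ M' * ∏_{a<b} Sg_ab ^ m0`,

`k * m0 = M' + e∞`.  This is the local statement that the product form of the local-global
assembly turns into `hT(minors) ≤ M' * ∑ H - ∑_{a<b} D + C`.
-/
import Fermat.Agent.S17.H.Glob.Vandermonde

set_option autoImplicit false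

namespace Fermat.Agent.S17.H.Vandermonde

open Finset

section Norms

variable {k : Type*} [Field k] {ι : Type*}

/-- The sup norm of a value vector. -/
noncomputable abbrev N (v : AbsoluteValue k ℝ) (x : ι → k) : ℝ := ⨆ j, v (x j)

/-- The sup norm of the secant (Pluecker) coordinates of two value vectors. -/
noncomputable abbrev Sg (v : AbsoluteValue k ℝ) (x y : ι → k) : ℝ :=
  ⨆ p : ι × ι, v (x p.1 * y p.2 - x p.2 * y p.1)

theorem N_nonneg (v : AbsoluteValue k ℝ) (x : ι → k) : 0 ≤ N v x :=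
  Real.iSup_nonneg fun _ => v.nonneg _

theorem Sg_nonneg (v : AbsoluteValue k ℝ) (x y : ι → k) : 0 ≤ Sg v x y :=
  Real.iSup_nonneg fun _ => v.nonneg _

theorem le_N [Finite ι] (v : AbsoluteValue k ℝ) (x : ι → k) (j : ι) : v (x j) ≤ N v x :=
  le_ciSup (Set.finite_range fun j => v (x j)).bddAbove j

/-- The secant coordinates are bounded by twice the product of the sup norms. -/
theorem Sg_le [Finite ι] (v : AbsoluteValue k ℝ) (x y : ι → k) :
    Sg v x y ≤ 2 * (N v x * N v y) := by
  refine Real.iSup_le (fun p => ?_) (by positivity [N_nonneg v x, N_nonneg v y])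
  calc v (x p.1 * y p.2 - x p.2 * y p.1)
      ≤ v (x p.1 * y p.2) + v (x p.2 * y p.1) := v.sub_le_add _ _
    _ = v (x p.1) * v (y p.2) + v (x p.2) * v (y p.1) := by rw [map_mul, map_mul]
    _ ≤ N v x * N v y + N v x * N v y :=
        add_le_add
          (mul_le_mul (le_N v x _) (le_N v y _) (v.nonneg _) (N_nonneg v x))
          (mul_le_mul (le_N v x _) (le_N v y _) (v.nonneg _) (N_nonneg v x))
    _ = 2 * (N v x * N v y) := by ring

end Norms

/-- **Relation form of the local Vandermonde bound.**  `A i q` the table of values of the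
subsystem at the finite points, `y q` the value vector of the point `q`, `xinf` a value vector
of the base place.  `hUP` is the upper half of the one-variable decomposition for the members
of the subsystem (size `N ^ kk * dist(∞, ·) ^ einf`), `hOO` the comparison of the secant
coordinates of the base place. -/
theorem rel_det_le {k : Type*} [Field k] (v : AbsoluteValue k ℝ) {ι I J : Type*} [Fintype I]
    (A : I → J → k) (y : J → ι → k) (xinf : ι → k)
    (hy : ∀ q, 0 < N v (y q)) (hx : 0 < N v xinf)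
    (kk m0 einf M' : ℕ) (hM : kk * m0 = M' + einf) (hm0 : 0 < m0)
    (L L' : ℝ) (hL : 0 ≤ L)
    (hUP : ∀ (c : I → k) (B : ℝ), 0 ≤ B → (∀ i, v (c i) ≤ B) →
      ∀ (T : Finset J) (q : J), q ∉ T → (∀ t ∈ T, ∑ i, c i * A i t = 0) →
        v (∑ i, c i * A i q) ≤
          L * B * (N v (y q) ^ kk * (Sg v xinf (y q) / (N v xinf * N v (y q))) ^ einf) *
            ∏ t ∈ T, Sg v (y q) (y t) / (N v (y q) * N v (y t)))
    (hOO : ∀ q, Sg v xinf (y q) ^ m0 ≤ L' * N v xinf ^ m0 * N v (y q) ^ (m0 - 1))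
    (n : ℕ) (f : Fin n → I) (hf : Function.Injective f) (p : Fin n → J)
    (hp : Function.Injective p) :
    (v (Matrix.det (Matrix.of fun (a : Fin n) (b : Fin n) => A (f a) (p b))) *
        ∏ a, ∏ b ∈ Finset.Ioi a, N v (y (p a)) * N v (y (p b))) ^ m0 ≤
      (L ^ m0 * L' ^ einf) ^ n * (∏ b, N v (y (p b)) ^ M') *
        ∏ a, ∏ b ∈ Finset.Ioi a, Sg v (y (p a)) (y (p b)) ^ m0 := by
  classical
  -- the abstract core with the secant size and distance
  have key := abs_det_le v A
    (fun q => N v (y q) ^ kk * (Sg v xinf (y q) / (N v xinf * N v (y q))) ^ einf)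
    (fun q t => Sg v (y q) (y t) / (N v (y q) * N v (y t))) L
    (fun q => mul_nonneg (pow_nonneg (N_nonneg v _) _)
      (pow_nonneg (div_nonneg (Sg_nonneg v _ _) (mul_nonneg hx.le (hy q).le)) _))
    (fun q t => div_nonneg (Sg_nonneg v _ _) (mul_nonneg (hy q).le (hy t).le)) hL hUP n f hf p hp
  set d := v (Matrix.det (Matrix.of fun (a : Fin n) (b : Fin n) => A (f a) (p b))) with hd
  have hd0 : 0 ≤ d := v.nonneg _
  -- clear the denominators of the distances
  have hPN0 : 0 ≤ ∏ a : Fin n, ∏ b ∈ Finset.Ioi a, N v (y (p a)) * N v (y (p b)) :=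
    Finset.prod_nonneg fun a _ => Finset.prod_nonneg fun b _ =>
      mul_nonneg (hy _).le (hy _).le
  have hclear : (∏ a : Fin n, ∏ b ∈ Finset.Ioi a,
        Sg v (y (p a)) (y (p b)) / (N v (y (p a)) * N v (y (p b)))) *
      (∏ a : Fin n, ∏ b ∈ Finset.Ioi a, N v (y (p a)) * N v (y (p b))) =
      ∏ a : Fin n, ∏ b ∈ Finset.Ioi a, Sg v (y (p a)) (y (p b)) := by
    rw [← Finset.prod_mul_distrib]
    refine Finset.prod_congr rfl fun a _ => ?_
    rw [← Finset.prod_mul_distrib]
    refine Finset.prod_congr rfl fun b _ => ?_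
    exact div_mul_cancel₀ _ (mul_pos (hy _) (hy _)).ne'
  have h1 : d * (∏ a : Fin n, ∏ b ∈ Finset.Ioi a, N v (y (p a)) * N v (y (p b))) ≤
      L ^ n * (∏ b : Fin n, N v (y (p b)) ^ kk *
          (Sg v xinf (y (p b)) / (N v xinf * N v (y (p b)))) ^ einf) *
        ∏ a : Fin n, ∏ b ∈ Finset.Ioi a, Sg v (y (p a)) (y (p b)) := by
    calc d * (∏ a : Fin n, ∏ b ∈ Finset.Ioi a, N v (y (p a)) * N v (y (p b)))
        ≤ (L ^ n * (∏ b : Fin n, N v (y (p b)) ^ kk *
              (Sg v xinf (y (p b)) / (N v xinf * N v (y (p b)))) ^ einf) *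
            ∏ a : Fin n, ∏ b ∈ Finset.Ioi a,
              Sg v (y (p a)) (y (p b)) / (N v (y (p a)) * N v (y (p b)))) *
            (∏ a : Fin n, ∏ b ∈ Finset.Ioi a, N v (y (p a)) * N v (y (p b))) :=
          mul_le_mul_of_nonneg_right key hPN0
      _ = _ := by rw [mul_assoc, hclear]
  -- the size of a point, raised to the power `m0`
  have hsize : ∀ q : J, (N v (y q) ^ kk *
      (Sg v xinf (y q) / (N v xinf * N v (y q))) ^ einf) ^ m0 ≤ L' ^ einf * N v (y q) ^ M' := by
    intro q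
    have hq := hy q
    have e1 : (Sg v xinf (y q) / (N v xinf * N v (y q))) ^ m0 ≤ L' / N v (y q) := by
      rw [div_pow, mul_pow, div_le_div_iff₀ (mul_pos (pow_pos hx _) (pow_pos hq _)) hq]
      calc Sg v xinf (y q) ^ m0 * N v (y q)
          ≤ (L' * N v xinf ^ m0 * N v (y q) ^ (m0 - 1)) * N v (y q) :=
            mul_le_mul_of_nonneg_right (hOO q) hq.le
        _ = L' * (N v xinf ^ m0 * N v (y q) ^ m0) := by
            have : N v (y q) ^ m0 = N v (y q) ^ (m0 - 1) * N v (y q) := by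
              rw [← pow_succ, Nat.sub_add_cancel hm0]
            rw [this]; ring
    have e0 : 0 ≤ (Sg v xinf (y q) / (N v xinf * N v (y q))) ^ m0 :=
      pow_nonneg (div_nonneg (Sg_nonneg v _ _) (mul_nonneg hx.le hq.le)) _
    calc (N v (y q) ^ kk * (Sg v xinf (y q) / (N v xinf * N v (y q))) ^ einf) ^ m0
        = N v (y q) ^ (kk * m0) * ((Sg v xinf (y q) / (N v xinf * N v (y q))) ^ m0) ^ einf := by
          rw [mul_pow, ← pow_mul, ← pow_mul, ← pow_mul, mul_comm einf m0]
      _ ≤ N v (y q) ^ (kk * m0) * (L' / N v (y q)) ^ einf :=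
          mul_le_mul_of_nonneg_left (pow_le_pow_left₀ e0 e1 _) (pow_nonneg hq.le _)
      _ = L' ^ einf * N v (y q) ^ M' := by
          rw [hM, pow_add, div_pow]
          field_simp
  -- raise to the power `m0`
  have h2 := pow_le_pow_left₀ (mul_nonneg hd0 hPN0) h1 m0
  refine h2.trans ?_
  rw [mul_pow, mul_pow, ← Finset.prod_pow, ← Finset.prod_pow]
  have hS : ∏ b : Fin n, (N v (y (p b)) ^ kk *
      (Sg v xinf (y (p b)) / (N v xinf * N v (y (p b)))) ^ einf) ^ m0 ≤
      ∏ b : Fin n, L' ^ einf * N v (y (p b)) ^ M' :=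
    Finset.prod_le_prod (fun b _ => pow_nonneg (mul_nonneg (pow_nonneg (hy _).le _)
      (pow_nonneg (div_nonneg (Sg_nonneg v _ _) (mul_nonneg hx.le (hy _).le)) _)) _)
      (fun b _ => hsize (p b))
  have hSg0 : 0 ≤ ∏ a : Fin n, (∏ b ∈ Finset.Ioi a, Sg v (y (p a)) (y (p b))) ^ m0 :=
    Finset.prod_nonneg fun a _ => pow_nonneg (Finset.prod_nonneg fun b _ => Sg_nonneg v _ _) _
  have hSgeq : ∏ a : Fin n, (∏ b ∈ Finset.Ioi a, Sg v (y (p a)) (y (p b))) ^ m0 =
      ∏ a : Fin n, ∏ b ∈ Finset.Ioi a, Sg v (y (p a)) (y (p b)) ^ m0 :=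
    Finset.prod_congr rfl fun a _ => (Finset.prod_pow _ _ _).symm
  rw [hSgeq] at hSg0 ⊢
  calc (L ^ n) ^ m0 * (∏ b : Fin n, (N v (y (p b)) ^ kk *
          (Sg v xinf (y (p b)) / (N v xinf * N v (y (p b)))) ^ einf) ^ m0) *
        ∏ a : Fin n, ∏ b ∈ Finset.Ioi a, Sg v (y (p a)) (y (p b)) ^ m0
      ≤ (L ^ n) ^ m0 * (∏ b : Fin n, L' ^ einf * N v (y (p b)) ^ M') *
        ∏ a : Fin n, ∏ b ∈ Finset.Ioi a, Sg v (y (p a)) (y (p b)) ^ m0 :=
        mul_le_mul_of_nonneg_right
          (mul_le_mul_of_nonneg_left hS (pow_nonneg (pow_nonneg hL _) _)) hSg0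
    _ = (L ^ m0 * L' ^ einf) ^ n * (∏ b, N v (y (p b)) ^ M') *
        ∏ a, ∏ b ∈ Finset.Ioi a, Sg v (y (p a)) (y (p b)) ^ m0 := by
        rw [Finset.prod_mul_distrib, Finset.prod_const, Finset.card_univ, Fintype.card_fin,
          mul_pow, ← pow_mul, ← pow_mul, mul_comm n m0]
        ring

end Fermat.Agent.S17.H.Vandermonde
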