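/-
Program MW (S17), strand H, leaf D3: bookkeeping for the adapter onto the upper half of
block C (Mathlib only).

* `exists_enum`: an effective divisor of degree `n` is a sum of `n` points;
* `prod_enum_le`: a product over the points of such an enumeration, of a function with values
  in `[0, c]`, `1 ≤ c`, is at most `c ^ n` times the product over a set `T` of distinct zeros
  times the `e`-th power of the value at a further point of multiplicity at least `e`;
* `Sg_comm`: the sup norm of the secant coordinates is symmetric.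
-/
import Fermat.Agent.S17.H.Glob.VandermondeRel

set_option autoImplicit false

namespace Fermat.Agent.S17.H.Vandermonde

open Finset

/-- The sup norm of the secant coordinates is symmetric. -/
theorem Sg_comm {k : Type*} [Field k] {ι : Type*} (v : AbsoluteValue k ℝ) (x y : ι → k) :
    Sg v x y = Sg v y x := by
  unfold Sg
  rw [← (Equiv.prodComm ι ι).iSup_comp]
  refine iSup_congr fun p => ?_
  congr 1
  simp only [Equiv.prodComm_apply, Prod.fst_swap, Prod.snd_swap]
  ring

/-- An effective divisor of degree `n` is a sum of `n` points. -/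
theorem exists_enum {α : Type*} (n : ℕ) :
    ∀ (E : α →₀ ℤ), 0 ≤ E → (E.sum fun _ m => m) = (n : ℤ) →
      ∃ Z : Fin n → α, E = ∑ i, Finsupp.single (Z i) (1 : ℤ) := by
  classical
  induction n with
  | zero =>
    intro E hE hsum
    refine ⟨Fin.elim0, ?_⟩
    rw [Finset.univ_eq_empty, Finset.sum_empty]
    ext a
    by_contra ha
    have ha' : a ∈ E.support := Finsupp.mem_support_iff.mpr ha
    have h1 : E a ≤ E.sum fun _ m => m :=
      Finset.single_le_sum (f := fun b => E b) (fun b _ => hE b) ha'
    have h2 : 0 ≤ E a := hE a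
    rw [hsum] at h1
    exact ha (le_antisymm (by simpa using h1) h2)
  | succ n ih =>
    intro E hE hsum
    obtain ⟨a, ha⟩ : ∃ a, 1 ≤ E a := by
      by_contra hno
      simp only [not_exists, not_le] at hno
      have hz : (E.sum fun _ m => m) = 0 := by
        refine Finset.sum_eq_zero fun b _ => ?_
        show E b = 0
        have h1 := hno b
        have h2 : 0 ≤ E b := hE b
        omega
      rw [hsum] at hz
      exact absurd hz (by exact_mod_cast Nat.succ_ne_zero n)
    have hE' : 0 ≤ E - Finsupp.single a (1 : ℤ) := by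
      intro b
      rw [Finsupp.coe_zero, Pi.zero_apply, Finsupp.sub_apply, Finsupp.single_apply]
      by_cases hab : a = b
      · subst hab
        rw [if_pos rfl]
        exact sub_nonneg.mpr ha
      · rw [if_neg hab, sub_zero]
        exact hE b
    have hsum' : ((E - Finsupp.single a (1 : ℤ)).sum fun _ m => m) = (n : ℤ) := by
      rw [Finsupp.sum_sub_index (fun _ _ _ => rfl), Finsupp.sum_single_index rfl, hsum]
      push_cast
      ring
    obtain ⟨Z, hZ⟩ := ih _ hE' hsum'
    refine ⟨Fin.cons a Z, ?_⟩
    rw [Fin.sum_univ_succ]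
    simp only [Fin.cons_zero, Fin.cons_succ]
    rw [← hZ]
    abel

/-- A product over an enumeration of zeros: keep the factors of a set `T` of distinct zeros and
`e` factors at a further point `p0` of multiplicity at least `e`, bound the others by `c`. -/
theorem prod_enum_le {α : Type*} [DecidableEq α] {n : ℕ} (Z : Fin n → α) (g : α → ℝ) (c : ℝ) (hc : 1 ≤ c)
    (hg0 : ∀ P, 0 ≤ g P) (hgc : ∀ P, g P ≤ c) (T : Finset α) (p0 : α) (hp0 : p0 ∉ T) (e : ℕ)
    (hT : ∀ t ∈ T, ∃ i, Z i = t)
    (he : e ≤ (Finset.univ.filter fun i => Z i = p0).card) :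
    ∏ i, g (Z i) ≤ c ^ n * ((∏ t ∈ T, g t) * g p0 ^ e) := by
  classical
  choose idx hidx using hT
  set S1 : Finset (Fin n) := T.attach.image fun t => idx t.1 t.2 with hS1
  obtain ⟨S0, hS0sub, hS0card⟩ := Finset.exists_subset_card_eq he
  have hS1prod : ∏ j ∈ S1, g (Z j) = ∏ t ∈ T, g t := by
    rw [hS1, Finset.prod_image]
    · rw [← Finset.prod_attach T g]
      refine Finset.prod_congr rfl fun t _ => ?_
      rw [hidx t.1 t.2]
    · intro t _ t' _ h
      have h2 : Z (idx t.1 t.2) = Z (idx t'.1 t'.2) := congrArg Z h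
      rw [hidx, hidx] at h2
      exact Subtype.ext h2
  have hS0prod : ∏ j ∈ S0, g (Z j) = g p0 ^ e := by
    rw [← hS0card, ← Finset.prod_const]
    refine Finset.prod_congr rfl fun j hj => ?_
    rw [(Finset.mem_filter.mp (hS0sub hj)).2]
  have hdisj : Disjoint S1 S0 := by
    rw [Finset.disjoint_left]
    intro j hj1 hj0
    obtain ⟨t, -, rfl⟩ := Finset.mem_image.mp hj1
    have h0 : Z (idx t.1 t.2) = p0 := (Finset.mem_filter.mp (hS0sub hj0)).2
    rw [hidx] at h0
    exact hp0 (h0 ▸ t.2)
  have hsplit : ∏ i, g (Z i) =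
      (∏ j ∈ Finset.univ \ (S1 ∪ S0), g (Z j)) * ∏ j ∈ S1 ∪ S0, g (Z j) :=
    (Finset.prod_sdiff (Finset.subset_univ _)).symm
  have hrest : ∏ j ∈ Finset.univ \ (S1 ∪ S0), g (Z j) ≤ c ^ n := by
    calc ∏ j ∈ Finset.univ \ (S1 ∪ S0), g (Z j)
        ≤ ∏ _j ∈ Finset.univ \ (S1 ∪ S0), c :=
          Finset.prod_le_prod (fun j _ => hg0 _) (fun j _ => hgc _)
      _ = c ^ (Finset.univ \ (S1 ∪ S0)).card := Finset.prod_const c
      _ ≤ c ^ n := by
          refine pow_le_pow_right₀ hc ?_
          calc (Finset.univ \ (S1 ∪ S0)).card ≤ (Finset.univ : Finset (Fin n)).card :=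
                Finset.card_le_card Finset.sdiff_subset
            _ = n := by rw [Finset.card_univ, Fintype.card_fin]
  rw [hsplit, Finset.prod_union hdisj, hS1prod, hS0prod]
  exact mul_le_mul_of_nonneg_right hrest
    (mul_nonneg (Finset.prod_nonneg fun t _ => hg0 t) (pow_nonneg (hg0 p0) e))

end Fermat.Agent.S17.H.Vandermonde
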