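/-
Program MW (S17), strand H, leaf D3b (exit): the local Vandermonde bound on the curve.

`F / K` a function field of one variable over an algebraically closed field of characteristic
zero, `v₀` the base place, `m0` large, `τ` a basis of `L(m0 v₀)`, `w` a finite family of
sections of `M v₀`.  For every `n` there is a local constant of product type such that at every
absolute value `v` of `K`, for every value function `ev`, every choice `f` of `n` members of
the family and every `n` distinct finite places `p`: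

`(v(det [ev (p b) (w (f a))]) * ∏_{a<b} N_a N_b) ^ m0
    ≤ locConst C Γ v * ∏_b N_b ^ M * ∏_{a<b} Sg_ab ^ m0`,

`N_b` the sup norm of the value vector `(ev (p b) (τ l))_l` and `Sg_ab` the sup norm of the
secant coordinates of the places `p a`, `p b`.

Inputs: the upper half of (LD) on the curve (`LD.UpCurve.ld_up_of_sol` with
`LD.UpSolCurve.up_sol`), the secant coordinates of the base place (`LD.infDist`), the forms of
the sections (`LD.exists_form_of_mem_L`), the subsystem form (`up_subsystem_dist`) and the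
relation form of the abstract Vandermonde bound (`rel_det_le`).
-/
import Mathlib
import Fermat.Agent.S17.R.LSpace
import Fermat.Agent.S17.R.LStep
import Fermat.Agent.S17.R.SectionRingCore
import Fermat.Agent.S17.H.Cert.LocConst
import Fermat.Agent.S17.H.Glob.Eval
import Fermat.Agent.S17.H.LD.Pt
import Fermat.Agent.S17.H.LD.ValuesEv
import Fermat.Agent.S17.H.LD.Forms
import Fermat.Agent.S17.H.LD.InfDist
import Fermat.Agent.S17.H.LD.DownCurve
import Fermat.Agent.S17.H.LD.UpCurve
import Fermat.Agent.S17.H.LD.UpSolCurve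
import Fermat.Agent.S17.H.Glob.VandermondeRel
import Fermat.Agent.S17.H.Glob.VandermondeLocalDist

set_option autoImplicit false

namespace Fermat.Agent.S17.H.Vandermonde

open AlgebraicCurve MvPolynomial Finset
open Fermat.Agent.S17.R Fermat.Agent.S17.H Fermat.Agent.S17.H.Cert

variable {K F : Type*} [Field K] [Field F] [Algebra K F]

/-- **Local bound for a change of coefficients**: the coefficients `∑ i, c i * β i j` of a
combination are bounded by the size of `c`, with a constant of product type depending only on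
the matrix `β`. -/
theorem abv_comb_le {I κ : Type*} [Fintype I] [Fintype κ] (β : I → κ → K)
    (v : AbsoluteValue K ℝ) (c : I → K) (B : ℝ) (hB : 0 ≤ B) (hc : ∀ i, v (c i) ≤ B) (j : κ) :
    v (∑ i, c i * β i j) ≤
      locConst ((Fintype.card I : ℝ) + 1)
        ((Finset.univ : Finset (I × κ)).val.map fun p => β p.1 p.2) v * B := by
  have hβ : ∀ i, v (β i j) ≤
      gamProd ((Finset.univ : Finset (I × κ)).val.map fun p => β p.1 p.2) v := fun i =>
    le_gamProd_of_mem (Multiset.mem_map_of_mem (fun p : I × κ => β p.1 p.2)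
      (Finset.mem_univ_val (i, j))) v
  have hg : 0 < gamProd ((Finset.univ : Finset (I × κ)).val.map fun p => β p.1 p.2) v :=
    gamProd_pos _ v
  have hterm : ∀ i, v (c i * β i j) ≤
      B * gamProd ((Finset.univ : Finset (I × κ)).val.map fun p => β p.1 p.2) v := fun i => by
    rw [map_mul]
    exact mul_le_mul (hc i) (hβ i) (v.nonneg _) hB
  by_cases hv : IsNonarchimedean v
  · rw [locConst_of_nonarch hv]
    have h1 := abv_sum_le v (fun i => c i * β i j)
    rw [locConst_of_nonarch hv, gamProd_zero, one_mul] at h1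
    calc v (∑ i, c i * β i j) ≤ ⨆ i, v (c i * β i j) := h1
      _ ≤ B * gamProd ((Finset.univ : Finset (I × κ)).val.map fun p => β p.1 p.2) v :=
          Real.iSup_le hterm (mul_nonneg hB hg.le)
      _ = gamProd ((Finset.univ : Finset (I × κ)).val.map fun p => β p.1 p.2) v * B :=
          mul_comm _ _
  · rw [locConst_of_not_nonarch hv]
    have h0 : 0 ≤ B * gamProd ((Finset.univ : Finset (I × κ)).val.map fun p => β p.1 p.2) v :=
      mul_nonneg hB hg.le
    calc v (∑ i, c i * β i j) ≤ ∑ i, v (c i * β i j) := v.sum_le _ _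
      _ ≤ ∑ _i : I,
            B * gamProd ((Finset.univ : Finset (I × κ)).val.map fun p => β p.1 p.2) v :=
          Finset.sum_le_sum fun i _ => hterm i
      _ = (Fintype.card I : ℝ) *
            (B * gamProd ((Finset.univ : Finset (I × κ)).val.map fun p => β p.1 p.2) v) := by
          rw [Finset.sum_const, Finset.card_univ, nsmul_eq_mul]
      _ ≤ ((Fintype.card I : ℝ) + 1) *
            (B * gamProd ((Finset.univ : Finset (I × κ)).val.map fun p => β p.1 p.2) v) :=
          mul_le_mul_of_nonneg_right (by linarith) h0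
      _ = ((Fintype.card I : ℝ) + 1) *
            gamProd ((Finset.univ : Finset (I × κ)).val.map fun p => β p.1 p.2) v * B := by
          ring

variable [IsAlgClosed K] [CharZero K] [Algebra.EssFiniteType K F]

/-- **D3b, exit: the local Vandermonde bound on the curve.**  For `m0` large, `τ` a basis of
`L(m0 v₀)`, `w` a finite family of sections of `M v₀` and `n` points: the `n`-minors of the
table of values of `w` at `n` distinct finite places are bounded, at every absolute value, by
the sizes of the places to the power `M` and the secant coordinates of the pairs of places, with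
a constant of product type. -/
theorem exists_local_vdm (htr : Algebra.trdeg K F = 1) (v₀ : Place K F) :
    ∃ n₀ : ℕ, ∀ m0 : ℕ, n₀ ≤ m0 → ∀ {r : ℕ} (τ : Fin r → F), LinearIndependent K τ →
      Submodule.span K (Set.range τ) = riemannRochSpace ((m0 : ℤ) • Finsupp.single v₀ (1 : ℤ)) →
      ∀ {I : Type*} [Fintype I] (M : ℕ) (w : I → F),
      (∀ i, w i ∈ riemannRochSpace ((M : ℤ) • Finsupp.single v₀ (1 : ℤ))) →
      ∀ (n : ℕ), ∃ (C : ℝ) (Γ : Multiset K), 1 ≤ C ∧
        ∀ {ev : Place K F → F → K}, Glob.IsEval ev → ∀ (v : AbsoluteValue K ℝ)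
          (f : Fin n → I), Function.Injective f →
          ∀ (p : Fin n → Place K F), Function.Injective p → (∀ j, p j ≠ v₀) →
          (v (Matrix.det (Matrix.of fun (a : Fin n) (b : Fin n) => ev (p b) (w (f a)))) *
              ∏ a, ∏ b ∈ Finset.Ioi a,
                N v (fun l => ev (p a) (τ l)) * N v (fun l => ev (p b) (τ l))) ^ m0 ≤
            locConst C Γ v * (∏ b, N v (fun l => ev (p b) (τ l)) ^ M) *
              ∏ a, ∏ b ∈ Finset.Ioi a,
                Sg v (fun l => ev (p a) (τ l)) (fun l => ev (p b) (τ l)) ^ m0 := by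
  classical
  obtain ⟨n₁, hsol⟩ := LD.UpSolCurve.up_sol (K := K) (F := F) htr v₀
  obtain ⟨n₂, hup⟩ := LD.UpCurve.ld_up_of_sol htr v₀ hsol
  obtain ⟨n₃, hoo⟩ := LD.infDist (K := K) (F := F) htr v₀
  obtain ⟨n₄, hforms⟩ := LD.exists_form_of_mem_L (K := K) (F := F) htr v₀
  refine ⟨max (max n₂ n₃) (max n₄ 1), fun m0 hm r τ hτli hτ I _ M w hw n => ?_⟩
  have hm2 : n₂ ≤ m0 := le_trans (le_trans (le_max_left _ _) (le_max_left _ _)) hm
  have hm3 : n₃ ≤ m0 := le_trans (le_trans (le_max_right _ _) (le_max_left _ _)) hm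
  have hm4 : n₄ ≤ m0 := le_trans (le_trans (le_max_left _ _) (le_max_right _ _)) hm
  have hm0 : 0 < m0 :=
    lt_of_lt_of_le zero_lt_one (le_trans (le_trans (le_max_right _ _) (le_max_right _ _)) hm)
  -- the degree `k` of the forms
  obtain ⟨k, hk⟩ : ∃ k : ℕ, k = M + 1 := ⟨_, rfl⟩
  have hk0 : 0 < k := by omega
  have hMk : M ≤ k * m0 :=
    calc M ≤ k := by omega
      _ = k * 1 := (Nat.mul_one k).symm
      _ ≤ k * m0 := Nat.mul_le_mul_left k hm0
  -- a basis `ψ` of `L((k m0) v₀)` and its forms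
  have := finite_L htr (((k * m0 : ℕ) : ℤ) • Finsupp.single v₀ (1 : ℤ))
  obtain ⟨d, ψ, hψli, hψspan⟩ := LD.DownCurve.exists_basis_family
    (riemannRochSpace (((k * m0 : ℕ) : ℤ) • Finsupp.single v₀ (1 : ℤ)))
  have hψmem : ∀ u, ψ u ∈ riemannRochSpace (((k * m0 : ℕ) : ℤ) • Finsupp.single v₀ (1 : ℤ)) := by
    intro u
    rw [← hψspan]
    exact Submodule.subset_span ⟨u, rfl⟩
  have hPex : ∀ u, ∃ Q : MvPolynomial (Fin r) K, Q.IsHomogeneous k ∧ aeval τ Q = ψ u := fun u =>
    hforms m0 hm4 τ hτ k (ψ u) (hψmem u)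
  choose P hP hPψ using hPex
  -- the upper half of (LD) and the secant coordinates of the base place
  obtain ⟨C₁, Γ₁, hC₁, hUP⟩ := hup m0 hm2 k hk0 τ ψ P hτli hτ hψli hψspan hP hPψ
  obtain ⟨C', Γ', hC', hOO⟩ := hoo m0 hm3 r τ hτ
  -- a representative of the base place
  have h1span : (1 : F) ∈ Submodule.span K (Set.range τ) := by
    rw [hτ]
    exact SectionRing.one_mem_L v₀ m0
  have hτmem : ∀ l, τ l ∈ riemannRochSpace ((m0 : ℤ) • Finsupp.single v₀ (1 : ℤ)) := by
    intro l
    rw [← hτ]
    exact Submodule.subset_span ⟨l, rfl⟩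
  have hex : ∃ i, τ i ≠ 0 := by
    by_contra hno
    have hall : ∀ i, τ i = 0 := fun i => by
      by_contra hi
      exact hno ⟨i, hi⟩
    have hbot : Submodule.span K (Set.range τ) = ⊥ := by
      rw [Submodule.span_eq_bot]
      rintro _ ⟨i, rfl⟩
      exact hall i
    rw [hbot, Submodule.mem_bot] at h1span
    exact one_ne_zero h1span
  obtain ⟨xinf, hxinf⟩ := LD.exists_isPt htr τ hex v₀
  -- the coordinates of the family `w` in the basis `ψ`
  have hle : ((M : ℤ) • Finsupp.single v₀ (1 : ℤ) : Divisor K F) ≤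
      ((k * m0 : ℕ) : ℤ) • Finsupp.single v₀ (1 : ℤ) := SectionRing.nD_mono v₀ hMk
  have hwk : ∀ i, w i ∈ Submodule.span K (Set.range ψ) := by
    intro i
    rw [hψspan]
    exact L_mono hle (hw i)
  have hβex : ∀ i, ∃ cf : Fin d → K, ∑ j, cf j • ψ j = w i := fun i =>
    (Submodule.mem_span_range_iff_exists_fun K).mp (hwk i)
  choose β hβ using hβex
  -- the constants
  have h2 : (1 : ℝ) ≤ (Fintype.card I : ℝ) + 1 := by
    have : (0 : ℝ) ≤ (Fintype.card I : ℝ) := Nat.cast_nonneg _
    linarith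
  refine ⟨((C₁ * ((Fintype.card I : ℝ) + 1) * 2 ^ (k * m0)) ^ m0 * C' ^ (k * m0 - M)) ^ n,
    n • (m0 • (Γ₁ + (Finset.univ : Finset (I × Fin d)).val.map (fun p => β p.1 p.2) +
      (k * m0) • (0 : Multiset K)) + (k * m0 - M) • Γ'), ?_, ?_⟩
  · have hCL1 : 1 ≤ C₁ * ((Fintype.card I : ℝ) + 1) * 2 ^ (k * m0) :=
      one_le_mul_of_one_le_of_one_le (one_le_mul_of_one_le_of_one_le hC₁ h2)
        (one_le_pow₀ (by norm_num))
    exact one_le_pow₀ (one_le_mul_of_one_le_of_one_le (one_le_pow₀ hCL1) (one_le_pow₀ hC'))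
  intro ev hev v f hf p hp hp0
  -- the local constants at `v`
  have hL₁0 : 0 ≤ locConst C₁ Γ₁ v := (locConst_pos hC₁ Γ₁ v).le
  have hL₂0 : 0 ≤ locConst ((Fintype.card I : ℝ) + 1)
      ((Finset.univ : Finset (I × Fin d)).val.map fun p => β p.1 p.2) v :=
    (locConst_pos h2 _ v).le
  have hc₀1 : 1 ≤ locConst 2 (0 : Multiset K) v := one_le_locConst (by norm_num) 0 v
  -- the subsystem form of the upper half
  have hsub := up_subsystem_dist htr v₀ hev hm0 τ ψ P hτ hψmem hPψ v
    (locConst 2 (0 : Multiset K) v) hc₀1 (fun x y => Sg_le_locConst v x y)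
    (locConst C₁ Γ₁ v) hL₁0 (fun a Z x y ha hZ hx hy => hUP v a Z x y ha hZ hx hy)
    xinf hxinf w hw β (fun i => (hβ i).symm)
    (locConst ((Fintype.card I : ℝ) + 1)
      ((Finset.univ : Finset (I × Fin d)).val.map fun p => β p.1 p.2) v) hL₂0
    (fun c B hB hc j => abv_comb_le β v c B hB hc j)
  -- the secant coordinates of the base place
  obtain ⟨i₀, hi₀, hτi₀, hpt₀⟩ := id hxinf
  have hOO' : ∀ q : {q : Place K F // q ≠ v₀},
      Sg v xinf (fun l => ev q.1 (τ l)) ^ m0 ≤
        locConst C' Γ' v * N v xinf ^ m0 * N v (fun l => ev q.1 (τ l)) ^ (m0 - 1) := by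
    intro q
    exact (hOO v xinf i₀ hi₀ hτi₀ hpt₀ q.1 (fun l => ev q.1 (τ l)) (fun l =>
      (LD.Pt.adicValuation_lt_one_iff q.1 _).mpr
        (hev q.1 (τ l) (LD.mem_valuationSubring_of_mem_L q.2 (hτmem l))))).1
  have hy : ∀ q : {q : Place K F // q ≠ v₀}, 0 < N v (fun l => ev q.1 (τ l)) := fun q =>
    N_pos_of_isPt v (LD.isPt_ev htr hev q.2 τ hτmem h1span)
  have hx : 0 < N v xinf := N_pos_of_isPt v hxinf
  have hMeq : k * m0 = M + (k * m0 - M) := (Nat.add_sub_cancel' hMk).symm
  have key := rel_det_le v (fun (i : I) (q : {q : Place K F // q ≠ v₀}) => ev q.1 (w i))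
    (fun q l => ev q.1 (τ l)) xinf hy hx k m0 (k * m0 - M) M hMeq hm0
    (locConst C₁ Γ₁ v * locConst ((Fintype.card I : ℝ) + 1)
      ((Finset.univ : Finset (I × Fin d)).val.map fun p => β p.1 p.2) v *
      locConst 2 (0 : Multiset K) v ^ (k * m0))
    (locConst C' Γ' v)
    (mul_nonneg (mul_nonneg hL₁0 hL₂0) (pow_nonneg (le_trans zero_le_one hc₀1) _))
    hsub hOO' n f hf (fun j => ⟨p j, hp0 j⟩) (fun j j' h => hp (congrArg Subtype.val h))
  -- the constant is of product type
  have hconst : ((locConst C₁ Γ₁ v * locConst ((Fintype.card I : ℝ) + 1)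
      ((Finset.univ : Finset (I × Fin d)).val.map fun p => β p.1 p.2) v *
      locConst 2 (0 : Multiset K) v ^ (k * m0)) ^ m0 * locConst C' Γ' v ^ (k * m0 - M)) ^ n =
      locConst (((C₁ * ((Fintype.card I : ℝ) + 1) * 2 ^ (k * m0)) ^ m0 *
          C' ^ (k * m0 - M)) ^ n)
        (n • (m0 • (Γ₁ + (Finset.univ : Finset (I × Fin d)).val.map (fun p => β p.1 p.2) +
          (k * m0) • (0 : Multiset K)) + (k * m0 - M) • Γ')) v := by
    rw [locConst_pow 2, locConst_mul, locConst_mul, locConst_pow, locConst_pow, locConst_mul,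
      locConst_pow]
  rw [hconst] at key
  exact key

end Fermat.Agent.S17.H.Vandermonde
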