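/-
Program MW (statement S17), strand H, leaf D3: from the RELATION form of the local Vandermonde
bound (`Vandermonde.rel_det_le`, free of divisions and of real powers) to the height inequality.

If at every absolute value `v` of `Qb`, for every coordinate `I` of the tuple `minors`,

`(v (minors I) * ∏_{a<b} N_a N_b) ^ m0 ≤ locConst c Γ v * ∏_b N_b ^ M' * ∏_{a<b} Sg_ab ^ m0`,

`N_b = ⨆ j, v (y b j)`, `Sg_ab = ⨆ p, v (y a p.1 * y b p.2 - y a p.2 * y b p.1)`, then

`hT minors ≤ (M' / m0) * ∑_b hT (y b) - ∑_{a<b} (hT (y a) + hT (y b) - hT (sig_ab))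
    + (log c + ∑ hQ γ) / m0`,

i.e. `hT (minors) ≤ M' * ∑ H - ∑_{a<b} D + C` for `H = hT (y) / m0` and
`D = hT (y) + hT (y') - hT (sig)`: the hypothesis `hvdm` of leaf F1.
-/
import Fermat.Agent.S17.H.Glob.VandermondeRel
import Fermat.Agent.S17.H.A.ProdForm

namespace Fermat.Agent.S17.H.VandRelGlobal

open Fermat.Agent.S17.H.ProdForm Fermat.Agent.S17.H.Vandermonde

variable {ι₀ ι : Type*} [Finite ι₀] [Finite ι] {n : ℕ}

/-- **Global Vandermonde bound from the relation form.** -/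
theorem hT_minors_le_of_rel (minors : ι₀ → AlgebraicClosure ℚ)
    (y : Fin n → ι → AlgebraicClosure ℚ) (hminors : minors ≠ 0) (hy : ∀ b, y b ≠ 0)
    (hsig : ∀ a b, a < b → (fun p : ι × ι => y a p.1 * y b p.2 - y a p.2 * y b p.1) ≠ 0)
    {m0 M' : ℕ} (hm0 : 0 < m0) {c : ℝ} (hc : 1 ≤ c) (Γ : Multiset (AlgebraicClosure ℚ))
    (hloc : ∀ (v : AbsoluteValue (AlgebraicClosure ℚ) ℝ) (I : ι₀),
      (v (minors I) * ∏ a, ∏ b ∈ Finset.Ioi a, N v (y a) * N v (y b)) ^ m0 ≤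
        Cert.locConst c Γ v * (∏ b, N v (y b) ^ M') *
          ∏ a, ∏ b ∈ Finset.Ioi a, Sg v (y a) (y b) ^ m0) :
    hT minors ≤ (M' : ℝ) / m0 * ∑ b, hT (y b) -
        ∑ a, ∑ b ∈ Finset.Ioi a, (hT (y a) + hT (y b) -
          hT (fun p : ι × ι => y a p.1 * y b p.2 - y a p.2 * y b p.1)) +
      (Real.log c + (Γ.map hQ).sum) / m0 := by
  have hL : HasHT (fun v => ((⨆ I, v (minors I)) *
      ∏ a, ∏ b ∈ Finset.Ioi a, N v (y a) * N v (y b)) ^ m0)
      (m0 * (hT minors + ∑ a, ∑ b ∈ Finset.Ioi a, (hT (y a) + hT (y b)))) :=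
    ((hasHT_tuple hminors).mul
      (HasHT.prod Finset.univ
        (L := fun a v => ∏ b ∈ Finset.Ioi a, N v (y a) * N v (y b))
        (h := fun a => ∑ b ∈ Finset.Ioi a, (hT (y a) + hT (y b)))
        fun a _ => HasHT.prod (Finset.Ioi a)
          (L := fun b v => N v (y a) * N v (y b))
          (h := fun b => hT (y a) + hT (y b))
          fun b _ => (hasHT_tuple (hy a)).mul (hasHT_tuple (hy b)))).pow m0
  have hR : HasHT (fun v => (∏ b, N v (y b) ^ M') *
      ∏ a, ∏ b ∈ Finset.Ioi a, Sg v (y a) (y b) ^ m0)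
      (∑ b, (M' : ℝ) * hT (y b) + ∑ a, ∑ b ∈ Finset.Ioi a,
        (m0 : ℝ) * hT (fun p : ι × ι => y a p.1 * y b p.2 - y a p.2 * y b p.1)) :=
    (HasHT.prod Finset.univ (L := fun b v => N v (y b) ^ M')
        (h := fun b => (M' : ℝ) * hT (y b)) fun b _ => (hasHT_tuple (hy b)).pow M').mul
      (HasHT.prod Finset.univ
        (L := fun a v => ∏ b ∈ Finset.Ioi a, Sg v (y a) (y b) ^ m0)
        (h := fun a => ∑ b ∈ Finset.Ioi a,
          (m0 : ℝ) * hT (fun p : ι × ι => y a p.1 * y b p.2 - y a p.2 * y b p.1))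
        fun a _ => HasHT.prod (Finset.Ioi a)
          (L := fun b v => Sg v (y a) (y b) ^ m0)
          (h := fun b => (m0 : ℝ) * hT (fun p : ι × ι => y a p.1 * y b p.2 - y a p.2 * y b p.1))
          fun b hb => (hasHT_tuple (hsig a b (Finset.mem_Ioi.mp hb))).pow m0)
  have key := hL.le_of_locConst hR hc Γ fun v => by
    have hne : Nonempty ι₀ := (Function.ne_iff.mp hminors).nonempty
    obtain ⟨I, hI⟩ := exists_eq_ciSup_of_finite (f := fun I => v (minors I))
    rw [← hI, ← mul_assoc]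
    exact hloc v I
  have hm0' : (0 : ℝ) < m0 := Nat.cast_pos.mpr hm0
  simp only [← Finset.mul_sum, Finset.sum_sub_distrib, Finset.sum_add_distrib] at key ⊢
  refine le_of_mul_le_mul_left ?_ hm0'
  have e : ∀ S1 S2a S2b S3 Kc : ℝ,
      (m0 : ℝ) * ((M' : ℝ) / m0 * S1 - (S2a + S2b - S3) + Kc / m0) =
        M' * S1 - m0 * (S2a + S2b - S3) + Kc := by
    intro S1 S2a S2b S3 Kc
    field_simp
  rw [e]
  linarith

end Fermat.Agent.S17.H.VandRelGlobal
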