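/-
Program MW (statement S17), strand H, leaf D3 (exit): the GLOBAL Vandermonde bound on the curve.

`F` a function field of a curve over `Qb = AlgebraicClosure ℚ`, `v₀` the base place, `m0` large,
`τ` a basis of `L(m0 v₀)`, `ev` a value function.  For `n + 1` sections `ψ` of `L(M v₀)` there
is a constant `C` such that for every `n` distinct places `a j ≠ v₀` with a non-zero vector of
`n`-minors of the table of values `[ev (a j) (ψ i)]`:

`hT (minors) ≤ M * ∑ j, H (a j) - ∑_{i<j} D (a i) (a j) + C`,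

`H = Glob.plH ev τ m0`, `D = Glob.plD ev τ`: VERBATIM the hypothesis `hD3` of
`F.residualBound_plH` (leaf F1).

Proof: the local bound at every absolute value (`Vandermonde.exists_local_vdm`, the exit of
D3b), the non-vanishing of the secant vectors (`Glob.SigNe.sigVec_ne_zero`) and the global step
`VandRelGlobal.hT_minors_le_of_rel`.
-/
import Mathlib
import Fermat.Agent.S17.R.LSpace
import Fermat.Agent.S17.R.SectionRingCore
import Fermat.Agent.S17.H.Glob.PlaceHeight
import Fermat.Agent.S17.H.Glob.SigNe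
import Fermat.Agent.S17.H.Glob.VandermondeCurve
import Fermat.Agent.S17.H.Glob.VandermondeRelGlobal
import Fermat.Agent.S17.H.LD.PtRow
import Fermat.Agent.S17.H.LD.ValuesEv
import Fermat.Agent.S17.H.F.DetHeightCore

set_option autoImplicit false

namespace Fermat.Agent.S17.H.Glob.VandermondeExit

open AlgebraicCurve Finset
open Fermat.Agent.S17.R Fermat.Agent.S17.H Fermat.Agent.S17.H.Glob
open Fermat.Agent.S17.H.Vandermonde
open Fermat.Agent.S17.H.F (minorVec)

local notation "Qb" => AlgebraicClosure ℚ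

variable {F : Type*} [Field F] [Algebra Qb F] [Algebra.EssFiniteType Qb F]

omit [Algebra.EssFiniteType Qb F] in
/-- The vector of minors of leaf F1 as determinants of the table `[ev (a b) (ψ (f r))]`
(rows: sections, columns: places). -/
theorem minorVec_eq_det {n : ℕ} (ev : Place Qb F → F → Qb) (ψ : Fin (n + 1) → F)
    (a : Fin n → Place Qb F) (i : Fin (n + 1)) :
    minorVec ev ψ a i =
      Matrix.det (Matrix.of fun (r : Fin n) (b : Fin n) => ev (a b) (ψ (i.succAbove r))) := by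
  rw [← Matrix.det_transpose]
  rfl

/-- **D3, exit: the global Vandermonde bound on the curve**, with a threshold that does not
depend on the value function (the hypothesis `hD3` of `F.residualBound_plH`, verbatim, for `m0`
large and `τ` a basis of `L(m0 v₀)`). -/
theorem vdm_exit_unif (htr : Algebra.trdeg Qb F = 1) (v₀ : Place Qb F) :
    ∃ n₀ : ℕ, ∀ m0 : ℕ, n₀ ≤ m0 → ∀ {r : ℕ} (τ : Fin r → F), LinearIndependent Qb τ →
      Submodule.span Qb (Set.range τ) =
        riemannRochSpace ((m0 : ℤ) • Finsupp.single v₀ (1 : ℤ)) →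
      ∀ {ev : Place Qb F → F → Qb}, IsEval ev →
      ∀ (M n : ℕ) (ψ : Fin (n + 1) → F), LinearIndependent Qb ψ →
        (∀ i, ψ i ∈ riemannRochSpace ((M : ℤ) • Finsupp.single v₀ (1 : ℤ))) →
        ∃ C : ℝ, ∀ a : Fin n → Place Qb F, Function.Injective a → (∀ j, a j ≠ v₀) →
          minorVec ev ψ a ≠ 0 →
          hT (minorVec ev ψ a) ≤
            (M : ℝ) * ∑ j, plH ev τ m0 (a j)
              - ∑ i, ∑ j ∈ Finset.Ioi i, plD ev τ (a i) (a j) + C := by
  obtain ⟨n₁, hloc⟩ := exists_local_vdm (K := Qb) (F := F) htr v₀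
  obtain ⟨m₁, hsig⟩ := SigNe.sigVec_ne_zero (F := F) htr v₀
  refine ⟨max (max n₁ m₁) 1, fun m0 hm r τ hτli hτ ev hev M n ψ _ hψ => ?_⟩
  have hm1 : n₁ ≤ m0 := le_trans (le_trans (le_max_left _ _) (le_max_left _ _)) hm
  have hm2 : m₁ ≤ m0 := le_trans (le_trans (le_max_right _ _) (le_max_left _ _)) hm
  have hm0 : 0 < m0 := lt_of_lt_of_le zero_lt_one (le_trans (le_max_right _ _) hm)
  obtain ⟨C, Γ, hC, hv⟩ := hloc m0 hm1 τ hτli hτ M ψ hψ n
  refine ⟨(Real.log C + (Γ.map hQ).sum) / (m0 : ℝ), fun a ha hav hminor => ?_⟩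
  -- the value vectors and the secant vectors are non-zero
  have hτmem : ∀ l, τ l ∈ riemannRochSpace ((m0 : ℤ) • Finsupp.single v₀ (1 : ℤ)) := by
    intro l
    rw [← hτ]
    exact Submodule.subset_span ⟨l, rfl⟩
  have h1span : (1 : F) ∈ Submodule.span Qb (Set.range τ) := by
    rw [hτ]
    exact SectionRing.one_mem_L v₀ m0
  have hy : ∀ b, valVec ev τ (a b) ≠ 0 := fun b =>
    (LD.isPt_ev htr hev (hav b) τ hτmem h1span).ne_zero
  have hs : ∀ i j, i < j →
      (fun p : Fin r × Fin r =>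
        valVec ev τ (a i) p.1 * valVec ev τ (a j) p.2
          - valVec ev τ (a i) p.2 * valVec ev τ (a j) p.1) ≠ 0 := fun i j hij =>
    hsig m0 hm2 τ hτ hev (a i) (a j) (hav i) (hav j) (ha.ne hij.ne)
  -- the global step
  have key := VandRelGlobal.hT_minors_le_of_rel (minorVec ev ψ a)
    (fun b => valVec ev τ (a b)) hminor hy hs hm0 hC Γ (fun v i => by
      rw [minorVec_eq_det]
      exact hv hev v (fun r => i.succAbove r) Fin.succAbove_right_injective a ha hav)
  have hm0' : (m0 : ℝ) ≠ 0 := Nat.cast_ne_zero.mpr hm0.ne'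
  have e1 : (M : ℝ) * ∑ j, plH ev τ m0 (a j) =
      (M : ℝ) / m0 * ∑ b, hT (valVec ev τ (a b)) := by
    simp only [plH]
    rw [← Finset.sum_div]
    field_simp
  rw [e1]
  exact key

/-- **D3, exit** (the literal consumed by `H/Exit.lean`): for a value function `ev`, `m0` large
and `τ` a basis of `L(m0 v₀)`, the hypothesis `hD3` of `F.residualBound_plH`. -/
theorem vdm_exit (htr : Algebra.trdeg Qb F = 1) (v₀ : Place Qb F)
    {ev : Place Qb F → F → Qb} (hev : IsEval ev) :
    ∃ n₀ : ℕ, ∀ m0 : ℕ, n₀ ≤ m0 → ∀ {r : ℕ} (τ : Fin r → F), LinearIndependent Qb τ →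
      Submodule.span Qb (Set.range τ) = riemannRochSpace ((m0 : ℤ) • Finsupp.single v₀ (1 : ℤ)) →
      ∀ (M n : ℕ) (ψ : Fin (n + 1) → F), LinearIndependent Qb ψ →
        (∀ i, ψ i ∈ riemannRochSpace ((M : ℤ) • Finsupp.single v₀ (1 : ℤ))) →
        ∃ C : ℝ, ∀ a : Fin n → Place Qb F, Function.Injective a → (∀ j, a j ≠ v₀) →
          minorVec ev ψ a ≠ 0 →
          hT (minorVec ev ψ a) ≤
            (M : ℝ) * ∑ j, plH ev τ m0 (a j)
              - ∑ i, ∑ j ∈ Finset.Ioi i, plD ev τ (a i) (a j) + C := by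
  obtain ⟨n₀, h⟩ := vdm_exit_unif (F := F) htr v₀
  exact ⟨n₀, fun m0 hm r τ hτli hτ => h m0 hm τ hτli hτ hev⟩

end Fermat.Agent.S17.H.Glob.VandermondeExit
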