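/-
MW strand H, leaf D4a (abstract core): trace and discriminant degree on an Apéry basis.

`R` a domain which is a free `K[X]`-module with basis `b i` (`i : Fin n0`), `ord : R → ℤ` an
"order at infinity" (minus the pole order) which is additive on products of nonzero elements,
`ν i` the pole order of `b i`, with `ν i ≡ i` modulo `n0`, and such that the pole order of a
`K[X]`-combination `∑ c k • b k` is the maximum of the numbers `n0 · deg (c i) + ν i` over the
nonzero coefficients (the Apéry property; `X` has pole order `n0`).  Then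

* `n0 · deg (Tr f) ≤` pole order of `f`, with equality when `n0` divides the pole order
  (characteristic zero): the diagonal entries of the multiplication matrix of `f` all have degree
  at most `(pole order) / n0`, and when `n0` divides the pole order they share one leading
  coefficient;
* the discriminant `det (Tr (b i * b j))` is nonzero of degree `(2 ∑ ν i) / n0`: in the Leibniz
  expansion the negation of `Fin n0` is the only permutation all of whose entries have a pole
  order divisible by `n0`;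
* if `g = ∑ ⌊ν i / n0⌋` (the number of gaps), the degree of the discriminant is `2 g + n0 - 1`.

Mathlib only.
-/
import Mathlib

set_option autoImplicit false
set_option linter.unusedSectionVars false

namespace Fermat.Agent.S17.H.TraceDisc

open Polynomial

variable {K R : Type*} [Field K] [CommRing R] [IsDomain R] [Algebra K[X] R] {n0 : ℕ}

/-- The Apéry property of a `K[X]`-basis `b` of `R` with respect to an order function `ord`
and pole orders `ν`. -/
structure IsApery (b : Module.Basis (Fin n0) K[X] R) (ord : R → ℤ) (ν : Fin n0 → ℕ) : Prop where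
  mul : ∀ f g : R, f ≠ 0 → g ≠ 0 → ord (f * g) = ord f + ord g
  res : ∀ i, ν i % n0 = (i : ℕ)
  ord_le : ∀ (c : Fin n0 → K[X]) (i : Fin n0), c i ≠ 0 →
    ord (∑ k, c k • b k) ≤ -((n0 * (c i).natDegree + ν i : ℕ) : ℤ)
  ord_ex : ∀ c : Fin n0 → K[X], c ≠ 0 →
    ∃ i, c i ≠ 0 ∧ ord (∑ k, c k • b k) = -((n0 * (c i).natDegree + ν i : ℕ) : ℤ)

namespace IsApery

variable {b : Module.Basis (Fin n0) K[X] R} {ord : R → ℤ} {ν : Fin n0 → ℕ}

theorem le_of_repr_ne_zero (h : IsApery b ord ν) (f : R) (i : Fin n0) (hi : b.repr f i ≠ 0) :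
    ((n0 * (b.repr f i).natDegree + ν i : ℕ) : ℤ) ≤ -ord f := by
  have h1 := h.ord_le (fun k => b.repr f k) i hi
  rw [b.sum_repr f] at h1
  linarith

theorem exists_repr_eq (h : IsApery b ord ν) {f : R} (hf : f ≠ 0) :
    ∃ i, b.repr f i ≠ 0 ∧ -ord f = ((n0 * (b.repr f i).natDegree + ν i : ℕ) : ℤ) := by
  have hc : (fun k => b.repr f k) ≠ 0 := by
    intro h0
    apply hf
    have h1 : b.repr f = 0 := Finsupp.ext fun k => congrFun h0 k
    exact b.repr.map_eq_zero_iff.mp h1
  obtain ⟨i, hi, he⟩ := h.ord_ex _ hc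
  rw [b.sum_repr f] at he
  exact ⟨i, hi, by rw [he, neg_neg]⟩

theorem ord_nonpos (h : IsApery b ord ν) {f : R} (hf : f ≠ 0) : ord f ≤ 0 := by
  obtain ⟨i, -, he⟩ := h.exists_repr_eq hf
  have h0 : (0 : ℤ) ≤ ((n0 * (b.repr f i).natDegree + ν i : ℕ) : ℤ) := Int.natCast_nonneg _
  linarith

theorem eq_of_mod (h : IsApery b ord ν) {i j : Fin n0} {d e : ℕ}
    (hij : n0 * d + ν i = n0 * e + ν j) : i = j := by
  apply Fin.ext
  rw [← h.res i, ← h.res j]
  have h1 := congrArg (fun t => t % n0) hij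
  simpa [Nat.mul_add_mod] using h1

theorem ord_basis (h : IsApery b ord ν) (i : Fin n0) : ord (b i) = -(ν i : ℤ) := by
  obtain ⟨j, hj, he⟩ := h.exists_repr_eq (b.ne_zero i)
  rw [b.repr_self, Finsupp.single_apply] at hj he
  by_cases hij : i = j
  · subst hij
    rw [if_pos rfl] at he
    simp only [natDegree_one, mul_zero, zero_add] at he
    linarith
  · rw [if_neg hij] at hj
    exact absurd rfl hj

theorem ord_mul_basis (h : IsApery b ord ν) {f : R} (hf : f ≠ 0) (i : Fin n0) :
    ord (f * b i) = ord f - (ν i : ℤ) := by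
  rw [h.mul f (b i) hf (b.ne_zero i), h.ord_basis i]
  ring

/-- The diagonal entries of the multiplication matrix of `f` have degree at most
`(pole order of f) / n0`. -/
theorem natDegree_repr_mul_le (h : IsApery b ord ν) {f : R} (hf : f ≠ 0) (i : Fin n0) :
    ((n0 * (b.repr (f * b i) i).natDegree : ℕ) : ℤ) ≤ -ord f := by
  by_cases h0 : b.repr (f * b i) i = 0
  · rw [h0]
    simp only [natDegree_zero, mul_zero, Nat.cast_zero]
    have := h.ord_nonpos hf
    linarith
  · have h1 := h.le_of_repr_ne_zero (f * b i) i h0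
    rw [h.ord_mul_basis hf i] at h1
    push_cast at h1 ⊢
    linarith

theorem trace_eq_sum (b : Module.Basis (Fin n0) K[X] R) (f : R) :
    Algebra.trace K[X] R f = ∑ i, b.repr (f * b i) i := by
  classical
  rw [Algebra.trace_eq_matrix_trace b, Matrix.trace]
  refine Finset.sum_congr rfl fun i _ => ?_
  rw [Matrix.diag_apply, Algebra.leftMulMatrix_eq_repr_mul]

/-- `n0 · deg (Tr f) ≤` pole order of `f`. -/
theorem natDegree_trace_le [NeZero n0] (h : IsApery b ord ν) {f : R} (hf : f ≠ 0) :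
    ((n0 * (Algebra.trace K[X] R f).natDegree : ℕ) : ℤ) ≤ -ord f := by
  have h0 : 0 ≤ -ord f := by
    have := h.ord_nonpos hf
    linarith
  obtain ⟨N, hN⟩ := Int.eq_ofNat_of_zero_le h0
  have hn0 : 0 < n0 := Nat.pos_of_ne_zero (NeZero.ne n0)
  have hdeg : ∀ i, (b.repr (f * b i) i).natDegree ≤ N / n0 := by
    intro i
    have h1 := h.natDegree_repr_mul_le hf i
    rw [hN] at h1
    have h2 : n0 * (b.repr (f * b i) i).natDegree ≤ N := by exact_mod_cast h1
    rw [Nat.le_div_iff_mul_le hn0, mul_comm]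
    exact h2
  have h3 : (Algebra.trace K[X] R f).natDegree ≤ N / n0 := by
    rw [trace_eq_sum b]
    exact Polynomial.natDegree_sum_le_of_forall_le _ _ (fun i _ => hdeg i)
  rw [hN]
  have h4 : n0 * (Algebra.trace K[X] R f).natDegree ≤ N :=
    (Nat.mul_le_mul_left n0 h3).trans (Nat.mul_div_le N n0)
  exact_mod_cast h4

/-- If the pole order of `f` is `n0 · m`, every diagonal entry of the multiplication matrix of
`f` is nonzero of degree exactly `m`. -/
theorem repr_mul_diag_of_dvd [NeZero n0] (h : IsApery b ord ν) {f : R} (hf : f ≠ 0) {m : ℕ}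
    (hm : ord f = -((n0 * m : ℕ) : ℤ)) (i : Fin n0) :
    b.repr (f * b i) i ≠ 0 ∧ (b.repr (f * b i) i).natDegree = m := by
  have hn0 : 0 < n0 := Nat.pos_of_ne_zero (NeZero.ne n0)
  have hfi : f * b i ≠ 0 := mul_ne_zero hf (b.ne_zero i)
  obtain ⟨j, hj, he⟩ := h.exists_repr_eq hfi
  rw [h.ord_mul_basis hf i, hm] at he
  have he' : n0 * m + ν i = n0 * (b.repr (f * b i) j).natDegree + ν j := by
    have h1 : ((n0 * m + ν i : ℕ) : ℤ) = ((n0 * (b.repr (f * b i) j).natDegree + ν j : ℕ) : ℤ) := by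
      rw [← he]
      push_cast
      ring
    exact_mod_cast h1
  have hij : i = j := h.eq_of_mod he'
  subst hij
  refine ⟨hj, ?_⟩
  have h2 : n0 * m = n0 * (b.repr (f * b i) i).natDegree := by omega
  exact (Nat.eq_of_mul_eq_mul_left hn0 h2).symm

theorem repr_sub_algebraMap_mul (b : Module.Basis (Fin n0) K[X] R) (f : R) (p : K[X])
    (i j : Fin n0) :
    b.repr ((f - algebraMap K[X] R p) * b i) j = b.repr (f * b i) j - (if i = j then p else 0) := by
  have h1 : (f - algebraMap K[X] R p) * b i = f * b i - p • b i := by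
    rw [sub_mul, Algebra.smul_def]
  rw [h1, map_sub, map_smul, b.repr_self, Finsupp.sub_apply, Finsupp.smul_apply,
    Finsupp.single_apply]
  split_ifs <;> simp

/-- If the pole order of `f` is `n0 · m`, the diagonal entries of the multiplication matrix of
`f` share their coefficient of degree `m`. -/
theorem coeff_repr_mul_diag_eq [NeZero n0] (h : IsApery b ord ν) {f : R} (hf : f ≠ 0) {m : ℕ}
    (hm : ord f = -((n0 * m : ℕ) : ℤ)) (i₁ i : Fin n0) :
    (b.repr (f * b i) i).coeff m = (b.repr (f * b i₁) i₁).coeff m := by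
  have hn0 : 0 < n0 := Nat.pos_of_ne_zero (NeZero.ne n0)
  obtain ⟨a, ha⟩ : ∃ a : K, a = (b.repr (f * b i₁) i₁).coeff m := ⟨_, rfl⟩
  obtain ⟨p, hp⟩ : ∃ p : K[X], p = C a * X ^ m := ⟨_, rfl⟩
  obtain ⟨g, hg⟩ : ∃ g : R, g = f - algebraMap K[X] R p := ⟨_, rfl⟩
  have hrepr : ∀ i j : Fin n0,
      b.repr (g * b i) j = b.repr (f * b i) j - (if i = j then p else 0) := by
    intro i j
    rw [hg]
    exact repr_sub_algebraMap_mul b f p i j
  have hpc : ∀ k : ℕ, p.coeff k = if k = m then a else 0 := by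
    intro k
    rw [hp, coeff_C_mul_X_pow]
  -- the pole order of `g` is smaller than `n0 * m`
  have hclaim : g = 0 ∨ -ord g < ((n0 * m : ℕ) : ℤ) := by
    by_contra hcon
    push Not at hcon
    obtain ⟨hg0, hge⟩ := hcon
    have hgi : g * b i₁ ≠ 0 := mul_ne_zero hg0 (b.ne_zero i₁)
    obtain ⟨j, hj, he⟩ := h.exists_repr_eq hgi
    rw [h.ord_mul_basis hg0 i₁] at he
    rw [hrepr] at hj he
    by_cases hij : i₁ = j
    · subst hij
      rw [if_pos rfl] at hj he
      obtain ⟨hne, hdeg⟩ := h.repr_mul_diag_of_dvd hf hm i₁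
      have hlt : (b.repr (f * b i₁) i₁ - p).natDegree < m := by
        rw [Polynomial.natDegree_lt_iff_degree_lt hj, Polynomial.degree_lt_iff_coeff_zero]
        intro k hk
        rw [coeff_sub, hpc]
        rcases Nat.eq_or_lt_of_le hk with hkm | hkm
        · rw [if_pos hkm.symm, ← hkm, ← ha, sub_self]
        · rw [if_neg (Nat.ne_of_gt hkm), sub_zero]
          exact coeff_eq_zero_of_natDegree_lt (by rw [hdeg]; exact hkm)
      have h5 : n0 * (b.repr (f * b i₁) i₁ - p).natDegree < n0 * m :=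
        Nat.mul_lt_mul_of_pos_left hlt hn0
      push_cast at he hge
      have h6 : ((n0 * (b.repr (f * b i₁) i₁ - p).natDegree : ℕ) : ℤ) < ((n0 * m : ℕ) : ℤ) := by
        exact_mod_cast h5
      push_cast at h6
      linarith
    · rw [if_neg hij, sub_zero] at hj he
      have hle := h.le_of_repr_ne_zero (f * b i₁) j hj
      rw [h.ord_mul_basis hf i₁, hm] at hle
      have h7 : n0 * (b.repr (f * b i₁) j).natDegree + ν j = n0 * m + ν i₁ := by
        have h8 : ((n0 * (b.repr (f * b i₁) j).natDegree + ν j : ℕ) : ℤ) =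
            ((n0 * m + ν i₁ : ℕ) : ℤ) := by
          push_cast at he hge hle ⊢
          linarith
        exact_mod_cast h8
      exact hij (h.eq_of_mod h7).symm
  have hcoeff : (b.repr (g * b i) i).coeff m = 0 := by
    rcases hclaim with hg0 | hlt
    · rw [hg0, zero_mul, map_zero]
      simp
    · by_cases h0 : b.repr (g * b i) i = 0
      · rw [h0]
        simp
      · have hg0 : g ≠ 0 := by
          rintro rfl
          apply h0
          rw [zero_mul, map_zero]
          simp
        have hle := h.le_of_repr_ne_zero (g * b i) i h0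
        rw [h.ord_mul_basis hg0 i] at hle
        apply coeff_eq_zero_of_natDegree_lt
        have h9 : ((n0 * (b.repr (g * b i) i).natDegree : ℕ) : ℤ) < ((n0 * m : ℕ) : ℤ) := by
          push_cast at hle hlt ⊢
          linarith
        have h10 : n0 * (b.repr (g * b i) i).natDegree < n0 * m := by exact_mod_cast h9
        exact Nat.lt_of_mul_lt_mul_left h10
  rw [hrepr, if_pos rfl, coeff_sub, hpc, if_pos rfl, sub_eq_zero] at hcoeff
  rw [hcoeff, ha]

/-- If the pole order of `f` is `n0 · m`, the trace of `f` has degree exactly `m`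
(characteristic zero). -/
theorem trace_of_dvd [NeZero n0] [CharZero K] (h : IsApery b ord ν) {f : R} (hf : f ≠ 0) {m : ℕ}
    (hm : ord f = -((n0 * m : ℕ) : ℤ)) :
    (Algebra.trace K[X] R f).coeff m ≠ 0 ∧ (Algebra.trace K[X] R f).natDegree = m := by
  have hn0 : 0 < n0 := Nat.pos_of_ne_zero (NeZero.ne n0)
  have hc : (Algebra.trace K[X] R f).coeff m ≠ 0 := by
    rw [trace_eq_sum b, finsetSum_coeff]
    have h1 : ∀ i ∈ (Finset.univ : Finset (Fin n0)),
        (b.repr (f * b i) i).coeff m = (b.repr (f * b 0) 0).coeff m :=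
      fun i _ => h.coeff_repr_mul_diag_eq hf hm 0 i
    rw [Finset.sum_congr rfl h1, Finset.sum_const, Finset.card_univ, Fintype.card_fin,
      nsmul_eq_mul]
    obtain ⟨hne, hdeg⟩ := h.repr_mul_diag_of_dvd hf hm 0
    have h2 : (b.repr (f * b 0) 0).coeff m ≠ 0 := by
      rw [← hdeg]
      exact leadingCoeff_ne_zero.mpr hne
    exact mul_ne_zero (Nat.cast_ne_zero.mpr (NeZero.ne n0)) h2
  refine ⟨hc, le_antisymm ?_ (le_natDegree_of_ne_zero hc)⟩
  have h3 := h.natDegree_trace_le hf
  rw [hm, neg_neg] at h3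
  have h4 : n0 * (Algebra.trace K[X] R f).natDegree ≤ n0 * m := by exact_mod_cast h3
  exact Nat.le_of_mul_le_mul_left h4 hn0

/-! ### The trace matrix -/

theorem dvd_iff [NeZero n0] (h : IsApery b ord ν) (i j : Fin n0) :
    n0 ∣ ν i + ν j ↔ i + j = 0 := by
  rw [Nat.dvd_iff_mod_eq_zero, Nat.add_mod, h.res i, h.res j, ← Fin.val_add, Fin.ext_iff,
    Fin.val_zero]

theorem ord_basis_mul (h : IsApery b ord ν) (i j : Fin n0) :
    ord (b i * b j) = -((ν i + ν j : ℕ) : ℤ) := by
  rw [h.mul _ _ (b.ne_zero i) (b.ne_zero j), h.ord_basis, h.ord_basis]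
  push_cast
  ring

theorem natDegree_trace_basis_le [NeZero n0] (h : IsApery b ord ν) (i j : Fin n0) :
    n0 * (Algebra.trace K[X] R (b i * b j)).natDegree ≤ ν i + ν j := by
  have h1 := h.natDegree_trace_le (mul_ne_zero (b.ne_zero i) (b.ne_zero j))
  rw [h.ord_basis_mul, neg_neg] at h1
  exact_mod_cast h1

theorem trace_basis_of_add_eq_zero [NeZero n0] [CharZero K] (h : IsApery b ord ν) {i j : Fin n0}
    (hij : i + j = 0) :
    Algebra.trace K[X] R (b i * b j) ≠ 0 ∧
      n0 * (Algebra.trace K[X] R (b i * b j)).natDegree = ν i + ν j := by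
  obtain ⟨m, hm⟩ := (h.dvd_iff i j).mpr hij
  have h1 : ord (b i * b j) = -((n0 * m : ℕ) : ℤ) := by rw [h.ord_basis_mul, hm]
  obtain ⟨hc, hd⟩ := h.trace_of_dvd (mul_ne_zero (b.ne_zero i) (b.ne_zero j)) h1
  refine ⟨?_, by rw [hd, hm]⟩
  intro h0
  rw [h0] at hc
  simp at hc

theorem natDegree_trace_basis_lt [NeZero n0] (h : IsApery b ord ν) {i j : Fin n0}
    (hij : i + j ≠ 0) :
    n0 * (Algebra.trace K[X] R (b i * b j)).natDegree < ν i + ν j := by
  refine lt_of_le_of_ne (h.natDegree_trace_basis_le i j) fun he => hij ?_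
  exact (h.dvd_iff i j).mp ⟨_, he.symm⟩

/-- The discriminant of an Apéry basis is nonzero and `n0 · deg = 2 ∑ ν i`. -/
theorem natDegree_discr [NeZero n0] [CharZero K] (h : IsApery b ord ν) :
    Algebra.discr K[X] b ≠ 0 ∧ n0 * (Algebra.discr K[X] b).natDegree = 2 * ∑ i, ν i := by
  classical
  have hn0 : 0 < n0 := Nat.pos_of_ne_zero (NeZero.ne n0)
  obtain ⟨T, hT⟩ : ∃ T : Fin n0 → Fin n0 → K[X],
      T = fun i j => Algebra.trace K[X] R (b i * b j) := ⟨_, rfl⟩
  obtain ⟨P, hP⟩ : ∃ P : Equiv.Perm (Fin n0) → K[X], P = fun σ => ∏ i, T (σ i) i := ⟨_, rfl⟩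
  have hdet : Algebra.discr K[X] b = ∑ σ : Equiv.Perm (Fin n0),
      C ((Equiv.Perm.sign σ : ℤ) : K) * P σ := by
    rw [Algebra.discr_def, Matrix.det_apply']
    refine Finset.sum_congr rfl fun σ _ => ?_
    rw [hP, hT]
    simp [Algebra.traceMatrix_apply, Algebra.traceForm_apply]
  have hcoeff : ∀ N : ℕ, (Algebra.discr K[X] b).coeff N =
      ∑ σ : Equiv.Perm (Fin n0), ((Equiv.Perm.sign σ : ℤ) : K) * (P σ).coeff N := by
    intro N
    rw [hdet, finsetSum_coeff]
    refine Finset.sum_congr rfl fun σ _ => ?_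
    rw [coeff_C_mul]
  -- the general degree bound
  have hle : ∀ σ : Equiv.Perm (Fin n0), n0 * (P σ).natDegree ≤ 2 * ∑ i, ν i := by
    intro σ
    have h1 : (P σ).natDegree ≤ ∑ i, (T (σ i) i).natDegree := by
      rw [hP]
      exact natDegree_prod_le _ _
    have h2 : ∑ i, n0 * (T (σ i) i).natDegree ≤ ∑ i, (ν (σ i) + ν i) := by
      refine Finset.sum_le_sum fun i _ => ?_
      rw [hT]
      exact h.natDegree_trace_basis_le (σ i) i
    have h3 : ∑ i, (ν (σ i) + ν i) = 2 * ∑ i, ν i := by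
      rw [Finset.sum_add_distrib, Equiv.sum_comp σ ν, two_mul]
    calc n0 * (P σ).natDegree ≤ n0 * ∑ i, (T (σ i) i).natDegree := Nat.mul_le_mul_left n0 h1
      _ = ∑ i, n0 * (T (σ i) i).natDegree := Finset.mul_sum _ _ _
      _ ≤ ∑ i, (ν (σ i) + ν i) := h2
      _ = 2 * ∑ i, ν i := h3
  -- strict for every permutation but the negation
  have hlt : ∀ σ : Equiv.Perm (Fin n0), σ ≠ Equiv.neg (Fin n0) →
      n0 * (P σ).natDegree < 2 * ∑ i, ν i := by
    intro σ hσ
    obtain ⟨i₀, hi₀⟩ : ∃ i, σ i ≠ -i := by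
      by_contra hcon
      push Not at hcon
      exact hσ (Equiv.ext fun i => by rw [hcon i]; rfl)
    have hi₀' : σ i₀ + i₀ ≠ 0 := fun h0 => hi₀ (eq_neg_of_add_eq_zero_left h0)
    have h1 : (P σ).natDegree ≤ ∑ i, (T (σ i) i).natDegree := by
      rw [hP]
      exact natDegree_prod_le _ _
    have h2 : ∑ i, n0 * (T (σ i) i).natDegree < ∑ i, (ν (σ i) + ν i) := by
      refine Finset.sum_lt_sum (fun i _ => ?_) ⟨i₀, Finset.mem_univ _, ?_⟩
      · rw [hT]
        exact h.natDegree_trace_basis_le (σ i) i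
      · rw [hT]
        exact h.natDegree_trace_basis_lt hi₀'
    have h3 : ∑ i, (ν (σ i) + ν i) = 2 * ∑ i, ν i := by
      rw [Finset.sum_add_distrib, Equiv.sum_comp σ ν, two_mul]
    calc n0 * (P σ).natDegree ≤ n0 * ∑ i, (T (σ i) i).natDegree := Nat.mul_le_mul_left n0 h1
      _ = ∑ i, n0 * (T (σ i) i).natDegree := Finset.mul_sum _ _ _
      _ < ∑ i, (ν (σ i) + ν i) := h2
      _ = 2 * ∑ i, ν i := h3
  -- the negation
  have hneg : ∀ i : Fin n0, T (Equiv.neg (Fin n0) i) i ≠ 0 ∧
      n0 * (T (Equiv.neg (Fin n0) i) i).natDegree = ν (Equiv.neg (Fin n0) i) + ν i := by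
    intro i
    rw [hT]
    exact h.trace_basis_of_add_eq_zero (by simp)
  have hP0 : P (Equiv.neg (Fin n0)) ≠ 0 := by
    rw [hP]
    exact Finset.prod_ne_zero_iff.mpr fun i _ => (hneg i).1
  have hD0 : n0 * (P (Equiv.neg (Fin n0))).natDegree = 2 * ∑ i, ν i := by
    have h1 : (P (Equiv.neg (Fin n0))).natDegree =
        ∑ i, (T (Equiv.neg (Fin n0) i) i).natDegree := by
      rw [hP]
      exact natDegree_prod _ _ fun i _ => (hneg i).1
    rw [h1, Finset.mul_sum, Finset.sum_congr rfl fun i _ => (hneg i).2, Finset.sum_add_distrib,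
      Equiv.sum_comp (Equiv.neg (Fin n0)) ν, two_mul]
  obtain ⟨D, hD⟩ : ∃ D : ℕ, D = (P (Equiv.neg (Fin n0))).natDegree := ⟨_, rfl⟩
  rw [← hD] at hD0
  -- the coefficient of degree `D`
  have hcD : (Algebra.discr K[X] b).coeff D ≠ 0 := by
    rw [hcoeff, Finset.sum_eq_single (Equiv.neg (Fin n0))]
    · refine mul_ne_zero ?_ ?_
      · rcases Int.units_eq_one_or (Equiv.Perm.sign (Equiv.neg (Fin n0))) with h1 | h1 <;>
          simp [h1]
      · rw [hD]
        exact leadingCoeff_ne_zero.mpr hP0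
    · intro σ _ hσ
      have h1 := hlt σ hσ
      rw [← hD0] at h1
      rw [coeff_eq_zero_of_natDegree_lt (Nat.lt_of_mul_lt_mul_left h1), mul_zero]
    · intro h1
      exact absurd (Finset.mem_univ _) h1
  have hne : Algebra.discr K[X] b ≠ 0 := by
    intro h0
    rw [h0] at hcD
    simp at hcD
  refine ⟨hne, ?_⟩
  have hdeg : (Algebra.discr K[X] b).natDegree = D := by
    refine le_antisymm ?_ (le_natDegree_of_ne_zero hcD)
    rw [natDegree_le_iff_coeff_eq_zero]
    intro N hN
    rw [hcoeff]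
    refine Finset.sum_eq_zero fun σ _ => ?_
    have h1 := hle σ
    rw [← hD0] at h1
    rw [coeff_eq_zero_of_natDegree_lt (lt_of_le_of_lt (Nat.le_of_mul_le_mul_left h1 hn0) hN),
      mul_zero]
  rw [hdeg, hD0]

theorem sum_nu [NeZero n0] (h : IsApery b ord ν) :
    2 * ∑ i, ν i = n0 * (2 * ∑ i, ν i / n0 + (n0 - 1)) := by
  have h1 : ∀ i : Fin n0, ν i = n0 * (ν i / n0) + (i : ℕ) := by
    intro i
    have := Nat.div_add_mod (ν i) n0
    rw [h.res i] at this
    exact this.symm
  have h2 : ∑ i, ν i = n0 * ∑ i, ν i / n0 + ∑ i : Fin n0, (i : ℕ) := by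
    rw [Finset.mul_sum, ← Finset.sum_add_distrib]
    exact Finset.sum_congr rfl fun i _ => h1 i
  have h3 : (∑ i : Fin n0, (i : ℕ)) * 2 = n0 * (n0 - 1) := by
    rw [Fin.sum_univ_eq_sum_range (fun i => i) n0, Finset.sum_range_id_mul_two]
  rw [h2, mul_add, mul_add, ← h3]
  ring

/-- **D4a, abstract form**: the discriminant of an Apéry basis has degree `2 g + n0 - 1`,
where `g = ∑ ⌊ν i / n0⌋` is the number of gaps. -/
theorem natDegree_discr_eq [NeZero n0] [CharZero K] (h : IsApery b ord ν) {g : ℕ}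
    (hg : g = ∑ i, ν i / n0) :
    (Algebra.discr K[X] b).natDegree + 1 = 2 * g + n0 := by
  have hn0 : 0 < n0 := Nat.pos_of_ne_zero (NeZero.ne n0)
  obtain ⟨-, h1⟩ := h.natDegree_discr
  rw [h.sum_nu, ← hg] at h1
  have h2 := Nat.eq_of_mul_eq_mul_left hn0 h1
  omega

end IsApery

end Fermat.Agent.S17.H.TraceDisc
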