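/-
MW strand H, leaf D4a (adapter): `regOff v₀` as a `K[X]`-algebra on the Apéry basis.

`x ∈ regOff v₀` makes `↥(regOff v₀)` a `K[X]`-algebra (`X ↦ x`): `xAlg hx` (a reducible
definition, to be used with `letI := xAlg hx`).  A family `w` as in `R.exists_apery_basis`
(second clause: unique representation `f = ∑ c_i(x) · w_i`) is a `K[X]`-basis: `basisOf`.
With the pole-order clauses it satisfies the abstract Apéry property of `Glob/TraceDisc.lean`
for `ord f := v₀.ord f`, hence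

* `discr_basisOf` : the discriminant `det (Tr (w_i w_j)) ∈ K[X]` is nonzero of degree
  `2 g + n0 - 1`, `g = ∑ ⌊ν_i / n0⌋ = gR K F`;
* `mul_eq_sum_leftMulMatrix` : the multiplication matrices `Algebra.leftMulMatrix` on this
  basis are the structure matrices `φ · w_j = ∑ u_ij(x) · w_i`.
-/
import Mathlib
import Fermat.Agent.S17.R.Apery
import Fermat.Agent.S17.H.Glob.TraceDisc

set_option autoImplicit false
set_option linter.unusedSectionVars false
set_option linter.style.haveILetI false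

namespace Fermat.Agent.S17.H.AperyAlg

open AlgebraicCurve Polynomial Fermat.Agent.S17.R

variable {K F : Type*} [Field K] [Field F] [Algebra K F] {v₀ : Place K F} {x : F}

/-- The `K[X]`-algebra structure on the functions regular off `v₀` given by `X ↦ x`. -/
@[reducible] noncomputable def xAlg (hx : x ∈ regOff v₀) : Algebra K[X] ↥(regOff v₀) :=
  (Polynomial.aeval (⟨x, hx⟩ : ↥(regOff v₀))).toRingHom.toAlgebra

theorem coe_algebraMap (hx : x ∈ regOff v₀) (p : K[X]) :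
    letI := xAlg hx
    ((algebraMap K[X] ↥(regOff v₀) p : ↥(regOff v₀)) : F) = Polynomial.aeval x p := by
  letI := xAlg hx
  exact (Polynomial.aeval_algHom_apply (regOff v₀).val (⟨x, hx⟩ : ↥(regOff v₀)) p).symm

theorem coe_smul (hx : x ∈ regOff v₀) (p : K[X]) (f : ↥(regOff v₀)) :
    letI := xAlg hx
    ((p • f : ↥(regOff v₀)) : F) = Polynomial.aeval x p * (f : F) := by
  letI := xAlg hx
  rw [Algebra.smul_def, MulMemClass.coe_mul, coe_algebraMap hx p]

theorem coe_sum_smul (hx : x ∈ regOff v₀) {n0 : ℕ} (c : Fin n0 → K[X])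
    (u : Fin n0 → ↥(regOff v₀)) :
    letI := xAlg hx
    ((∑ i, c i • u i : ↥(regOff v₀)) : F) = ∑ i, Polynomial.aeval x (c i) * (u i : F) := by
  letI := xAlg hx
  rw [AddSubmonoidClass.coe_finsetSum]
  exact Finset.sum_congr rfl fun i _ => coe_smul hx (c i) (u i)

theorem isScalarTower (hx : x ∈ regOff v₀) :
    letI := xAlg hx
    IsScalarTower K K[X] ↥(regOff v₀) := by
  letI := xAlg hx
  refine IsScalarTower.of_algebraMap_eq fun a => Subtype.ext ?_
  rw [coe_algebraMap hx, Polynomial.algebraMap_eq, Polynomial.aeval_C]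
  rfl

/-- The members of a family with unique Apéry representations are nonzero. -/
theorem ne_zero_of_unique {n0 : ℕ} (w : Fin n0 → F)
    (huniq : ∀ f ∈ regOff v₀, ∃! c : Fin n0 → K[X], f = ∑ i, Polynomial.aeval x (c i) * w i)
    (i : Fin n0) : w i ≠ 0 := by
  classical
  intro h0
  obtain ⟨c, -, hc⟩ := huniq 0 (zero_mem _)
  have h1 : (0 : Fin n0 → K[X]) = c := hc 0 (by simp)
  have h2 : (Pi.single i 1 : Fin n0 → K[X]) = c :=
    hc _ (by
      show (0 : F) = ∑ j, Polynomial.aeval x ((Pi.single i 1 : Fin n0 → K[X]) j) * w j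
      rw [Apery.sum_single x w i 1, h0, mul_zero])
  have h3 := congrFun (h1.trans h2.symm) i
  rw [Pi.single_eq_same] at h3
  exact zero_ne_one h3

/-- The Apéry family as a `K[X]`-basis of the functions regular off `v₀`. -/
noncomputable def basisOf (hx : x ∈ regOff v₀) {n0 : ℕ} (w : Fin n0 → F)
    (hw : ∀ i, w i ∈ regOff v₀)
    (huniq : ∀ f ∈ regOff v₀, ∃! c : Fin n0 → K[X], f = ∑ i, Polynomial.aeval x (c i) * w i) :
    letI := xAlg hx
    Module.Basis (Fin n0) K[X] ↥(regOff v₀) :=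
  letI := xAlg hx
  Module.Basis.mk (v := fun i => (⟨w i, hw i⟩ : ↥(regOff v₀)))
    (by
      rw [Fintype.linearIndependent_iff]
      intro g hg
      have h1 : (0 : F) = ∑ i, Polynomial.aeval x (g i) * w i := by
        have h2 : ((∑ i, g i • (⟨w i, hw i⟩ : ↥(regOff v₀)) : ↥(regOff v₀)) : F) =
            ((0 : ↥(regOff v₀)) : F) := congrArg Subtype.val hg
        rw [coe_sum_smul hx] at h2
        rw [h2]
        rfl
      obtain ⟨c, -, hc⟩ := huniq 0 (zero_mem _)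
      have h3 : g = c := hc g h1
      have h4 : (0 : Fin n0 → K[X]) = c := hc 0 (by simp)
      intro i
      rw [h3, ← h4]
      rfl)
    (by
      intro f _
      obtain ⟨c, hc, -⟩ := huniq (f : F) f.2
      have h1 : f = ∑ i, c i • (⟨w i, hw i⟩ : ↥(regOff v₀)) := by
        apply Subtype.ext
        rw [coe_sum_smul hx]
        exact hc
      rw [h1]
      exact Submodule.sum_mem _ fun i _ =>
        Submodule.smul_mem _ _ (Submodule.subset_span (Set.mem_range_self i)))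

theorem basisOf_apply (hx : x ∈ regOff v₀) {n0 : ℕ} (w : Fin n0 → F)
    (hw : ∀ i, w i ∈ regOff v₀)
    (huniq : ∀ f ∈ regOff v₀, ∃! c : Fin n0 → K[X], f = ∑ i, Polynomial.aeval x (c i) * w i)
    (i : Fin n0) : ((basisOf hx w hw huniq i : ↥(regOff v₀)) : F) = w i := by
  letI := xAlg hx
  unfold basisOf
  rw [Module.Basis.mk_apply]

theorem coe_sum_smul_basisOf (hx : x ∈ regOff v₀) {n0 : ℕ} (w : Fin n0 → F)
    (hw : ∀ i, w i ∈ regOff v₀)
    (huniq : ∀ f ∈ regOff v₀, ∃! c : Fin n0 → K[X], f = ∑ i, Polynomial.aeval x (c i) * w i)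
    (c : Fin n0 → K[X]) :
    letI := xAlg hx
    ((∑ i, c i • basisOf hx w hw huniq i : ↥(regOff v₀)) : F) =
      ∑ i, Polynomial.aeval x (c i) * w i := by
  letI := xAlg hx
  rw [coe_sum_smul hx]
  exact Finset.sum_congr rfl fun i _ => by rw [basisOf_apply]

/-- The coordinates on `basisOf` are the Apéry coefficients. -/
theorem coe_eq_sum_repr (hx : x ∈ regOff v₀) {n0 : ℕ} (w : Fin n0 → F)
    (hw : ∀ i, w i ∈ regOff v₀)
    (huniq : ∀ f ∈ regOff v₀, ∃! c : Fin n0 → K[X], f = ∑ i, Polynomial.aeval x (c i) * w i)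
    (f : ↥(regOff v₀)) :
    letI := xAlg hx
    (f : F) = ∑ i, Polynomial.aeval x ((basisOf hx w hw huniq).repr f i) * w i := by
  letI := xAlg hx
  rw [← coe_sum_smul_basisOf hx w hw huniq, (basisOf hx w hw huniq).sum_repr f]

/-- The multiplication matrices on `basisOf` are the structure matrices of the Apéry basis. -/
theorem mul_eq_sum_leftMulMatrix (hx : x ∈ regOff v₀) {n0 : ℕ} (w : Fin n0 → F)
    (hw : ∀ i, w i ∈ regOff v₀)
    (huniq : ∀ f ∈ regOff v₀, ∃! c : Fin n0 → K[X], f = ∑ i, Polynomial.aeval x (c i) * w i)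
    (φ : ↥(regOff v₀)) (j : Fin n0) :
    letI := xAlg hx
    (φ : F) * w j =
      ∑ i, Polynomial.aeval x (Algebra.leftMulMatrix (basisOf hx w hw huniq) φ i j) * w i := by
  letI := xAlg hx
  have h1 := coe_eq_sum_repr hx w hw huniq (φ * basisOf hx w hw huniq j)
  rw [MulMemClass.coe_mul, basisOf_apply] at h1
  rw [h1]
  exact Finset.sum_congr rfl fun i _ => by rw [Algebra.leftMulMatrix_eq_repr_mul]

/-- The Apéry basis of `regOff v₀` has the abstract Apéry property for `ord := v₀.ord`. -/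
theorem isApery (hx : x ∈ regOff v₀) {n0 : ℕ} (hn0 : 0 < n0) (hord : v₀.ord x = -(n0 : ℤ))
    (ν : Fin n0 → ℕ) (w : Fin n0 → F) (hw : ∀ i, w i ∈ regOff v₀)
    (huniq : ∀ f ∈ regOff v₀, ∃! c : Fin n0 → K[X], f = ∑ i, Polynomial.aeval x (c i) * w i)
    (hwo : ∀ i, v₀.ord (w i) = -(ν i : ℤ)) (hwm : ∀ i, ν i % n0 = (i : ℕ)) :
    letI := xAlg hx
    TraceDisc.IsApery (basisOf hx w hw huniq) (fun f : ↥(regOff v₀) => v₀.ord (f : F)) ν := by
  classical
  letI := xAlg hx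
  have hw0 : ∀ i, w i ≠ 0 := ne_zero_of_unique w huniq
  refine ⟨?_, hwm, ?_, ?_⟩
  · intro f g hf hg
    show v₀.ord ((f * g : ↥(regOff v₀)) : F) = v₀.ord (f : F) + v₀.ord (g : F)
    rw [MulMemClass.coe_mul]
    exact v₀.ord_mul (fun h => hf (Subtype.ext h)) (fun h => hg (Subtype.ext h))
  · intro c i hi
    show v₀.ord ((∑ k, c k • basisOf hx w hw huniq k : ↥(regOff v₀)) : F) ≤ _
    rw [coe_sum_smul_basisOf hx w hw huniq c]
    exact (Apery.sum_ne_zero_and_ord_le v₀ hn0 hord ν w hw0 hwo hwm c ⟨i, hi⟩).2 i hi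
  · intro c hc
    show ∃ i, c i ≠ 0 ∧
      v₀.ord ((∑ k, c k • basisOf hx w hw huniq k : ↥(regOff v₀)) : F) = _
    rw [coe_sum_smul_basisOf hx w hw huniq c]
    have hci : ∀ i, Polynomial.aeval x (c i) * w i ≠ 0 → c i ≠ 0 := by
      intro i hi h0
      rw [h0, map_zero, zero_mul] at hi
      exact hi rfl
    obtain ⟨i₁, hi₁⟩ : ∃ i, c i ≠ 0 := by
      by_contra hcon
      push Not at hcon
      exact hc (funext hcon)
    obtain ⟨i₀, -, hti₀, -, hso, -⟩ := Apery.sum_distinct_ord v₀ (Finset.univ : Finset (Fin n0))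
      (fun i => Polynomial.aeval x (c i) * w i)
      (fun i _ j _ hij hi hj => by
        rw [(Apery.term_ne_zero_and_ord v₀ hn0 hord (hci i hi) (hw0 i) (hwo i)).2,
          (Apery.term_ne_zero_and_ord v₀ hn0 hord (hci j hj) (hw0 j) (hwo j)).2]
        intro h
        have h2 : n0 * (c i).natDegree + ν i = n0 * (c j).natDegree + ν j := by
          exact_mod_cast neg_injective h
        have h3 : (n0 * (c i).natDegree + ν i) % n0 = (n0 * (c j).natDegree + ν j) % n0 := by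
          rw [h2]
        rw [Nat.mul_add_mod, Nat.mul_add_mod, hwm i, hwm j] at h3
        exact hij (Fin.ext h3))
      ⟨i₁, Finset.mem_univ i₁,
        (Apery.term_ne_zero_and_ord v₀ hn0 hord hi₁ (hw0 i₁) (hwo i₁)).1⟩
    refine ⟨i₀, hci i₀ hti₀, ?_⟩
    rw [hso]
    exact (Apery.term_ne_zero_and_ord v₀ hn0 hord (hci i₀ hti₀) (hw0 i₀) (hwo i₀)).2

/-- **D4a on R14's literal**: the discriminant of the Apéry basis of `regOff v₀` over `K[x]`
is nonzero of degree `2 g + n0 - 1`, where `g = ∑ ⌊ν_i / n0⌋`. -/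
theorem discr_basisOf [CharZero K] (hx : x ∈ regOff v₀) {n0 : ℕ} (hn0 : 0 < n0)
    (hord : v₀.ord x = -(n0 : ℤ))
    (ν : Fin n0 → ℕ) (w : Fin n0 → F) (hw : ∀ i, w i ∈ regOff v₀)
    (huniq : ∀ f ∈ regOff v₀, ∃! c : Fin n0 → K[X], f = ∑ i, Polynomial.aeval x (c i) * w i)
    (hwo : ∀ i, v₀.ord (w i) = -(ν i : ℤ)) (hwm : ∀ i, ν i % n0 = (i : ℕ))
    {g : ℕ} (hg : (g : ℤ) = ∑ i, ((ν i / n0 : ℕ) : ℤ)) :
    letI := xAlg hx
    Algebra.discr K[X] (basisOf hx w hw huniq) ≠ 0 ∧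
      (Algebra.discr K[X] (basisOf hx w hw huniq)).natDegree + 1 = 2 * g + n0 := by
  letI := xAlg hx
  haveI : NeZero n0 := ⟨hn0.ne'⟩
  have hA := isApery hx hn0 hord ν w hw huniq hwo hwm
  have hg' : g = ∑ i, ν i / n0 := by exact_mod_cast hg
  exact ⟨hA.natDegree_discr.1, hA.natDegree_discr_eq hg'⟩

/-- The trace of a function regular off `v₀` has degree at most `(pole order) / n0`. -/
theorem natDegree_trace_le (hx : x ∈ regOff v₀) {n0 : ℕ} (hn0 : 0 < n0)
    (hord : v₀.ord x = -(n0 : ℤ))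
    (ν : Fin n0 → ℕ) (w : Fin n0 → F) (hw : ∀ i, w i ∈ regOff v₀)
    (huniq : ∀ f ∈ regOff v₀, ∃! c : Fin n0 → K[X], f = ∑ i, Polynomial.aeval x (c i) * w i)
    (hwo : ∀ i, v₀.ord (w i) = -(ν i : ℤ)) (hwm : ∀ i, ν i % n0 = (i : ℕ))
    {f : ↥(regOff v₀)} (hf : f ≠ 0) :
    letI := xAlg hx
    ((n0 * (Algebra.trace K[X] ↥(regOff v₀) f).natDegree : ℕ) : ℤ) ≤ -v₀.ord (f : F) := by
  letI := xAlg hx
  haveI : NeZero n0 := ⟨hn0.ne'⟩
  exact (isApery hx hn0 hord ν w hw huniq hwo hwm).natDegree_trace_le hf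

/-- **D4a, packaged**: ONE Apéry basis `b` of `regOff v₀` over `K[x]` (as a `Module.Basis` for
the algebra structure `xAlg hx`) with all the clauses of `R.exists_apery_basis`, the structure
matrix identity for `Algebra.leftMulMatrix b`, and the discriminant degree `2 gR + n0 - 1`. -/
theorem exists_apery_discr [IsAlgClosed K] [CharZero K] [Algebra.EssFiniteType K F]
    (htr : Algebra.trdeg K F = 1) (v₀ : Place K F) {x : F} (hx : x ∈ regOff v₀) {n0 : ℕ}
    (hn0 : 0 < n0) (hord : v₀.ord x = -(n0 : ℤ)) :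
    letI := xAlg hx
    ∃ (ν : Fin n0 → ℕ) (w : Fin n0 → F) (b : Module.Basis (Fin n0) K[X] ↥(regOff v₀)),
      (∀ i, ((b i : ↥(regOff v₀)) : F) = w i) ∧
      (∀ i, w i ≠ 0 ∧ v₀.ord (w i) = -(ν i : ℤ) ∧ ν i % n0 = (i : ℕ)) ∧
      (∀ c : Fin n0 → K[X], (∑ i, Polynomial.aeval x (c i) * w i) ≠ 0 →
        ∀ i, c i ≠ 0 → v₀.ord (∑ i, Polynomial.aeval x (c i) * w i) ≤
          -((n0 * (c i).natDegree + ν i : ℕ) : ℤ)) ∧
      (∀ (φ : ↥(regOff v₀)) (j : Fin n0), (φ : F) * w j =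
        ∑ i, Polynomial.aeval x (Algebra.leftMulMatrix b φ i j) * w i) ∧
      (gR K F : ℤ) = ∑ i, ((ν i / n0 : ℕ) : ℤ) ∧
      Algebra.discr K[X] b ≠ 0 ∧
      (Algebra.discr K[X] b).natDegree + 1 = 2 * gR K F + n0 := by
  letI := xAlg hx
  obtain ⟨ν, w, h1, huniq, hmax, hg⟩ := exists_apery_basis htr v₀ hx hn0 hord
  have hw : ∀ i, w i ∈ regOff v₀ := fun i => (h1 i).1
  have hwo : ∀ i, v₀.ord (w i) = -(ν i : ℤ) := fun i => (h1 i).2.1
  have hwm : ∀ i, ν i % n0 = (i : ℕ) := fun i => (h1 i).2.2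
  obtain ⟨hd1, hd2⟩ := discr_basisOf hx hn0 hord ν w hw huniq hwo hwm hg
  exact ⟨ν, w, basisOf hx w hw huniq, basisOf_apply hx w hw huniq,
    fun i => ⟨ne_zero_of_unique w huniq i, hwo i, hwm i⟩, hmax,
    mul_eq_sum_leftMulMatrix hx w hw huniq, hg, hd1, hd2⟩

end Fermat.Agent.S17.H.AperyAlg
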