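import Mathlib
import Fermat.Agent.S17.H.AbsHeight.GaussMahler
import Fermat.Agent.S17.H.A.EvalGe
import Fermat.Agent.S17.H.Glob.NormForms

/-!
# Program MW (S17), strand H, block D, leaf D1 (CHOW): the core

Let `F / Qb` be a function field of one variable, `v₀` a place, `y` a function regular off `v₀`
with a pole of order `N` at `v₀`, and `ψ` an independent family of functions regular off `v₀`
with pole order `≤ M` at `v₀`.  For `c ≠ 0` the section `s = ∑ c i • ψ i` has its zeros off `v₀`,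
and

  `∑_{v ≠ v₀} ord_v(s) * hQ (y(v)) = N * hT c + O(1)`                      (`chow_finset`)

Proof: the norm of `s` to `Qb[y]` is a polynomial `∑ j, G_j(c) X ^ j` whose coefficients are
forms of degree `N` in `c` without a common zero (`exists_norm_forms`, D1a) and whose roots are
the `y`-values of the zeros of `s` with multiplicities; the height of the coefficient vector is
`N * hT c + O(1)` (`hT_eval_le`, `hT_eval_ge`: block A / B) and is the sum of the heights of the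
roots up to `O(M)` (Gauss–Mahler).

`chow_of_height` replaces `hQ (y(v))` by any function `H v` on the places at bounded distance,
and `chow_of_compare` is the exit literal of the leaf with the comparison of heights (D1b,
`exists_compare`) as a hypothesis.
-/

set_option autoImplicit false

namespace Fermat.Agent.S17.H.Glob.ChowCore

open AlgebraicCurve Polynomial
open Fermat.Agent.S24.FF Fermat.Agent.S17.R

section General

variable {K F : Type*} [Field K] [Field F] [Algebra K F]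

/-- A function of `L(m v₀)` is regular off `v₀`. -/
theorem regOff_of_mem_L {v₀ : Place K F} {m : ℕ} {f : F}
    (hf : f ∈ riemannRochSpace ((m : ℤ) • Finsupp.single v₀ (1 : ℤ))) : RegOff v₀ f := by
  classical
  intro v hv
  by_cases h0 : f = 0
  · rw [h0]
    exact v.toValuationSubring.zero_mem
  · have h1 := (mem_L_of_ne_zero h0).mp hf v
    rw [Finsupp.smul_apply, Finsupp.single_apply, if_neg (fun h => hv h.symm), smul_zero,
      neg_zero] at h1
    exact (ord_nonneg_iff v h0).mp h1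

/-- A function of `L(m v₀)` has pole order `≤ m` at `v₀`. -/
theorem neg_le_ord_of_mem_L {v₀ : Place K F} {m : ℕ} {f : F}
    (hf : f ∈ riemannRochSpace ((m : ℤ) • Finsupp.single v₀ (1 : ℤ))) :
    -(m : ℤ) ≤ v₀.ord f := by
  classical
  by_cases h0 : f = 0
  · rw [h0, Place.ord_zero]
    omega
  · have h1 := (mem_L_of_ne_zero h0).mp hf v₀
    rwa [Finsupp.smul_apply, Finsupp.single_eq_same, smul_eq_mul, mul_one] at h1

/-- A weighted sum over the places `≠ v₀` is a finite sum over any finite set of places `≠ v₀`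
that contains the support of the weight. -/
theorem finsum_off_eq_sum (v₀ : Place K F) (o : Place K F → ℤ) (S : Finset (Place K F))
    (hS : ∀ v ∈ S, v ≠ v₀) (hS0 : ∀ v, v ≠ v₀ → v ∉ S → o v = 0) (g : Place K F → ℝ) :
    ∑ᶠ v ∈ {v : Place K F | v ≠ v₀}, ((o v : ℤ) : ℝ) * g v = ∑ v ∈ S, ((o v : ℤ) : ℝ) * g v := by
  apply finsum_mem_eq_sum_of_inter_support_eq
  ext v
  simp only [Set.mem_inter_iff, Set.mem_ofPred_eq, Function.mem_support, Finset.mem_coe]
  constructor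
  · rintro ⟨hv, hne⟩
    refine ⟨?_, hne⟩
    by_contra hvS
    apply hne
    rw [hS0 v hv hvS]
    simp
  · rintro ⟨hvS, hne⟩
    exact ⟨hS v hvS, hne⟩

variable [IsAlgClosed K] [CharZero K] [Algebra.EssFiniteType K F]

/-- **The zeros of a section and the roots of its norm polynomial.**  If the multiplicity of every
`a` as a root of `p` is the number of zeros of `s` in the fibre `y = a`, then the zeros of `s`
(off `v₀`, with multiplicities) are carried by `v ↦ y(v)` onto the roots of `p`. -/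
theorem exists_zero_finset (htr : Algebra.trdeg K F = 1) (v₀ : Place K F)
    {ev : Place K F → F → K} (hev : IsEval ev) {y : F} (hy : RegOff v₀ y) (hy0 : v₀.ord y < 0)
    {s : F} (hs : RegOff v₀ s) (hs0 : s ≠ 0) {p : K[X]} (hp : p ≠ 0)
    (hroots : ∀ a : K, ((p.rootMultiplicity a : ℕ) : ℤ) =
      ∑ᶠ w ∈ {w : Place K F | 0 < w.ord (y - algebraMap K F a)}, w.ord s) :
    ∃ S : Finset (Place K F), (∀ v ∈ S, v ≠ v₀) ∧ (∀ v, v ≠ v₀ → v ∉ S → v.ord s = 0) ∧
      (∀ v ∈ S, 0 ≤ v.ord s) ∧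
      ∀ h : K → ℝ, ∑ v ∈ S, ((v.ord s : ℤ) : ℝ) * h (ev v y) = (p.roots.map h).sum := by
  classical
  set S : Finset (Place K F) :=
    (support_ord_finite htr hs0).toFinset.filter (fun v => v ≠ v₀) with hSdef
  have hmemS : ∀ v, v ∈ S ↔ v.ord s ≠ 0 ∧ v ≠ v₀ := by
    intro v
    rw [hSdef, Finset.mem_filter, Set.Finite.mem_toFinset]
    rfl
  have h1 : ∀ v ∈ S, v ≠ v₀ := fun v hv => ((hmemS v).mp hv).2
  have h2 : ∀ v, v ≠ v₀ → v ∉ S → v.ord s = 0 := by
    intro v hv hvS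
    by_contra h
    exact hvS ((hmemS v).mpr ⟨h, hv⟩)
  have h3 : ∀ v ∈ S, 0 ≤ v.ord s := fun v hv => hs.ord_nonneg (h1 v hv)
  have hya : ∀ a : K, y ≠ algebraMap K F a := by
    intro a h
    rw [h, ord_algebraMap] at hy0
    exact lt_irrefl _ hy0
  -- the multiplicity of a root is the number of zeros above it
  have hmult : ∀ a : K, ((p.rootMultiplicity a : ℕ) : ℤ) =
      ∑ v ∈ S.filter (fun v => ev v y = a), v.ord s := by
    intro a
    rw [hroots a]
    apply finsum_mem_eq_sum_of_inter_support_eq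
    ext w
    simp only [Set.mem_inter_iff, Set.mem_ofPred_eq, Function.mem_support, Finset.coe_filter]
    constructor
    · rintro ⟨hw, hne⟩
      have hwv : w ≠ v₀ := by
        rintro rfl
        rw [NormPoly.ord_sub_const_of_pole w hy0 a] at hw
        omega
      exact ⟨⟨(hmemS w).mpr ⟨hne, hwv⟩, (hev.eq_iff_ord_pos (hy w hwv) (hya a)).mpr hw⟩, hne⟩
    · rintro ⟨⟨hwS, hwa⟩, hne⟩
      exact ⟨(hev.eq_iff_ord_pos (hy w (h1 w hwS)) (hya a)).mp hwa, hne⟩
  have hmaps : ∀ v ∈ S, ev v y ∈ p.roots.toFinset := by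
    intro v hv
    rw [Multiset.mem_toFinset, Polynomial.mem_roots hp, ← Polynomial.rootMultiplicity_pos hp]
    have hpos : 0 < v.ord s := lt_of_le_of_ne (h3 v hv) (Ne.symm ((hmemS v).mp hv).1)
    have hle : v.ord s ≤ ∑ w ∈ S.filter (fun w => ev w y = ev v y), w.ord s :=
      Finset.single_le_sum (s := S.filter (fun w => ev w y = ev v y)) (f := fun w => w.ord s)
        (fun w hw => h3 w (Finset.mem_filter.mp hw).1) (Finset.mem_filter.mpr ⟨hv, rfl⟩)
    have := hmult (ev v y)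
    omega
  refine ⟨S, h1, h2, h3, fun h => ?_⟩
  rw [Finset.sum_multiset_map_count, ← Finset.sum_fiberwise_of_maps_to hmaps]
  refine Finset.sum_congr rfl fun a _ => ?_
  rw [Polynomial.count_roots, nsmul_eq_mul]
  have hcast : ((p.rootMultiplicity a : ℕ) : ℝ) =
      ∑ v ∈ S.filter (fun v => ev v y = a), ((v.ord s : ℤ) : ℝ) := by
    have := congrArg (Int.cast : ℤ → ℝ) (hmult a)
    push_cast at this
    exact this
  rw [hcast, Finset.sum_mul]
  refine Finset.sum_congr rfl fun v hv => ?_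
  rw [(Finset.mem_filter.mp hv).2]

end General

section Heights

local notation "Qb" => AlgebraicClosure ℚ

variable {F : Type*} [Field F] [Algebra Qb F] [Algebra.EssFiniteType Qb F]

/-- **CHOW, finite form.**  For `y` regular off `v₀` with a pole of order `N` at `v₀` and `ψ`
independent, regular off `v₀`, with pole orders `≤ M` at `v₀`: the zeros of `s = ∑ c i • ψ i`
off `v₀` form a finite set `S`, there are at most `M` of them with multiplicities, and
`∑_{v ∈ S} ord_v(s) * hQ (y(v)) = N * hT c + O(1)`. -/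
theorem chow_finset (htr : Algebra.trdeg Qb F = 1) (v₀ : Place Qb F)
    {ev : Place Qb F → F → Qb} (hev : IsEval ev) {y : F} (hy : RegOff v₀ y) (hy0 : v₀.ord y < 0)
    {M n : ℕ} (ψ : Fin n → F) (hψ : LinearIndependent Qb ψ) (hψreg : ∀ i, RegOff v₀ (ψ i))
    (hM : ∀ i, -(M : ℤ) ≤ v₀.ord (ψ i)) :
    ∃ C : ℝ, ∀ c : Fin n → Qb, c ≠ 0 →
      ∃ S : Finset (Place Qb F), (∀ v ∈ S, v ≠ v₀) ∧
        (∀ v, v ≠ v₀ → v ∉ S → v.ord (∑ i, c i • ψ i) = 0) ∧
        (∀ v ∈ S, 0 ≤ v.ord (∑ i, c i • ψ i)) ∧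
        (∑ v ∈ S, ((v.ord (∑ i, c i • ψ i) : ℤ) : ℝ) ≤ M) ∧
        |(∑ v ∈ S, ((v.ord (∑ i, c i • ψ i) : ℤ) : ℝ) * hQ (ev v y))
          - (((-(v₀.ord y)).toNat : ℕ) : ℝ) * hT c| ≤ C := by
  classical
  obtain ⟨G, hGhom, hG⟩ := exists_norm_forms htr v₀ hy hy0 ψ hψreg hM
  have hsne : ∀ c : Fin n → Qb, c ≠ 0 → (∑ i, c i • ψ i) ≠ 0 := by
    intro c hc h
    exact hc (funext fun i => Fintype.linearIndependent_iff.mp hψ c h i)
  have h0 : ∀ c : Fin n → Qb, (∀ j, MvPolynomial.eval c (G j) = 0) → c = 0 := by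
    intro c hc
    by_contra hne
    obtain ⟨j, hj⟩ := (hG c (hsne c hne)).1
    exact hj (hc j)
  obtain ⟨C1, hC1⟩ := hT_eval_le G hGhom
  obtain ⟨C2, hC2⟩ := hT_eval_ge G hGhom h0
  refine ⟨|C1| + |C2| + (M * Real.log 2 + Real.log (M + 1)), fun c hc => ?_⟩
  have hs := hsne c hc
  obtain ⟨⟨j, hj⟩, hroots⟩ := hG c hs
  have hgc0 : (fun j => MvPolynomial.eval c (G j)) ≠ 0 := fun h => hj (congr_fun h j)
  have hp := sum_monomial_fin_ne_zero hgc0
  have hreg : RegOff v₀ (∑ i, c i • ψ i) := RegOff.sum _ fun i _ => (hψreg i).smul _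
  obtain ⟨S, h1, h2, h3, h4⟩ := exists_zero_finset htr v₀ hev hy hy0 hreg hs hp hroots
  refine ⟨S, h1, h2, h3, ?_, ?_⟩
  · have h5 := h4 (fun _ => (1 : ℝ))
    simp only [mul_one, Multiset.map_const', Multiset.sum_replicate, nsmul_eq_mul] at h5
    rw [h5]
    exact_mod_cast (Polynomial.card_roots' _).trans
      (natDegree_sum_monomial_fin_le (fun j => MvPolynomial.eval c (G j)))
  · rw [h4 hQ]
    have GM := abs_hT_sub_sum_hQ_roots_monomial_le hgc0
    have hle := hC1 c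
    have hge := hC2 c hc
    rw [abs_le] at GM ⊢
    have a1 := le_abs_self C1
    have a2 := le_abs_self C2
    have b1 := abs_nonneg C1
    have b2 := abs_nonneg C2
    constructor <;> linarith [GM.1, GM.2]

/-- **CHOW for a height on the places.**  If `H v` is at bounded distance from `hQ (y(v))` on the
places `v ≠ v₀`, then `∑_{v ≠ v₀} ord_v(∑ c i • ψ i) * H v = N * hT c + O(1)`, `N` the pole order
of `y` at `v₀`. -/
theorem chow_of_height (htr : Algebra.trdeg Qb F = 1) (v₀ : Place Qb F)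
    {ev : Place Qb F → F → Qb} (hev : IsEval ev) {y : F} (hy : RegOff v₀ y) (hy0 : v₀.ord y < 0)
    (H : Place Qb F → ℝ) (hH : ∃ C : ℝ, ∀ v : Place Qb F, v ≠ v₀ → |hQ (ev v y) - H v| ≤ C)
    {M n : ℕ} (ψ : Fin n → F) (hψ : LinearIndependent Qb ψ) (hψreg : ∀ i, RegOff v₀ (ψ i))
    (hM : ∀ i, -(M : ℤ) ≤ v₀.ord (ψ i)) :
    ∃ C : ℝ, ∀ c : Fin n → Qb, c ≠ 0 →
      |(∑ᶠ v ∈ {v : Place Qb F | v ≠ v₀}, ((v.ord (∑ i, c i • ψ i) : ℤ) : ℝ) * H v)
          - (((-(v₀.ord y)).toNat : ℕ) : ℝ) * hT c| ≤ C := by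
  obtain ⟨C1, hC1⟩ := chow_finset htr v₀ hev hy hy0 ψ hψ hψreg hM
  obtain ⟨C2, hC2⟩ := hH
  refine ⟨C1 + M * |C2|, fun c hc => ?_⟩
  obtain ⟨S, h1, h2, h3, h4, h5⟩ := hC1 c hc
  rw [finsum_off_eq_sum v₀ (fun v => v.ord (∑ i, c i • ψ i)) S h1 h2 H]
  have hdiff : |∑ v ∈ S, ((v.ord (∑ i, c i • ψ i) : ℤ) : ℝ) * H v -
      ∑ v ∈ S, ((v.ord (∑ i, c i • ψ i) : ℤ) : ℝ) * hQ (ev v y)| ≤ M * |C2| := by
    rw [← Finset.sum_sub_distrib]
    refine (Finset.abs_sum_le_sum_abs _ _).trans ?_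
    have hterm : ∀ v ∈ S, |((v.ord (∑ i, c i • ψ i) : ℤ) : ℝ) * H v -
        ((v.ord (∑ i, c i • ψ i) : ℤ) : ℝ) * hQ (ev v y)| ≤
        ((v.ord (∑ i, c i • ψ i) : ℤ) : ℝ) * |C2| := by
      intro v hv
      have hnn : (0 : ℝ) ≤ ((v.ord (∑ i, c i • ψ i) : ℤ) : ℝ) := by exact_mod_cast h3 v hv
      rw [← mul_sub, abs_mul, abs_of_nonneg hnn]
      refine mul_le_mul_of_nonneg_left ?_ hnn
      rw [abs_sub_comm]
      exact (hC2 v (h1 v hv)).trans (le_abs_self C2)
    refine (Finset.sum_le_sum hterm).trans ?_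
    rw [← Finset.sum_mul]
    exact mul_le_mul_of_nonneg_right h4 (abs_nonneg C2)
  have htri := abs_sub_le (∑ v ∈ S, ((v.ord (∑ i, c i • ψ i) : ℤ) : ℝ) * H v)
    (∑ v ∈ S, ((v.ord (∑ i, c i • ψ i) : ℤ) : ℝ) * hQ (ev v y))
    ((((-(v₀.ord y)).toNat : ℕ) : ℝ) * hT c)
  linarith

/-- **D1 (CHOW)** with the comparison of heights (D1b, `exists_compare`, for the pair
`![y, 1]` / `φ`) as a hypothesis. -/
theorem chow_of_compare (htr : Algebra.trdeg Qb F = 1) (v₀ : Place Qb F)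
    {ev : Place Qb F → F → Qb} (hev : IsEval ev) {m0 r : ℕ} (φ : Fin r → F)
    (hφreg : ∀ i, RegOff v₀ (φ i)) (hφtop : ∃ i, v₀.ord (φ i) = -(m0 : ℤ)) (hm0 : 0 < m0)
    (hcmp : ∀ α : Fin 2 → F, (∀ i, RegOff v₀ (α i)) → (∀ i, -(m0 : ℤ) ≤ v₀.ord (α i)) →
      (∃ i, α i = 1) → (∃ i, v₀.ord (α i) = -(m0 : ℤ)) →
      ∃ C : ℝ, ∀ v : Place Qb F, v ≠ v₀ →
        |(m0 : ℝ) * hT (fun i => ev v (α i)) - (m0 : ℝ) * hT (fun j => ev v (φ j))| ≤ C)
    {M n : ℕ} (ψ : Fin n → F) (hψ : LinearIndependent Qb ψ)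
    (hψM : ∀ i, ψ i ∈ riemannRochSpace ((M : ℤ) • Finsupp.single v₀ (1 : ℤ))) :
    ∃ C : ℝ, ∀ c : Fin n → Qb, c ≠ 0 →
      |(∑ᶠ v ∈ {v : Place Qb F | v ≠ v₀},
            ((v.ord (∑ i, c i • ψ i) : ℤ) : ℝ) * hT (fun i => ev v (φ i))) / (m0 : ℝ)
          - hT c| ≤ C := by
  obtain ⟨i₀, hi₀⟩ := hφtop
  have hm0Z : (0 : ℤ) < (m0 : ℤ) := by exact_mod_cast hm0
  have hm0R : (0 : ℝ) < (m0 : ℝ) := by exact_mod_cast hm0
  have hy0 : v₀.ord (φ i₀) < 0 := by
    rw [hi₀]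
    omega
  have hyreg : RegOff v₀ (φ i₀) := hφreg i₀
  have hN : (-(v₀.ord (φ i₀))).toNat = m0 := by
    rw [hi₀, neg_neg]
    exact Int.toNat_natCast m0
  obtain ⟨C0, hC0⟩ := hcmp ![φ i₀, 1]
    (by
      intro i
      fin_cases i
      · exact hyreg
      · exact RegOff.one)
    (by
      intro i
      fin_cases i
      · exact hi₀.ge
      · show -(m0 : ℤ) ≤ v₀.ord (1 : F)
        rw [Place.ord_one]
        omega)
    ⟨1, rfl⟩ ⟨0, hi₀⟩
  have hH : ∃ C : ℝ, ∀ v : Place Qb F, v ≠ v₀ →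
      |hQ (ev v (φ i₀)) - hT (fun j => ev v (φ j))| ≤ C := by
    refine ⟨C0 / m0, fun v hv => ?_⟩
    have h := hC0 v hv
    have e : (fun i => ev v ((![φ i₀, 1] : Fin 2 → F) i)) = ![ev v (φ i₀), 1] := by
      funext i
      fin_cases i
      · rfl
      · exact hev.map_one v
    rw [e, ← mul_sub, abs_mul, abs_of_pos hm0R] at h
    rw [le_div_iff₀ hm0R, mul_comm]
    exact h
  obtain ⟨C, hC⟩ := chow_of_height htr v₀ hev hyreg hy0 _ hH ψ hψ
    (fun i => regOff_of_mem_L (hψM i)) (fun i => neg_le_ord_of_mem_L (hψM i))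
  refine ⟨C / m0, fun c hc => ?_⟩
  have h := hC c hc
  rw [hN] at h
  have e : (∑ᶠ v ∈ {v : Place Qb F | v ≠ v₀},
        ((v.ord (∑ i, c i • ψ i) : ℤ) : ℝ) * hT (fun i => ev v (φ i))) / (m0 : ℝ) - hT c =
      ((∑ᶠ v ∈ {v : Place Qb F | v ≠ v₀},
        ((v.ord (∑ i, c i • ψ i) : ℤ) : ℝ) * hT (fun i => ev v (φ i))) - (m0 : ℝ) * hT c) /
        (m0 : ℝ) := by
    field_simp
  rw [e, abs_div, abs_of_pos hm0R]
  exact div_le_div_of_nonneg_right h hm0R.le

end Heights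

end Fermat.Agent.S17.H.Glob.ChowCore
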