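/-
MW strand H, leaf D4d (core): the discriminant divides the product of the secant forms over the
ordered pairs of distinct embeddings.

Level-free, Mathlib only.  `A = k[X]` with `k` algebraically closed, `B` a free `A`-algebra of
rank `n` with basis `w`, `σ i : B →ₐ[A] E` (`i : Fin n`) the embeddings into a field `E`, and
`disc` an element of `A` with `disc = det [σ i (w j)] ^ 2` in `E`.  If `B` is locally monogenic at
every `α : k` (`hmono`), then for every finite family `φ` of elements of `B` every polynomial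
`G` over `A` whose image over `E` is

  `∏_{i ≠ j} ∑_s X s * (σ i (φ₁ s) * σ j (φ₂ s) - σ i (φ₂ s) * σ j (φ₁ s))`

is divisible by `disc`.
-/
import Mathlib

set_option autoImplicit false

namespace Fermat.Agent.S17.H.DiscDvd

open Polynomial

/-- Over an integrally closed domain `A` inside a field `E`: if `b = a * e` with `e` integral
over `A`, then `a ∣ b` in `A`. -/
theorem dvd_of_isIntegral_mul {A E : Type*} [CommRing A] [IsDomain A] [IsIntegrallyClosed A]
    [Field E] [Algebra A E] (hinj : Function.Injective (algebraMap A E)) {a b : A} {e : E}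
    (he : IsIntegral A e) (h : algebraMap A E b = algebraMap A E a * e) : a ∣ b := by
  by_cases ha : a = 0
  · subst ha
    have h0 : algebraMap A E b = 0 := by rw [h, map_zero, zero_mul]
    have hb : b = 0 := hinj (by rw [h0, map_zero])
    rw [hb]
  · have ha' : algebraMap A E a ≠ 0 := fun h0 => ha (hinj (by rw [h0, map_zero]))
    have hinj' : Function.Injective (Algebra.ofId A E) := hinj
    let f : FractionRing A →ₐ[A] E := IsFractionRing.liftAlgHom (K := FractionRing A) hinj'
    have hf : Function.Injective f := f.toRingHom.injective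
    set x : FractionRing A := algebraMap A (FractionRing A) b / algebraMap A (FractionRing A) a
      with hx
    have hfx : f x = e := by
      rw [hx, map_div₀, AlgHom.commutes, AlgHom.commutes, h, mul_div_cancel_left₀ _ ha']
    have hxint : IsIntegral A x := by
      rw [← isIntegral_algHom_iff f hf, hfx]
      exact he
    obtain ⟨c, hc⟩ := IsIntegrallyClosed.isIntegral_iff.mp hxint
    refine ⟨c, ?_⟩
    have ha'' : algebraMap A (FractionRing A) a ≠ 0 := by
      intro h0
      exact ha (IsFractionRing.injective A (FractionRing A) (by rw [h0, map_zero]))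
    apply IsFractionRing.injective A (FractionRing A)
    rw [map_mul, hc, hx, mul_div_cancel₀ _ ha'']

/-- Divided difference with an integral cofactor. -/
theorem exists_integral_cofactor {A E : Type*} [CommRing A] [CommRing E] [Algebra A E]
    (p q : A[X]) {u v : E} (hu : IsIntegral A u) (hv : IsIntegral A v) :
    ∃ c : integralClosure A E,
      aeval u p * aeval v q - aeval u q * aeval v p = (u - v) * (c : E) := by
  set u' : integralClosure A E := ⟨u, hu⟩ with hu'
  set v' : integralClosure A E := ⟨v, hv⟩ with hv'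
  obtain ⟨c₁, hc₁⟩ := Polynomial.sub_dvd_eval_sub u' v'
    (p.map (algebraMap A (integralClosure A E)))
  obtain ⟨c₂, hc₂⟩ := Polynomial.sub_dvd_eval_sub u' v'
    (q.map (algebraMap A (integralClosure A E)))
  rw [eval_map_algebraMap, eval_map_algebraMap] at hc₁ hc₂
  refine ⟨c₁ * aeval v' q - c₂ * aeval v' p, ?_⟩
  have e1 : aeval u p = ((aeval u' p : integralClosure A E) : E) :=
    Subalgebra.aeval_coe _ u' p
  have e2 : aeval v p = ((aeval v' p : integralClosure A E) : E) :=
    Subalgebra.aeval_coe _ v' p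
  have e3 : aeval u q = ((aeval u' q : integralClosure A E) : E) :=
    Subalgebra.aeval_coe _ u' q
  have e4 : aeval v q = ((aeval v' q : integralClosure A E) : E) :=
    Subalgebra.aeval_coe _ v' q
  have h1 : aeval u p - aeval v p = (u - v) * (c₁ : E) := by
    rw [e1, e2]
    have := congrArg (Subtype.val) hc₁
    simpa using this
  have h2 : aeval u q - aeval v q = (u - v) * (c₂ : E) := by
    rw [e3, e4]
    have := congrArg (Subtype.val) hc₂
    simpa using this
  have e5 : ((c₁ * aeval v' q - c₂ * aeval v' p : integralClosure A E) : E)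
      = (c₁ : E) * aeval v q - (c₂ : E) * aeval v p := by
    rw [e4, e2]
    push_cast
    ring
  rw [e5]
  linear_combination (aeval v q) * h1 - (aeval v p) * h2

/-- The product of the differences over the ordered pairs of distinct indices is, up to sign, the
square of the Vandermonde determinant. -/
theorem prod_offDiag_sub {R : Type*} [CommRing R] {n : ℕ} (u : Fin n → R) :
    ∃ ε : R, (ε = 1 ∨ ε = -1) ∧
      ∏ p ∈ (Finset.univ : Finset (Fin n)).offDiag, (u p.1 - u p.2)
        = ε * (∏ i : Fin n, ∏ j ∈ Finset.Ioi i, (u j - u i)) ^ 2 := by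
  classical
  have hsplit : (Finset.univ : Finset (Fin n)).offDiag
      = (Finset.univ.filter fun p : Fin n × Fin n => p.1 < p.2)
        ∪ (Finset.univ.filter fun p : Fin n × Fin n => p.2 < p.1) := by
    ext p
    simp only [Finset.mem_offDiag, Finset.mem_univ, true_and, Finset.mem_union,
      Finset.mem_filter]
    exact lt_or_lt_iff_ne.symm
  have hdisj : Disjoint (Finset.univ.filter fun p : Fin n × Fin n => p.1 < p.2)
      (Finset.univ.filter fun p : Fin n × Fin n => p.2 < p.1) := by
    rw [Finset.disjoint_filter]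
    intro p _ h1 h2
    exact lt_asymm h1 h2
  have h1 : ∏ p ∈ Finset.univ.filter (fun p : Fin n × Fin n => p.1 < p.2), (u p.1 - u p.2)
      = ∏ i : Fin n, ∏ j ∈ Finset.Ioi i, (u i - u j) := by
    rw [Finset.prod_filter, ← Finset.univ_product_univ, Finset.prod_product]
    refine Finset.prod_congr rfl fun i _ => ?_
    rw [← Finset.prod_filter, Finset.filter_lt_eq_Ioi]
  have h2 : ∏ p ∈ Finset.univ.filter (fun p : Fin n × Fin n => p.2 < p.1), (u p.1 - u p.2)
      = ∏ i : Fin n, ∏ j ∈ Finset.Ioi i, (u j - u i) := by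
    rw [Finset.prod_filter, ← Finset.univ_product_univ, Finset.prod_product_right]
    refine Finset.prod_congr rfl fun i _ => ?_
    rw [← Finset.prod_filter, Finset.filter_lt_eq_Ioi]
  have h3 : ∏ i : Fin n, ∏ j ∈ Finset.Ioi i, (u i - u j)
      = (∏ i : Fin n, ∏ j ∈ Finset.Ioi i, (-1 : R))
        * ∏ i : Fin n, ∏ j ∈ Finset.Ioi i, (u j - u i) := by
    rw [← Finset.prod_mul_distrib]
    refine Finset.prod_congr rfl fun i _ => ?_
    rw [← Finset.prod_mul_distrib]
    refine Finset.prod_congr rfl fun j _ => ?_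
    ring
  have h4 : ∃ m : ℕ, ∏ i : Fin n, ∏ j ∈ Finset.Ioi i, (-1 : R) = (-1) ^ m := by
    refine ⟨∑ i : Fin n, (Finset.Ioi i).card, ?_⟩
    rw [← Finset.prod_pow_eq_pow_sum]
    refine Finset.prod_congr rfl fun i _ => ?_
    rw [Finset.prod_const]
  obtain ⟨m, hm⟩ := h4
  refine ⟨(-1) ^ m, (neg_one_pow_eq_or R m), ?_⟩
  rw [hsplit, Finset.prod_union hdisj, h1, h2, h3, hm]
  ring

/-- `disc ∣ c` as soon as, for every `α`, `disc ∣ d ^ M * c` for some `d` with `d(α) ≠ 0`. -/
theorem dvd_of_forall_exists_eval_ne {k : Type*} [Field k] [IsAlgClosed k] (disc c : k[X])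
    (M : ℕ) (h : ∀ α : k, ∃ d : k[X], d.eval α ≠ 0 ∧ disc ∣ d ^ M * c) : disc ∣ c := by
  classical
  by_cases hc : c = 0
  · rw [hc]
    exact dvd_zero _
  by_cases hd0 : disc = 0
  · obtain ⟨d, hd, hdvd⟩ := h 0
    rw [hd0, zero_dvd_iff] at hdvd
    have hdne : d ≠ 0 := fun h0 => hd (by rw [h0, eval_zero])
    exact absurd hdvd (mul_ne_zero (pow_ne_zero _ hdne) hc)
  rw [IsAlgClosed.dvd_iff_roots_le_roots hd0 hc, Multiset.le_iff_count]
  intro α
  rw [count_roots, count_roots]
  obtain ⟨d, hd, hdvd⟩ := h α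
  have hdne : d ≠ 0 := fun h0 => hd (by rw [h0, eval_zero])
  have hne : d ^ M * c ≠ 0 := mul_ne_zero (pow_ne_zero _ hdne) hc
  have h1 := rootMultiplicity_le_rootMultiplicity_of_dvd hne hdvd α
  rw [rootMultiplicity_mul hne] at h1
  have h2 : rootMultiplicity α (d ^ M) = 0 := by
    apply rootMultiplicity_eq_zero
    rw [IsRoot.def, eval_pow]
    exact pow_ne_zero _ hd
  omega

/-- **D4d, core.**  The discriminant divides the product, over the ordered pairs of distinct
embeddings, of the secant forms. -/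
theorem C_disc_dvd {k : Type*} [Field k] [IsAlgClosed k] {B E : Type*} [CommRing B]
    [Algebra k[X] B] [Field E] [Algebra k[X] E]
    (hinj : Function.Injective (algebraMap k[X] E)) {n : ℕ}
    (w : Module.Basis (Fin n) k[X] B) (σ : Fin n → B →ₐ[k[X]] E) (disc : k[X])
    (hdisc : algebraMap k[X] E disc = (Matrix.of fun i j => σ i (w j)).det ^ 2)
    (hmono : ∀ α : k, ∃ (y : B) (P : Matrix (Fin n) (Fin n) k[X]),
      (∀ j : Fin n, y ^ (j : ℕ) = ∑ i, P i j • w i) ∧ P.det.eval α ≠ 0)
    {τ : Type*} [Fintype τ] (φ₁ φ₂ : τ → B) (G : MvPolynomial τ k[X])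
    (hG : MvPolynomial.map (algebraMap k[X] E) G =
      ∏ p ∈ (Finset.univ : Finset (Fin n)).offDiag,
        ∑ s : τ, MvPolynomial.X s * MvPolynomial.C (σ p.1 (φ₁ s) * σ p.2 (φ₂ s)
          - σ p.1 (φ₂ s) * σ p.2 (φ₁ s))) :
    MvPolynomial.C disc ∣ G := by
  classical
  rw [MvPolynomial.C_dvd_iff_dvd_coeff]
  intro m
  apply dvd_of_forall_exists_eval_ne disc (G.coeff m) (2 * (n * n - n))
  intro α
  obtain ⟨y, P, hy, hP⟩ := hmono α
  refine ⟨P.det, hP, ?_⟩
  set d : k[X] := P.det with hd
  set D : E := algebraMap k[X] E d with hD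
  have : Module.Finite k[X] B := Module.Finite.of_basis w
  have hint : ∀ b : B, IsIntegral k[X] b := fun b => Algebra.IsIntegral.isIntegral b
  let u : Fin n → E := fun i => σ i y
  have hu : ∀ i, IsIntegral k[X] (u i) := fun i => (hint y).map (σ i)
  -- the adjugate expresses `d • w l` through the powers of `y`
  have hadj : ∀ l : Fin n, d • w l = ∑ j : Fin n, P.adjugate j l • y ^ (j : ℕ) := by
    intro l
    have h1 : ∑ j : Fin n, P.adjugate j l • y ^ (j : ℕ)
        = ∑ i : Fin n, (P * P.adjugate) i l • w i := by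
      simp_rw [hy, Finset.smul_sum, smul_smul, Matrix.mul_apply, Finset.sum_smul]
      rw [Finset.sum_comm]
      refine Finset.sum_congr rfl fun i _ => Finset.sum_congr rfl fun j _ => ?_
      rw [mul_comm]
    rw [h1, Matrix.mul_adjugate]
    simp [Matrix.smul_apply, Matrix.one_apply, hd]
  -- every element of `B`, multiplied by `d`, is a polynomial in `y`
  have hq : ∀ b : B, ∃ q : k[X][X], ∀ i, D * σ i b = aeval (u i) q := by
    intro b
    set cf : Fin n → k[X] := fun j => ∑ l : Fin n, w.repr b l * P.adjugate j l with hcf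
    refine ⟨∑ j : Fin n, Polynomial.C (cf j) * Polynomial.X ^ (j : ℕ), fun i => ?_⟩
    have hb : d • b = ∑ j : Fin n, cf j • y ^ (j : ℕ) := by
      conv_lhs => rw [← w.sum_repr b]
      rw [Finset.smul_sum]
      simp_rw [hcf, smul_comm d, hadj, Finset.smul_sum, smul_smul, Finset.sum_smul]
      rw [Finset.sum_comm]
    have e0 : D * σ i b = σ i (d • b) := by rw [map_smul, Algebra.smul_def]
    have e1 : σ i (∑ j : Fin n, cf j • y ^ (j : ℕ))
        = ∑ j : Fin n, algebraMap k[X] E (cf j) * u i ^ (j : ℕ) := by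
      rw [map_sum]
      refine Finset.sum_congr rfl fun j _ => ?_
      rw [map_smul, Algebra.smul_def, map_pow]
    have e2 : aeval (u i) (∑ j : Fin n, Polynomial.C (cf j) * Polynomial.X ^ (j : ℕ))
        = ∑ j : Fin n, algebraMap k[X] E (cf j) * u i ^ (j : ℕ) := by
      rw [map_sum]
      refine Finset.sum_congr rfl fun j _ => ?_
      rw [map_mul, aeval_C, map_pow, aeval_X]
    rw [e0, hb, e1, e2]
  choose q hq using hq
  -- the cofactors
  have hc : ∀ (p : Fin n × Fin n) (s : τ), ∃ c : integralClosure k[X] E,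
      D ^ 2 * (σ p.1 (φ₁ s) * σ p.2 (φ₂ s) - σ p.1 (φ₂ s) * σ p.2 (φ₁ s))
        = (u p.1 - u p.2) * (c : E) := by
    intro p s
    obtain ⟨c, hc⟩ := exists_integral_cofactor (q (φ₁ s)) (q (φ₂ s)) (hu p.1) (hu p.2)
    refine ⟨c, ?_⟩
    rw [← hc, ← hq, ← hq, ← hq, ← hq]
    ring
  choose c hc using hc
  let T' : Fin n × Fin n → MvPolynomial τ (integralClosure k[X] E) :=
    fun p => ∑ s : τ, MvPolynomial.X s * MvPolynomial.C (c p s)
  have hT : ∀ p : Fin n × Fin n,
      MvPolynomial.C (D ^ 2) * (∑ s : τ, MvPolynomial.X s * MvPolynomial.C (σ p.1 (φ₁ s)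
          * σ p.2 (φ₂ s) - σ p.1 (φ₂ s) * σ p.2 (φ₁ s)))
        = MvPolynomial.C (u p.1 - u p.2)
          * MvPolynomial.map (algebraMap (integralClosure k[X] E) E) (T' p) := by
    intro p
    have hmapT : MvPolynomial.map (algebraMap (integralClosure k[X] E) E) (T' p)
        = ∑ s : τ, MvPolynomial.X s
            * MvPolynomial.C ((c p s : integralClosure k[X] E) : E) := by
      show MvPolynomial.map (algebraMap (integralClosure k[X] E) E)
        (∑ s : τ, MvPolynomial.X s * MvPolynomial.C (c p s)) = _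
      rw [map_sum]
      refine Finset.sum_congr rfl fun s _ => ?_
      rw [map_mul, MvPolynomial.map_C, MvPolynomial.map_X]
      rfl
    rw [hmapT, Finset.mul_sum, Finset.mul_sum]
    refine Finset.sum_congr rfl fun s _ => ?_
    rw [mul_left_comm, ← MvPolynomial.C_mul, hc p s, MvPolynomial.C_mul]
    ring
  have hprod : MvPolynomial.C (D ^ (2 * (n * n - n))) * MvPolynomial.map (algebraMap k[X] E) G
      = MvPolynomial.C (∏ p ∈ (Finset.univ : Finset (Fin n)).offDiag, (u p.1 - u p.2))
        * MvPolynomial.map (algebraMap (integralClosure k[X] E) E)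
            (∏ p ∈ (Finset.univ : Finset (Fin n)).offDiag, T' p) := by
    have hcard : MvPolynomial.C (σ := τ) (D ^ (2 * (n * n - n)))
        = ∏ _p ∈ (Finset.univ : Finset (Fin n)).offDiag, MvPolynomial.C (D ^ 2) := by
      rw [Finset.prod_const, Finset.offDiag_card, Finset.card_univ, Fintype.card_fin,
        ← MvPolynomial.C_pow, ← pow_mul]
    have e1 : MvPolynomial.C (σ := τ)
          (∏ p ∈ (Finset.univ : Finset (Fin n)).offDiag, (u p.1 - u p.2))
        = ∏ p ∈ (Finset.univ : Finset (Fin n)).offDiag,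
            MvPolynomial.C (σ := τ) (u p.1 - u p.2) := map_prod _ _ _
    have e2 : MvPolynomial.map (algebraMap (integralClosure k[X] E) E)
          (∏ p ∈ (Finset.univ : Finset (Fin n)).offDiag, T' p)
        = ∏ p ∈ (Finset.univ : Finset (Fin n)).offDiag,
            MvPolynomial.map (algebraMap (integralClosure k[X] E) E) (T' p) := map_prod _ _ _
    rw [hG, hcard, e1, e2, ← Finset.prod_mul_distrib, ← Finset.prod_mul_distrib]
    exact Finset.prod_congr rfl fun p _ => hT p
  -- the Vandermonde determinant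
  obtain ⟨ε, hε, hV⟩ := prod_offDiag_sub u
  have hW : ∏ i : Fin n, ∏ j ∈ Finset.Ioi i, (u j - u i)
      = (Matrix.of fun i j => σ i (w j)).det * D := by
    rw [← Matrix.det_vandermonde]
    have hmat : Matrix.vandermonde u
        = (Matrix.of fun i j => σ i (w j)) * P.map (algebraMap k[X] E) := by
      ext i j
      rw [Matrix.vandermonde_apply, Matrix.mul_apply]
      show σ i y ^ (j : ℕ) = _
      rw [← map_pow, hy, map_sum]
      refine Finset.sum_congr rfl fun l _ => ?_
      rw [map_smul, Algebra.smul_def, mul_comm]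
      rfl
    rw [hmat, Matrix.det_mul, hD, hd, RingHom.map_det]
    rfl
  -- compare the coefficients
  have hcoef := congrArg (MvPolynomial.coeff m) hprod
  rw [MvPolynomial.coeff_C_mul, MvPolynomial.coeff_C_mul, MvPolynomial.coeff_map,
    MvPolynomial.coeff_map, hV, hW, mul_pow, ← hdisc] at hcoef
  set cm : integralClosure k[X] E :=
    MvPolynomial.coeff m (∏ p ∈ (Finset.univ : Finset (Fin n)).offDiag, T' p) with hcm
  have hcmint : IsIntegral k[X] (cm : E) := cm.2
  have he : IsIntegral k[X] (ε * (cm : E)) := by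
    rcases hε with rfl | rfl
    · rwa [one_mul]
    · rw [neg_one_mul]
      exact hcmint.neg
  apply dvd_trans (dvd_mul_right disc (d ^ 2))
  apply dvd_of_isIntegral_mul hinj he
  rw [map_mul, map_mul, map_pow, map_pow, ← hD, hcoef]
  have : algebraMap (integralClosure k[X] E) E cm = (cm : E) := rfl
  rw [this]
  ring

/-- **D4d, core, ring-hom form** (no `Algebra` instance on the big field): the shape of
`Fermat.Agent.S17.H.Fib.map_fibrePoly_eq_prod`. -/
theorem C_disc_dvd_ringHom {k : Type*} [Field k] [IsAlgClosed k] {B E : Type*} [CommRing B]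
    [Algebra k[X] B] [Field E] (f : k[X] →+* E) (hf : Function.Injective f) {n : ℕ}
    (w : Module.Basis (Fin n) k[X] B) (σ : Fin n → B →+* E)
    (hσ : ∀ i a, σ i (algebraMap k[X] B a) = f a) (disc : k[X])
    (hdisc : f disc = (Matrix.of fun i j => σ i (w j)).det ^ 2)
    (hmono : ∀ α : k, ∃ (y : B) (P : Matrix (Fin n) (Fin n) k[X]),
      (∀ j : Fin n, y ^ (j : ℕ) = ∑ i, P i j • w i) ∧ P.det.eval α ≠ 0)
    {τ : Type*} [Fintype τ] (φ₁ φ₂ : τ → B) (G : MvPolynomial τ k[X])
    (hG : MvPolynomial.map f G =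
      ∏ q ∈ (Finset.univ : Finset (Fin n)).offDiag,
        ∑ s : τ, MvPolynomial.X s * MvPolynomial.C (σ q.1 (φ₁ s) * σ q.2 (φ₂ s)
          - σ q.1 (φ₂ s) * σ q.2 (φ₁ s))) :
    MvPolynomial.C disc ∣ G := by
  let _inst : Algebra k[X] E := f.toAlgebra
  let σ' : Fin n → B →ₐ[k[X]] E := fun i => { σ i with commutes' := hσ i }
  exact C_disc_dvd (E := E) hf w σ' disc hdisc hmono φ₁ φ₂ G hG

end Fermat.Agent.S17.H.DiscDvd
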