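import Fermat.Agent.S17.H.Glob.LDGlobalCore
import Fermat.Agent.S17.H.Glob.PlaceHeight
import Fermat.Agent.S17.H.A.LocConstQb
import Fermat.Agent.S17.H.LD.DownCurve
import Fermat.Agent.S17.H.LD.UpCurve
import Fermat.Agent.S17.H.LD.InfDist
import Fermat.Agent.S17.H.LD.ValuesEv
import Fermat.Agent.S17.H.LD.PtRow
import Fermat.Agent.S17.H.LD.Zeros
import Fermat.Agent.S17.H.LD.Forms
import Fermat.Agent.S17.H.Pairing.Curve

/-!
# Program MW (S17), strand H, block D, leaf D2: the global distance formula (LD) on the curve,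
from the upper half of the local estimate of block C

`F` a function field of a curve over `Qb = AlgebraicClosure ℚ`, `v₀` a place, `τ` a basis of
`L(m0 v₀)`, `ψ` a basis of `L(k m0 v₀)`, `ev` a value function.  For `s = ∑ c i • ψ i ≠ 0` and a
place `Q ≠ v₀` which is not a zero of `s`:

`|∑_{v ≠ v₀} ord_v(s) * D(v, Q) - hT c + ord_{v₀}(s) * H(Q)| ≤ C`

with `D = Glob.plD ev τ` and `H = hT (τ(Q)) / m0 = Glob.plH ev τ m0 Q`: the second clause of
`Pairing.ChowLD`.

The lower half of the local estimate (`LD.ld_down`), the estimate at the base place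
(`LD.infDist`) and the extension of absolute values are on main; the upper half (`LD.ld_up`,
row S17.H.C9) enters as the hypothesis `LdUp v₀`, its statement verbatim.  Three entry points:

* `ld_global_of_up`    : from the upper half `LdUp v₀`;
* `ld_global_of_local` : from the two-sided statement `LdLocal v₀` (`LD.ld_local`, row C10);
* `ld_global_of_sol`   : from the solution statement `LD.UpCurve.SolStatement` (row C9b).
-/

set_option autoImplicit false

namespace Fermat.Agent.S17.H.Glob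

open AlgebraicCurve MvPolynomial Fermat.Agent.S17.R Fermat.Agent.S17.H.Cert
open Fermat.Agent.S17.H.LD

/-- The statement of the upper half of the local distance estimate of block C (`LD.ld_up`,
row S17.H.C9), verbatim. -/
def LdUp {K F : Type*} [Field K] [Field F] [Algebra K F] (v₀ : Place K F) : Prop :=
  ∃ n₀ : ℕ, ∀ m0 : ℕ, n₀ ≤ m0 → ∀ (k : ℕ), 0 < k → ∀ {ι κ : Type} [Fintype ι] [Fintype κ]
    (τ : ι → F) (ψ : κ → F) (P : κ → MvPolynomial ι K),
    LinearIndependent K τ →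
    Submodule.span K (Set.range τ) = riemannRochSpace ((m0 : ℤ) • Finsupp.single v₀ (1 : ℤ)) →
    LinearIndependent K ψ →
    Submodule.span K (Set.range ψ) =
      riemannRochSpace (((k * m0 : ℕ) : ℤ) • Finsupp.single v₀ (1 : ℤ)) →
    (∀ j, (P j).IsHomogeneous k) → (∀ j, aeval τ (P j) = ψ j) →
    ∃ (C : ℝ) (Γ : Multiset K), 1 ≤ C ∧ ∀ (v : AbsoluteValue K ℝ) (a : κ → K)
      (Z : Fin (k * m0) → Place K F) (x : Fin (k * m0) → ι → K) (y : ι → K), a ≠ 0 →
      divOf K (∑ j, a j • ψ j) + ((k * m0 : ℕ) : ℤ) • Finsupp.single v₀ (1 : ℤ) =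
        ∑ i, Finsupp.single (Z i) (1 : ℤ) →
      (∀ i, IsPt τ (Z i) (x i)) →
      (∀ (n : ℕ) (R : MvPolynomial ι K), R.IsHomogeneous n → aeval τ R = 0 → eval y R = 0) →
      v (∑ j, a j * eval y (P j)) * (∏ i, ⨆ j, v (x i j)) * (⨆ j, v (y j)) ^ (k * m0 - k) ≤
        locConst C Γ v *
          ((⨆ j, v (a j)) * ∏ i, ⨆ p : ι × ι, v (x i p.1 * y p.2 - x i p.2 * y p.1))

/-- The statement of the two-sided local distance estimate of block C (`LD.ld_local`,
row S17.H.C10), verbatim. -/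
def LdLocal {K F : Type*} [Field K] [Field F] [Algebra K F] (v₀ : Place K F) : Prop :=
  ∃ n₀ : ℕ, ∀ m0 : ℕ, n₀ ≤ m0 → ∀ (k : ℕ), 0 < k → ∀ {ι κ : Type} [Fintype ι] [Fintype κ]
    (τ : ι → F) (ψ : κ → F) (P : κ → MvPolynomial ι K),
    LinearIndependent K τ →
    Submodule.span K (Set.range τ) = riemannRochSpace ((m0 : ℤ) • Finsupp.single v₀ (1 : ℤ)) →
    LinearIndependent K ψ →
    Submodule.span K (Set.range ψ) =
      riemannRochSpace (((k * m0 : ℕ) : ℤ) • Finsupp.single v₀ (1 : ℤ)) →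
    (∀ j, (P j).IsHomogeneous k) → (∀ j, aeval τ (P j) = ψ j) →
    ∃ (C : ℝ) (Γ : Multiset K), 1 ≤ C ∧ ∀ (v : AbsoluteValue K ℝ) (a : κ → K)
      (Z : Fin (k * m0) → Place K F) (x : Fin (k * m0) → ι → K) (y : ι → K), a ≠ 0 →
      divOf K (∑ j, a j • ψ j) + ((k * m0 : ℕ) : ℤ) • Finsupp.single v₀ (1 : ℤ) =
        ∑ i, Finsupp.single (Z i) (1 : ℤ) →
      (∀ i, IsPt τ (Z i) (x i)) →
      (∀ (n : ℕ) (R : MvPolynomial ι K), R.IsHomogeneous n → aeval τ R = 0 → eval y R = 0) →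
      (v (∑ j, a j * eval y (P j)) * (∏ i, ⨆ j, v (x i j)) * (⨆ j, v (y j)) ^ (k * m0 - k) ≤
        locConst C Γ v *
          ((⨆ j, v (a j)) * ∏ i, ⨆ p : ι × ι, v (x i p.1 * y p.2 - x i p.2 * y p.1))) ∧
      ((⨆ j, v (a j)) * ∏ i, ⨆ p : ι × ι, v (x i p.1 * y p.2 - x i p.2 * y p.1) ≤
        locConst C Γ v * (v (∑ j, a j * eval y (P j)) * (∏ i, ⨆ j, v (x i j)) *
          (⨆ j, v (y j)) ^ (k * m0 - k)))

/-- The two-sided statement contains the upper half. -/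
theorem LdLocal.ldUp {K F : Type*} [Field K] [Field F] [Algebra K F] {v₀ : Place K F}
    (h : LdLocal v₀) : LdUp v₀ := by
  obtain ⟨n₀, h⟩ := h
  refine ⟨n₀, fun m0 hm0 k hk ι κ _ _ τ ψ P hτli hτ hψli hψ hP hPψ => ?_⟩
  obtain ⟨C, Γ, hC, hloc⟩ := h m0 hm0 k hk τ ψ P hτli hτ hψli hψ hP hPψ
  exact ⟨C, Γ, hC, fun v a Z x y ha hZ hx hy => (hloc v a Z x y ha hZ hx hy).1⟩

local notation "Qb" => AlgebraicClosure ℚ

variable {F : Type*} [Field F] [Algebra Qb F] [Algebra.EssFiniteType Qb F]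

/-- **D2, global (LD)**, from the upper half of the local estimate. -/
theorem ld_global_of_up (htr : Algebra.trdeg Qb F = 1) (v₀ : Place Qb F) (hup : LdUp v₀)
    {ev : Place Qb F → F → Qb} (hev : IsEval ev) :
    ∃ n₀ : ℕ, ∀ m0 : ℕ, n₀ ≤ m0 → ∀ k : ℕ, 0 < k → ∀ {r n : ℕ} (τ : Fin r → F) (ψ : Fin n → F),
      LinearIndependent Qb τ →
      Submodule.span Qb (Set.range τ) =
        riemannRochSpace ((m0 : ℤ) • Finsupp.single v₀ (1 : ℤ)) →
      LinearIndependent Qb ψ →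
      Submodule.span Qb (Set.range ψ) =
        riemannRochSpace (((k * m0 : ℕ) : ℤ) • Finsupp.single v₀ (1 : ℤ)) →
      ∃ C : ℝ, ∀ c : Fin n → Qb, c ≠ 0 → ∀ Q : Place Qb F, Q ≠ v₀ →
        Q.ord (∑ i, c i • ψ i) = 0 →
        |(∑ᶠ v ∈ {v : Place Qb F | v ≠ v₀},
              ((v.ord (∑ i, c i • ψ i) : ℤ) : ℝ) * plD ev τ v Q)
            - hT c + ((v₀.ord (∑ i, c i • ψ i) : ℤ) : ℝ) * (hT (fun i => ev Q (τ i)) / (m0 : ℝ))|
          ≤ C := by
  classical
  obtain ⟨n₁, hU⟩ := hup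
  obtain ⟨n₂, hD⟩ := ld_down (K := Qb) (F := F) htr v₀
  obtain ⟨n₃, hI⟩ := infDist (K := Qb) (F := F) htr v₀
  obtain ⟨n₄, hFm⟩ := exists_form_of_mem_L (K := Qb) (F := F) htr v₀
  refine ⟨max (max n₁ n₂) (max (max n₃ n₄) 1), fun m0 hm0 k hk r n τ ψ hτli hτ hψli hψ => ?_⟩
  have hm1 : n₁ ≤ m0 := le_trans (le_trans (le_max_left _ _) (le_max_left _ _)) hm0
  have hm2 : n₂ ≤ m0 := le_trans (le_trans (le_max_right _ _) (le_max_left _ _)) hm0
  have hm3 : n₃ ≤ m0 :=
    le_trans (le_trans (le_trans (le_max_left _ _) (le_max_left _ _)) (le_max_right _ _)) hm0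
  have hm4 : n₄ ≤ m0 :=
    le_trans (le_trans (le_trans (le_max_right _ _) (le_max_left _ _)) (le_max_right _ _)) hm0
  have hm0pos : 0 < m0 :=
    lt_of_lt_of_le Nat.zero_lt_one (le_trans (le_trans (le_max_right _ _) (le_max_right _ _)) hm0)
  -- the forms of the basis `ψ`
  have hPex : ∀ j, ∃ P : MvPolynomial (Fin r) Qb, P.IsHomogeneous k ∧ aeval τ P = ψ j :=
    fun j => hFm m0 hm4 τ hτ k (ψ j)
      (by rw [← hψ]; exact Submodule.subset_span (Set.mem_range_self j))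
  choose P hPhom hPψ using hPex
  obtain ⟨C₁, Γ₁, hC₁, hUp⟩ := hU m0 hm1 k hk τ ψ P hτli hτ hψli hψ hPhom hPψ
  obtain ⟨C₂, Γ₂, hC₂, hDown⟩ := hD m0 hm2 k hk τ ψ P hτli hτ hψli hψ hPhom hPψ
  obtain ⟨C₃, Γ₃, hC₃, hInf⟩ := hI m0 hm3 r τ hτ
  -- `1` is a section
  have h1L : (1 : F) ∈ riemannRochSpace ((m0 : ℤ) • Finsupp.single v₀ (1 : ℤ)) := by
    have h0 : (1 : F) ∈ riemannRochSpace (0 : Divisor Qb F) :=
      (mem_L_zero_iff htr).mpr ⟨1, map_one _⟩
    refine L_mono ?_ h0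
    exact smul_nonneg (Int.natCast_nonneg m0) (Finsupp.single_nonneg.mpr zero_le_one)
  have h1span : (1 : F) ∈ Submodule.span Qb (Set.range τ) := by rw [hτ]; exact h1L
  have hτL : ∀ j, τ j ∈ riemannRochSpace ((m0 : ℤ) • Finsupp.single v₀ (1 : ℤ)) :=
    fun j => by rw [← hτ]; exact Submodule.subset_span (Set.mem_range_self j)
  have hτne : ∃ i, τ i ≠ 0 := by
    by_contra hno
    have hall : ∀ i, τ i = 0 := fun i => by
      by_contra hi
      exact hno ⟨i, hi⟩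
    have hbot : Submodule.span Qb (Set.range τ) = ⊥ := by
      rw [Submodule.span_eq_bot]
      rintro _ ⟨i, rfl⟩
      exact hall i
    rw [hbot, Submodule.mem_bot] at h1span
    exact one_ne_zero h1span
  -- a representative of the base place
  obtain ⟨xinf, hxinf⟩ := exists_isPt htr τ hτne v₀
  set c₁ : ℝ := max (Real.log C₁ + (Γ₁.map hQ).sum) (Real.log C₂ + (Γ₂.map hQ).sum) with hc₁
  set c₂ : ℝ := max (Real.log C₃ + (Γ₃.map hQ).sum) (Real.log C₃ + (Γ₃.map hQ).sum) / (m0 : ℝ)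
    with hc₂
  refine ⟨c₁ + ((k * m0 : ℕ) : ℝ) * c₂, fun c hc Q hQ hQs => ?_⟩
  set s : F := ∑ i, c i • ψ i with hs
  have hs0 : s ≠ 0 := by
    intro h0
    apply hc
    funext j
    exact (Fintype.linearIndependent_iff.mp hψli) c h0 j
  have hsL : s ∈ riemannRochSpace (((k * m0 : ℕ) : ℤ) • Finsupp.single v₀ (1 : ℤ)) := by
    rw [← hψ]
    exact Submodule.sum_mem _ fun j _ =>
      Submodule.smul_mem _ _ (Submodule.subset_span (Set.mem_range_self j))
  obtain ⟨Z, hZ⟩ := exists_zeros_of_basis htr v₀ ψ hψli hψ c hc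
  -- the points
  have hmemQ : ∀ j, τ j ∈ Q.toValuationSubring :=
    fun j => mem_valuationSubring_of_mem_L hQ (hτL j)
  set y : Fin r → Qb := fun j => ev Q (τ j) with hy
  have hyPt : IsPt τ Q y := isPt_ev htr hev hQ τ hτL h1span
  have hyval : ∀ j, Q.adicValuation (τ j - algebraMap Qb F (y j)) < 1 :=
    fun j => (Pt.adicValuation_lt_one_iff Q _).mpr (hev Q (τ j) (hmemQ j))
  set x : Fin (k * m0) → Fin r → Qb :=
    fun i => if Z i = v₀ then xinf else fun j => ev (Z i) (τ j) with hx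
  have hxinf_eq : ∀ i, Z i = v₀ → x i = xinf := fun i hi => by
    simp only [hx, if_pos hi]
  have hxfin_eq : ∀ i, ¬ Z i = v₀ → x i = fun j => ev (Z i) (τ j) := fun i hi => by
    simp only [hx, if_neg hi]
  have hxPt : ∀ i, IsPt τ (Z i) (x i) := by
    intro i
    by_cases h : Z i = v₀
    · rw [hxinf_eq i h, h]
      exact hxinf
    · rw [hxfin_eq i h]
      exact isPt_ev htr hev h τ hτL h1span
  have hcone : ∀ (d : ℕ) (R : MvPolynomial (Fin r) Qb), R.IsHomogeneous d → aeval τ R = 0 →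
      eval y R = 0 := fun d R hR h0 => hyPt.eval_eq_zero hR h0
  -- the value of `s` at `Q`
  have hw : ∑ j, c j * eval y (P j) = ev Q s := by
    have e1 : s = aeval τ (∑ j, C (c j) * P j) := by
      rw [hs, map_sum]
      refine Finset.sum_congr rfl fun j _ => ?_
      rw [map_mul, aeval_C, hPψ j, Algebra.smul_def]
    rw [e1, ev_aeval htr hev Q τ hmemQ, map_sum]
    refine Finset.sum_congr rfl fun j _ => ?_
    rw [map_mul, eval_C]
  have hw0 : ∑ j, c j * eval y (P j) ≠ 0 := by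
    rw [hw]
    intro h0
    have hsmem : s ∈ Q.toValuationSubring := mem_valuationSubring_of_mem_L hQ hsL
    rcases (hev.eq_zero_iff hsmem).mp h0 with h | h
    · exact hs0 h
    · rw [hQs] at h
      exact lt_irrefl _ h
  -- the sum over all zeros
  have key1 := ld_sum_of_local LocConstQb.extStatement (M := k * m0) (k := k)
    (Nat.le_mul_of_pos_right k hm0pos) hC₁ hC₂ Γ₁ Γ₂ c x y (∑ j, c j * eval y (P j)) hc
    (fun i => (hxPt i).ne_zero) hyPt.ne_zero hw0
    (fun v => hUp v c Z x y hc hZ hxPt hcone) (fun v => hDown v c Z x y hc hZ hxPt hcone)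
  -- the zeros at the base place
  have key2 : ∀ i, Z i = v₀ →
      |(hT (x i) + hT y - hT (sig (x i) y)) - hT y / (m0 : ℝ)| ≤ c₂ := by
    intro i hi
    rw [hxinf_eq i hi]
    obtain ⟨i₀, hi₀, hτi₀, hpt⟩ := hxinf
    exact ld_inf_of_local LocConstQb.extStatement hm0pos hC₃ hC₃ Γ₃ Γ₃ xinf y
      (IsPt.ne_zero ⟨i₀, hi₀, hτi₀, hpt⟩) hyPt.ne_zero
      (fun v => (hInf v xinf i₀ hi₀ hτi₀ hpt Q y hyval).1)
      (fun v => (hInf v xinf i₀ hi₀ hτi₀ hpt Q y hyval).2)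
  have hc₂0 : 0 ≤ c₂ := by
    rw [hc₂, max_self]
    refine div_nonneg (add_nonneg (Real.log_nonneg hC₃) ?_) (Nat.cast_nonneg _)
    exact Multiset.sum_nonneg fun a ha => by
      obtain ⟨γ, -, rfl⟩ := Multiset.mem_map.mp ha
      exact hQ_nonneg γ
  have hcount : ((Finset.univ.filter fun i => Z i = v₀).card : ℤ) =
      ((k * m0 : ℕ) : ℤ) + v₀.ord s := by
    rw [Zeros.card_filter_eq htr v₀ hZ v₀, if_pos rfl]
    ring
  have key3 := abs_sum_filter_sub_le hm0pos rfl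
    (fun i => hT (x i) + hT y - hT (sig (x i) y)) (fun i => Z i = v₀) (hT c) (hT y) c₁ c₂
    (v₀.ord s) hc₂0 key1 key2 hcount
  -- the zeros off the base place, as a `finsum`
  have hfin : ∑ᶠ v ∈ {v : Place Qb F | v ≠ v₀}, ((v.ord s : ℤ) : ℝ) * plD ev τ v Q =
      ∑ i ∈ Finset.univ.filter (fun i => ¬ Z i = v₀),
        (hT (x i) + hT y - hT (sig (x i) y)) := by
    have hnot : v₀ ∉ (Finset.univ.filter (fun i => ¬ Z i = v₀)).val.map Z := by
      intro h
      obtain ⟨i, hi, hiv⟩ := Multiset.mem_map.mp h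
      exact (Finset.mem_filter.mp (Finset.mem_val.mp hi)).2 hiv
    have hcnt : ∀ v : Place Qb F, v ≠ v₀ →
        Multiset.count v ((Finset.univ.filter (fun i => ¬ Z i = v₀)).val.map Z) =
          (Finset.univ.filter fun i => Z i = v).card := by
      intro v hv
      rw [Multiset.count_map, ← Finset.filter_val, ← Finset.card_def]
      congr 1
      ext i
      simp only [Finset.mem_filter, Finset.mem_univ, true_and]
      constructor
      · rintro ⟨-, h⟩
        exact h.symm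
      · intro h
        exact ⟨fun h' => hv (h ▸ h'), h.symm⟩
    rw [Pairing.finsum_mem_ne_eq_sum_map v₀ _ hnot (fun v => plD ev τ v Q) (fun v hv => ?_)]
    · rw [Multiset.map_map]
      refine Finset.sum_congr rfl fun i hi => ?_
      have hi' : ¬ Z i = v₀ := (Finset.mem_filter.mp hi).2
      rw [hxfin_eq i hi']
      rfl
    · have h1 := Zeros.card_filter_eq htr v₀ hZ v
      rw [if_neg hv, add_zero] at h1
      rw [hcnt v hv, ← h1]
      push_cast
      rfl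
  rw [hfin]
  exact key3

/-- **D2, global (LD)**, from the two-sided local estimate `LD.ld_local` (row S17.H.C10). -/
theorem ld_global_of_local (htr : Algebra.trdeg Qb F = 1) (v₀ : Place Qb F) (hloc : LdLocal v₀)
    {ev : Place Qb F → F → Qb} (hev : IsEval ev) :
    ∃ n₀ : ℕ, ∀ m0 : ℕ, n₀ ≤ m0 → ∀ k : ℕ, 0 < k → ∀ {r n : ℕ} (τ : Fin r → F) (ψ : Fin n → F),
      LinearIndependent Qb τ →
      Submodule.span Qb (Set.range τ) =
        riemannRochSpace ((m0 : ℤ) • Finsupp.single v₀ (1 : ℤ)) →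
      LinearIndependent Qb ψ →
      Submodule.span Qb (Set.range ψ) =
        riemannRochSpace (((k * m0 : ℕ) : ℤ) • Finsupp.single v₀ (1 : ℤ)) →
      ∃ C : ℝ, ∀ c : Fin n → Qb, c ≠ 0 → ∀ Q : Place Qb F, Q ≠ v₀ →
        Q.ord (∑ i, c i • ψ i) = 0 →
        |(∑ᶠ v ∈ {v : Place Qb F | v ≠ v₀},
              ((v.ord (∑ i, c i • ψ i) : ℤ) : ℝ) * plD ev τ v Q)
            - hT c + ((v₀.ord (∑ i, c i • ψ i) : ℤ) : ℝ) * (hT (fun i => ev Q (τ i)) / (m0 : ℝ))|
          ≤ C :=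
  ld_global_of_up htr v₀ hloc.ldUp hev

/-- **D2, global (LD)**, from the solution statement of row S17.H.C9b
(`LD.UpCurve.ld_up_of_sol`). -/
theorem ld_global_of_sol (htr : Algebra.trdeg Qb F = 1) (v₀ : Place Qb F) {n₁ : ℕ}
    (hsol : UpCurve.SolStatement Qb F v₀ n₁) {ev : Place Qb F → F → Qb} (hev : IsEval ev) :
    ∃ n₀ : ℕ, ∀ m0 : ℕ, n₀ ≤ m0 → ∀ k : ℕ, 0 < k → ∀ {r n : ℕ} (τ : Fin r → F) (ψ : Fin n → F),
      LinearIndependent Qb τ →
      Submodule.span Qb (Set.range τ) =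
        riemannRochSpace ((m0 : ℤ) • Finsupp.single v₀ (1 : ℤ)) →
      LinearIndependent Qb ψ →
      Submodule.span Qb (Set.range ψ) =
        riemannRochSpace (((k * m0 : ℕ) : ℤ) • Finsupp.single v₀ (1 : ℤ)) →
      ∃ C : ℝ, ∀ c : Fin n → Qb, c ≠ 0 → ∀ Q : Place Qb F, Q ≠ v₀ →
        Q.ord (∑ i, c i • ψ i) = 0 →
        |(∑ᶠ v ∈ {v : Place Qb F | v ≠ v₀},
              ((v.ord (∑ i, c i • ψ i) : ℤ) : ℝ) * plD ev τ v Q)
            - hT c + ((v₀.ord (∑ i, c i • ψ i) : ℤ) : ℝ) * (hT (fun i => ev Q (τ i)) / (m0 : ℝ))|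
          ≤ C :=
  ld_global_of_up htr v₀ (UpCurve.ld_up_of_sol htr v₀ hsol) hev

end Fermat.Agent.S17.H.Glob
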