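import Fermat.Agent.S17.H.A.LocConstQbProd

/-!
# Program MW (S17), strand H, block D, leaf D2 (global (LD)) - the core, without the curve

The local distance estimate of block C (`C-EXIT`, two-sided, at every absolute value `v` of the
algebraic closure of ℚ) reads, for a section `s = ∑ a j ψ j` with zeros `Z i` (`M` of them,
with multiplicity), cone points `x i` of the zeros, a cone point `y` of a further place `Q` and
the value `w = s(Q)`:

`v w * (∏ i, ⨆ j, v (x i j)) * (⨆ j, v (y j)) ^ (M - k) ≍ (⨆ j, v (a j)) * ∏ i, ⨆ p, v (σ_p (x i, y))`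

up to a constant `Cert.locConst C Γ v`.  Here the local inequalities are HYPOTHESES and the
output is their sum over the places (product form of block A6, `LocConstQbProd`):

* `sig x y` : the secant (Plücker) coordinates `x_p y_q - x_q y_p` of two tuples.
* `ld_sum_of_local` : `|∑ i, (hT (x i) + hT y - hT (sig (x i) y)) - hT a - k * hT y| ≤ const`.
* `ld_inf_of_local` : from the two-sided estimate for the base place (`C-OO`)
  `|hT x + hT y - hT (sig x y) - hT y / m0| ≤ const / m0`.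
* `abs_sum_filter_sub_le` : the bookkeeping that removes the zeros at the base place.

As in `LocConstQbCore.lean` the extension statement `LocConstQb.ExtStatement` is a hypothesis.
-/

set_option autoImplicit false

namespace Fermat.Agent.S17.H.Glob

open Fermat.Agent.S17.H

/-- The secant (Plücker) coordinates of two tuples. -/
noncomputable def sig {ι : Type*} (x y : ι → AlgebraicClosure ℚ) : ι × ι → AlgebraicClosure ℚ :=
  fun p => x p.1 * y p.2 - x p.2 * y p.1

theorem sig_apply {ι : Type*} (x y : ι → AlgebraicClosure ℚ) (p : ι × ι) :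
    sig x y p = x p.1 * y p.2 - x p.2 * y p.1 := rfl

/-- The secant coordinates are antisymmetric. -/
theorem sig_swap {ι : Type*} (x y : ι → AlgebraicClosure ℚ) :
    sig y x = fun p => -sig x y p := by
  funext p
  simp only [sig_apply]
  ring

/-- The height of the secant coordinates is symmetric. -/
theorem hT_sig_comm {ι : Type*} [Finite ι] (x y : ι → AlgebraicClosure ℚ) :
    hT (sig y x) = hT (sig x y) := by
  have e : sig y x = (-1 : AlgebraicClosure ℚ) • sig x y := by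
    rw [sig_swap]
    funext p
    simp
  rw [e, hT_smul _ (by norm_num : (-1 : AlgebraicClosure ℚ) ≠ 0)]

namespace LDCore

/-- The sup-norm of a nonzero tuple is positive. -/
theorem iSup_abv_pos {K : Type*} [Field K] (v : AbsoluteValue K ℝ) {ι : Type*} [Finite ι]
    {z : ι → K} (hz : z ≠ 0) : 0 < ⨆ j, v (z j) := by
  obtain ⟨j, hj⟩ := Function.ne_iff.mp hz
  have h1 : 0 < v (z j) := v.pos hj
  exact lt_of_lt_of_le h1 (le_ciSup (Set.finite_range fun j => v (z j)).bddAbove j)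

/-- The sup-norm of the zero tuple is zero. -/
theorem iSup_abv_zero {K : Type*} [Field K] (v : AbsoluteValue K ℝ) {ι : Type*} :
    (⨆ j : ι, v ((0 : ι → K) j)) = 0 := by
  simp

/-- Index types of a family of tuples: one tuple of shape `κ`, then tuples of shape `ι`. -/
def ConsIdx (κ ι β : Type) : Unit ⊕ β → Type := Sum.elim (fun _ => κ) (fun _ => ι)

instance instFiniteConsIdx {κ ι β : Type} [Finite κ] [Finite ι] (s : Unit ⊕ β) :
    Finite (ConsIdx κ ι β s) := by
  rcases s with u | b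
  · exact (inferInstance : Finite κ)
  · exact (inferInstance : Finite ι)

/-- A family of tuples: one tuple of shape `κ`, then a family of tuples of shape `ι`. -/
def consFam {κ ι β : Type} (a : κ → AlgebraicClosure ℚ) (g : β → ι → AlgebraicClosure ℚ) :
    (s : Unit ⊕ β) → ConsIdx κ ι β s → AlgebraicClosure ℚ
  | Sum.inl _ => a
  | Sum.inr b => g b

theorem consFam_ne_zero {κ ι β : Type} {a : κ → AlgebraicClosure ℚ}
    {g : β → ι → AlgebraicClosure ℚ} (ha : a ≠ 0) (hg : ∀ b, g b ≠ 0) (s : Unit ⊕ β) :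
    consFam a g s ≠ 0 := by
  rcases s with u | b
  · exact ha
  · exact hg b

theorem prod_iSup_consFam {κ ι β : Type} [Fintype β] (v : AbsoluteValue (AlgebraicClosure ℚ) ℝ)
    (a : κ → AlgebraicClosure ℚ) (g : β → ι → AlgebraicClosure ℚ) :
    ∏ s, ⨆ i, v (consFam a g s i) = (⨆ j, v (a j)) * ∏ b, ⨆ i, v (g b i) := by
  rw [Fintype.prod_sum_type, Fintype.prod_unique]
  rfl

theorem sum_hT_consFam {κ ι β : Type} [Fintype β] [Finite κ] [Finite ι]
    (a : κ → AlgebraicClosure ℚ) (g : β → ι → AlgebraicClosure ℚ) :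
    ∑ s, hT (consFam a g s) = hT a + ∑ b, hT (g b) := by
  rw [Fintype.sum_sum_type, Fintype.sum_unique]
  rfl

end LDCore

open LDCore

variable {ι κ : Type} [Finite ι] [Finite κ]

/-- **Global (LD), core**: the two halves of the local distance estimate of block C, at every
absolute value of the algebraic closure of ℚ, sum to the global distance formula. -/
theorem ld_sum_of_local (hext : LocConstQb.ExtStatement) {M k : ℕ} (hk : k ≤ M) {C C' : ℝ}
    (hC : 1 ≤ C) (hC' : 1 ≤ C') (Γ Γ' : Multiset (AlgebraicClosure ℚ))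
    (a : κ → AlgebraicClosure ℚ) (x : Fin M → ι → AlgebraicClosure ℚ)
    (y : ι → AlgebraicClosure ℚ) (w : AlgebraicClosure ℚ) (ha : a ≠ 0) (hx : ∀ i, x i ≠ 0)
    (hy : y ≠ 0) (hw : w ≠ 0)
    (hup : ∀ v : AbsoluteValue (AlgebraicClosure ℚ) ℝ,
      v w * (∏ i, ⨆ j, v (x i j)) * (⨆ j, v (y j)) ^ (M - k) ≤
        Cert.locConst C Γ v *
          ((⨆ j, v (a j)) * ∏ i, ⨆ p : ι × ι, v (x i p.1 * y p.2 - x i p.2 * y p.1)))
    (hdown : ∀ v : AbsoluteValue (AlgebraicClosure ℚ) ℝ,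
      (⨆ j, v (a j)) * ∏ i, ⨆ p : ι × ι, v (x i p.1 * y p.2 - x i p.2 * y p.1) ≤
        Cert.locConst C' Γ' v *
          (v w * (∏ i, ⨆ j, v (x i j)) * (⨆ j, v (y j)) ^ (M - k))) :
    |∑ i, (hT (x i) + hT y - hT (sig (x i) y)) - hT a - (k : ℝ) * hT y| ≤
      max (Real.log C + (Γ.map hQ).sum) (Real.log C' + (Γ'.map hQ).sum) := by
  classical
  -- the secant tuples are nonzero: the upper half at the trivial absolute value
  have hsig : ∀ i, sig (x i) y ≠ 0 := by
    intro i₀ h0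
    let v₁ : AbsoluteValue (AlgebraicClosure ℚ) ℝ := AbsoluteValue.trivial
    have h1 := hup v₁
    have hpos : 0 < v₁ w * (∏ i, ⨆ j, v₁ (x i j)) * (⨆ j, v₁ (y j)) ^ (M - k) :=
      mul_pos (mul_pos (v₁.pos hw) (Finset.prod_pos fun i _ => iSup_abv_pos v₁ (hx i)))
        (pow_pos (iSup_abv_pos v₁ hy) _)
    have hz : (∏ i, ⨆ p : ι × ι, v₁ (x i p.1 * y p.2 - x i p.2 * y p.1)) = 0 := by
      refine Finset.prod_eq_zero (Finset.mem_univ i₀) ?_
      have e : (fun p : ι × ι => v₁ (x i₀ p.1 * y p.2 - x i₀ p.2 * y p.1)) = fun _ => (0 : ℝ) := by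
        funext p
        have := congrFun h0 p
        rw [sig_apply] at this
        rw [this]
        simp
      rw [e]
      simp
    rw [hz, mul_zero, mul_zero] at h1
    exact absurd h1 (not_le.mpr hpos)
  -- the two families of tuples
  set gL : (s : Unit ⊕ (Fin M ⊕ Fin (M - k))) → ConsIdx Unit ι (Fin M ⊕ Fin (M - k)) s →
      AlgebraicClosure ℚ :=
    consFam (fun _ : Unit => w) (Sum.elim x (fun _ : Fin (M - k) => y)) with hgL
  set fR : (s : Unit ⊕ Fin M) → ConsIdx κ (ι × ι) (Fin M) s → AlgebraicClosure ℚ :=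
    consFam a (fun i => sig (x i) y) with hfR
  have hw' : (fun _ : Unit => w) ≠ 0 := fun h => hw (congrFun h ())
  have hgL0 : ∀ s, gL s ≠ 0 := consFam_ne_zero hw' (by
    rintro (i | l)
    · exact hx i
    · exact hy)
  have hfR0 : ∀ s, fR s ≠ 0 := consFam_ne_zero ha hsig
  have eL : ∀ v : AbsoluteValue (AlgebraicClosure ℚ) ℝ, ∏ s, ⨆ i, v (gL s i) =
      v w * (∏ i, ⨆ j, v (x i j)) * (⨆ j, v (y j)) ^ (M - k) := by
    intro v
    rw [hgL, prod_iSup_consFam, Fintype.prod_sum_type, ciSup_const]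
    simp only [Sum.elim_inl, Sum.elim_inr, Finset.prod_const, Finset.card_univ, Fintype.card_fin]
    ring
  have eR : ∀ v : AbsoluteValue (AlgebraicClosure ℚ) ℝ, ∏ s, ⨆ i, v (fR s i) =
      (⨆ j, v (a j)) * ∏ i, ⨆ p : ι × ι, v (x i p.1 * y p.2 - x i p.2 * y p.1) := by
    intro v
    rw [hfR, prod_iSup_consFam]
    rfl
  have key := LocConstQbProd.abs_sum_hT_sub_le_of_locConst_prod_of_ext hext hC hC' Γ Γ' fR gL
    hfR0 hgL0 (fun v => by rw [eL, eR]; exact hup v) (fun v => by rw [eL, eR]; exact hdown v)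
  have sL : ∑ s, hT (gL s) = ∑ i, hT (x i) + ((M : ℝ) - k) * hT y := by
    rw [hgL, sum_hT_consFam, Fintype.sum_sum_type, LocConstQbProd.hT_of_subsingleton, zero_add]
    simp only [Sum.elim_inl, Sum.elim_inr, Finset.sum_const, Finset.card_univ, Fintype.card_fin,
      nsmul_eq_mul, Nat.cast_sub hk]
  have sR : ∑ s, hT (fR s) = hT a + ∑ i, hT (sig (x i) y) := by
    rw [hfR, sum_hT_consFam]
  rw [sL, sR] at key
  have e : ∑ i, (hT (x i) + hT y - hT (sig (x i) y)) - hT a - (k : ℝ) * hT y =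
      ∑ i, hT (x i) + ((M : ℝ) - k) * hT y - (hT a + ∑ i, hT (sig (x i) y)) := by
    rw [Finset.sum_sub_distrib, Finset.sum_add_distrib, Finset.sum_const, Finset.card_univ,
      Fintype.card_fin, nsmul_eq_mul]
    ring
  rw [e]
  exact key

/-- **The base place, core**: the two halves of the estimate `C-OO` for the secant coordinates
of a representative `x` of the base place and a finite cone point `y`, at every absolute value,
give `D(∞, Q) = H(Q) + O(1)`. -/
theorem ld_inf_of_local (hext : LocConstQb.ExtStatement) {m0 : ℕ} (hm0 : 0 < m0) {C C' : ℝ}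
    (hC : 1 ≤ C) (hC' : 1 ≤ C') (Γ Γ' : Multiset (AlgebraicClosure ℚ))
    (x y : ι → AlgebraicClosure ℚ) (hx : x ≠ 0) (hy : y ≠ 0)
    (hup : ∀ v : AbsoluteValue (AlgebraicClosure ℚ) ℝ,
      (⨆ p : ι × ι, v (x p.1 * y p.2 - x p.2 * y p.1)) ^ m0 ≤
        Cert.locConst C Γ v * (⨆ j, v (x j)) ^ m0 * (⨆ j, v (y j)) ^ (m0 - 1))
    (hdown : ∀ v : AbsoluteValue (AlgebraicClosure ℚ) ℝ,
      (⨆ j, v (x j)) ^ m0 * (⨆ j, v (y j)) ^ (m0 - 1) ≤
        Cert.locConst C' Γ' v * (⨆ p : ι × ι, v (x p.1 * y p.2 - x p.2 * y p.1)) ^ m0) :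
    |hT x + hT y - hT (sig x y) - hT y / (m0 : ℝ)| ≤
      max (Real.log C + (Γ.map hQ).sum) (Real.log C' + (Γ'.map hQ).sum) / (m0 : ℝ) := by
  classical
  have hsig : sig x y ≠ 0 := by
    intro h0
    let v₁ : AbsoluteValue (AlgebraicClosure ℚ) ℝ := AbsoluteValue.trivial
    have h1 := hdown v₁
    have hpos : 0 < (⨆ j, v₁ (x j)) ^ m0 * (⨆ j, v₁ (y j)) ^ (m0 - 1) :=
      mul_pos (pow_pos (iSup_abv_pos v₁ hx) _) (pow_pos (iSup_abv_pos v₁ hy) _)
    have hz : (⨆ p : ι × ι, v₁ (x p.1 * y p.2 - x p.2 * y p.1)) = 0 := by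
      have e : (fun p : ι × ι => v₁ (x p.1 * y p.2 - x p.2 * y p.1)) = fun _ => (0 : ℝ) := by
        funext p
        have := congrFun h0 p
        rw [sig_apply] at this
        rw [this]
        simp
      rw [e]
      simp
    rw [hz, zero_pow hm0.ne', mul_zero] at h1
    exact absurd h1 (not_le.mpr hpos)
  set f : Fin m0 ⊕ Fin (m0 - 1) → ι → AlgebraicClosure ℚ :=
    Sum.elim (fun _ => x) (fun _ => y) with hf
  set g : Fin m0 → ι × ι → AlgebraicClosure ℚ := fun _ => sig x y with hg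
  have hf0 : ∀ s, f s ≠ 0 := by
    rintro (i | l)
    · exact hx
    · exact hy
  have hg0 : ∀ b, g b ≠ 0 := fun _ => hsig
  have eF : ∀ v : AbsoluteValue (AlgebraicClosure ℚ) ℝ, ∏ s, ⨆ i, v (f s i) =
      (⨆ j, v (x j)) ^ m0 * (⨆ j, v (y j)) ^ (m0 - 1) := by
    intro v
    rw [hf, Fintype.prod_sum_type]
    simp only [Sum.elim_inl, Sum.elim_inr, Finset.prod_const, Finset.card_univ, Fintype.card_fin]
  have eG : ∀ v : AbsoluteValue (AlgebraicClosure ℚ) ℝ, ∏ b, ⨆ i, v (g b i) =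
      (⨆ p : ι × ι, v (x p.1 * y p.2 - x p.2 * y p.1)) ^ m0 := by
    intro v
    rw [hg]
    simp only [Finset.prod_const, Finset.card_univ, Fintype.card_fin]
    rfl
  have key := LocConstQbProd.abs_sum_hT_sub_le_of_locConst_prod_of_ext hext hC hC' Γ Γ' f g
    hf0 hg0 (fun v => by rw [eF, eG, ← mul_assoc]; exact hup v)
    (fun v => by rw [eF, eG]; exact hdown v)
  have sF : ∑ s, hT (f s) = (m0 : ℝ) * hT x + ((m0 : ℝ) - 1) * hT y := by
    rw [hf, Fintype.sum_sum_type]
    simp only [Sum.elim_inl, Sum.elim_inr, Finset.sum_const, Finset.card_univ, Fintype.card_fin,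
      nsmul_eq_mul, Nat.cast_sub (Nat.succ_le_of_lt hm0), Nat.cast_one]
  have sG : ∑ b, hT (g b) = (m0 : ℝ) * hT (sig x y) := by
    rw [hg]
    simp only [Finset.sum_const, Finset.card_univ, Fintype.card_fin, nsmul_eq_mul]
  rw [sF, sG] at key
  have hm : (0 : ℝ) < (m0 : ℝ) := Nat.cast_pos.mpr hm0
  have e : hT x + hT y - hT (sig x y) - hT y / (m0 : ℝ) =
      -(((m0 : ℝ) * hT (sig x y) - ((m0 : ℝ) * hT x + ((m0 : ℝ) - 1) * hT y)) / (m0 : ℝ)) := by
    field_simp
    ring
  rw [e, abs_neg, abs_div, abs_of_pos hm]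
  exact div_le_div_of_nonneg_right key hm.le

/-- Bookkeeping: from the sum over ALL zeros to the sum over the zeros off the base place. -/
theorem abs_sum_filter_sub_le {M k m0 : ℕ} (hm0 : 0 < m0) (hM : M = k * m0) (D : Fin M → ℝ)
    (p : Fin M → Prop) [DecidablePred p] (A hy c₁ c₂ : ℝ) (o : ℤ) (hc₂ : 0 ≤ c₂)
    (h1 : |∑ i, D i - A - (k : ℝ) * hy| ≤ c₁)
    (h2 : ∀ i, p i → |D i - hy / (m0 : ℝ)| ≤ c₂)
    (hcount : ((Finset.univ.filter p).card : ℤ) = (M : ℤ) + o) :
    |∑ i ∈ Finset.univ.filter (fun i => ¬ p i), D i - A + (o : ℝ) * (hy / (m0 : ℝ))| ≤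
      c₁ + (M : ℝ) * c₂ := by
  have hm : (0 : ℝ) < (m0 : ℝ) := Nat.cast_pos.mpr hm0
  have hsplit : ∑ i, D i = ∑ i ∈ Finset.univ.filter p, D i +
      ∑ i ∈ Finset.univ.filter (fun i => ¬ p i), D i :=
    (Finset.sum_filter_add_sum_filter_not Finset.univ p D).symm
  have hp : |∑ i ∈ Finset.univ.filter p, (D i - hy / (m0 : ℝ))| ≤
      ((Finset.univ.filter p).card : ℝ) * c₂ := by
    refine (Finset.abs_sum_le_sum_abs _ _).trans ?_
    refine (Finset.sum_le_sum fun i hi => h2 i (Finset.mem_filter.mp hi).2).trans ?_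
    rw [Finset.sum_const, nsmul_eq_mul]
  have hcard : ((Finset.univ.filter p).card : ℝ) * c₂ ≤ (M : ℝ) * c₂ := by
    refine mul_le_mul_of_nonneg_right ?_ hc₂
    have := Finset.card_filter_le (Finset.univ : Finset (Fin M)) p
    rw [Finset.card_univ, Fintype.card_fin] at this
    exact_mod_cast this
  have hcardR : ((Finset.univ.filter p).card : ℝ) = (M : ℝ) + (o : ℝ) := by
    exact_mod_cast hcount
  have hMR : (M : ℝ) = (k : ℝ) * (m0 : ℝ) := by
    rw [hM]
    push_cast
    ring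
  have hsum_p : ∑ i ∈ Finset.univ.filter p, (D i - hy / (m0 : ℝ)) =
      ∑ i ∈ Finset.univ.filter p, D i -
        ((Finset.univ.filter p).card : ℝ) * (hy / (m0 : ℝ)) := by
    rw [Finset.sum_sub_distrib, Finset.sum_const, nsmul_eq_mul]
  have e : ∑ i ∈ Finset.univ.filter (fun i => ¬ p i), D i - A + (o : ℝ) * (hy / (m0 : ℝ)) =
      (∑ i, D i - A - (k : ℝ) * hy) - ∑ i ∈ Finset.univ.filter p, (D i - hy / (m0 : ℝ)) := by
    rw [hsum_p, hsplit, hcardR, hMR]
    field_simp
    ring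
  rw [e]
  calc |(∑ i, D i - A - (k : ℝ) * hy) - ∑ i ∈ Finset.univ.filter p, (D i - hy / (m0 : ℝ))|
      ≤ |∑ i, D i - A - (k : ℝ) * hy| + |∑ i ∈ Finset.univ.filter p, (D i - hy / (m0 : ℝ))| :=
        abs_sub _ _
    _ ≤ c₁ + (M : ℝ) * c₂ := add_le_add h1 (hp.trans hcard)

end Fermat.Agent.S17.H.Glob
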