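import Mathlib
import Fermat.Agent.S17.H.A.ProdForm

/-!
# Program MW (S17), strand H, block D, leaf D2 (abstract half): summing the local distance formula

No curve here.  `Qb = AlgebraicClosure ℚ`, `hT` the absolute height of a tuple.

Data: vectors `x i` (`i : Fin (k * m0)`, the zeros of a section, with multiplicity), a vector `y`
(the point `Q`), a coefficient vector `a`, and the value `w ≠ 0` of the section at `Q`.  The
hypotheses are the two halves of the local distance formula (exit of block C, `ld_local`) at every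
absolute value `v` of `Qb`, with the local constants `Cert.locConst C Γ v`:

`v w * (∏ i, sup v (x i)) * (sup v y) ^ E ≍ (sup v a) * ∏ i, sup v (sig (x i) y)`,

where `sig x y = (x p.1 * y p.2 - x p.2 * y p.1)_p` are the secant coordinates.

* `abs_sum_sub_le`  : the local-global principle in product form (`ProdForm.HasHT`) gives
  `|∑ i, hT (x i) + E * hT y - hT a - ∑ i, hT (sig (x i) y)| ≤ log C + ∑ γ ∈ Γ, hQ γ`;
* `abs_inf_sub_le`  : the same for the two halves of the formula at the point at infinity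
  (exit `infDist`): `|m0 * hT (sig x y) - m0 * hT x - (m0 - 1) * hT y| ≤ log C + ∑ hQ γ`;
* `abs_total_le`    : the assembly: the zeros `i ∈ J` sit at infinity (`x i = xinf`), the others
  contribute `hT (x i) + hT y - hT (sig (x i) y)`, and
  `|∑ i ∉ J, (hT (x i) + hT y - hT (sig (x i) y)) - hT a + (#J - k * m0) * (hT y / m0)| ≤ B + k * B'`;
* `hT_sumElim_zero` : padding a tuple with zeros does not change its height.
-/

set_option autoImplicit false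

namespace Fermat.Agent.S17.H.Glob.LDSum

open Fermat.Agent.S17.H.ProdForm Fermat.Agent.S17.H.Cert

local notation "Qb" => AlgebraicClosure ℚ

/-- Padding a tuple with zeros does not change its absolute height. -/
theorem hT_sumElim_zero {ι κ : Type*} [Finite ι] [Finite κ] (c : ι → Qb) :
    hT (Sum.elim c (0 : κ → Qb)) = hT c := by
  obtain ⟨A, hA, c', hc⟩ := exists_lift_Qb c
  have h1 : c = fun i => (c' i : Qb) := funext fun i => (hc i).symm
  have h2 : Sum.elim c (0 : κ → Qb) = fun j => ((Sum.elim c' (0 : κ → A) j : A) : Qb) := by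
    funext j
    cases j with
    | inl i => simp [h1]
    | inr j => simp
  rw [h2, hT_coe, Height.logHeight_sumElim_zero_eq, ← hT_coe, ← h1]

/-- There is an absolute value on `Qb`. -/
noncomputable def trivAbv : AbsoluteValue Qb ℝ :=
  open Classical in AbsoluteValue.trivial

/-- **Local-global, the finite zeros.** -/
theorem abs_sum_sub_le {ι κ : Type*} [Finite ι] [Finite κ] {N : ℕ} (E : ℕ)
    (x : Fin N → ι → Qb) (y : ι → Qb) (a : κ → Qb) (w : Qb)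
    (hx : ∀ i, x i ≠ 0) (hy : y ≠ 0) (ha : a ≠ 0) (hw : w ≠ 0)
    {C : ℝ} (hC : 1 ≤ C) (Γ : Multiset Qb)
    (hup : ∀ v : AbsoluteValue Qb ℝ,
      v w * (∏ i, ⨆ j, v (x i j)) * (⨆ j, v (y j)) ^ E
        ≤ locConst C Γ v *
          ((⨆ j, v (a j)) * ∏ i, ⨆ p : ι × ι, v (x i p.1 * y p.2 - x i p.2 * y p.1)))
    (hdown : ∀ v : AbsoluteValue Qb ℝ,
      (⨆ j, v (a j)) * ∏ i, ⨆ p : ι × ι, v (x i p.1 * y p.2 - x i p.2 * y p.1)
        ≤ locConst C Γ v * (v w * (∏ i, ⨆ j, v (x i j)) * (⨆ j, v (y j)) ^ E)) :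
    (∀ i, (fun p : ι × ι => x i p.1 * y p.2 - x i p.2 * y p.1) ≠ 0) ∧
      |(0 + ∑ i, hT (x i) + (E : ℝ) * hT y)
          - (hT a + ∑ i, hT (fun p : ι × ι => x i p.1 * y p.2 - x i p.2 * y p.1))|
        ≤ Real.log C + (Γ.map hQ).sum := by
  have hL : HasHT (fun v => v w * (∏ i, ⨆ j, v (x i j)) * (⨆ j, v (y j)) ^ E)
      (0 + ∑ i, hT (x i) + (E : ℝ) * hT y) :=
    ((hasHT_scalar hw).mul
      (HasHT.prod Finset.univ (L := fun i v => ⨆ j, v (x i j)) (h := fun i => hT (x i))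
        fun i _ => hasHT_tuple (hx i))).mul ((hasHT_tuple hy).pow E)
  have hσ : ∀ i, (fun p : ι × ι => x i p.1 * y p.2 - x i p.2 * y p.1) ≠ 0 := by
    intro i0 h0
    have hpos := hL.pos trivAbv
    have hle := hup trivAbv
    have hz : ∀ p : ι × ι, x i0 p.1 * y p.2 - x i0 p.2 * y p.1 = 0 := fun p => congrFun h0 p
    have hzero : (∏ i, ⨆ p : ι × ι, trivAbv (x i p.1 * y p.2 - x i p.2 * y p.1)) = 0 := by
      refine Finset.prod_eq_zero (Finset.mem_univ i0) ?_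
      simp only [hz, map_zero]
      exact Real.iSup_const_zero
    rw [hzero, mul_zero, mul_zero] at hle
    exact absurd hpos (not_lt.mpr hle)
  refine ⟨hσ, ?_⟩
  have hL' : HasHT
      (fun v => (⨆ j, v (a j)) * ∏ i, ⨆ p : ι × ι, v (x i p.1 * y p.2 - x i p.2 * y p.1))
      (hT a + ∑ i, hT (fun p : ι × ι => x i p.1 * y p.2 - x i p.2 * y p.1)) :=
    (hasHT_tuple ha).mul
      (HasHT.prod Finset.univ
        (L := fun i v => ⨆ p : ι × ι, v (x i p.1 * y p.2 - x i p.2 * y p.1))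
        (h := fun i => hT (fun p : ι × ι => x i p.1 * y p.2 - x i p.2 * y p.1))
        fun i _ => hasHT_tuple (hσ i))
  exact hL.abs_sub_le hL' hC Γ hup hdown

/-- **Local-global, the point at infinity.** -/
theorem abs_inf_sub_le {ι : Type*} [Finite ι] {m0 : ℕ} (hm : m0 ≠ 0) (x y : ι → Qb)
    (hx : x ≠ 0) (hy : y ≠ 0) {C : ℝ} (hC : 1 ≤ C) (Γ : Multiset Qb)
    (hup : ∀ v : AbsoluteValue Qb ℝ,
      (⨆ p : ι × ι, v (x p.1 * y p.2 - x p.2 * y p.1)) ^ m0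
        ≤ locConst C Γ v * (⨆ j, v (x j)) ^ m0 * (⨆ j, v (y j)) ^ (m0 - 1))
    (hdown : ∀ v : AbsoluteValue Qb ℝ,
      (⨆ j, v (x j)) ^ m0 * (⨆ j, v (y j)) ^ (m0 - 1)
        ≤ locConst C Γ v * (⨆ p : ι × ι, v (x p.1 * y p.2 - x p.2 * y p.1)) ^ m0) :
    (fun p : ι × ι => x p.1 * y p.2 - x p.2 * y p.1) ≠ 0 ∧
      |(m0 : ℝ) * hT (fun p : ι × ι => x p.1 * y p.2 - x p.2 * y p.1)
          - ((m0 : ℝ) * hT x + ((m0 - 1 : ℕ) : ℝ) * hT y)|
        ≤ Real.log C + (Γ.map hQ).sum := by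
  have hL' : HasHT (fun v => (⨆ j, v (x j)) ^ m0 * (⨆ j, v (y j)) ^ (m0 - 1))
      ((m0 : ℝ) * hT x + ((m0 - 1 : ℕ) : ℝ) * hT y) :=
    ((hasHT_tuple hx).pow m0).mul ((hasHT_tuple hy).pow (m0 - 1))
  have hσ : (fun p : ι × ι => x p.1 * y p.2 - x p.2 * y p.1) ≠ 0 := by
    intro h0
    have hpos := hL'.pos trivAbv
    have hle := hdown trivAbv
    have hz : ∀ p : ι × ι, x p.1 * y p.2 - x p.2 * y p.1 = 0 := fun p => congrFun h0 p
    have hzero : (⨆ p : ι × ι, trivAbv (x p.1 * y p.2 - x p.2 * y p.1)) ^ m0 = 0 := by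
      simp only [hz, map_zero]
      rw [Real.iSup_const_zero]
      exact zero_pow hm
    rw [hzero, mul_zero] at hle
    exact absurd hpos (not_lt.mpr hle)
  refine ⟨hσ, ?_⟩
  have hL : HasHT (fun v => (⨆ p : ι × ι, v (x p.1 * y p.2 - x p.2 * y p.1)) ^ m0)
      ((m0 : ℝ) * hT (fun p : ι × ι => x p.1 * y p.2 - x p.2 * y p.1)) :=
    (hasHT_tuple hσ).pow m0
  exact hL.abs_sub_le hL' hC Γ (fun v => by rw [← mul_assoc]; exact hup v) hdown

/-- **Assembly.**  The zeros `i ∈ J` sit at infinity; the other zeros contribute their pair terms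
`hT (x i) + hT y - hT (sig (x i) y)`. -/
theorem abs_total_le {ι κ : Type*} [Finite ι] [Finite κ] {k m0 : ℕ} (hm : m0 ≠ 0)
    (x : Fin (k * m0) → ι → Qb) (y : ι → Qb) (a : κ → Qb) (w : Qb) (xinf : ι → Qb)
    (J : Finset (Fin (k * m0))) (hJ : ∀ i ∈ J, x i = xinf)
    (hx : ∀ i, x i ≠ 0) (hy : y ≠ 0) (ha : a ≠ 0) (hw : w ≠ 0) (hxinf : xinf ≠ 0)
    {C : ℝ} (hC : 1 ≤ C) (Γ : Multiset Qb)
    (hup : ∀ v : AbsoluteValue Qb ℝ,
      v w * (∏ i, ⨆ j, v (x i j)) * (⨆ j, v (y j)) ^ (k * m0 - k)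
        ≤ locConst C Γ v *
          ((⨆ j, v (a j)) * ∏ i, ⨆ p : ι × ι, v (x i p.1 * y p.2 - x i p.2 * y p.1)))
    (hdown : ∀ v : AbsoluteValue Qb ℝ,
      (⨆ j, v (a j)) * ∏ i, ⨆ p : ι × ι, v (x i p.1 * y p.2 - x i p.2 * y p.1)
        ≤ locConst C Γ v * (v w * (∏ i, ⨆ j, v (x i j)) * (⨆ j, v (y j)) ^ (k * m0 - k)))
    {C' : ℝ} (hC' : 1 ≤ C') (Γ' : Multiset Qb)
    (hup' : ∀ v : AbsoluteValue Qb ℝ,
      (⨆ p : ι × ι, v (xinf p.1 * y p.2 - xinf p.2 * y p.1)) ^ m0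
        ≤ locConst C' Γ' v * (⨆ j, v (xinf j)) ^ m0 * (⨆ j, v (y j)) ^ (m0 - 1))
    (hdown' : ∀ v : AbsoluteValue Qb ℝ,
      (⨆ j, v (xinf j)) ^ m0 * (⨆ j, v (y j)) ^ (m0 - 1)
        ≤ locConst C' Γ' v * (⨆ p : ι × ι, v (xinf p.1 * y p.2 - xinf p.2 * y p.1)) ^ m0) :
    |(∑ i ∈ Jᶜ, (hT (x i) + hT y - hT (fun p : ι × ι => x i p.1 * y p.2 - x i p.2 * y p.1)))
        - hT a + ((J.card : ℝ) - ((k * m0 : ℕ) : ℝ)) * (hT y / (m0 : ℝ))|
      ≤ (Real.log C + (Γ.map hQ).sum) + (k : ℝ) * (Real.log C' + (Γ'.map hQ).sum) := by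
  obtain ⟨-, h1⟩ := abs_sum_sub_le (k * m0 - k) x y a w hx hy ha hw hC Γ hup hdown
  obtain ⟨-, h2⟩ := abs_inf_sub_le hm xinf y hxinf hy hC' Γ' hup' hdown'
  set B := Real.log C + (Γ.map hQ).sum with hB
  set B' := Real.log C' + (Γ'.map hQ).sum with hB'
  set S : Fin (k * m0) → ℝ :=
    fun i => hT (x i) + hT y - hT (fun p : ι × ι => x i p.1 * y p.2 - x i p.2 * y p.1) with hS
  set Sinf : ℝ :=
    hT xinf + hT y - hT (fun p : ι × ι => xinf p.1 * y p.2 - xinf p.2 * y p.1) with hSinf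
  have hM : (0 : ℝ) < (m0 : ℝ) := Nat.cast_pos.mpr (Nat.pos_of_ne_zero hm)
  have hm1 : ((m0 - 1 : ℕ) : ℝ) = (m0 : ℝ) - 1 := by
    rw [Nat.cast_sub (Nat.one_le_iff_ne_zero.mpr hm), Nat.cast_one]
  have hE : ((k * m0 - k : ℕ) : ℝ) = (k : ℝ) * (m0 : ℝ) - (k : ℝ) := by
    have hle : k ≤ k * m0 := Nat.le_mul_of_pos_right k (Nat.pos_of_ne_zero hm)
    rw [Nat.cast_sub hle, Nat.cast_mul]
  -- the total sum
  have htot : ∑ i, S i = ∑ i, hT (x i) + (k : ℝ) * (m0 : ℝ) * hT y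
      - ∑ i, hT (fun p : ι × ι => x i p.1 * y p.2 - x i p.2 * y p.1) := by
    simp only [hS]
    rw [Finset.sum_sub_distrib, Finset.sum_add_distrib, Finset.sum_const, Finset.card_univ,
      Fintype.card_fin, nsmul_eq_mul, Nat.cast_mul]
  have hsplit : ∑ i, S i = ∑ i ∈ Jᶜ, S i + (J.card : ℝ) * Sinf := by
    rw [← Finset.sum_compl_add_sum J S]
    congr 1
    rw [← nsmul_eq_mul, ← Finset.sum_const]
    refine Finset.sum_congr rfl fun i hi => ?_
    simp only [hS, hSinf]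
    rw [hJ i hi]
  have hcard : (J.card : ℝ) ≤ (k : ℝ) * (m0 : ℝ) := by
    have h := Finset.card_le_univ J
    rw [Fintype.card_fin] at h
    exact_mod_cast h
  have hcard0 : (0 : ℝ) ≤ (J.card : ℝ) := Nat.cast_nonneg _
  -- the two estimates in terms of `S`
  have e1 : |∑ i, S i - hT a - (k : ℝ) * hT y| ≤ B := by
    have : ∑ i, S i - hT a - (k : ℝ) * hT y
        = (0 + ∑ i, hT (x i) + ((k * m0 - k : ℕ) : ℝ) * hT y)
          - (hT a + ∑ i, hT (fun p : ι × ι => x i p.1 * y p.2 - x i p.2 * y p.1)) := by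
      rw [htot, hE]
      ring
    rw [this]
    exact h1
  have e2 : |(m0 : ℝ) * Sinf - hT y| ≤ B' := by
    have : (m0 : ℝ) * Sinf - hT y
        = -((m0 : ℝ) * hT (fun p : ι × ι => xinf p.1 * y p.2 - xinf p.2 * y p.1)
          - ((m0 : ℝ) * hT xinf + ((m0 - 1 : ℕ) : ℝ) * hT y)) := by
      rw [hm1, hSinf]
      ring
    rw [this, abs_neg]
    exact h2
  have hB'0 : 0 ≤ B' := le_trans (abs_nonneg _) e2
  -- conclusion
  have key : (∑ i ∈ Jᶜ, S i) - hT a + ((J.card : ℝ) - ((k * m0 : ℕ) : ℝ)) * (hT y / (m0 : ℝ))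
      = (∑ i, S i - hT a - (k : ℝ) * hT y)
        - ((J.card : ℝ) / (m0 : ℝ)) * ((m0 : ℝ) * Sinf - hT y) := by
    rw [hsplit, Nat.cast_mul]
    field_simp
    ring
  rw [key]
  have hq : |((J.card : ℝ) / (m0 : ℝ)) * ((m0 : ℝ) * Sinf - hT y)| ≤ (k : ℝ) * B' := by
    rw [abs_mul, abs_of_nonneg (div_nonneg hcard0 hM.le)]
    have hq1 : (J.card : ℝ) / (m0 : ℝ) ≤ (k : ℝ) := by
      rw [div_le_iff₀ hM]
      exact hcard
    exact mul_le_mul hq1 e2 (abs_nonneg _) (Nat.cast_nonneg _)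
  calc |(∑ i, S i - hT a - (k : ℝ) * hT y)
        - ((J.card : ℝ) / (m0 : ℝ)) * ((m0 : ℝ) * Sinf - hT y)|
      ≤ |∑ i, S i - hT a - (k : ℝ) * hT y|
        + |((J.card : ℝ) / (m0 : ℝ)) * ((m0 : ℝ) * Sinf - hT y)| := abs_sub _ _
    _ ≤ B + (k : ℝ) * B' := add_le_add e1 hq

end Fermat.Agent.S17.H.Glob.LDSum
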