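import Mathlib
import Fermat.Agent.S17.R.LSpace
import Fermat.Agent.S17.R.LStep
import Fermat.Agent.S17.H.LD.PtRow
import Fermat.Agent.S17.H.LD.Values
import Fermat.Agent.S17.H.LD.Forms
import Fermat.Agent.S17.H.LD.InfDist
import Fermat.Agent.S17.H.Glob.PlaceHeight
import Fermat.Agent.S17.H.Glob.LDSum

/-!
# Program MW (S17), strand H, block D, leaf D2: the global distance formula, from the exit of block C

`F` a function field of one variable over `Qb = AlgebraicClosure ℚ`, `v₀` a place, `ev` any value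
function (`Glob.IsEval`), `φ` a basis of `L(m₀ v₀)` with `m₀` large.  For a section
`s = ∑ c i • ψ i` (`ψ` linearly independent in `L(M v₀)`) and a place `Q ≠ v₀` off the zeros of `s`:

`∑_{v ≠ v₀} ord_v(s) * plD ev φ v Q = hT c - ord_{v₀}(s) * plH ev φ m₀ Q + O(1)`,

the `O(1)` depending on `ψ` only.  This is the hypothesis `hD2` of `Pairing.chowLD_plH`, verbatim.

The exit of block C (the local distance formula `ld_local` and the enumeration of the zeros
`exists_zeros`) enters `ld_global_of` as HYPOTHESES, in the literal shape of row `S17.H.C10`; the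
point at infinity is paid by `LD.infDist`, the forms by `LD.exists_form_of_mem_L`, the summation over
the absolute values by `LDSum` (product form of the local-global principle).

* `isPt_valVec`       : the value vector of a place off `v₀` is a representative of its point;
* `ev_aeval_of_isPt`  : the value of a form in `φ` at such a place;
* `finsum_ord_mul`    : the sum over the zeros, with multiplicity, as a `finsum` over the places;
* `exists_basis_extension` : a linearly independent family in a finite-dimensional subspace extends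
  to a basis of it indexed by `Fin n ⊕ Fin d`;
* `ld_global_basis`   : the formula for a basis of `L(k m₀ v₀)` made of forms of degree `k` in `φ`;
* `ld_global_of`      : the formula in the shape `hD2`.
-/

set_option autoImplicit false

namespace Fermat.Agent.S17.H.Glob.LDG

open AlgebraicCurve MvPolynomial Fermat.Agent.S17.R Fermat.Agent.S17.H.Cert
open Fermat.Agent.S24.FF Fermat.Agent.S17.H.Glob

local notation "Qb" => AlgebraicClosure ℚ

/-! ### Linear algebra -/

/-- A linearly independent family in a finite-dimensional subspace `W` extends to a basis of `W`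
indexed by `Fin n ⊕ Fin d`. -/
theorem exists_basis_extension {K V : Type*} [Field K] [AddCommGroup V] [Module K V]
    {W : Submodule K V} (hW : Module.Finite K ↥W) {n : ℕ} (ψ : Fin n → V)
    (hψ : LinearIndependent K ψ) (hψW : ∀ i, ψ i ∈ W) :
    ∃ (d : ℕ) (ψ' : Fin n ⊕ Fin d → V), LinearIndependent K ψ' ∧
      Submodule.span K (Set.range ψ') = W ∧ ∀ i, ψ' (Sum.inl i) = ψ i := by
  classical
  have := hW
  let ψW : Fin n → W := fun i => ⟨ψ i, hψW i⟩
  have hψWli : LinearIndependent K ψW := LinearIndependent.of_comp W.subtype hψ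
  obtain ⟨U', hU'⟩ := Submodule.exists_isCompl (Submodule.span K (Set.range ψW))
  let b := Module.finBasis K U'
  let ψ₂ : Fin (Module.finrank K U') → W := fun j => (b j : W)
  have hψ₂li : LinearIndependent K ψ₂ :=
    b.linearIndependent.map' U'.subtype (Submodule.ker_subtype U')
  have hψ₂span : Submodule.span K (Set.range ψ₂) = U' := by
    have h1 : Set.range ψ₂ = U'.subtype '' Set.range b := by
      rw [← Set.range_comp]
      rfl
    rw [h1, Submodule.span_image, b.span_eq, Submodule.map_subtype_top]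
  have hli : LinearIndependent K (Sum.elim ψW ψ₂) :=
    hψWli.sum_type hψ₂li (by rw [hψ₂span]; exact hU'.disjoint)
  have hspan : Submodule.span K (Set.range (Sum.elim ψW ψ₂)) = ⊤ := by
    rw [Set.Sum.elim_range, Submodule.span_union, hψ₂span]
    exact hU'.sup_eq_top
  refine ⟨Module.finrank K U', W.subtype ∘ Sum.elim ψW ψ₂,
    hli.map' W.subtype (Submodule.ker_subtype W), ?_, fun i => rfl⟩
  rw [Set.range_comp, Submodule.span_image, hspan, Submodule.map_subtype_top]

variable {F : Type*} [Field F] [Algebra Qb F]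

/-! ### The spaces `L(n v₀)` -/

theorem one_mem_L_nsmul (v₀ : Place Qb F) (n : ℕ) :
    (1 : F) ∈ riemannRochSpace ((n : ℤ) • Finsupp.single v₀ (1 : ℤ)) := by
  classical
  rw [mem_L_of_ne_zero one_ne_zero]
  intro v
  rw [Place.ord_one, Finsupp.smul_apply, Finsupp.single_apply]
  by_cases h : v₀ = v
  · rw [if_pos h]
    simp
  · rw [if_neg h]
    simp

theorem L_nsmul_mono (v₀ : Place Qb F) {M N : ℕ} (h : M ≤ N) :
    riemannRochSpace ((M : ℤ) • Finsupp.single v₀ (1 : ℤ))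
      ≤ riemannRochSpace ((N : ℤ) • Finsupp.single v₀ (1 : ℤ)) := by
  classical
  refine L_mono ?_
  rw [Finsupp.le_def]
  intro v
  rw [Finsupp.smul_apply, Finsupp.smul_apply, Finsupp.single_apply]
  have hMN : (M : ℤ) ≤ (N : ℤ) := by exact_mod_cast h
  by_cases hv : v₀ = v
  · rw [if_pos hv]
    simpa using hMN
  · rw [if_neg hv]
    simp

/-! ### Values -/

/-- The value vector of a family of functions regular at `Q` whose span contains `1` is a
representative of the point of `Q`. -/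
theorem isPt_valVec {ev : Place Qb F → F → Qb} (hev : IsEval ev) {r : ℕ} (φ : Fin r → F)
    (Q : Place Qb F) (hreg : ∀ j, φ j ∈ Q.toValuationSubring)
    (h1 : (1 : F) ∈ Submodule.span Qb (Set.range φ)) :
    LD.IsPt φ Q (valVec ev φ Q) := by
  obtain ⟨c, hc⟩ := (Submodule.mem_span_range_iff_exists_fun Qb).mp h1
  have hval : ∑ j, c j * ev Q (φ j) = 1 := by
    have h2 : ev Q (∑ j, c j • φ j) = ∑ j, ev Q (c j • φ j) :=
      hev.map_sum Finset.univ (fun j => c j • φ j) fun j _ => by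
        rw [Algebra.smul_def]
        exact Q.toValuationSubring.mul_mem _ _ (Q.algebraMap_mem' _) (hreg j)
    rw [hc, hev.map_one] at h2
    rw [h2]
    exact Finset.sum_congr rfl fun j _ => (hev.map_smul (c j) (hreg j)).symm
  obtain ⟨i, hi⟩ : ∃ i, ev Q (φ i) ≠ 0 := by
    by_contra hno
    have hno' : ∀ j, ev Q (φ j) = 0 := fun j => by
      by_contra hj
      exact hno ⟨j, hj⟩
    rw [Finset.sum_eq_zero fun j _ => by rw [hno' j, mul_zero]] at hval
    exact zero_ne_one hval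
  have hφi0 : φ i ≠ 0 := by
    intro h0
    rw [h0, hev.map_zero] at hi
    exact hi rfl
  have hord : Q.ord (φ i) = 0 := by
    have h3 : ¬ (0 < Q.ord (φ i)) := fun hpos =>
      hi ((hev.eq_zero_iff (hreg i)).mpr (Or.inr hpos))
    have h4 := ord_nonneg_of_mem Q (hreg i)
    omega
  have hvi : Q.adicValuation (φ i) = 1 :=
    (ord_eq_zero_iff_adicValuation_eq_one Q hφi0).mp hord
  refine ⟨i, hi, hφi0, fun j => ?_⟩
  rw [hvi]
  have hg : algebraMap Qb F (valVec ev φ Q i) * φ j - algebraMap Qb F (valVec ev φ Q j) * φ i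
      = valVec ev φ Q i • φ j + (-(valVec ev φ Q j)) • φ i := by
    rw [Algebra.smul_def, Algebra.smul_def, map_neg]
    ring
  have hm1 : valVec ev φ Q i • φ j ∈ Q.toValuationSubring := by
    rw [Algebra.smul_def]
    exact Q.toValuationSubring.mul_mem _ _ (Q.algebraMap_mem' _) (hreg j)
  have hm2 : (-(valVec ev φ Q j)) • φ i ∈ Q.toValuationSubring := by
    rw [Algebra.smul_def]
    exact Q.toValuationSubring.mul_mem _ _ (Q.algebraMap_mem' _) (hreg i)
  have hev0 : ev Q (valVec ev φ Q i • φ j + (-(valVec ev φ Q j)) • φ i) = 0 := by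
    rw [hev.map_add hm1 hm2, hev.map_smul _ (hreg j), hev.map_smul _ (hreg i)]
    simp only [valVec]
    ring
  rw [hg, LD.Pt.adicValuation_lt_one_iff]
  have h5 := hev Q _ (Q.toValuationSubring.add_mem _ _ hm1 hm2)
  rwa [hev0, map_zero, sub_zero] at h5

/-- The value at `Q` of a form in `φ` is the form at the value vector. -/
theorem ev_aeval_of_isPt {ev : Place Qb F → F → Qb} (hev : IsEval ev) {r : ℕ} {φ : Fin r → F}
    {Q : Place Qb F} (hy : LD.IsPt φ Q (valVec ev φ Q)) (hreg : ∀ j, φ j ∈ Q.toValuationSubring)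
    {n : ℕ} {P : MvPolynomial (Fin r) Qb} (hP : P.IsHomogeneous n) :
    ev Q (aeval φ P) = eval (valVec ev φ Q) P := by
  obtain ⟨i, hi, hφi, -⟩ := id hy
  have h1 := hy.eval_form hev hi hP
  have hmem := hy.form_div_mem hi hP
  have hpow : φ i ^ n ∈ Q.toValuationSubring := Q.toValuationSubring.pow_mem (hreg i) n
  have e : aeval φ P = (aeval φ P / φ i ^ n) * φ i ^ n :=
    (div_mul_cancel₀ _ (pow_ne_zero n hφi)).symm
  rw [e, hev.map_mul hmem hpow, h1, hev.map_pow (hreg i)]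
  exact div_mul_cancel₀ _ (pow_ne_zero n hi)

/-! ### The zeros of a section, with multiplicity -/

section Zeros

variable [Algebra.EssFiniteType Qb F]

open Classical in
/-- Reading the divisor identity at a place. -/
theorem ord_add_eq_card (htr : Algebra.trdeg Qb F = 1) (v₀ : Place Qb F) {N : ℕ} {s : F}
    (Z : Fin N → Place Qb F)
    (hZ : divOf Qb s + (N : ℤ) • Finsupp.single v₀ (1 : ℤ) = ∑ i, Finsupp.single (Z i) (1 : ℤ))
    (v : Place Qb F) :
    v.ord s + (if v = v₀ then (N : ℤ) else 0)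
      = ((Finset.univ.filter fun i => Z i = v).card : ℤ) := by
  have h := DFunLike.congr_fun hZ v
  rw [Finsupp.add_apply, divOf_apply htr, Finsupp.smul_apply, Finsupp.finsetSum_apply] at h
  simp only [Finsupp.single_apply, smul_eq_mul] at h
  rw [Finset.sum_boole] at h
  rw [← h]
  congr 1
  by_cases hv : v = v₀
  · rw [if_pos hv, if_pos hv.symm, mul_one]
  · rw [if_neg hv, if_neg (Ne.symm hv), mul_zero]

open Classical in
/-- The sum over the zeros off `v₀`, with multiplicity, as a `finsum` over the places. -/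
theorem finsum_ord_mul (htr : Algebra.trdeg Qb F = 1) (v₀ : Place Qb F) {N : ℕ} {s : F}
    (Z : Fin N → Place Qb F)
    (hZ : divOf Qb s + (N : ℤ) • Finsupp.single v₀ (1 : ℤ) = ∑ i, Finsupp.single (Z i) (1 : ℤ))
    (f : Place Qb F → ℝ) :
    ∑ᶠ v ∈ {v : Place Qb F | v ≠ v₀}, ((v.ord s : ℤ) : ℝ) * f v
      = ∑ i ∈ (Finset.univ.filter fun i => Z i = v₀)ᶜ, f (Z i) := by
  set J := Finset.univ.filter fun i => Z i = v₀ with hJdef
  have hmemJ : ∀ i, i ∈ Jᶜ ↔ Z i ≠ v₀ := fun i => by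
    rw [Finset.mem_compl, hJdef, Finset.mem_filter]
    simp
  have hcount : ∀ v, v ≠ v₀ →
      ((v.ord s : ℤ) : ℝ) = ((Finset.univ.filter fun i => Z i = v).card : ℝ) := by
    intro v hv
    have h := ord_add_eq_card htr v₀ Z hZ v
    rw [if_neg hv, add_zero] at h
    rw [h, Int.cast_natCast]
  rw [finsum_mem_eq_sum_of_subset (t := Jᶜ.image Z)]
  · rw [← Finset.sum_fiberwise_of_maps_to (s := Jᶜ) (t := Jᶜ.image Z) (g := Z)
      (fun i hi => Finset.mem_image_of_mem Z hi) (fun i => f (Z i))]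
    refine Finset.sum_congr rfl fun v hv => ?_
    obtain ⟨i0, hi0, rfl⟩ := Finset.mem_image.mp hv
    have hne : Z i0 ≠ v₀ := (hmemJ i0).mp hi0
    rw [hcount _ hne]
    have hfilter : Jᶜ.filter (fun i => Z i = Z i0) = Finset.univ.filter (fun i => Z i = Z i0) := by
      ext i
      simp only [Finset.mem_filter, Finset.mem_univ, true_and, hmemJ]
      constructor
      · exact fun h => h.2
      · exact fun h => ⟨by rw [h]; exact hne, h⟩
    rw [hfilter, Finset.sum_congr rfl (fun i hi => by rw [(Finset.mem_filter.mp hi).2]),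
      Finset.sum_const, nsmul_eq_mul]
  · rintro v ⟨hv, hsupp⟩
    have hv' : v ≠ v₀ := hv
    rw [Function.mem_support, hcount v hv'] at hsupp
    have hcard : (Finset.univ.filter fun i => Z i = v).card ≠ 0 := by
      intro h0
      apply hsupp
      rw [h0, Nat.cast_zero, zero_mul]
    obtain ⟨i, hi⟩ := Finset.card_pos.mp (Nat.pos_of_ne_zero hcard)
    have hiv : Z i = v := (Finset.mem_filter.mp hi).2
    rw [Finset.mem_coe, Finset.mem_image]
    exact ⟨i, (hmemJ i).mpr (by rw [hiv]; exact hv'), hiv⟩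
  · intro v hv
    rw [Finset.mem_coe, Finset.mem_image] at hv
    obtain ⟨i, hi, rfl⟩ := hv
    exact (hmemJ i).mp hi

end Zeros

/-! ### The global distance formula -/

variable [Algebra.EssFiniteType Qb F]

/-- **The global distance formula for a basis of `L(k m0 v₀)` made of forms of degree `k`.**
Hypotheses: the enumeration of the zeros, the local distance formula (exit of block C) at
`(m0, k, φ, ψ, P)`, and the distance to the point at infinity (`LD.infDist` at `(m0, φ)`). -/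
theorem ld_global_basis (htr : Algebra.trdeg Qb F = 1) (v₀ : Place Qb F)
    {ev : Place Qb F → F → Qb} (hev : IsEval ev) (m0 k : ℕ) (hm : m0 ≠ 0)
    {r : ℕ} (φ : Fin r → F)
    (hφ : Submodule.span Qb (Set.range φ)
      = riemannRochSpace ((m0 : ℤ) • Finsupp.single v₀ (1 : ℤ)))
    {κ : Type} [Fintype κ] (ψ : κ → F) (P : κ → MvPolynomial (Fin r) Qb)
    (hψ : LinearIndependent Qb ψ)
    (hψL : ∀ j, ψ j ∈ riemannRochSpace (((k * m0 : ℕ) : ℤ) • Finsupp.single v₀ (1 : ℤ)))
    (hP : ∀ j, (P j).IsHomogeneous k) (hPψ : ∀ j, aeval φ (P j) = ψ j)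
    (hzeros : ∀ s : F, s ≠ 0 →
      s ∈ riemannRochSpace (((k * m0 : ℕ) : ℤ) • Finsupp.single v₀ (1 : ℤ)) →
      ∃ Z : Fin (k * m0) → Place Qb F,
        divOf Qb s + ((k * m0 : ℕ) : ℤ) • Finsupp.single v₀ (1 : ℤ)
          = ∑ i, Finsupp.single (Z i) (1 : ℤ))
    (hloc : ∃ (C : ℝ) (Γ : Multiset Qb), 1 ≤ C ∧
      ∀ (v : AbsoluteValue Qb ℝ) (a : κ → Qb) (Z : Fin (k * m0) → Place Qb F)
        (x : Fin (k * m0) → Fin r → Qb) (y : Fin r → Qb), a ≠ 0 →
        divOf Qb (∑ j, a j • ψ j) + ((k * m0 : ℕ) : ℤ) • Finsupp.single v₀ (1 : ℤ)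
          = ∑ i, Finsupp.single (Z i) (1 : ℤ) →
        (∀ i, LD.IsPt φ (Z i) (x i)) →
        (∀ (n : ℕ) (R : MvPolynomial (Fin r) Qb), R.IsHomogeneous n → aeval φ R = 0 →
          eval y R = 0) →
        (v (∑ j, a j * eval y (P j)) * (∏ i, ⨆ j, v (x i j)) * (⨆ j, v (y j)) ^ (k * m0 - k)
            ≤ locConst C Γ v * ((⨆ j, v (a j)) *
              ∏ i, ⨆ p : Fin r × Fin r, v (x i p.1 * y p.2 - x i p.2 * y p.1))) ∧
        ((⨆ j, v (a j)) * ∏ i, ⨆ p : Fin r × Fin r, v (x i p.1 * y p.2 - x i p.2 * y p.1)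
            ≤ locConst C Γ v * (v (∑ j, a j * eval y (P j)) * (∏ i, ⨆ j, v (x i j)) *
              (⨆ j, v (y j)) ^ (k * m0 - k))))
    (hinf : ∃ (C : ℝ) (Γ : Multiset Qb), 1 ≤ C ∧
      ∀ (v : AbsoluteValue Qb ℝ) (x : Fin r → Qb) (i : Fin r), x i ≠ 0 → φ i ≠ 0 →
        (∀ j, v₀.adicValuation (algebraMap Qb F (x i) * φ j - algebraMap Qb F (x j) * φ i)
          < v₀.adicValuation (φ i)) →
        ∀ (Q : Place Qb F) (y : Fin r → Qb),
          (∀ j, Q.adicValuation (φ j - algebraMap Qb F (y j)) < 1) →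
          (⨆ p : Fin r × Fin r, v (x p.1 * y p.2 - x p.2 * y p.1)) ^ m0
              ≤ locConst C Γ v * (⨆ j, v (x j)) ^ m0 * (⨆ j, v (y j)) ^ (m0 - 1) ∧
          (⨆ j, v (x j)) ^ m0 * (⨆ j, v (y j)) ^ (m0 - 1)
              ≤ locConst C Γ v *
                (⨆ p : Fin r × Fin r, v (x p.1 * y p.2 - x p.2 * y p.1)) ^ m0) :
    ∃ C : ℝ, ∀ a : κ → Qb, a ≠ 0 → ∀ Q : Place Qb F, Q ≠ v₀ →
      Q.ord (∑ j, a j • ψ j) = 0 →
      |(∑ᶠ v ∈ {v : Place Qb F | v ≠ v₀},
          ((v.ord (∑ j, a j • ψ j) : ℤ) : ℝ) * plD ev φ v Q) - hT a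
        + ((v₀.ord (∑ j, a j • ψ j) : ℤ) : ℝ) * plH ev φ m0 Q| ≤ C := by
  classical
  obtain ⟨C, Γ, hC, hloc⟩ := hloc
  obtain ⟨C', Γ', hC', hinf⟩ := hinf
  have h1 : (1 : F) ∈ Submodule.span Qb (Set.range φ) := by
    rw [hφ]
    exact one_mem_L_nsmul v₀ m0
  have hφL : ∀ j, φ j ∈ riemannRochSpace ((m0 : ℤ) • Finsupp.single v₀ (1 : ℤ)) := fun j => by
    rw [← hφ]
    exact Submodule.subset_span (Set.mem_range_self j)
  have hφne : ∃ i, φ i ≠ 0 := by
    by_contra hno
    have hno' : ∀ j, φ j = 0 := fun j => by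
      by_contra hj
      exact hno ⟨j, hj⟩
    have h0 : Submodule.span Qb (Set.range φ) = ⊥ := by
      rw [Submodule.span_eq_bot]
      rintro _ ⟨j, rfl⟩
      exact hno' j
    rw [h0, Submodule.mem_bot] at h1
    exact one_ne_zero h1
  obtain ⟨xinf, hxinf⟩ := LD.exists_isPt htr φ hφne v₀
  obtain ⟨iinf, hxi, hφi, hpt⟩ := id hxinf
  refine ⟨(Real.log C + (Γ.map hQ).sum) + (k : ℝ) * (Real.log C' + (Γ'.map hQ).sum),
    fun a ha Q hQ hord => ?_⟩
  set s : F := ∑ j, a j • ψ j with hs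
  have hs0 : s ≠ 0 := by
    intro h0
    apply ha
    funext j
    exact Fintype.linearIndependent_iff.mp hψ a h0 j
  have hsL : s ∈ riemannRochSpace (((k * m0 : ℕ) : ℤ) • Finsupp.single v₀ (1 : ℤ)) :=
    Submodule.sum_mem _ fun j _ => Submodule.smul_mem _ _ (hψL j)
  obtain ⟨Z, hZ⟩ := hzeros s hs0 hsL
  have hreg : ∀ w : Place Qb F, w ≠ v₀ → ∀ j, φ j ∈ w.toValuationSubring := fun w hw j =>
    LD.mem_valuationSubring_of_mem_L hw (hφL j)
  have hy : LD.IsPt φ Q (valVec ev φ Q) := isPt_valVec hev φ Q (hreg Q hQ) h1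
  have hx : ∀ i, LD.IsPt φ (Z i) (if Z i = v₀ then xinf else valVec ev φ (Z i)) := by
    intro i
    by_cases h : Z i = v₀
    · rw [if_pos h, h]
      exact hxinf
    · rw [if_neg h]
      exact isPt_valVec hev φ (Z i) (hreg (Z i) h) h1
  have hsreg : s ∈ Q.toValuationSubring := LD.mem_valuationSubring_of_mem_L hQ hsL
  have hψreg : ∀ j, ψ j ∈ Q.toValuationSubring := fun j =>
    LD.mem_valuationSubring_of_mem_L hQ (hψL j)
  have hw : ev Q s = ∑ j, a j * eval (valVec ev φ Q) (P j) := by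
    have h2 : ev Q s = ∑ j, ev Q (a j • ψ j) :=
      hev.map_sum Finset.univ (fun j => a j • ψ j) fun j _ => by
        rw [Algebra.smul_def]
        exact Q.toValuationSubring.mul_mem _ _ (Q.algebraMap_mem' _) (hψreg j)
    rw [h2]
    refine Finset.sum_congr rfl fun j _ => ?_
    rw [hev.map_smul _ (hψreg j), ← hPψ j, ev_aeval_of_isPt hev hy (hreg Q hQ) (hP j)]
  have hw0 : (∑ j, a j * eval (valVec ev φ Q) (P j)) ≠ 0 := by
    rw [← hw]
    intro h0
    rcases (hev.eq_zero_iff hsreg).mp h0 with h | h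
    · exact hs0 h
    · rw [hord] at h
      exact lt_irrefl _ h
  have hyval : ∀ j, Q.adicValuation (φ j - algebraMap Qb F (valVec ev φ Q j)) < 1 := fun j =>
    (LD.Pt.adicValuation_lt_one_iff Q _).mpr (hev Q (φ j) (hreg Q hQ j))
  have hA := LDSum.abs_total_le hm
    (fun i => if Z i = v₀ then xinf else valVec ev φ (Z i)) (valVec ev φ Q) a
    (∑ j, a j * eval (valVec ev φ Q) (P j)) xinf (Finset.univ.filter fun i => Z i = v₀)
    (fun i hi => if_pos (Finset.mem_filter.mp hi).2)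
    (fun i => (hx i).ne_zero) hy.ne_zero ha hw0 hxinf.ne_zero hC Γ
    (fun v => (hloc v a Z _ _ ha hZ hx hy.onCone).1)
    (fun v => (hloc v a Z _ _ ha hZ hx hy.onCone).2)
    hC' Γ'
    (fun v => (hinf v xinf iinf hxi hφi hpt Q _ hyval).1)
    (fun v => (hinf v xinf iinf hxi hφi hpt Q _ hyval).2)
  have hfin := finsum_ord_mul htr v₀ Z hZ (fun v => plD ev φ v Q)
  have hcard := ord_add_eq_card htr v₀ Z hZ v₀
  rw [if_pos rfl] at hcard
  have e1 : ∑ i ∈ (Finset.univ.filter fun i => Z i = v₀)ᶜ,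
      (hT (if Z i = v₀ then xinf else valVec ev φ (Z i)) + hT (valVec ev φ Q)
        - hT (fun p : Fin r × Fin r =>
            (if Z i = v₀ then xinf else valVec ev φ (Z i)) p.1 * valVec ev φ Q p.2
              - (if Z i = v₀ then xinf else valVec ev φ (Z i)) p.2 * valVec ev φ Q p.1))
      = ∑ᶠ v ∈ {v : Place Qb F | v ≠ v₀}, ((v.ord s : ℤ) : ℝ) * plD ev φ v Q := by
    rw [hfin]
    refine Finset.sum_congr rfl fun i hi => ?_
    have hne : Z i ≠ v₀ := by
      rw [Finset.mem_compl, Finset.mem_filter] at hi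
      exact fun h => hi ⟨Finset.mem_univ i, h⟩
    simp only [if_neg hne]
    rfl
  have e2 : ((Finset.univ.filter fun i => Z i = v₀).card : ℝ) - ((k * m0 : ℕ) : ℝ)
      = ((v₀.ord s : ℤ) : ℝ) := by
    have h3 : ((v₀.ord s : ℤ) : ℝ) + ((k * m0 : ℕ) : ℝ)
        = ((Finset.univ.filter fun i => Z i = v₀).card : ℝ) := by
      exact_mod_cast hcard
    linarith
  rw [e1, e2] at hA
  exact hA

/-- **D2, the global distance formula, from the exit of block C.**  `hzeros` and `hloc` are the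
literals `exists_zeros` and `ld_local` of row `S17.H.C10` at `K = Qb`; the conclusion is the
hypothesis `hD2` of `Pairing.chowLD_plH`. -/
theorem ld_global_of (htr : Algebra.trdeg Qb F = 1) (v₀ : Place Qb F)
    (hzeros : ∀ (n : ℕ) (s : F), s ≠ 0 →
      s ∈ riemannRochSpace ((n : ℤ) • Finsupp.single v₀ (1 : ℤ)) →
      ∃ Z : Fin n → Place Qb F,
        divOf Qb s + (n : ℤ) • Finsupp.single v₀ (1 : ℤ) = ∑ i, Finsupp.single (Z i) (1 : ℤ))
    (hloc : ∃ n₀ : ℕ, ∀ m0 : ℕ, n₀ ≤ m0 → ∀ (k : ℕ), 0 < k →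
      ∀ {ι κ : Type} [Fintype ι] [Fintype κ] (τ : ι → F) (ψ : κ → F)
        (P : κ → MvPolynomial ι Qb), LinearIndependent Qb τ →
      Submodule.span Qb (Set.range τ)
        = riemannRochSpace ((m0 : ℤ) • Finsupp.single v₀ (1 : ℤ)) →
      LinearIndependent Qb ψ →
      Submodule.span Qb (Set.range ψ)
        = riemannRochSpace (((k * m0 : ℕ) : ℤ) • Finsupp.single v₀ (1 : ℤ)) →
      (∀ j, (P j).IsHomogeneous k) → (∀ j, aeval τ (P j) = ψ j) →
      ∃ (C : ℝ) (Γ : Multiset Qb), 1 ≤ C ∧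
        ∀ (v : AbsoluteValue Qb ℝ) (a : κ → Qb) (Z : Fin (k * m0) → Place Qb F)
          (x : Fin (k * m0) → ι → Qb) (y : ι → Qb), a ≠ 0 →
          divOf Qb (∑ j, a j • ψ j) + ((k * m0 : ℕ) : ℤ) • Finsupp.single v₀ (1 : ℤ)
            = ∑ i, Finsupp.single (Z i) (1 : ℤ) →
          (∀ i, LD.IsPt τ (Z i) (x i)) →
          (∀ (n : ℕ) (R : MvPolynomial ι Qb), R.IsHomogeneous n → aeval τ R = 0 →
            eval y R = 0) →
          (v (∑ j, a j * eval y (P j)) * (∏ i, ⨆ j, v (x i j)) * (⨆ j, v (y j)) ^ (k * m0 - k)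
              ≤ locConst C Γ v * ((⨆ j, v (a j)) *
                ∏ i, ⨆ p : ι × ι, v (x i p.1 * y p.2 - x i p.2 * y p.1))) ∧
          ((⨆ j, v (a j)) * ∏ i, ⨆ p : ι × ι, v (x i p.1 * y p.2 - x i p.2 * y p.1)
              ≤ locConst C Γ v * (v (∑ j, a j * eval y (P j)) * (∏ i, ⨆ j, v (x i j)) *
                (⨆ j, v (y j)) ^ (k * m0 - k)))) :
    ∃ n₀ : ℕ, ∀ m₀ : ℕ, n₀ ≤ m₀ → ∀ {ev : Place Qb F → F → Qb}, IsEval ev →
      ∀ {r : ℕ} (φ : Fin r → F), LinearIndependent Qb φ →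
      Submodule.span Qb (Set.range φ)
        = riemannRochSpace ((m₀ : ℤ) • Finsupp.single v₀ (1 : ℤ)) →
      ∀ (M n : ℕ) (ψ : Fin n → F), LinearIndependent Qb ψ →
      (∀ i, ψ i ∈ riemannRochSpace ((M : ℤ) • Finsupp.single v₀ (1 : ℤ))) →
      ∃ C : ℝ, ∀ c : Fin n → Qb, c ≠ 0 → ∀ Q : Place Qb F, Q ≠ v₀ →
        Q.ord (∑ i, c i • ψ i) = 0 →
        |(∑ᶠ v ∈ {v : Place Qb F | v ≠ v₀},
            ((v.ord (∑ i, c i • ψ i) : ℤ) : ℝ) * plD ev φ v Q) - hT c
          + ((v₀.ord (∑ i, c i • ψ i) : ℤ) : ℝ) * plH ev φ m₀ Q| ≤ C := by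
  obtain ⟨n1, hloc⟩ := hloc
  obtain ⟨n2, hinf⟩ := LD.infDist htr v₀
  obtain ⟨n3, hform⟩ := LD.exists_form_of_mem_L htr v₀
  refine ⟨max (max n1 n2) (max n3 1), fun m0 hm0 ev hev r φ hφli hφ M n ψ hψ hψM => ?_⟩
  have hm1 : n1 ≤ m0 := le_trans (le_trans (le_max_left _ _) (le_max_left _ _)) hm0
  have hm2 : n2 ≤ m0 := le_trans (le_trans (le_max_right _ _) (le_max_left _ _)) hm0
  have hm3 : n3 ≤ m0 := le_trans (le_trans (le_max_left _ _) (le_max_right _ _)) hm0
  have hm4 : 1 ≤ m0 := le_trans (le_trans (le_max_right _ _) (le_max_right _ _)) hm0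
  have hm : m0 ≠ 0 := by omega
  have hMle : M ≤ (M + 1) * m0 := by nlinarith
  have hψW : ∀ i, ψ i ∈ riemannRochSpace ((((M + 1) * m0 : ℕ) : ℤ) • Finsupp.single v₀ (1 : ℤ)) :=
    fun i => L_nsmul_mono v₀ hMle (hψM i)
  obtain ⟨d, ψ', hli, hspan, hext⟩ := exists_basis_extension (finite_L htr _) ψ hψ hψW
  have hψ'L : ∀ j, ψ' j ∈
      riemannRochSpace ((((M + 1) * m0 : ℕ) : ℤ) • Finsupp.single v₀ (1 : ℤ)) := fun j => by
    rw [← hspan]
    exact Submodule.subset_span (Set.mem_range_self j)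
  have hPex : ∀ j, ∃ P : MvPolynomial (Fin r) Qb, P.IsHomogeneous (M + 1) ∧ aeval φ P = ψ' j :=
    fun j => hform m0 hm3 φ hφ (M + 1) (ψ' j) (hψ'L j)
  choose P hPhom hPψ using hPex
  obtain ⟨C, hC⟩ := ld_global_basis htr v₀ hev m0 (M + 1) hm φ hφ ψ' P hli hψ'L hPhom hPψ
    (fun s hs hsL => hzeros ((M + 1) * m0) s hs hsL)
    (hloc m0 hm1 (M + 1) (Nat.succ_pos M) φ ψ' P hφli hφ hli hspan hPhom hPψ)
    (hinf m0 hm2 r φ hφ)
  refine ⟨C, fun c hc Q hQ hord => ?_⟩
  have hsum : ∑ j, (Sum.elim c (0 : Fin d → Qb)) j • ψ' j = ∑ i, c i • ψ i := by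
    rw [Fintype.sum_sum_type]
    simp [hext]
  have ha : (Sum.elim c (0 : Fin d → Qb)) ≠ 0 := by
    intro h0
    apply hc
    funext i
    exact congrFun h0 (Sum.inl i)
  have h := hC (Sum.elim c (0 : Fin d → Qb)) ha Q hQ (by rw [hsum]; exact hord)
  rw [hsum, LDSum.hT_sumElim_zero] at h
  exact h

end Fermat.Agent.S17.H.Glob.LDG
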