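import Mathlib
import Fermat.Agent.S17.H.Glob.LDGlobalOf
import Fermat.Agent.S17.H.LD.DownCurve
import Fermat.Agent.S17.H.LD.UpCurve
import Fermat.Agent.S17.H.LD.UpSolVia
import Fermat.Agent.S17.H.LD.Zeros

/-!
# Program MW (S17), strand H, block D, leaf D2: the global distance formula, hypothesis-free

`LDG.ld_global_hD2` : for `m₀` large, every value function `ev` and every basis `φ` of `L(m₀ v₀)`,
the hypothesis `hD2` of `Pairing.chowLD_plH` holds VERBATIM: for every `M`, every linearly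
independent family `ψ` in `L(M v₀)` there is `C` with

`|∑_{v ≠ v₀} ord_v(s) * plD ev φ v Q - hT c + ord_{v₀}(s) * plH ev φ m₀ Q| ≤ C`

for all `c ≠ 0`, `s = ∑ c i • ψ i` and all places `Q ≠ v₀` off the zeros of `s`.

`LDG.ld_local_Qb` : the two-sided local distance formula (literal of row `S17.H.C10`, `K = Qb`),
from its two halves on main (`LD.ld_down`, `LD.UpCurve.ld_up_of_sol` at `LD.UpSolVia.up_sol`).
The formula itself is `LDG.ld_global_of` (`Glob/LDGlobalOf.lean`) at `ld_local_Qb` and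
`LD.exists_zeros`.
-/

set_option autoImplicit false

namespace Fermat.Agent.S17.H.Glob.LDG

open AlgebraicCurve MvPolynomial Fermat.Agent.S17.R Fermat.Agent.S17.H.Cert
open Fermat.Agent.S17.H.Glob

local notation "Qb" => AlgebraicClosure ℚ

variable {F : Type*} [Field F] [Algebra Qb F] [Algebra.EssFiniteType Qb F]

/-- **The two-sided local distance formula** over `Qb` (literal of row `S17.H.C10`). -/
theorem ld_local_Qb (htr : Algebra.trdeg Qb F = 1) (v₀ : Place Qb F) :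
    ∃ n₀ : ℕ, ∀ m0 : ℕ, n₀ ≤ m0 → ∀ (k : ℕ), 0 < k →
      ∀ {ι κ : Type} [Fintype ι] [Fintype κ] (τ : ι → F) (ψ : κ → F)
        (P : κ → MvPolynomial ι Qb), LinearIndependent Qb τ →
      Submodule.span Qb (Set.range τ)
        = riemannRochSpace ((m0 : ℤ) • Finsupp.single v₀ (1 : ℤ)) →
      LinearIndependent Qb ψ →
      Submodule.span Qb (Set.range ψ)
        = riemannRochSpace (((k * m0 : ℕ) : ℤ) • Finsupp.single v₀ (1 : ℤ)) →
      (∀ j, (P j).IsHomogeneous k) → (∀ j, aeval τ (P j) = ψ j) →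
      ∃ (C : ℝ) (Γ : Multiset Qb), 1 ≤ C ∧
        ∀ (v : AbsoluteValue Qb ℝ) (a : κ → Qb) (Z : Fin (k * m0) → Place Qb F)
          (x : Fin (k * m0) → ι → Qb) (y : ι → Qb), a ≠ 0 →
          divOf Qb (∑ j, a j • ψ j) + ((k * m0 : ℕ) : ℤ) • Finsupp.single v₀ (1 : ℤ)
            = ∑ i, Finsupp.single (Z i) (1 : ℤ) →
          (∀ i, LD.IsPt τ (Z i) (x i)) →
          (∀ (n : ℕ) (R : MvPolynomial ι Qb), R.IsHomogeneous n → aeval τ R = 0 →
            eval y R = 0) →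
          (v (∑ j, a j * eval y (P j)) * (∏ i, ⨆ j, v (x i j)) * (⨆ j, v (y j)) ^ (k * m0 - k)
              ≤ locConst C Γ v * ((⨆ j, v (a j)) *
                ∏ i, ⨆ p : ι × ι, v (x i p.1 * y p.2 - x i p.2 * y p.1))) ∧
          ((⨆ j, v (a j)) * ∏ i, ⨆ p : ι × ι, v (x i p.1 * y p.2 - x i p.2 * y p.1)
              ≤ locConst C Γ v * (v (∑ j, a j * eval y (P j)) * (∏ i, ⨆ j, v (x i j)) *
                (⨆ j, v (y j)) ^ (k * m0 - k))) := by
  obtain ⟨n₁, hsol⟩ := LD.UpSolVia.up_sol htr v₀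
  obtain ⟨nu, hup⟩ := LD.UpCurve.ld_up_of_sol htr v₀ hsol
  obtain ⟨nd, hdown⟩ := LD.ld_down htr v₀
  refine ⟨max nu nd, fun m0 hm0 k hk ι κ _ _ τ ψ P hτli hτ hψli hψ hP hPψ => ?_⟩
  obtain ⟨C1, Γ1, hC1, h1⟩ :=
    hup m0 (le_trans (le_max_left _ _) hm0) k hk τ ψ P hτli hτ hψli hψ hP hPψ
  obtain ⟨C2, Γ2, hC2, h2⟩ :=
    hdown m0 (le_trans (le_max_right _ _) hm0) k hk τ ψ P hτli hτ hψli hψ hP hPψ
  refine ⟨max C1 C2, Γ1 + Γ2, le_trans hC1 (le_max_left _ _),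
    fun v a Z x y ha hZ hx hy => ⟨?_, ?_⟩⟩
  · refine le_trans (h1 v a Z x y ha hZ hx hy) (mul_le_mul_of_nonneg_right
      (locConst_mono (le_trans zero_le_one hC1) (le_max_left _ _)
        (Multiset.le_add_right Γ1 Γ2) v) ?_)
    exact mul_nonneg (Real.iSup_nonneg fun j => v.nonneg _)
      (Finset.prod_nonneg fun i _ => Real.iSup_nonneg fun p => v.nonneg _)
  · refine le_trans (h2 v a Z x y ha hZ hx hy) (mul_le_mul_of_nonneg_right
      (locConst_mono (le_trans zero_le_one hC2) (le_max_right _ _)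
        (Multiset.le_add_left Γ2 Γ1) v) ?_)
    exact mul_nonneg (mul_nonneg (v.nonneg _)
      (Finset.prod_nonneg fun i _ => Real.iSup_nonneg fun j => v.nonneg _))
      (pow_nonneg (Real.iSup_nonneg fun j => v.nonneg _) _)

/-- **D2, the global distance formula**, in the literal shape of the hypothesis `hD2` of
`Pairing.chowLD_plH`. -/
theorem ld_global_hD2 (htr : Algebra.trdeg Qb F = 1) (v₀ : Place Qb F) :
    ∃ n₀ : ℕ, ∀ m₀ : ℕ, n₀ ≤ m₀ → ∀ {ev : Place Qb F → F → Qb}, IsEval ev →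
      ∀ {r : ℕ} (φ : Fin r → F), LinearIndependent Qb φ →
      Submodule.span Qb (Set.range φ)
        = riemannRochSpace ((m₀ : ℤ) • Finsupp.single v₀ (1 : ℤ)) →
      ∀ (M n : ℕ) (ψ : Fin n → F), LinearIndependent Qb ψ →
      (∀ i, ψ i ∈ riemannRochSpace ((M : ℤ) • Finsupp.single v₀ (1 : ℤ))) →
      ∃ C : ℝ, ∀ c : Fin n → Qb, c ≠ 0 → ∀ Q : Place Qb F, Q ≠ v₀ →
        Q.ord (∑ i, c i • ψ i) = 0 →
        |(∑ᶠ v ∈ {v : Place Qb F | v ≠ v₀},
            ((v.ord (∑ i, c i • ψ i) : ℤ) : ℝ) * plD ev φ v Q) - hT c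
          + ((v₀.ord (∑ i, c i • ψ i) : ℤ) : ℝ) * plH ev φ m₀ Q| ≤ C :=
  ld_global_of htr v₀ (fun _ _ hs hsL => LD.exists_zeros htr v₀ hs hsL) (ld_local_Qb htr v₀)

end Fermat.Agent.S17.H.Glob.LDG
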