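/-
MW strand H, block D4a, the valuation route (local half).

`K` algebraically closed of characteristic zero, `F / K` a function field of one variable,
`v₀` a place, `x` a function whose only pole is `v₀`, of order `n₀ > 0`.  Then `v₀` is totally
ramified over `K(x)`: `[F : K(x)] = n₀` and the orders at `v₀` of the non-zero elements of
`E = K(x)` are the multiples of `n₀`.  From this alone (no completion, no conjugates, no
different):

* `trace_geOrd` : the trace `F → E` does not decrease the order at `v₀`;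
* `trace_unit` : the trace of a `v₀`-unit is a `v₀`-unit;
* `ord_discr` : for ANY family `w` whose pole orders `ν i` at `v₀` satisfy `ν i ≡ i mod n₀`,
  the discriminant `det [Tr (w i * w j)]` is non-zero and its order at `v₀` is
  `-n₀ * (2 * ∑ ⌊ν i / n₀⌋ + n₀ - 1)`.

With the Apery basis of the ring of functions regular off `v₀` (`∑ ⌊ν i / n₀⌋ = g`) this is
`deg disc = 2 g + n₀ - 1`.
-/
import Mathlib
import Fermat.Agent.S24.FF.Residue
import Fermat.Agent.S17.R.LSpace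

set_option autoImplicit false

namespace Fermat.Agent.S17.H.Glob.TraceOrd

open AlgebraicCurve IntermediateField Polynomial
open Fermat.Agent.S24.FF Fermat.Agent.S17.R

variable {K F : Type*} [Field K] [Field F] [Algebra K F]

/-! ### Valuation ideals -/

/-- `f = 0` or `m ≤ ord f`. -/
def GeOrd (v : Place K F) (m : ℤ) (f : F) : Prop := f = 0 ∨ m ≤ v.ord f

theorem geOrd_zero (v : Place K F) (m : ℤ) : GeOrd v m (0 : F) := Or.inl rfl

theorem GeOrd.add {v : Place K F} {m : ℤ} {f g : F} (hf : GeOrd v m f) (hg : GeOrd v m g) :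
    GeOrd v m (f + g) := by
  by_cases h0 : f + g = 0
  · exact Or.inl h0
  rcases hf with hf | hf
  · rw [hf, zero_add]
    exact hg
  rcases hg with hg | hg
  · rw [hg, add_zero]
    exact Or.inr hf
  exact Or.inr (le_trans (le_min hf hg) (ord_add_ge v h0))

theorem geOrd_sum {v : Place K F} {m : ℤ} {ι : Type*} (s : Finset ι) (f : ι → F)
    (h : ∀ i ∈ s, GeOrd v m (f i)) : GeOrd v m (∑ i ∈ s, f i) :=
  Finset.sum_induction f (GeOrd v m) (fun _ _ ha hb => ha.add hb) (geOrd_zero v m) h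

/-! ### Sums of elements with pairwise distinct orders -/

theorem add_ne_zero_of_ord_ne (v : Place K F) {f g : F} (h : v.ord f ≠ v.ord g) :
    f + g ≠ 0 := by
  intro h0
  apply h
  have hg : g = -f := by
    rw [eq_neg_iff_add_eq_zero, add_comm]
    exact h0
  rw [hg, ord_neg]

/-- A sum of non-zero elements with pairwise distinct orders is non-zero and its order is the
least of the orders of the terms. -/
theorem sum_ord_distinct (v : Place K F) {ι : Type*} (f : ι → F) (s : Finset ι) :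
    s.Nonempty → (∀ i ∈ s, f i ≠ 0) →
    (∀ i ∈ s, ∀ j ∈ s, v.ord (f i) = v.ord (f j) → i = j) →
    (∑ i ∈ s, f i ≠ 0 ∧ (∃ j ∈ s, v.ord (∑ i ∈ s, f i) = v.ord (f j)) ∧
      ∀ i ∈ s, v.ord (∑ j ∈ s, f j) ≤ v.ord (f i)) := by
  classical
  induction s using Finset.induction_on with
  | empty => intro h; exact absurd h Finset.not_nonempty_empty
  | insert a s ha ih =>
    intro _ hne hinj
    have hfa : f a ≠ 0 := hne a (Finset.mem_insert_self a s)
    by_cases hs : s.Nonempty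
    · obtain ⟨hS0, ⟨j, hj, hSj⟩, hSle⟩ := ih hs
        (fun i hi => hne i (Finset.mem_insert_of_mem hi))
        (fun i hi k hk => hinj i (Finset.mem_insert_of_mem hi) k (Finset.mem_insert_of_mem hk))
      have hne_ord : v.ord (f a) ≠ v.ord (∑ i ∈ s, f i) := by
        intro h
        rw [hSj] at h
        have haj : a = j :=
          hinj a (Finset.mem_insert_self a s) j (Finset.mem_insert_of_mem hj) h
        exact ha (by rw [haj]; exact hj)
      rw [Finset.sum_insert ha]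
      rcases lt_or_gt_of_ne hne_ord with h | h
      · have h1 : v.ord (f a + ∑ i ∈ s, f i) = v.ord (f a) := ord_add_eq_of_lt v h hfa hS0
        refine ⟨add_ne_zero_of_ord_ne v hne_ord, ⟨a, Finset.mem_insert_self a s, h1⟩, ?_⟩
        intro i hi
        rw [h1]
        rcases Finset.mem_insert.mp hi with hia | hi
        · rw [hia]
        · exact (h.trans_le (hSle i hi)).le
      · have h1 : v.ord (f a + ∑ i ∈ s, f i) = v.ord (∑ i ∈ s, f i) := by
          rw [add_comm]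
          exact ord_add_eq_of_lt v h hS0 hfa
        refine ⟨add_ne_zero_of_ord_ne v hne_ord,
          ⟨j, Finset.mem_insert_of_mem hj, h1.trans hSj⟩, ?_⟩
        intro i hi
        rw [h1]
        rcases Finset.mem_insert.mp hi with hia | hi
        · rw [hia]
          exact h.le
        · exact hSle i hi
    · rw [Finset.not_nonempty_iff_eq_empty] at hs
      subst hs
      have hsum : ∑ i ∈ insert a (∅ : Finset ι), f i = f a := by simp
      rw [hsum]
      refine ⟨hfa, ⟨a, Finset.mem_insert_self a ∅, rfl⟩, ?_⟩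
      intro i hi
      have hia : i = a := by simpa using hi
      rw [hia]

theorem ord_pow (v : Place K F) (f : F) (k : ℕ) : v.ord (f ^ k) = k * v.ord f := by
  have h := v.ord_zpow f (k : ℤ)
  rwa [zpow_natCast] at h

theorem ord_prod (v : Place K F) {ι : Type*} (s : Finset ι) (f : ι → F)
    (h : ∀ i ∈ s, f i ≠ 0) : v.ord (∏ i ∈ s, f i) = ∑ i ∈ s, v.ord (f i) := by
  classical
  induction s using Finset.induction_on with
  | empty => simp
  | insert a s ha ih =>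
    rw [Finset.prod_insert ha, Finset.sum_insert ha,
      v.ord_mul (h a (Finset.mem_insert_self a s))
        (Finset.prod_ne_zero_iff.mpr fun i hi => h i (Finset.mem_insert_of_mem hi)),
      ih fun i hi => h i (Finset.mem_insert_of_mem hi)]

/-! ### A determinant which is triangular with unit diagonal modulo the maximal ideal -/

theorem det_of_unit_triangular (v : Place K F) {n : ℕ} (T : Matrix (Fin n) (Fin n) F)
    (hdiag : ∀ i, T i i ≠ 0 ∧ v.ord (T i i) = 0)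
    (hup : ∀ i j, i < j → GeOrd v 1 (T i j))
    (hlow : ∀ i j, j < i → GeOrd v 0 (T i j)) :
    T.det ≠ 0 ∧ v.ord T.det = 0 := by
  classical
  have hmem : ∀ i j, T i j ∈ v.toValuationSubring := by
    intro i j
    rcases lt_trichotomy i j with h | h | h
    · rcases hup i j h with h0 | h1
      · rw [h0]
        exact zero_mem _
      · exact mem_of_ord_pos v (by omega)
    · rw [h]
      exact (ord_nonneg_iff v (hdiag j).1).mp (hdiag j).2.ge
    · rcases hlow i j h with h0 | h1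
      · rw [h0]
        exact zero_mem _
      · by_cases hT : T i j = 0
        · rw [hT]
          exact zero_mem _
        · exact (ord_nonneg_iff v hT).mp h1
  let M : Matrix (Fin n) (Fin n) v.toValuationSubring :=
    Matrix.of fun i j => (⟨T i j, hmem i j⟩ : v.toValuationSubring)
  have hTM : T = (v.toValuationSubring.subtype).mapMatrix M := by
    ext i j
    rfl
  have hdet : T.det = ((M.det : v.toValuationSubring) : F) := by
    rw [hTM, ← RingHom.map_det]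
    rfl
  have hres : ((IsLocalRing.residue v.toValuationSubring).mapMatrix M).det ≠ 0 := by
    rw [Matrix.det_of_isLowerTriangular]
    · rw [Finset.prod_ne_zero_iff]
      intro i _
      show IsLocalRing.residue v.toValuationSubring (⟨T i i, hmem i i⟩ : v.toValuationSubring) ≠ 0
      rw [IsLocalRing.residue_ne_zero_iff_isUnit, ← v.adicValuation_coe_eq_one_iff]
      exact (ord_eq_zero_iff_adicValuation_eq_one v (hdiag i).1).mp (hdiag i).2
    · intro i j hij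
      have hij' : i < j := OrderDual.toDual_lt_toDual.mp hij
      show IsLocalRing.residue v.toValuationSubring (⟨T i j, hmem i j⟩ : v.toValuationSubring) = 0
      rw [IsLocalRing.residue_eq_zero_iff]
      rcases hup i j hij' with h0 | h1
      · have hz : (⟨T i j, hmem i j⟩ : v.toValuationSubring) = 0 := Subtype.ext h0
        rw [hz]
        exact zero_mem _
      · exact mem_maximalIdeal_of_ord_pos v (show 0 < v.ord (T i j) by omega)
  have hunit : IsUnit M.det := by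
    rw [← IsLocalRing.residue_ne_zero_iff_isUnit, RingHom.map_det]
    exact hres
  obtain ⟨u, hu⟩ := hunit
  rw [hdet, ← hu]
  refine ⟨?_, v.ord_coe_unit u⟩
  simp [ne_eq, ZeroMemClass.coe_eq_zero]

section Main

variable [IsAlgClosed K] [CharZero K] [Algebra.EssFiniteType K F]
variable {v₀ : Place K F} {x : F} {n₀ : ℕ}

theorem x_ne_zero (hn₀ : 0 < n₀) (hord : v₀.ord x = -(n₀ : ℤ)) : x ≠ 0 := by
  intro h
  rw [h, Place.ord_zero] at hord
  omega

theorem transcendental_x (hn₀ : 0 < n₀) (hord : v₀.ord x = -(n₀ : ℤ)) :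
    Transcendental K x := by
  apply transcendental_of_not_mem_range
  rintro ⟨c, hc⟩
  rw [← hc, ord_algebraMap] at hord
  omega

theorem poles_eq_singleton (hn₀ : 0 < n₀)
    (hx : x ∈ riemannRochSpace ((n₀ : ℤ) • Finsupp.single v₀ (1 : ℤ)))
    (hord : v₀.ord x = -(n₀ : ℤ)) : {v : Place K F | v.ord x < 0} = {v₀} := by
  classical
  ext v
  constructor
  · intro hv
    have hv' : v.ord x < 0 := hv
    by_contra hne
    have hne' : ¬ v₀ = v := fun h => hne (Set.mem_singleton_iff.mpr h.symm)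
    have h1 := (mem_L_of_ne_zero (x_ne_zero hn₀ hord)).mp hx v
    rw [Finsupp.smul_apply, Finsupp.single_apply, if_neg hne', smul_zero, neg_zero] at h1
    omega
  · intro hv
    have hv' : v = v₀ := hv
    show v.ord x < 0
    rw [hv', hord]
    omega

theorem finrank_adjoin (htr : Algebra.trdeg K F = 1) (hn₀ : 0 < n₀)
    (hx : x ∈ riemannRochSpace ((n₀ : ℤ) • Finsupp.single v₀ (1 : ℤ)))
    (hord : v₀.ord x = -(n₀ : ℤ)) : Module.finrank K⟮x⟯ F = n₀ := by
  have h := sum_ord_poles htr (transcendental_x hn₀ hord)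
  rw [poles_eq_singleton hn₀ hx hord, finsum_mem_singleton, hord, neg_neg] at h
  exact_mod_cast h.symm

/-- The order at `v₀` of a polynomial in `x`. -/
theorem ord_aeval (hn₀ : 0 < n₀) (hord : v₀.ord x = -(n₀ : ℤ)) {p : K[X]} (hp : p ≠ 0) :
    aeval x p ≠ 0 ∧ v₀.ord (aeval x p) = -((n₀ : ℤ) * p.natDegree) := by
  have hx0 := x_ne_zero hn₀ hord
  have hterm : ∀ i ∈ p.support, algebraMap K F (p.coeff i) * x ^ i ≠ 0 ∧
      v₀.ord (algebraMap K F (p.coeff i) * x ^ i) = -((n₀ : ℤ) * i) := by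
    intro i hi
    have hc : p.coeff i ≠ 0 := Polynomial.mem_support_iff.mp hi
    have hc' : algebraMap K F (p.coeff i) ≠ 0 := fun h =>
      hc ((map_eq_zero (algebraMap K F)).mp h)
    have hxi : x ^ i ≠ 0 := pow_ne_zero i hx0
    refine ⟨mul_ne_zero hc' hxi, ?_⟩
    rw [v₀.ord_mul hc' hxi, ord_algebraMap, ord_pow, hord]
    ring
  have hsum : aeval x p = ∑ i ∈ p.support, algebraMap K F (p.coeff i) * x ^ i := by
    rw [Polynomial.aeval_def, Polynomial.eval₂_eq_sum, Polynomial.sum_def]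
  have hdeg := Polynomial.natDegree_mem_support_of_nonzero hp
  obtain ⟨h0, ⟨j, hj, hjord⟩, hle⟩ := sum_ord_distinct v₀
    (fun i => algebraMap K F (p.coeff i) * x ^ i) p.support ⟨p.natDegree, hdeg⟩
    (fun i hi => (hterm i hi).1)
    (fun i hi k hk h => by
      have h' : v₀.ord (algebraMap K F (p.coeff i) * x ^ i)
          = v₀.ord (algebraMap K F (p.coeff k) * x ^ k) := h
      rw [(hterm i hi).2, (hterm k hk).2] at h'
      have h2 : (n₀ : ℤ) * i = (n₀ : ℤ) * k := by linarith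
      have hn : (n₀ : ℤ) ≠ 0 := by exact_mod_cast hn₀.ne'
      have h3 : (i : ℤ) = k := mul_left_cancel₀ hn h2
      exact_mod_cast h3)
  have h0' : ∑ i ∈ p.support, algebraMap K F (p.coeff i) * x ^ i ≠ 0 := h0
  have hjord' : v₀.ord (∑ i ∈ p.support, algebraMap K F (p.coeff i) * x ^ i)
      = v₀.ord (algebraMap K F (p.coeff j) * x ^ j) := hjord
  have h1 : v₀.ord (∑ i ∈ p.support, algebraMap K F (p.coeff i) * x ^ i)
      ≤ v₀.ord (algebraMap K F (p.coeff p.natDegree) * x ^ p.natDegree) := hle p.natDegree hdeg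
  rw [hsum]
  refine ⟨h0', ?_⟩
  rw [(hterm _ hdeg).2, hjord', (hterm j hj).2] at h1
  rw [hjord', (hterm j hj).2]
  have h2 : j ≤ p.natDegree := Polynomial.le_natDegree_of_mem_supp j hj
  have h3 : (n₀ : ℤ) * j ≤ (n₀ : ℤ) * p.natDegree :=
    mul_le_mul_of_nonneg_left (by exact_mod_cast h2) (Int.natCast_nonneg n₀)
  linarith

/-- The orders at `v₀` of the non-zero elements of `K(x)` are multiples of `n₀`. -/
theorem dvd_ord_of_mem_adjoin (hn₀ : 0 < n₀) (hord : v₀.ord x = -(n₀ : ℤ)) {u : F}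
    (hu : u ∈ K⟮x⟯) (hu0 : u ≠ 0) : (n₀ : ℤ) ∣ v₀.ord u := by
  obtain ⟨r, s, hrs⟩ := (IntermediateField.mem_adjoin_simple_iff K u).mp hu
  rw [hrs] at hu0 ⊢
  have hr : aeval x r ≠ 0 := fun h => hu0 (by rw [h, zero_div])
  have hs : aeval x s ≠ 0 := fun h => hu0 (by rw [h, div_zero])
  have hr' : r ≠ 0 := fun h => hr (by rw [h, map_zero])
  have hs' : s ≠ 0 := fun h => hs (by rw [h, map_zero])
  rw [div_eq_mul_inv, v₀.ord_mul hr (inv_ne_zero hs), v₀.ord_inv,
    (ord_aeval hn₀ hord hr').2, (ord_aeval hn₀ hord hs').2]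
  exact ⟨(s.natDegree : ℤ) - r.natDegree, by ring⟩

theorem smul_eq_coe_mul (u : K⟮x⟯) (f : F) : u • f = (u : F) * f := by
  rw [Algebra.smul_def]
  rfl

theorem coe_ne_zero {u : K⟮x⟯} (hu : u ≠ 0) : (u : F) ≠ 0 := fun h =>
  hu (Subtype.ext h)

/-- Terms `g i * γ i` with `g i ∈ K(x)` and `ord (γ i) = i` have pairwise distinct orders. -/
theorem term_inj (hn₀ : 0 < n₀) (hord : v₀.ord x = -(n₀ : ℤ)) {γ : Fin n₀ → F}
    (hγ : ∀ j, γ j ≠ 0 ∧ v₀.ord (γ j) = (j : ℤ)) (g : Fin n₀ → K⟮x⟯) {i j : Fin n₀}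
    (hi : g i ≠ 0) (hj : g j ≠ 0)
    (h : v₀.ord ((g i : F) * γ i) = v₀.ord ((g j : F) * γ j)) : i = j := by
  have hi' : (g i : F) ≠ 0 := coe_ne_zero hi
  have hj' : (g j : F) ≠ 0 := coe_ne_zero hj
  rw [v₀.ord_mul hi' (hγ i).1, v₀.ord_mul hj' (hγ j).1, (hγ i).2, (hγ j).2] at h
  obtain ⟨a, ha⟩ := dvd_ord_of_mem_adjoin hn₀ hord (g i).2 hi'
  obtain ⟨b, hb⟩ := dvd_ord_of_mem_adjoin hn₀ hord (g j).2 hj'
  rw [ha, hb] at h
  have hi1 : ((i : ℕ) : ℤ) < n₀ := by exact_mod_cast i.2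
  have hj1 : ((j : ℕ) : ℤ) < n₀ := by exact_mod_cast j.2
  have hi0 : (0 : ℤ) ≤ ((i : ℕ) : ℤ) := Int.natCast_nonneg _
  have hj0 : (0 : ℤ) ≤ ((j : ℕ) : ℤ) := Int.natCast_nonneg _
  have hn : (0 : ℤ) ≤ (n₀ : ℤ) := Int.natCast_nonneg _
  have hab : a = b := by
    by_contra hne
    rcases lt_or_gt_of_ne hne with hlt | hlt
    · have h5 : (n₀ : ℤ) * (a + 1) ≤ (n₀ : ℤ) * b := mul_le_mul_of_nonneg_left hlt hn
      nlinarith
    · have h5 : (n₀ : ℤ) * (b + 1) ≤ (n₀ : ℤ) * a := mul_le_mul_of_nonneg_left hlt hn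
      nlinarith
  rw [hab] at h
  have h6 : ((i : ℕ) : ℤ) = ((j : ℕ) : ℤ) := by linarith
  exact Fin.ext (by exact_mod_cast h6)

theorem linearIndependent_of_ord (hn₀ : 0 < n₀) (hord : v₀.ord x = -(n₀ : ℤ))
    {γ : Fin n₀ → F} (hγ : ∀ j, γ j ≠ 0 ∧ v₀.ord (γ j) = (j : ℤ)) :
    LinearIndependent K⟮x⟯ γ := by
  classical
  rw [Fintype.linearIndependent_iff]
  intro g hg
  by_contra hcon
  rw [not_forall] at hcon
  obtain ⟨i₀, hi₀⟩ := hcon
  have hsum : ∑ i ∈ Finset.univ.filter (fun i => g i ≠ 0), (g i : F) * γ i = 0 := by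
    rw [Finset.sum_filter_of_ne]
    · rw [← hg]
      exact Finset.sum_congr rfl (fun i _ => (smul_eq_coe_mul (g i) (γ i)).symm)
    · intro i _ hne h0
      apply hne
      rw [h0]
      simp
  have h := (sum_ord_distinct v₀ (fun i => (g i : F) * γ i)
    (Finset.univ.filter (fun i => g i ≠ 0)) ⟨i₀, by simp [hi₀]⟩
    (fun i hi => mul_ne_zero (coe_ne_zero (Finset.mem_filter.mp hi).2) (hγ i).1)
    (fun i hi j hj h => term_inj hn₀ hord hγ g (Finset.mem_filter.mp hi).2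
      (Finset.mem_filter.mp hj).2 h)).1
  exact h hsum

theorem exists_basis (htr : Algebra.trdeg K F = 1) (hn₀ : 0 < n₀)
    (hx : x ∈ riemannRochSpace ((n₀ : ℤ) • Finsupp.single v₀ (1 : ℤ)))
    (hord : v₀.ord x = -(n₀ : ℤ)) {γ : Fin n₀ → F}
    (hγ : ∀ j, γ j ≠ 0 ∧ v₀.ord (γ j) = (j : ℤ)) :
    ∃ B : Module.Basis (Fin n₀) K⟮x⟯ F, ∀ j, B j = γ j := by
  have : Nonempty (Fin n₀) := ⟨⟨0, hn₀⟩⟩
  refine ⟨basisOfLinearIndependentOfCardEqFinrank (linearIndependent_of_ord hn₀ hord hγ)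
    (by rw [Fintype.card_fin, finrank_adjoin htr hn₀ hx hord]), fun j => ?_⟩
  rw [coe_basisOfLinearIndependentOfCardEqFinrank]

/-- Coordinates in a basis with orders `0, .., n₀ - 1`: every non-zero coordinate term has
order at least the order of the element. -/
theorem ord_le_ord_coord (hn₀ : 0 < n₀) (hord : v₀.ord x = -(n₀ : ℤ)) {γ : Fin n₀ → F}
    (hγ : ∀ j, γ j ≠ 0 ∧ v₀.ord (γ j) = (j : ℤ)) (B : Module.Basis (Fin n₀) K⟮x⟯ F)
    (hB : ∀ j, B j = γ j) (y : F) (j : Fin n₀) (hj : B.repr y j ≠ 0) :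
    v₀.ord y ≤ v₀.ord ((B.repr y j : K⟮x⟯) : F) + (j : ℤ) := by
  classical
  have hy : ∑ i ∈ Finset.univ.filter (fun i => B.repr y i ≠ 0),
      ((B.repr y i : K⟮x⟯) : F) * γ i = y := by
    rw [Finset.sum_filter_of_ne]
    · conv_rhs => rw [← B.sum_repr y]
      exact Finset.sum_congr rfl (fun i _ => by rw [smul_eq_coe_mul, hB])
    · intro i _ hne h0
      apply hne
      rw [h0]
      simp
  obtain ⟨-, -, hle⟩ := sum_ord_distinct v₀ (fun i => ((B.repr y i : K⟮x⟯) : F) * γ i)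
    (Finset.univ.filter (fun i => B.repr y i ≠ 0)) ⟨j, by simp [hj]⟩
    (fun i hi => mul_ne_zero (coe_ne_zero (Finset.mem_filter.mp hi).2) (hγ i).1)
    (fun i hi k hk h => term_inj hn₀ hord hγ (fun i => B.repr y i)
      (Finset.mem_filter.mp hi).2 (Finset.mem_filter.mp hk).2 h)
  have h1 : v₀.ord (∑ i ∈ Finset.univ.filter (fun i => B.repr y i ≠ 0),
      ((B.repr y i : K⟮x⟯) : F) * γ i) ≤ v₀.ord (((B.repr y j : K⟮x⟯) : F) * γ j) :=
    hle j (by simp [hj])
  rw [hy, v₀.ord_mul (coe_ne_zero hj) (hγ j).1, (hγ j).2] at h1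
  exact h1

/-- **(TR)** The trace `F → K(x)` does not decrease the order at `v₀`. -/
theorem trace_geOrd (htr : Algebra.trdeg K F = 1) (hn₀ : 0 < n₀)
    (hx : x ∈ riemannRochSpace ((n₀ : ℤ) • Finsupp.single v₀ (1 : ℤ)))
    (hord : v₀.ord x = -(n₀ : ℤ)) {γ : Fin n₀ → F}
    (hγ : ∀ j, γ j ≠ 0 ∧ v₀.ord (γ j) = (j : ℤ)) {y : F} {m : ℤ} (hy : GeOrd v₀ m y) :
    GeOrd v₀ m ((Algebra.trace K⟮x⟯ F y : K⟮x⟯) : F) := by
  classical
  obtain ⟨B, hB⟩ := exists_basis htr hn₀ hx hord hγ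
  by_cases hy0 : y = 0
  · left
    rw [hy0, map_zero]
    rfl
  have hym : m ≤ v₀.ord y := hy.resolve_left hy0
  have htrace : Algebra.trace K⟮x⟯ F y = ∑ i, B.repr (y * B i) i := by
    rw [Algebra.trace_eq_matrix_trace B y, Matrix.trace]
    exact Finset.sum_congr rfl (fun i _ => Algebra.leftMulMatrix_eq_repr_mul B y i i)
  rw [htrace, IntermediateField.coe_sum]
  apply geOrd_sum
  intro i _
  have hBi : y * B i = y * γ i := by rw [hB]
  rw [hBi]
  by_cases h0 : B.repr (y * γ i) i = 0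
  · left
    rw [h0]
    rfl
  · right
    have h1 := ord_le_ord_coord hn₀ hord hγ B hB (y * γ i) i h0
    rw [v₀.ord_mul hy0 (hγ i).1, (hγ i).2] at h1
    linarith

/-- **(TR0)** The trace of a `v₀`-unit is a `v₀`-unit. -/
theorem trace_unit (htr : Algebra.trdeg K F = 1) (hn₀ : 0 < n₀)
    (hx : x ∈ riemannRochSpace ((n₀ : ℤ) • Finsupp.single v₀ (1 : ℤ)))
    (hord : v₀.ord x = -(n₀ : ℤ)) {γ : Fin n₀ → F}
    (hγ : ∀ j, γ j ≠ 0 ∧ v₀.ord (γ j) = (j : ℤ)) {y : F} (hy0 : y ≠ 0)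
    (hy : v₀.ord y = 0) :
    ((Algebra.trace K⟮x⟯ F y : K⟮x⟯) : F) ≠ 0 ∧
      v₀.ord ((Algebra.trace K⟮x⟯ F y : K⟮x⟯) : F) = 0 := by
  have hmem : y ∈ v₀.toValuationSubring := (ord_nonneg_iff v₀ hy0).mp hy.ge
  obtain ⟨c, hc⟩ := exists_residue htr v₀ hmem
  have hc0 : c ≠ 0 := by
    intro h
    rw [h, map_zero, sub_zero] at hc
    rcases hc with hc | hc
    · exact hy0 hc
    · omega
  have hnc : (n₀ : K) * c ≠ 0 := mul_ne_zero (by exact_mod_cast hn₀.ne') hc0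
  -- the constant part
  have hs1 : algebraMap K F ((n₀ : K) * c) ≠ 0 := fun h =>
    hnc ((map_eq_zero (algebraMap K F)).mp h)
  have hs1ord : v₀.ord (algebraMap K F ((n₀ : K) * c)) = 0 := ord_algebraMap v₀ _
  -- the trace splits
  have hdec : y = algebraMap K⟮x⟯ F (algebraMap K K⟮x⟯ c) + (y - algebraMap K F c) := by
    rw [← IsScalarTower.algebraMap_apply K K⟮x⟯ F]
    ring
  have htr1 : Algebra.trace K⟮x⟯ F y = algebraMap K K⟮x⟯ ((n₀ : K) * c)
      + Algebra.trace K⟮x⟯ F (y - algebraMap K F c) := by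
    conv_lhs => rw [hdec]
    rw [map_add, Algebra.trace_algebraMap, finrank_adjoin htr hn₀ hx hord, nsmul_eq_mul,
      map_mul, map_natCast]
  have hcoe : ((Algebra.trace K⟮x⟯ F y : K⟮x⟯) : F) = algebraMap K F ((n₀ : K) * c)
      + ((Algebra.trace K⟮x⟯ F (y - algebraMap K F c) : K⟮x⟯) : F) := by
    rw [htr1]
    rfl
  have hge : GeOrd v₀ 1 ((Algebra.trace K⟮x⟯ F (y - algebraMap K F c) : K⟮x⟯) : F) := by
    apply trace_geOrd htr hn₀ hx hord hγ
    rcases hc with hc | hc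
    · left
      rw [hc, sub_self]
    · right
      omega
  rw [hcoe]
  rcases hge with h0 | h1
  · rw [h0, add_zero]
    exact ⟨hs1, hs1ord⟩
  · by_cases hT : ((Algebra.trace K⟮x⟯ F (y - algebraMap K F c) : K⟮x⟯) : F) = 0
    · rw [hT, add_zero]
      exact ⟨hs1, hs1ord⟩
    · have hlt : v₀.ord (algebraMap K F ((n₀ : K) * c))
          < v₀.ord ((Algebra.trace K⟮x⟯ F (y - algebraMap K F c) : K⟮x⟯) : F) := by
        rw [hs1ord]
        omega
      refine ⟨add_ne_zero_of_ord_ne v₀ hlt.ne, ?_⟩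
      rw [ord_add_eq_of_lt v₀ hlt hs1 hT, hs1ord]

/-- **(TD)** For `β i` of order `-i` and `γ j` of order `j` the matrix `Tr (β i * γ j)` is
lower triangular with unit diagonal modulo the maximal ideal of `v₀`. -/
theorem det_trace_pair (htr : Algebra.trdeg K F = 1) (hn₀ : 0 < n₀)
    (hx : x ∈ riemannRochSpace ((n₀ : ℤ) • Finsupp.single v₀ (1 : ℤ)))
    (hord : v₀.ord x = -(n₀ : ℤ)) {β γ : Fin n₀ → F}
    (hβ : ∀ i, β i ≠ 0 ∧ v₀.ord (β i) = -(i : ℤ))
    (hγ : ∀ j, γ j ≠ 0 ∧ v₀.ord (γ j) = (j : ℤ)) :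
    (Matrix.of fun i j => ((Algebra.trace K⟮x⟯ F (β i * γ j) : K⟮x⟯) : F)).det ≠ 0 ∧
    v₀.ord (Matrix.of fun i j => ((Algebra.trace K⟮x⟯ F (β i * γ j) : K⟮x⟯) : F)).det
      = 0 := by
  have hy : ∀ i j, β i * γ j ≠ 0 ∧ v₀.ord (β i * γ j) = (j : ℤ) - (i : ℤ) := by
    intro i j
    refine ⟨mul_ne_zero (hβ i).1 (hγ j).1, ?_⟩
    rw [v₀.ord_mul (hβ i).1 (hγ j).1, (hβ i).2, (hγ j).2]
    ring
  apply det_of_unit_triangular v₀
  · intro i
    exact trace_unit htr hn₀ hx hord hγ (hy i i).1 (by rw [(hy i i).2]; ring)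
  · intro i j hij
    show GeOrd v₀ 1 ((Algebra.trace K⟮x⟯ F (β i * γ j) : K⟮x⟯) : F)
    apply trace_geOrd htr hn₀ hx hord hγ
    right
    rw [(hy i j).2]
    have h1 : (i : ℕ) < (j : ℕ) := hij
    omega
  · intro i j hij
    show GeOrd v₀ 0 ((Algebra.trace K⟮x⟯ F (β i * γ j) : K⟮x⟯) : F)
    have h1 : GeOrd v₀ (1 - (n₀ : ℤ)) ((Algebra.trace K⟮x⟯ F (β i * γ j) : K⟮x⟯) : F) := by
      apply trace_geOrd htr hn₀ hx hord hγ
      right
      rw [(hy i j).2]
      have h2 := i.2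
      omega
    by_cases hT : ((Algebra.trace K⟮x⟯ F (β i * γ j) : K⟮x⟯) : F) = 0
    · exact Or.inl hT
    · right
      have h2 : 1 - (n₀ : ℤ) ≤ v₀.ord ((Algebra.trace K⟮x⟯ F (β i * γ j) : K⟮x⟯) : F) :=
        h1.resolve_left hT
      obtain ⟨k, hk⟩ := dvd_ord_of_mem_adjoin hn₀ hord
        (Algebra.trace K⟮x⟯ F (β i * γ j)).2 hT
      rw [hk] at h2 ⊢
      have hn : (0 : ℤ) ≤ (n₀ : ℤ) := Int.natCast_nonneg _
      have hk0 : 0 ≤ k := by
        by_contra hneg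
        have hk1 : k ≤ -1 := by omega
        have h5 : (n₀ : ℤ) * k ≤ (n₀ : ℤ) * (-1) := mul_le_mul_of_nonneg_left hk1 hn
        linarith
      exact mul_nonneg hn hk0

/-- **(DO1)** The discriminant of a family with pole orders in the distinct classes mod `n₀`. -/
theorem ord_discr (htr : Algebra.trdeg K F = 1) (hn₀ : 0 < n₀)
    (hx : x ∈ riemannRochSpace ((n₀ : ℤ) • Finsupp.single v₀ (1 : ℤ)))
    (hord : v₀.ord x = -(n₀ : ℤ)) (w : Fin n₀ → F) (ν : Fin n₀ → ℕ)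
    (hν : ∀ i, ν i % n₀ = (i : ℕ)) (hw : ∀ i, w i ≠ 0 ∧ v₀.ord (w i) = -(ν i : ℤ)) :
    Algebra.discr K⟮x⟯ w ≠ 0 ∧
    v₀.ord ((Algebra.discr K⟮x⟯ w : K⟮x⟯) : F) =
      -((n₀ : ℤ) * (2 * ∑ i, ((ν i / n₀ : ℕ) : ℤ) + ((n₀ : ℤ) - 1))) := by
  classical
  have : NeZero n₀ := ⟨hn₀.ne'⟩
  have hx0 := x_ne_zero hn₀ hord
  let xE : K⟮x⟯ := ⟨x, mem_adjoin_simple_self K x⟩
  have hxEc : (xE : F) = x := rfl
  -- scalars in `K(x)`
  obtain ⟨a, hac⟩ : ∃ a : Fin n₀ → K⟮x⟯, ∀ i, (a i : F) = (x ^ (ν i / n₀))⁻¹ :=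
    ⟨fun i => (xE ^ (ν i / n₀))⁻¹, fun i => rfl⟩
  have ha0 : ∀ i, (a i : F) ≠ 0 := fun i => by
    rw [hac]
    exact inv_ne_zero (pow_ne_zero _ hx0)
  have haord : ∀ i, v₀.ord (a i : F) = ((ν i / n₀ : ℕ) : ℤ) * n₀ := fun i => by
    rw [hac, v₀.ord_inv, ord_pow, hord]
    ring
  obtain ⟨d, hdc⟩ : ∃ d : Fin n₀ → K⟮x⟯,
      ∀ k, (d k : F) = (if k = 0 then 1 else x⁻¹) * (a k : F) := by
    refine ⟨fun k => (if k = 0 then 1 else xE⁻¹) * a k, fun k => ?_⟩
    show ((((if k = 0 then 1 else xE⁻¹) * a k : K⟮x⟯)) : F) = _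
    rw [IntermediateField.coe_mul]
    split_ifs <;> rfl
  have he0 : ∀ k : Fin n₀, (if k = 0 then (1 : F) else x⁻¹) ≠ 0 := fun k => by
    split_ifs
    · exact one_ne_zero
    · exact inv_ne_zero hx0
  have heord : ∀ k : Fin n₀, v₀.ord (if k = 0 then (1 : F) else x⁻¹)
      = if k = 0 then 0 else (n₀ : ℤ) := fun k => by
    split_ifs
    · exact Place.ord_one v₀
    · rw [v₀.ord_inv, hord, neg_neg]
  have hd0 : ∀ k, (d k : F) ≠ 0 := fun k => by
    rw [hdc]
    exact mul_ne_zero (he0 k) (ha0 k)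
  have hdord : ∀ k, v₀.ord (d k : F)
      = (if k = 0 then 0 else (n₀ : ℤ)) + ((ν k / n₀ : ℕ) : ℤ) * n₀ := fun k => by
    rw [hdc, v₀.ord_mul (he0 k) (ha0 k), heord, haord]
  -- the two families
  have hνk : ∀ k : Fin n₀, (ν k : ℤ) = (n₀ : ℤ) * ((ν k / n₀ : ℕ) : ℤ) + ((k : ℕ) : ℤ) := by
    intro k
    have h1 := Nat.div_add_mod (ν k) n₀
    rw [hν k] at h1
    exact_mod_cast h1.symm
  let β : Fin n₀ → F := fun i => (a i : F) * w i
  let δ : Fin n₀ → F := fun k => (d k : F) * w k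
  have hβ : ∀ i, β i ≠ 0 ∧ v₀.ord (β i) = -(i : ℤ) := by
    intro i
    refine ⟨mul_ne_zero (ha0 i) (hw i).1, ?_⟩
    show v₀.ord ((a i : F) * w i) = _
    rw [v₀.ord_mul (ha0 i) (hw i).1, haord, (hw i).2, hνk i]
    ring
  have hδ : ∀ k, δ k ≠ 0 ∧ v₀.ord (δ k)
      = (if k = 0 then 0 else (n₀ : ℤ)) - ((k : ℕ) : ℤ) := by
    intro k
    refine ⟨mul_ne_zero (hd0 k) (hw k).1, ?_⟩
    show v₀.ord ((d k : F) * w k) = _
    rw [v₀.ord_mul (hd0 k) (hw k).1, hdord, (hw k).2, hνk k]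
    ring
  have hγ : ∀ j : Fin n₀, δ (-j) ≠ 0 ∧ v₀.ord (δ (-j)) = (j : ℤ) := by
    intro j
    refine ⟨(hδ (-j)).1, ?_⟩
    rw [(hδ (-j)).2]
    by_cases hj : j = 0
    · rw [hj]
      simp
    · have hj' : (j : ℕ) ≠ 0 := fun h => hj (Fin.ext h)
      have hnj : -j ≠ 0 := fun h => hj (neg_eq_zero.mp h)
      have hval : ((-j : Fin n₀) : ℕ) = n₀ - (j : ℕ) := by
        rw [Fin.val_neg']
        exact Nat.mod_eq_of_lt (by have := j.2; omega)
      rw [if_neg hnj, hval]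
      have := j.2
      omega
  obtain ⟨hT0, hTord⟩ := det_trace_pair htr hn₀ hx hord hβ hγ
  -- the trace matrix in `K(x)`
  let N : Matrix (Fin n₀) (Fin n₀) K⟮x⟯ := Algebra.traceMatrix K⟮x⟯ w
  have hNdet : N.det = Algebra.discr K⟮x⟯ w := rfl
  let U : Matrix (Fin n₀) (Fin n₀) K⟮x⟯ :=
    Matrix.of fun i k => a i * (Matrix.of (fun i k => d k * N i k) : Matrix _ _ K⟮x⟯) i k
  have hUdet : U.det = (∏ i, a i) * ((∏ k, d k) * N.det) := by
    show (Matrix.of fun i k =>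
      a i * (Matrix.of (fun i k => d k * N i k) : Matrix _ _ K⟮x⟯) i k).det = _
    rw [Matrix.det_mul_column, Matrix.det_mul_row]
  have htrace : ∀ i k, Algebra.trace K⟮x⟯ F (β i * δ k) = U i k := by
    intro i k
    have h1 : β i * δ k = (a i * d k) • (w i * w k) := by
      show (a i : F) * w i * ((d k : F) * w k) = _
      rw [smul_eq_coe_mul, IntermediateField.coe_mul]
      ring
    rw [h1, map_smul, smul_eq_mul]
    show a i * d k * Algebra.trace K⟮x⟯ F (w i * w k) = a i * (d k * N i k)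
    rw [mul_assoc]
    rfl
  have hTU : (Matrix.of fun i j => ((Algebra.trace K⟮x⟯ F (β i * δ (-j)) : K⟮x⟯) : F))
      = (algebraMap K⟮x⟯ F).mapMatrix (U.submatrix id (Equiv.neg (Fin n₀))) := by
    ext i j
    show ((Algebra.trace K⟮x⟯ F (β i * δ (-j)) : K⟮x⟯) : F) = ((U i (-j) : K⟮x⟯) : F)
    rw [htrace]
  rw [hTU, ← RingHom.map_det, Matrix.det_permute', hUdet, hNdet] at hT0 hTord
  -- unfold the product in `F`
  have hsign : ∀ s : ℤˣ, (((s : ℤ) : K⟮x⟯) : F) ≠ 0 ∧ v₀.ord ((((s : ℤ) : K⟮x⟯)) : F) = 0 := by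
    intro s
    rcases Int.units_eq_one_or s with rfl | rfl
    · have h1 : ((((1 : ℤˣ) : ℤ) : K⟮x⟯) : F) = 1 := by simp
      rw [h1]
      exact ⟨one_ne_zero, Place.ord_one v₀⟩
    · have h1 : ((((-1 : ℤˣ) : ℤ) : K⟮x⟯) : F) = -1 := by simp
      rw [h1]
      exact ⟨neg_ne_zero.mpr one_ne_zero, by rw [ord_neg]; exact Place.ord_one v₀⟩
  have hprod : algebraMap K⟮x⟯ F
      (((Equiv.Perm.sign (Equiv.neg (Fin n₀)) : ℤˣ) : ℤ) *
        ((∏ i, a i) * ((∏ k, d k) * Algebra.discr K⟮x⟯ w)))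
      = ((((Equiv.Perm.sign (Equiv.neg (Fin n₀)) : ℤˣ) : ℤ) : K⟮x⟯) : F) *
        ((∏ i, (a i : F)) * ((∏ k, (d k : F)) * ((Algebra.discr K⟮x⟯ w : K⟮x⟯) : F))) := by
    show ((((((Equiv.Perm.sign (Equiv.neg (Fin n₀)) : ℤˣ) : ℤ) : K⟮x⟯) *
        ((∏ i, a i) * ((∏ k, d k) * Algebra.discr K⟮x⟯ w)) : K⟮x⟯)) : F) = _
    rw [IntermediateField.coe_mul, IntermediateField.coe_mul, IntermediateField.coe_mul,
      IntermediateField.coe_prod, IntermediateField.coe_prod]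
  rw [hprod] at hT0 hTord
  have hD0 : ((Algebra.discr K⟮x⟯ w : K⟮x⟯) : F) ≠ 0 := by
    intro h
    apply hT0
    rw [h, mul_zero, mul_zero, mul_zero]
  have hA0 : (∏ i, (a i : F)) ≠ 0 := Finset.prod_ne_zero_iff.mpr fun i _ => ha0 i
  have hC0 : (∏ k, (d k : F)) ≠ 0 := Finset.prod_ne_zero_iff.mpr fun k _ => hd0 k
  refine ⟨fun h => hD0 (by rw [h]; rfl), ?_⟩
  rw [v₀.ord_mul (hsign _).1 (mul_ne_zero hA0 (mul_ne_zero hC0 hD0)), (hsign _).2,
    v₀.ord_mul hA0 (mul_ne_zero hC0 hD0), v₀.ord_mul hC0 hD0,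
    ord_prod v₀ _ _ (fun i _ => ha0 i), ord_prod v₀ _ _ (fun k _ => hd0 k)] at hTord
  simp only [haord, hdord] at hTord
  rw [Finset.sum_add_distrib, ← Finset.sum_mul] at hTord
  have hcount : ∑ k : Fin n₀, (if k = 0 then (0 : ℤ) else (n₀ : ℤ)) = ((n₀ : ℤ) - 1) * n₀ := by
    have h1 : ∀ k : Fin n₀, (if k = 0 then (0 : ℤ) else (n₀ : ℤ))
        = (n₀ : ℤ) - (if k = 0 then (n₀ : ℤ) else 0) := fun k => by split_ifs <;> ring
    rw [Finset.sum_congr rfl (fun k _ => h1 k), Finset.sum_sub_distrib, Finset.sum_const,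
      Finset.card_univ, Fintype.card_fin, Finset.sum_ite_eq' Finset.univ (0 : Fin n₀)]
    simp
    ring
  rw [hcount] at hTord
  linarith

end Main

end Fermat.Agent.S17.H.Glob.TraceOrd
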