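/-
Program MW (statement S17), strand H, leaf D3c: the GLOBAL form of the Vandermonde bound.

Data over `Qb = AlgebraicClosure ℚ`: nonzero tuples

* `minors` (the `n`-minors of the table of values of a basis at `n` points),
* `P j` (the coordinates `phi (a j)` of the `j`-th point),
* `Sg i j` (the secant coordinates `sig (a i, a j)`, for `i < j`),
* `Psi j` (the values `psi (a j)` of the basis at the `j`-th point),

and at every absolute value `v` of `Qb` the local Vandermonde bound with a constant of product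
type `locConst c Γ v`, either without division (`hT_minors_le`)

`|minors|_v * ∏_{i<j} |P i|_v |P j|_v ≤ locConst c Γ v * (∏_j |Psi j|_v * ∏_{i<j} |Sg i j|_v)`

or minor by minor with the local distances
`dist_v (a i, a j) = |Sg i j|_v / (|P i|_v |P j|_v)` (`hT_minors_le_of_dist`, the shape of the
local leaf D3a / D3b).  The conclusion is the inequality of heights

`hT minors ≤ ∑_j hT (Psi j) - ∑_{i<j} (hT (P i) + hT (P j) - hT (Sg i j)) + log c + ∑ hQ γ`,

i.e. `hT (minors) ≤ ∑_j h_psi (a j) - ∑_{i<j} D (a i, a j) + C`.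

Proof: both sides of the local bound are local functions with a height (`ProdForm.HasHT`:
heights of Segre products add), and the product form of the local-global assembly applies.
-/
import Fermat.Agent.S17.H.A.ProdForm

namespace Fermat.Agent.S17.H.VandGlobal

open Fermat.Agent.S17.H.ProdForm

variable {ι₀ ιφ ιs ιψ : Type*} [Finite ι₀] [Finite ιφ] [Finite ιs] [Finite ιψ] {n : ℕ}

/-- **Global Vandermonde bound** (leaf D3c of strand H), from the local bound without division. -/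
theorem hT_minors_le (minors : ι₀ → AlgebraicClosure ℚ)
    (P : Fin n → ιφ → AlgebraicClosure ℚ) (Sg : Fin n → Fin n → ιs → AlgebraicClosure ℚ)
    (Psi : Fin n → ιψ → AlgebraicClosure ℚ) (Γ : Multiset (AlgebraicClosure ℚ)) {c : ℝ}
    (hc : 1 ≤ c) (hminors : minors ≠ 0) (hP : ∀ j, P j ≠ 0) (hSg : ∀ i j, i < j → Sg i j ≠ 0)
    (hPsi : ∀ j, Psi j ≠ 0)
    (hloc : ∀ v : AbsoluteValue (AlgebraicClosure ℚ) ℝ,
      (⨆ I, v (minors I)) * ∏ i, ∏ j ∈ Finset.Ioi i, ((⨆ a, v (P i a)) * (⨆ a, v (P j a))) ≤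
        Cert.locConst c Γ v *
          ((∏ j, ⨆ a, v (Psi j a)) * ∏ i, ∏ j ∈ Finset.Ioi i, ⨆ b, v (Sg i j b))) :
    hT minors ≤ ∑ j, hT (Psi j) -
        ∑ i, ∑ j ∈ Finset.Ioi i, (hT (P i) + hT (P j) - hT (Sg i j)) +
      Real.log c + (Γ.map hQ).sum := by
  have hL : HasHT (fun v => (⨆ I, v (minors I)) *
      ∏ i, ∏ j ∈ Finset.Ioi i, ((⨆ a, v (P i a)) * (⨆ a, v (P j a))))
      (hT minors + ∑ i, ∑ j ∈ Finset.Ioi i, (hT (P i) + hT (P j))) :=
    (hasHT_tuple hminors).mul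
      (HasHT.prod Finset.univ
        (L := fun i v => ∏ j ∈ Finset.Ioi i, ((⨆ a, v (P i a)) * (⨆ a, v (P j a))))
        (h := fun i => ∑ j ∈ Finset.Ioi i, (hT (P i) + hT (P j)))
        fun i _ => HasHT.prod (Finset.Ioi i)
          (L := fun j v => (⨆ a, v (P i a)) * (⨆ a, v (P j a)))
          (h := fun j => hT (P i) + hT (P j))
          fun j _ => (hasHT_tuple (hP i)).mul (hasHT_tuple (hP j)))
  have hR : HasHT (fun v => (∏ j, ⨆ a, v (Psi j a)) *
      ∏ i, ∏ j ∈ Finset.Ioi i, ⨆ b, v (Sg i j b))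
      (∑ j, hT (Psi j) + ∑ i, ∑ j ∈ Finset.Ioi i, hT (Sg i j)) :=
    (HasHT.prod Finset.univ (L := fun j v => ⨆ a, v (Psi j a)) (h := fun j => hT (Psi j))
        fun j _ => hasHT_tuple (hPsi j)).mul
      (HasHT.prod Finset.univ
        (L := fun i v => ∏ j ∈ Finset.Ioi i, ⨆ b, v (Sg i j b))
        (h := fun i => ∑ j ∈ Finset.Ioi i, hT (Sg i j))
        fun i _ => HasHT.prod (Finset.Ioi i)
          (L := fun j v => ⨆ b, v (Sg i j b)) (h := fun j => hT (Sg i j))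
          fun j hj => hasHT_tuple (hSg i j (Finset.mem_Ioi.mp hj)))
  have key := hL.le_of_locConst hR hc Γ hloc
  simp only [Finset.sum_sub_distrib, Finset.sum_add_distrib] at key ⊢
  linarith

/-- **Global Vandermonde bound from the local leaf**: the hypothesis is the local Vandermonde
bound for every single minor, with the local distances
`(⨆ b, v (Sg i j b)) / ((⨆ a, v (P i a)) * (⨆ a, v (P j a)))` and the local sizes
`⨆ a, v (Psi j a)`. -/
theorem hT_minors_le_of_dist (minors : ι₀ → AlgebraicClosure ℚ)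
    (P : Fin n → ιφ → AlgebraicClosure ℚ) (Sg : Fin n → Fin n → ιs → AlgebraicClosure ℚ)
    (Psi : Fin n → ιψ → AlgebraicClosure ℚ) (Γ : Multiset (AlgebraicClosure ℚ)) {c : ℝ}
    (hc : 1 ≤ c) (hminors : minors ≠ 0) (hP : ∀ j, P j ≠ 0) (hSg : ∀ i j, i < j → Sg i j ≠ 0)
    (hPsi : ∀ j, Psi j ≠ 0)
    (hloc : ∀ (v : AbsoluteValue (AlgebraicClosure ℚ) ℝ) (I : ι₀),
      v (minors I) ≤ Cert.locConst c Γ v * (∏ j, ⨆ a, v (Psi j a)) *
        ∏ i, ∏ j ∈ Finset.Ioi i,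
          ((⨆ b, v (Sg i j b)) / ((⨆ a, v (P i a)) * (⨆ a, v (P j a))))) :
    hT minors ≤ ∑ j, hT (Psi j) -
        ∑ i, ∑ j ∈ Finset.Ioi i, (hT (P i) + hT (P j) - hT (Sg i j)) +
      Real.log c + (Γ.map hQ).sum := by
  refine hT_minors_le minors P Sg Psi Γ hc hminors hP hSg hPsi fun v => ?_
  have hPpos : ∀ j, 0 < ⨆ a, v (P j a) := fun j => (hasHT_tuple (hP j)).pos v
  have hD : 0 < ∏ i, ∏ j ∈ Finset.Ioi i, ((⨆ a, v (P i a)) * (⨆ a, v (P j a))) :=
    Finset.prod_pos fun i _ => Finset.prod_pos fun j _ => mul_pos (hPpos i) (hPpos j)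
  have hne : Nonempty ι₀ := (Function.ne_iff.mp hminors).nonempty
  have hsup : (⨆ I, v (minors I)) ≤ Cert.locConst c Γ v * (∏ j, ⨆ a, v (Psi j a)) *
      ∏ i, ∏ j ∈ Finset.Ioi i,
        ((⨆ b, v (Sg i j b)) / ((⨆ a, v (P i a)) * (⨆ a, v (P j a)))) :=
    ciSup_le fun I => hloc v I
  have hdiv : (∏ i, ∏ j ∈ Finset.Ioi i,
      ((⨆ b, v (Sg i j b)) / ((⨆ a, v (P i a)) * (⨆ a, v (P j a))))) *
      ∏ i, ∏ j ∈ Finset.Ioi i, ((⨆ a, v (P i a)) * (⨆ a, v (P j a))) =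
      ∏ i, ∏ j ∈ Finset.Ioi i, ⨆ b, v (Sg i j b) := by
    rw [← Finset.prod_mul_distrib]
    refine Finset.prod_congr rfl fun i _ => ?_
    rw [← Finset.prod_mul_distrib]
    refine Finset.prod_congr rfl fun j _ => ?_
    exact div_mul_cancel₀ _ (mul_pos (hPpos i) (hPpos j)).ne'
  calc (⨆ I, v (minors I)) * ∏ i, ∏ j ∈ Finset.Ioi i, ((⨆ a, v (P i a)) * (⨆ a, v (P j a)))
      ≤ (Cert.locConst c Γ v * (∏ j, ⨆ a, v (Psi j a)) *
          ∏ i, ∏ j ∈ Finset.Ioi i,
            ((⨆ b, v (Sg i j b)) / ((⨆ a, v (P i a)) * (⨆ a, v (P j a))))) *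
          ∏ i, ∏ j ∈ Finset.Ioi i, ((⨆ a, v (P i a)) * (⨆ a, v (P j a))) :=
        mul_le_mul_of_nonneg_right hsup hD.le
    _ = Cert.locConst c Γ v *
          ((∏ j, ⨆ a, v (Psi j a)) * ∏ i, ∏ j ∈ Finset.Ioi i, ⨆ b, v (Sg i j b)) := by
        rw [mul_assoc, hdiv, mul_assoc]

end Fermat.Agent.S17.H.VandGlobal
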