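/-
Program MW (S17), strand H, leaf D3 (global exit): the Vandermonde bound for heights.

`F / Qb` a function field of one variable, `v₀` the base place, `m₀` large, `φ` a basis of
`L(m₀ v₀)`, `w` a finite family of sections of `M v₀`, `sel` a finite family of choices of `n`
members of `w`.  With the heights of record of the places (`Glob.plH ev φ m₀`, the pair term
`Glob.plD ev φ`, `PlaceHeight.lean`): there is a constant `C` such that for every value
function `ev` and every `n` distinct finite places `a j` for which the minors do not all vanish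

`hT (minors) ≤ M * ∑ j, plH (a j) - ∑_{i<j} plD (a i) (a j) + C`,

`minors i₀ = det [ev (a j) (w (sel i₀ i'))]` (`minorFam`).

Proof: the local bound `exists_local_vdm` (leaf D3b, constant of product type) at every absolute
value of `Qb`, and the product form of the local-global assembly (`ProdForm.HasHT`).  The secant
vectors of the pairs are non-zero because the minors do not all vanish (local bound at one
absolute value).
-/
import Mathlib
import Fermat.Agent.S17.H.A.ProdForm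
import Fermat.Agent.S17.H.Glob.PlaceHeight
import Fermat.Agent.S17.H.Glob.VandermondeCurve

set_option autoImplicit false

namespace Fermat.Agent.S17.H.Vandermonde

open AlgebraicCurve Finset
open Fermat.Agent.S17.R Fermat.Agent.S17.H Fermat.Agent.S17.H.Cert

/-- The family of the `n`-minors `det [ev (a j) (w (sel i₀ i'))]` of the table of values of a
family `w` of functions at the places `a j` (rows: places; columns: the members of `w` chosen
by `sel i₀`). -/
noncomputable def minorFam {K F : Type*} [Field K] [Field F] [Algebra K F] {I ι₀ : Type*} {n : ℕ}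
    (ev : Place K F → F → K) (w : I → F) (sel : ι₀ → Fin n → I) (a : Fin n → Place K F) :
    ι₀ → K :=
  fun i₀ => Matrix.det (Matrix.of fun (j : Fin n) (i' : Fin n) => ev (a j) (w (sel i₀ i')))

/-- A minor is the determinant of the transposed table. -/
theorem minorFam_eq_det_transpose {K F : Type*} [Field K] [Field F] [Algebra K F] {I ι₀ : Type*}
    {n : ℕ} (ev : Place K F → F → K) (w : I → F) (sel : ι₀ → Fin n → I) (a : Fin n → Place K F)
    (i₀ : ι₀) :
    minorFam ev w sel a i₀ =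
      Matrix.det (Matrix.of fun (a' : Fin n) (b' : Fin n) => ev (a b') (w (sel i₀ a'))) := by
  have ht : (Matrix.of fun (j : Fin n) (i' : Fin n) => ev (a j) (w (sel i₀ i'))) =
      (Matrix.of fun (a' : Fin n) (b' : Fin n) => ev (a b') (w (sel i₀ a'))).transpose := by
    ext j i'
    rfl
  show Matrix.det (Matrix.of fun (j : Fin n) (i' : Fin n) => ev (a j) (w (sel i₀ i'))) = _
  rw [ht, Matrix.det_transpose]

local notation "Qb" => AlgebraicClosure ℚ

variable {F : Type*} [Field F] [Algebra Qb F] [Algebra.EssFiniteType Qb F]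

/-- **D3, global exit: the Vandermonde bound for heights.**  For `m₀` large, `φ` a basis of
`L(m₀ v₀)`, a finite family `w` of sections of `M v₀` and finitely many choices `sel` of `n`
members of `w`: the height of the vector of the `n`-minors of the table of values of `w` at `n`
distinct finite places is at most `M` times the sum of the heights of the places minus the sum
of the pair terms, up to a constant. -/
theorem exists_global_vdm (htr : Algebra.trdeg Qb F = 1) (v₀ : Place Qb F) :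
    ∃ n₀ : ℕ, ∀ m₀ : ℕ, n₀ ≤ m₀ → ∀ {r : ℕ} (φ : Fin r → F), LinearIndependent Qb φ →
      Submodule.span Qb (Set.range φ) =
        riemannRochSpace ((m₀ : ℤ) • Finsupp.single v₀ (1 : ℤ)) →
      ∀ {I : Type*} [Fintype I] (M : ℕ) (w : I → F),
      (∀ i, w i ∈ riemannRochSpace ((M : ℤ) • Finsupp.single v₀ (1 : ℤ))) →
      ∀ (n : ℕ) {ι₀ : Type*} [Finite ι₀] (sel : ι₀ → Fin n → I),
      (∀ i₀, Function.Injective (sel i₀)) →
      ∃ C : ℝ, ∀ {ev : Place Qb F → F → Qb}, Glob.IsEval ev →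
        ∀ a : Fin n → Place Qb F, Function.Injective a → (∀ j, a j ≠ v₀) →
        minorFam ev w sel a ≠ 0 →
        hT (minorFam ev w sel a) ≤
          (M : ℝ) * ∑ j, Glob.plH ev φ m₀ (a j) -
            ∑ i, ∑ j ∈ Finset.Ioi i, Glob.plD ev φ (a i) (a j) + C := by
  classical
  obtain ⟨n₀, hloc⟩ := exists_local_vdm (K := Qb) (F := F) htr v₀
  refine ⟨max n₀ 1, fun m₀ hm r φ hφli hφ I _ M w hw n ι₀ _ sel hsel => ?_⟩
  have hm₀ : 0 < m₀ := lt_of_lt_of_le zero_lt_one (le_trans (le_max_right _ _) hm)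
  have hm₀' : (0 : ℝ) < (m₀ : ℝ) := by exact_mod_cast hm₀
  obtain ⟨C, Γ, hC, hbd⟩ := hloc m₀ (le_trans (le_max_left _ _) hm) φ hφli hφ M w hw n
  refine ⟨(Real.log C + (Γ.map hQ).sum) / (m₀ : ℝ), fun {ev} hev a ha ha0 hmin => ?_⟩
  -- the value vectors are non-zero
  have h1span : (1 : F) ∈ Submodule.span Qb (Set.range φ) := by
    rw [hφ]
    exact SectionRing.one_mem_L v₀ m₀
  have hφmem : ∀ l, φ l ∈ riemannRochSpace ((m₀ : ℤ) • Finsupp.single v₀ (1 : ℤ)) := by
    intro l
    rw [← hφ]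
    exact Submodule.subset_span ⟨l, rfl⟩
  have hP : ∀ j, Glob.valVec ev φ (a j) ≠ 0 := by
    intro j h0
    obtain ⟨i, hi, -, -⟩ := LD.isPt_ev htr hev (ha0 j) φ hφmem h1span
    exact hi (congrFun h0 i)
  have hPpos : ∀ (v : AbsoluteValue Qb ℝ) (j : Fin n),
      0 < ⨆ l, v (Glob.valVec ev φ (a j) l) := fun v j =>
    (ProdForm.hasHT_tuple (hP j)).pos v
  -- the local bound for every minor
  have hlocal : ∀ (v : AbsoluteValue Qb ℝ) (i₀ : ι₀),
      (v (minorFam ev w sel a i₀) * ∏ i, ∏ j ∈ Finset.Ioi i,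
          ((⨆ l, v (Glob.valVec ev φ (a i) l)) * (⨆ l, v (Glob.valVec ev φ (a j) l)))) ^ m₀ ≤
        locConst C Γ v * ((∏ j, (⨆ l, v (Glob.valVec ev φ (a j) l)) ^ M) *
          ∏ i, ∏ j ∈ Finset.Ioi i, (⨆ b, v (Glob.sigVec ev φ (a i) (a j) b)) ^ m₀) := by
    intro v i₀
    have h := hbd hev v (sel i₀) (hsel i₀) a ha ha0
    rw [minorFam_eq_det_transpose, ← mul_assoc]
    exact h
  -- the secant vectors are non-zero
  have hSg : ∀ i j, i < j → Glob.sigVec ev φ (a i) (a j) ≠ 0 := by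
    intro i j hij h0
    apply hmin
    funext i₀
    have h := hlocal (AbsoluteValue.trivial : AbsoluteValue Qb ℝ) i₀
    have hz : (∏ i, ∏ j ∈ Finset.Ioi i, (⨆ b, (AbsoluteValue.trivial : AbsoluteValue Qb ℝ)
        (Glob.sigVec ev φ (a i) (a j) b)) ^ m₀) = 0 := by
      refine Finset.prod_eq_zero (Finset.mem_univ i)
        (Finset.prod_eq_zero (Finset.mem_Ioi.mpr hij) ?_)
      rw [h0]
      simp only [Pi.zero_apply, map_zero, Real.iSup_const_zero]
      exact zero_pow hm₀.ne'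
    rw [hz, mul_zero, mul_zero] at h
    have hbase : 0 ≤ (AbsoluteValue.trivial : AbsoluteValue Qb ℝ) (minorFam ev w sel a i₀) *
        ∏ i, ∏ j ∈ Finset.Ioi i,
          ((⨆ l, (AbsoluteValue.trivial : AbsoluteValue Qb ℝ) (Glob.valVec ev φ (a i) l)) *
            (⨆ l, (AbsoluteValue.trivial : AbsoluteValue Qb ℝ) (Glob.valVec ev φ (a j) l))) :=
      mul_nonneg (AbsoluteValue.nonneg _ _) (Finset.prod_nonneg fun i _ =>
        Finset.prod_nonneg fun j _ => mul_nonneg (hPpos _ i).le (hPpos _ j).le)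
    have hpow0 := le_antisymm h (pow_nonneg hbase m₀)
    have hprod0 := (pow_eq_zero_iff hm₀.ne').mp hpow0
    have hPN : 0 < ∏ i, ∏ j ∈ Finset.Ioi i,
        ((⨆ l, (AbsoluteValue.trivial : AbsoluteValue Qb ℝ) (Glob.valVec ev φ (a i) l)) *
          (⨆ l, (AbsoluteValue.trivial : AbsoluteValue Qb ℝ) (Glob.valVec ev φ (a j) l))) :=
      Finset.prod_pos fun i _ => Finset.prod_pos fun j _ => mul_pos (hPpos _ i) (hPpos _ j)
    have hv0 := (mul_eq_zero.mp hprod0).resolve_right hPN.ne'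
    exact (AbsoluteValue.eq_zero _).mp hv0
  -- both sides of the local bound are local functions with a height
  have hL : ProdForm.HasHT (fun v => ((⨆ i₀, v (minorFam ev w sel a i₀)) *
      ∏ i, ∏ j ∈ Finset.Ioi i,
        ((⨆ l, v (Glob.valVec ev φ (a i) l)) * (⨆ l, v (Glob.valVec ev φ (a j) l)))) ^ m₀)
      ((m₀ : ℝ) * (hT (minorFam ev w sel a) + ∑ i, ∑ j ∈ Finset.Ioi i,
        (hT (Glob.valVec ev φ (a i)) + hT (Glob.valVec ev φ (a j))))) :=
    ((ProdForm.hasHT_tuple hmin).mul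
      (ProdForm.HasHT.prod Finset.univ
        (L := fun i v => ∏ j ∈ Finset.Ioi i,
          ((⨆ l, v (Glob.valVec ev φ (a i) l)) * (⨆ l, v (Glob.valVec ev φ (a j) l))))
        (h := fun i => ∑ j ∈ Finset.Ioi i,
          (hT (Glob.valVec ev φ (a i)) + hT (Glob.valVec ev φ (a j))))
        fun i _ => ProdForm.HasHT.prod (Finset.Ioi i)
          (L := fun j v =>
            (⨆ l, v (Glob.valVec ev φ (a i) l)) * (⨆ l, v (Glob.valVec ev φ (a j) l)))
          (h := fun j => hT (Glob.valVec ev φ (a i)) + hT (Glob.valVec ev φ (a j)))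
          fun j _ => (ProdForm.hasHT_tuple (hP i)).mul (ProdForm.hasHT_tuple (hP j)))).pow m₀
  have hR : ProdForm.HasHT (fun v => (∏ j, (⨆ l, v (Glob.valVec ev φ (a j) l)) ^ M) *
      ∏ i, ∏ j ∈ Finset.Ioi i, (⨆ b, v (Glob.sigVec ev φ (a i) (a j) b)) ^ m₀)
      (∑ j, (M : ℝ) * hT (Glob.valVec ev φ (a j)) +
        ∑ i, ∑ j ∈ Finset.Ioi i, (m₀ : ℝ) * hT (Glob.sigVec ev φ (a i) (a j))) :=
    (ProdForm.HasHT.prod Finset.univ
        (L := fun j v => (⨆ l, v (Glob.valVec ev φ (a j) l)) ^ M)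
        (h := fun j => (M : ℝ) * hT (Glob.valVec ev φ (a j)))
        fun j _ => (ProdForm.hasHT_tuple (hP j)).pow M).mul
      (ProdForm.HasHT.prod Finset.univ
        (L := fun i v => ∏ j ∈ Finset.Ioi i, (⨆ b, v (Glob.sigVec ev φ (a i) (a j) b)) ^ m₀)
        (h := fun i => ∑ j ∈ Finset.Ioi i, (m₀ : ℝ) * hT (Glob.sigVec ev φ (a i) (a j)))
        fun i _ => ProdForm.HasHT.prod (Finset.Ioi i)
          (L := fun j v => (⨆ b, v (Glob.sigVec ev φ (a i) (a j) b)) ^ m₀)
          (h := fun j => (m₀ : ℝ) * hT (Glob.sigVec ev φ (a i) (a j)))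
          fun j hj => (ProdForm.hasHT_tuple (hSg i j (Finset.mem_Ioi.mp hj))).pow m₀)
  have hne : Nonempty ι₀ := by
    obtain ⟨i₀, -⟩ := Function.ne_iff.mp hmin
    exact ⟨i₀⟩
  have key := hL.le_of_locConst hR hC Γ fun v => by
    obtain ⟨i₀, hi₀⟩ := exists_eq_ciSup_of_finite (f := fun i₀ => v (minorFam ev w sel a i₀))
    show ((⨆ i₀, v (minorFam ev w sel a i₀)) * _) ^ m₀ ≤ _
    rw [← hi₀]
    exact hlocal v i₀
  -- the arithmetic
  have e1 : ∑ j, Glob.plH ev φ m₀ (a j) = (∑ j, hT (Glob.valVec ev φ (a j))) / (m₀ : ℝ) := by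
    unfold Glob.plH
    rw [Finset.sum_div]
  have e2 : ∑ i, ∑ j ∈ Finset.Ioi i, Glob.plD ev φ (a i) (a j) =
      (∑ i, ∑ j ∈ Finset.Ioi i, (hT (Glob.valVec ev φ (a i)) + hT (Glob.valVec ev φ (a j)))) -
        ∑ i, ∑ j ∈ Finset.Ioi i, hT (Glob.sigVec ev φ (a i) (a j)) := by
    unfold Glob.plD
    simp only [Finset.sum_sub_distrib]
  have e3 : ∑ j, (M : ℝ) * hT (Glob.valVec ev φ (a j)) =
      (M : ℝ) * ∑ j, hT (Glob.valVec ev φ (a j)) := (Finset.mul_sum _ _ _).symm
  have e4 : ∑ i, ∑ j ∈ Finset.Ioi i, (m₀ : ℝ) * hT (Glob.sigVec ev φ (a i) (a j)) =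
      (m₀ : ℝ) * ∑ i, ∑ j ∈ Finset.Ioi i, hT (Glob.sigVec ev φ (a i) (a j)) := by
    simp only [Finset.mul_sum]
  rw [e3, e4] at key
  rw [e1, e2]
  generalize hT (minorFam ev w sel a) = h at key ⊢
  generalize (∑ j, hT (Glob.valVec ev φ (a j))) = S1 at key ⊢
  generalize (∑ i, ∑ j ∈ Finset.Ioi i,
    (hT (Glob.valVec ev φ (a i)) + hT (Glob.valVec ev φ (a j)))) = S2 at key ⊢
  generalize (∑ i, ∑ j ∈ Finset.Ioi i, hT (Glob.sigVec ev φ (a i) (a j))) = S3 at key ⊢
  generalize Real.log C = lc at key ⊢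
  generalize (Γ.map hQ).sum = sq at key ⊢
  rw [← sub_nonneg]
  have e : (M : ℝ) * (S1 / (m₀ : ℝ)) - (S2 - S3) + (lc + sq) / (m₀ : ℝ) - h =
      ((M : ℝ) * S1 + (m₀ : ℝ) * S3 + lc + sq - (m₀ : ℝ) * (h + S2)) / (m₀ : ℝ) := by
    field_simp
    ring
  rw [e]
  exact div_nonneg (sub_nonneg.mpr key) hm₀'.le

end Fermat.Agent.S17.H.Vandermonde
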