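/-
Program MW (S17), strand H, leaf D3b: the curve adapter of the local Vandermonde bound, with a
local constant of PRODUCT TYPE.

`Vandermonde.up_subsystem` (`Glob/VandermondeLocal.lean`) bounds the factors of the distances at
the dropped zeros by `2` at every absolute value, so its constant carries `2 ^ (k m0)` also at
the nonarchimedean absolute values, and the global step (which needs `Cert.locConst c Γ v`,
i.e. no factor `c` at the nonarchimedean `v`) cannot consume it.  Here the same statement is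
proved with `Cert.locConst 2 0 v` (`= 1` at a nonarchimedean `v`, `= 2` otherwise) for `2`:
the local distance of two vectors is at most `locConst 2 0 v` (ultrametric inequality).

The proof of `up_subsystem_lc` is the proof of `Vandermonde.up_subsystem` with that one change.
-/
import Mathlib
import Fermat.Agent.S17.H.Cert.LocConst
import Fermat.Agent.S17.H.Glob.VandermondeLocal

set_option autoImplicit false

namespace Fermat.Agent.S17.H.VandLC

open AlgebraicCurve MvPolynomial Finset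
open Fermat.Agent.S17.R Fermat.Agent.S17.H Fermat.Agent.S17.H.Vandermonde

variable {K F : Type*} [Field K] [Field F] [Algebra K F]

/-- The secant coordinates are bounded by `locConst 2 0 v` times the product of the sup norms:
no factor at a nonarchimedean absolute value. -/
theorem Sg_le_locConst {ι : Type*} [Finite ι] (v : AbsoluteValue K ℝ) (x y : ι → K) :
    Sg v x y ≤ Cert.locConst 2 (0 : Multiset K) v * (N v x * N v y) := by
  have hNN : 0 ≤ N v x * N v y := mul_nonneg (N_nonneg v x) (N_nonneg v y)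
  have h1 : ∀ i j, v (x i * y j) ≤ N v x * N v y := fun i j => by
    rw [map_mul]
    exact mul_le_mul (le_N v x i) (le_N v y j) (v.nonneg _) (N_nonneg v x)
  refine Real.iSup_le (fun p => ?_)
    (mul_nonneg (Cert.locConst_nonneg (by norm_num) _ v) hNN)
  by_cases hv : IsNonarchimedean v
  · rw [Cert.locConst_of_nonarch hv, Cert.gamProd_zero, one_mul, sub_eq_add_neg]
    refine (hv _ _).trans (max_le (h1 _ _) ?_)
    rw [map_neg_eq_map]
    exact h1 _ _
  · rw [Cert.locConst_of_not_nonarch hv, Cert.gamProd_zero, mul_one]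
    calc v (x p.1 * y p.2 - x p.2 * y p.1) ≤ v (x p.1 * y p.2) + v (x p.2 * y p.1) :=
          v.sub_le_add _ _
      _ ≤ 2 * (N v x * N v y) := by linarith [h1 p.1 p.2, h1 p.2 p.1]

/-- The local distance of two vectors is at most `locConst 2 0 v`. -/
theorem dist_le_locConst {ι : Type*} [Finite ι] (v : AbsoluteValue K ℝ) (x y : ι → K) :
    Sg v x y / (N v x * N v y) ≤ Cert.locConst 2 (0 : Multiset K) v := by
  have h0 : 0 ≤ N v x * N v y := mul_nonneg (N_nonneg v x) (N_nonneg v y)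
  rcases h0.eq_or_lt with h | h
  · rw [← h, div_zero]
    exact Cert.locConst_nonneg (by norm_num) _ v
  · rw [div_le_iff₀ h]
    exact Sg_le_locConst v x y

variable [IsAlgClosed K] [CharZero K] [Algebra.EssFiniteType K F]

/-- **D3b, the subsystem form of the upper half of (LD), with a constant of product type.**
The upper bound `hUPc` for the sections `∑ j, a j • ψ j` of `(k m0) v₀` gives, for the members
of a subsystem of sections of `M v₀` and a set `T` of finite places where the member vanishes,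
the bound by the size `N ^ k * dist(v₀, ·) ^ (k m0 - M)` and the distances to the places of `T`;
the dropped zeros cost `locConst 2 0 v` each (nothing at a nonarchimedean `v`). -/
theorem up_subsystem_lc (htr : Algebra.trdeg K F = 1) (v₀ : Place K F)
    {ev : Place K F → F → K} (hev : Glob.IsEval ev) {m0 k M : ℕ} (hm0 : 0 < m0)
    {ι κ : Type} [Fintype ι] [Fintype κ] (τ : ι → F) (ψ : κ → F) (P : κ → MvPolynomial ι K)
    (hτ : Submodule.span K (Set.range τ) =
      riemannRochSpace ((m0 : ℤ) • Finsupp.single v₀ (1 : ℤ)))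
    (hψ : ∀ j, ψ j ∈ riemannRochSpace (((k * m0 : ℕ) : ℤ) • Finsupp.single v₀ (1 : ℤ)))
    (hPψ : ∀ j, aeval τ (P j) = ψ j)
    (v : AbsoluteValue K ℝ) (L₁ : ℝ) (hL₁ : 0 ≤ L₁)
    (hUPc : ∀ (a : κ → K) (Z : Fin (k * m0) → Place K F) (x : Fin (k * m0) → ι → K)
      (y : ι → K), a ≠ 0 →
      divOf K (∑ j, a j • ψ j) + ((k * m0 : ℕ) : ℤ) • Finsupp.single v₀ (1 : ℤ) =
        ∑ i, Finsupp.single (Z i) (1 : ℤ) →
      (∀ i, LD.IsPt τ (Z i) (x i)) →
      (∀ (n : ℕ) (R : MvPolynomial ι K), R.IsHomogeneous n → aeval τ R = 0 → eval y R = 0) →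
      v (∑ j, a j * eval y (P j)) * (∏ i, ⨆ j, v (x i j)) * (⨆ j, v (y j)) ^ (k * m0 - k) ≤
        L₁ * ((⨆ j, v (a j)) * ∏ i, ⨆ p : ι × ι, v (x i p.1 * y p.2 - x i p.2 * y p.1)))
    (xinf : ι → K) (hxinf : LD.IsPt τ v₀ xinf)
    {I : Type*} [Fintype I] (b : I → F)
    (hb : ∀ i, b i ∈ riemannRochSpace ((M : ℤ) • Finsupp.single v₀ (1 : ℤ)))
    (β : I → κ → K) (hβ : ∀ i, b i = ∑ j, β i j • ψ j)
    (L₂ : ℝ) (hL₂0 : 0 ≤ L₂)
    (hL₂ : ∀ (c : I → K) (B : ℝ), 0 ≤ B → (∀ i, v (c i) ≤ B) →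
      ∀ j, v (∑ i, c i * β i j) ≤ L₂ * B) :
    ∀ (c : I → K) (B : ℝ), 0 ≤ B → (∀ i, v (c i) ≤ B) →
      ∀ (T : Finset {q : Place K F // q ≠ v₀}) (q : {q : Place K F // q ≠ v₀}), q ∉ T →
      (∀ t ∈ T, ∑ i, c i * ev t.1 (b i) = 0) →
      v (∑ i, c i * ev q.1 (b i)) ≤
        (L₁ * L₂ * Cert.locConst 2 (0 : Multiset K) v ^ (k * m0)) * B *
          (N v (fun l => ev q.1 (τ l)) ^ k *
            (Sg v xinf (fun l => ev q.1 (τ l)) /
              (N v xinf * N v (fun l => ev q.1 (τ l)))) ^ (k * m0 - M)) *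
          ∏ t ∈ T, Sg v (fun l => ev q.1 (τ l)) (fun l => ev t.1 (τ l)) /
            (N v (fun l => ev q.1 (τ l)) * N v (fun l => ev t.1 (τ l))) := by
  classical
  intro c B hB hc T q hqT hzero
  have hc21 : (1 : ℝ) ≤ Cert.locConst 2 (0 : Multiset K) v :=
    Cert.one_le_locConst (by norm_num) _ v
  have hc20 : (0 : ℝ) ≤ Cert.locConst 2 (0 : Multiset K) v := le_trans zero_le_one hc21
  -- membership facts
  have hτmem : ∀ l, τ l ∈ riemannRochSpace ((m0 : ℤ) • Finsupp.single v₀ (1 : ℤ)) := by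
    intro l
    rw [← hτ]
    exact Submodule.subset_span ⟨l, rfl⟩
  have h1span : (1 : F) ∈ Submodule.span K (Set.range τ) := by
    rw [hτ]
    exact SectionRing.one_mem_L v₀ m0
  have hreg : ∀ (Q : Place K F), Q ≠ v₀ → ∀ l, τ l ∈ Q.toValuationSubring := fun Q hQ l =>
    LD.mem_valuationSubring_of_mem_L hQ (hτmem l)
  have hregb : ∀ (Q : Place K F), Q ≠ v₀ → ∀ i, b i ∈ Q.toValuationSubring := fun Q hQ i =>
    LD.mem_valuationSubring_of_mem_L hQ (hb i)
  have hpt : ∀ (Q : Place K F), Q ≠ v₀ → LD.IsPt τ Q (fun l => ev Q (τ l)) := fun Q hQ =>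
    LD.isPt_ev htr hev hQ τ hτmem h1span
  -- the member of the subsystem and its coordinates
  set a : κ → K := fun j => ∑ i, c i * β i j with ha
  set s : F := ∑ i, c i • b i with hs
  have hsa : s = ∑ j, a j • ψ j := by
    rw [hs]
    calc ∑ i, c i • b i = ∑ i, ∑ j, (c i * β i j) • ψ j := by
          refine Finset.sum_congr rfl fun i _ => ?_
          rw [hβ i, Finset.smul_sum]
          refine Finset.sum_congr rfl fun j _ => ?_
          rw [smul_smul]
      _ = ∑ j, ∑ i, (c i * β i j) • ψ j := Finset.sum_comm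
      _ = ∑ j, a j • ψ j :=
          Finset.sum_congr rfl fun j _ => Finset.sum_smul.symm
  -- values of the member at the finite places
  have hval : ∀ (Q : Place K F), Q ≠ v₀ → ev Q s = ∑ i, c i * ev Q (b i) := by
    intro Q hQ
    rw [hs, hev.map_sum Finset.univ (fun i => c i • b i)
      (fun i _ => by
        rw [Algebra.smul_def]
        exact Q.toValuationSubring.mul_mem _ _ (Q.algebraMap_mem' _) (hregb Q hQ i))]
    refine Finset.sum_congr rfl fun i _ => ?_
    rw [hev.map_smul (c i) (hregb Q hQ i)]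
  have hψreg : ∀ (Q : Place K F), Q ≠ v₀ → ∀ j, ψ j ∈ Q.toValuationSubring := fun Q hQ j =>
    LD.mem_valuationSubring_of_mem_L hQ (hψ j)
  have hval' : ∀ (Q : Place K F), Q ≠ v₀ →
      ev Q s = ∑ j, a j * eval (fun l => ev Q (τ l)) (P j) := by
    intro Q hQ
    rw [hsa, hev.map_sum Finset.univ (fun j => a j • ψ j)
      (fun j _ => by
        rw [Algebra.smul_def]
        exact Q.toValuationSubring.mul_mem _ _ (Q.algebraMap_mem' _) (hψreg Q hQ j))]
    refine Finset.sum_congr rfl fun j _ => ?_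
    rw [hev.map_smul (a j) (hψreg Q hQ j), ← hPψ j, LD.ev_aeval htr hev Q τ (hreg Q hQ) (P j)]
  -- notation for the point `q`
  set y : ι → K := fun l => ev q.1 (τ l) with hy
  have hypt : LD.IsPt τ q.1 y := hpt q.1 q.2
  have hNy : 0 < N v y := N_pos_of_isPt v hypt
  have hNx : 0 < N v xinf := N_pos_of_isPt v hxinf
  -- nonnegativity of the right-hand side
  have hR0 : 0 ≤ (L₁ * L₂ * Cert.locConst 2 (0 : Multiset K) v ^ (k * m0)) * B *
      (N v y ^ k * (Sg v xinf y / (N v xinf * N v y)) ^ (k * m0 - M)) *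
      ∏ t ∈ T, Sg v y (fun l => ev t.1 (τ l)) / (N v y * N v (fun l => ev t.1 (τ l))) := by
    refine mul_nonneg (mul_nonneg (mul_nonneg (mul_nonneg (mul_nonneg hL₁ hL₂0)
      (pow_nonneg hc20 _)) hB) (mul_nonneg (pow_nonneg hNy.le _)
      (pow_nonneg (div_nonneg (Sg_nonneg v _ _) (mul_nonneg hNx.le hNy.le)) _))) ?_
    exact Finset.prod_nonneg fun t _ => div_nonneg (Sg_nonneg v _ _)
      (mul_nonneg hNy.le (N_nonneg v _))
  rw [← hval q.1 q.2]
  by_cases hs0 : s = 0
  · rw [hs0, hev.map_zero, map_zero]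
    exact hR0
  -- the zeros of the member
  have ha0 : a ≠ 0 := by
    intro h0
    apply hs0
    rw [hsa, h0]
    simp
  have hsL : s ∈ riemannRochSpace (((k * m0 : ℕ) : ℤ) • Finsupp.single v₀ (1 : ℤ)) := by
    rw [hsa]
    exact Submodule.sum_mem _ fun j _ => Submodule.smul_mem _ _ (hψ j)
  have hsM : s ∈ riemannRochSpace ((M : ℤ) • Finsupp.single v₀ (1 : ℤ)) := by
    rw [hs]
    exact Submodule.sum_mem _ fun i _ => Submodule.smul_mem _ _ (hb i)
  obtain ⟨Z, hZ⟩ := LD.exists_zeros htr v₀ hs0 hsL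
  -- representatives of the zeros
  set rep : Place K F → ι → K := fun Q => if Q = v₀ then xinf else fun l => ev Q (τ l) with hrep
  have hrep0 : rep v₀ = xinf := by rw [hrep]; exact if_pos rfl
  have hrepf : ∀ Q, Q ≠ v₀ → rep Q = fun l => ev Q (τ l) := fun Q hQ => by
    rw [hrep]; exact if_neg hQ
  have hreppt : ∀ Q, LD.IsPt τ Q (rep Q) := by
    intro Q
    by_cases hQ : Q = v₀
    · subst hQ
      rw [hrep0]
      exact hxinf
    · rw [hrepf Q hQ]
      exact hpt Q hQ
  have hNrep : ∀ Q, 0 < N v (rep Q) := fun Q => N_pos_of_isPt v (hreppt Q)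
  -- the upper bound at `y`
  have hZ' : divOf K (∑ j, a j • ψ j) + ((k * m0 : ℕ) : ℤ) • Finsupp.single v₀ (1 : ℤ) =
      ∑ i, Finsupp.single (Z i) (1 : ℤ) := by
    rw [← hsa]
    exact hZ
  have hup := hUPc a Z (fun i => rep (Z i)) y ha0 hZ' (fun i => hreppt (Z i)) hypt.onCone
  have hvy : ev q.1 s = ∑ j, a j * eval y (P j) := hval' q.1 q.2
  rw [← hvy] at hup
  -- the local distances
  set g : Place K F → ℝ := fun Q => Sg v (rep Q) y / (N v (rep Q) * N v y) with hg
  have hg0 : ∀ Q, 0 ≤ g Q := fun Q =>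
    div_nonneg (Sg_nonneg v _ _) (mul_nonneg (hNrep Q).le hNy.le)
  have hg2 : ∀ Q, g Q ≤ Cert.locConst 2 (0 : Multiset K) v := fun Q => dist_le_locConst v (rep Q) y
  have hSg : ∀ Q, Sg v (rep Q) y = g Q * (N v (rep Q) * N v y) := fun Q =>
    (div_mul_cancel₀ _ (mul_pos (hNrep Q) hNy).ne').symm
  have hprodSg : ∏ i, (⨆ p : ι × ι, v (rep (Z i) p.1 * y p.2 - rep (Z i) p.2 * y p.1)) =
      (∏ i, g (Z i)) * (∏ i, N v (rep (Z i))) * N v y ^ (k * m0) := by
    calc ∏ i, (⨆ p : ι × ι, v (rep (Z i) p.1 * y p.2 - rep (Z i) p.2 * y p.1))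
        = ∏ i, (g (Z i) * (N v (rep (Z i)) * N v y)) :=
          Finset.prod_congr rfl fun i _ => hSg (Z i)
      _ = (∏ i, g (Z i)) * (∏ i, N v (rep (Z i))) * N v y ^ (k * m0) := by
          rw [Finset.prod_mul_distrib, Finset.prod_mul_distrib, Finset.prod_const,
            Finset.card_univ, Fintype.card_fin]
          ring
  have hPN : 0 < ∏ i : Fin (k * m0), N v (rep (Z i)) := Finset.prod_pos fun i _ => hNrep (Z i)
  have hkle : k ≤ k * m0 := Nat.le_mul_of_pos_right k hm0
  have hpowsplit : N v y ^ (k * m0) = N v y ^ k * N v y ^ (k * m0 - k) := by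
    rw [← pow_add]
    congr 1
    omega
  have hgprod0 : 0 ≤ ∏ i, g (Z i) := Finset.prod_nonneg fun i _ => hg0 (Z i)
  have hcore : v (ev q.1 s) ≤ L₁ * N v a * N v y ^ k * ∏ i, g (Z i) := by
    have h2 : v (ev q.1 s) * ((∏ i, N v (rep (Z i))) * N v y ^ (k * m0 - k)) ≤
        (L₁ * N v a * N v y ^ k * ∏ i, g (Z i)) *
          ((∏ i, N v (rep (Z i))) * N v y ^ (k * m0 - k)) := by
      calc v (ev q.1 s) * ((∏ i, N v (rep (Z i))) * N v y ^ (k * m0 - k))
          = v (ev q.1 s) * (∏ i, ⨆ j, v (rep (Z i) j)) * (⨆ j, v (y j)) ^ (k * m0 - k) := by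
            ring
        _ ≤ L₁ * ((⨆ j, v (a j)) *
              ∏ i, ⨆ p : ι × ι, v (rep (Z i) p.1 * y p.2 - rep (Z i) p.2 * y p.1)) := hup
        _ = (L₁ * N v a * N v y ^ k * ∏ i, g (Z i)) *
              ((∏ i, N v (rep (Z i))) * N v y ^ (k * m0 - k)) := by
            rw [hprodSg, hpowsplit]
            ring
    exact le_of_mul_le_mul_right h2 (mul_pos hPN (pow_pos hNy _))
  -- the zeros at the places of `T` and at the base place
  set T' : Finset (Place K F) := T.map (Function.Embedding.subtype _) with hT'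
  have hv₀T : v₀ ∉ T' := by
    intro h
    rw [hT', Finset.mem_map] at h
    obtain ⟨t, -, ht⟩ := h
    exact t.2 ht
  have hTz : ∀ t ∈ T', ∃ i, Z i = t := by
    intro t ht
    rw [hT', Finset.mem_map] at ht
    obtain ⟨t', ht', rfl⟩ := ht
    have hz : ev t'.1 s = 0 := by
      rw [hval t'.1 t'.2]
      exact hzero t' ht'
    have hsreg : s ∈ t'.1.toValuationSubring := LD.mem_valuationSubring_of_mem_L t'.2 hsM
    have hord : 0 < t'.1.ord s := ((hev.eq_zero_iff hsreg).mp hz).resolve_left hs0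
    exact (LD.Zeros.exists_index_iff htr v₀ hZ t'.2).mpr hord
  have hmult : k * m0 - M ≤ (Finset.univ.filter fun i => Z i = v₀).card := by
    have h1 := LD.Zeros.card_filter_eq htr v₀ hZ v₀
    rw [if_pos rfl] at h1
    have h2 := (mem_L_of_ne_zero hs0).mp hsM v₀
    rw [Finsupp.smul_apply, Finsupp.single_eq_same, smul_eq_mul, mul_one] at h2
    rw [Nat.sub_le_iff_le_add]
    have h3 : ((k * m0 : ℕ) : ℤ) ≤
        (((Finset.univ.filter fun i => Z i = v₀).card + M : ℕ) : ℤ) := by
      rw [Nat.cast_add, h1]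
      linarith
    exact_mod_cast h3
  have henum := prod_enum_le Z g (Cert.locConst 2 (0 : Multiset K) v) hc21 hg0 hg2 T' v₀ hv₀T (k * m0 - M) hTz hmult
  have hT'prod : ∏ t ∈ T', g t = ∏ t ∈ T, g t.1 :=
    Finset.prod_map T (Function.Embedding.subtype _) g
  have hgv₀ : g v₀ = Sg v xinf y / (N v xinf * N v y) := by
    show Sg v (rep v₀) y / (N v (rep v₀) * N v y) = _
    rw [hrep0]
  have hgt : ∀ t ∈ T, g t.1 =
      Sg v y (fun l => ev t.1 (τ l)) / (N v y * N v (fun l => ev t.1 (τ l))) := by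
    intro t _
    show Sg v (rep t.1) y / (N v (rep t.1) * N v y) = _
    rw [hrepf t.1 t.2, Sg_comm v _ y, mul_comm (N v _) (N v y)]
  have hNa : N v a ≤ L₂ * B :=
    Real.iSup_le (fun j => hL₂ c B hB hc j) (mul_nonneg hL₂0 hB)
  rw [hT'prod, hgv₀, Finset.prod_congr rfl hgt] at henum
  calc v (ev q.1 s) ≤ L₁ * N v a * N v y ^ k * ∏ i, g (Z i) := hcore
    _ ≤ L₁ * (L₂ * B) * N v y ^ k *
          (Cert.locConst 2 (0 : Multiset K) v ^ (k * m0) * ((∏ t ∈ T, Sg v y (fun l => ev t.1 (τ l)) /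
              (N v y * N v (fun l => ev t.1 (τ l)))) *
            (Sg v xinf y / (N v xinf * N v y)) ^ (k * m0 - M))) := by
        refine mul_le_mul ?_ henum hgprod0 ?_
        · exact mul_le_mul_of_nonneg_right (mul_le_mul_of_nonneg_left hNa hL₁)
            (pow_nonneg hNy.le _)
        · exact mul_nonneg (mul_nonneg hL₁ (mul_nonneg hL₂0 hB)) (pow_nonneg hNy.le _)
    _ = (L₁ * L₂ * Cert.locConst 2 (0 : Multiset K) v ^ (k * m0)) * B *
          (N v y ^ k * (Sg v xinf y / (N v xinf * N v y)) ^ (k * m0 - M)) *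
          ∏ t ∈ T, Sg v y (fun l => ev t.1 (τ l)) / (N v y * N v (fun l => ev t.1 (τ l))) := by
        ring

end Fermat.Agent.S17.H.VandLC
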