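/-
Program MW (S17), strand H, leaf D3 (global exit, the literal consumed by block F): the
Vandermonde bound for the vector `minorVec` of the unsigned `n`-minors of the table of values
of `n + 1` sections of `M v₀` at `n` distinct finite places.

It is `Vandermonde.exists_global_vdm` for the choices `sel i = i.succAbove` of `n` of the
`n + 1` sections; the conclusion is the binder `hvdm` of `F.detHeight_le_of_chow_vdm` with
`H = Glob.plH ev φ m₀` and `D = Glob.plD ev φ`.
-/
import Mathlib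
import Fermat.Agent.S17.H.F.DetHeightCore
import Fermat.Agent.S17.H.Glob.VandermondeHeight

set_option autoImplicit false

namespace Fermat.Agent.S17.H.Vandermonde

open AlgebraicCurve
open Fermat.Agent.S17.H
open Fermat.Agent.S17.H.F (minorVec)

local notation "Qb" => AlgebraicClosure ℚ

variable {F : Type*} [Field F] [Algebra Qb F] [Algebra.EssFiniteType Qb F]

/-- The vector of unsigned minors of block F is the family of minors of the choices
`i.succAbove`. -/
theorem minorVec_eq_minorFam {K : Type*} [Field K] {F : Type*} [Field F] [Algebra K F] {n : ℕ}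
    (ev : Place K F → F → K) (ψ : Fin (n + 1) → F) (a : Fin n → Place K F) :
    minorVec ev ψ a = minorFam ev ψ (fun i : Fin (n + 1) => i.succAbove) a := rfl

/-- **D3 for block F**: for `m₀` large, `φ` a basis of `L(m₀ v₀)` and `n + 1` sections `ψ` of
`M v₀` there is a constant `C₂` such that for every value function and every `n` distinct
finite places `a j` with `minorVec ev ψ a ≠ 0`:
`hT (minorVec ev ψ a) ≤ M * ∑ j, plH (a j) - ∑_{i<j} plD (a i) (a j) + C₂`. -/
theorem exists_vdm_minorVec (htr : Algebra.trdeg Qb F = 1) (v₀ : Place Qb F) :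
    ∃ n₀ : ℕ, ∀ m₀ : ℕ, n₀ ≤ m₀ → ∀ {r : ℕ} (φ : Fin r → F), LinearIndependent Qb φ →
      Submodule.span Qb (Set.range φ) =
        riemannRochSpace ((m₀ : ℤ) • Finsupp.single v₀ (1 : ℤ)) →
      ∀ (M n : ℕ) (ψ : Fin (n + 1) → F),
      (∀ i, ψ i ∈ riemannRochSpace ((M : ℤ) • Finsupp.single v₀ (1 : ℤ))) →
      ∃ C₂ : ℝ, ∀ {ev : Place Qb F → F → Qb}, Glob.IsEval ev →
        ∀ a : Fin n → Place Qb F, Function.Injective a → (∀ j, a j ≠ v₀) →
        minorVec ev ψ a ≠ 0 →
        hT (minorVec ev ψ a) ≤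
          (M : ℝ) * ∑ j, Glob.plH ev φ m₀ (a j) -
            ∑ i, ∑ j ∈ Finset.Ioi i, Glob.plD ev φ (a i) (a j) + C₂ := by
  obtain ⟨n₀, h⟩ := exists_global_vdm (F := F) htr v₀
  refine ⟨n₀, fun m₀ hm r φ hφli hφ M n ψ hψ => ?_⟩
  obtain ⟨C₂, hC₂⟩ := h m₀ hm φ hφli hφ M ψ hψ n (fun i : Fin (n + 1) => i.succAbove)
    (fun i => Fin.succAbove_right_injective)
  exact ⟨C₂, fun {ev} hev a ha ha0 hmin => hC₂ hev a ha ha0 hmin⟩

/-- The same for a basis `b` of `L(M v₀)`: the binder `hvdm` of `F.detHeight_le_of_chow_vdm`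
verbatim, with `H = Glob.plH ev φ m₀` and `D = Glob.plD ev φ`. -/
theorem exists_vdm_basis (htr : Algebra.trdeg Qb F = 1) (v₀ : Place Qb F) :
    ∃ n₀ : ℕ, ∀ m₀ : ℕ, n₀ ≤ m₀ → ∀ {r : ℕ} (φ : Fin r → F), LinearIndependent Qb φ →
      Submodule.span Qb (Set.range φ) =
        riemannRochSpace ((m₀ : ℤ) • Finsupp.single v₀ (1 : ℤ)) →
      ∀ (M n : ℕ) (b : Module.Basis (Fin (n + 1)) Qb
        ↥(riemannRochSpace ((M : ℤ) • Finsupp.single v₀ (1 : ℤ)))),
      ∃ C₂ : ℝ, ∀ {ev : Place Qb F → F → Qb}, Glob.IsEval ev →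
        ∀ a : Fin n → Place Qb F, Function.Injective a → (∀ j, a j ≠ v₀) →
        minorVec ev (fun i => (b i : F)) a ≠ 0 →
        hT (minorVec ev (fun i => (b i : F)) a) ≤
          (M : ℝ) * ∑ j, Glob.plH ev φ m₀ (a j) -
            ∑ i, ∑ j ∈ Finset.Ioi i, Glob.plD ev φ (a i) (a j) + C₂ := by
  obtain ⟨n₀, h⟩ := exists_vdm_minorVec (F := F) htr v₀
  exact ⟨n₀, fun m₀ hm r φ hφli hφ M n b =>
    h m₀ hm φ hφli hφ M n (fun i => (b i : F)) fun i => (b i).2⟩

end Fermat.Agent.S17.H.Vandermonde
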